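import Mathlib
import Fermat.Prelude.Def_AlgebraicCurve_Repartitions
import Fermat.Agent.S24.Fibre

/-!
# PROJECT H (S18), block A: interface definitions of the function-field toolkit

Everything is in the prelude language (`AlgebraicCurve.Place`, `Divisor`, `riemannRochSpace`),
for a field `K` (algebraically closed in the applications, ANY characteristic) and a function
field `F/K` with a separating element `x` (`S24.FF.IsFF K x` + `Algebra.IsSeparable K⟮x⟯ F`,
the latter always as an EXPLICIT hypothesis `hsep`, never an instance).

* `ell D`                : `l(D) = dim_K L(D)`;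
* `RiemannHyp K F g`     : Riemann's theorem with Riemann genus `g` (block A output, input of
                           `NonSpecial` and of block D);
* `IsPoleDivisor x D`    : `D = (x)_∞`;
* chart instances `isDedekind`, `isFractionRing`, `moduleFinite`, `exists_prime` for separable `x`
  (the `S24.Fibre` statements with `CharZero` replaced by `hsep`);
* `diffExpAt A P`        : multiplicity of the prime `P` of `B` in Mathlib's `differentIdeal A B`;
* `diffExp hx hsep Q`    : the different exponent `d_Q` of `F/K(x)` at the place `Q`
                           (chart `K[x]` if `x` is regular at `Q`, chart `K[x⁻¹]` otherwise);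
* `HurwitzFormula hx hsep g` : `2g - 2 = -2 [F:K(x)] + ∑_Q d_Q`.
-/

set_option autoImplicit false

namespace Fermat.Agent.S18.A.Defs

open AlgebraicCurve IsDedekindDomain IntermediateField
  Fermat.Agent.S24.PlacePrime Fermat.Agent.S24.FF Fermat.Agent.S24.Ord Fermat.Agent.S24.Fibre
open scoped IntermediateField.algebraAdjoinAdjoin

universe u w

variable {K : Type w} {F : Type u} [Field K] [Field F] [Algebra K F]

/-- `l(D)`, the dimension of the Riemann-Roch space (`0` if infinite-dimensional). -/
noncomputable def ell (D : Divisor K F) : ℕ := Module.finrank K (riemannRochSpace D)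

/-- **Riemann's theorem** with Riemann genus `g`. -/
structure RiemannHyp (K : Type w) (F : Type u) [Field K] [Field F] [Algebra K F] (g : ℕ) :
    Prop where
  finite : ∀ D : Divisor K F, Module.Finite K (riemannRochSpace D)
  ell_zero : ell (0 : Divisor K F) = 1
  riemann_ineq : ∀ D : Divisor K F, Divisor.degree D + 1 - (g : ℤ) ≤ (ell D : ℤ)
  riemann_eq : ∃ c : ℤ, ∀ D : Divisor K F, c ≤ Divisor.degree D →
    (ell D : ℤ) = Divisor.degree D + 1 - (g : ℤ)
  deg_one : ∀ v : Place K F, v.deg = 1
  infinite : Infinite (Place K F)

/-- `D` is the pole divisor `(x)_∞` of `x`. -/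
def IsPoleDivisor (x : F) (D : Divisor K F) : Prop :=
  ∀ v : Place K F, D v = max 0 (-(v.ord x))

/-! ### the two Dedekind charts of a separating element -/

section Chart

variable {x : F}

theorem isDedekind (hx : IsFF K x) (hsep : Algebra.IsSeparable K⟮x⟯ F) :
    IsDedekindDomain (intRing K x) := by
  have := hx.finite
  have := isPID hx.transcendental
  exact integralClosure.isDedekindDomain (polyRing K x) K⟮x⟯ F

theorem isFractionRing (hx : IsFF K x) : IsFractionRing (intRing K x) F := by
  have := hx.finite
  exact integralClosure.isFractionRing_of_finite_extension K⟮x⟯ F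

theorem moduleFinite (hx : IsFF K x) (hsep : Algebra.IsSeparable K⟮x⟯ F) :
    Module.Finite (polyRing K x) (intRing K x) := by
  have := hx.finite
  have := isPID hx.transcendental
  exact IsIntegralClosure.finite (polyRing K x) K⟮x⟯ F _

/-- separability is inherited by `x⁻¹` -/
theorem isSeparable_inv (hsep : Algebra.IsSeparable K⟮x⟯ F) :
    Algebra.IsSeparable K⟮x⁻¹⟯ F := by
  rw [adjoin_inv x]
  exact hsep

/-- Places at which `x` is regular come from primes of the integral closure of `K[x]`. -/
theorem exists_prime (hx : IsFF K x) (hsep : Algebra.IsSeparable K⟮x⟯ F) (v : Place K F)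
    (hv : v.adicValuation x ≤ 1) :
    haveI := isDedekind hx hsep
    haveI := isFractionRing hx
    ∃ P : HeightOneSpectrum (intRing K x), placeOfPrime (K := K) P = v := by
  have := isDedekind hx hsep
  have := isFractionRing hx
  exact exists_prime_of_place v fun b => (Fermat.Agent.S24.Ord.mem_iff v _).mpr
    (adicValuation_le_one_of_isIntegral v (adicValuation_adjoin_le_one v hv) b.2)

end Chart

/-! ### different exponents -/

/-- The multiplicity of the prime `P` of `B` in the different `differentIdeal A B`. -/
noncomputable def diffExpAt (A : Type*) {B : Type*} [CommRing A] [CommRing B] [Algebra A B]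
    [IsDomain A] [IsIntegrallyClosed A] [IsDedekindDomain B] [Module.IsTorsionFree A B]
    (P : HeightOneSpectrum B) : ℕ :=
  (Associates.mk P.asIdeal).count (Associates.mk (differentIdeal A B)).factors

section DiffExp

variable {x : F}

/-- the different exponent at a place where `x` is regular, computed in the chart `K[x]` -/
noncomputable def diffExpFin (hx : IsFF K x) (hsep : Algebra.IsSeparable K⟮x⟯ F) (Q : Place K F)
    (hQ : Q.adicValuation x ≤ 1) : ℕ :=
  haveI := isDedekind hx hsep
  haveI := isFractionRing hx
  haveI := isPID hx.transcendental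
  diffExpAt (polyRing K x) (exists_prime hx hsep Q hQ).choose

theorem adicValuation_inv_le_one {Q : Place K F} (hQ : ¬ Q.adicValuation x ≤ 1) :
    Q.adicValuation x⁻¹ ≤ 1 := by
  rw [map_inv₀]
  exact inv_le_one_of_one_le₀ (not_le.mp hQ).le

open Classical in
/-- **The different exponent** `d_Q` of `F/K(x)` at the place `Q`. -/
noncomputable def diffExp (hx : IsFF K x) (hsep : Algebra.IsSeparable K⟮x⟯ F) (Q : Place K F) : ℕ :=
  if hQ : Q.adicValuation x ≤ 1 then diffExpFin hx hsep Q hQ
  else diffExpFin hx.inv (isSeparable_inv hsep) Q (adicValuation_inv_le_one hQ)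

/-- **Hurwitz genus formula** for the separating element `x`: the different exponents vanish
outside a finite set `S` and `2g - 2 = -2 [F : K(x)] + ∑_Q d_Q`. -/
def HurwitzFormula (hx : IsFF K x) (hsep : Algebra.IsSeparable K⟮x⟯ F) (g : ℕ) : Prop :=
  ∃ S : Finset (Place K F), (∀ Q, Q ∉ S → diffExp hx hsep Q = 0) ∧
    2 * (g : ℤ) - 2 = -2 * (Module.finrank K⟮x⟯ F : ℤ) + ∑ Q ∈ S, (diffExp hx hsep Q : ℤ)

end DiffExp

end Fermat.Agent.S18.A.Defs
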