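/-
PROJECT H (S18), block A, slice H-A12 (helper27): small bridges.

* `hasPrincipalDivisors_of_charZero` : over an algebraically closed field of characteristic zero
  every function field `F/K` with an `IsFF` element has principal divisors of degree zero
  (`S24.Hurwitz.degree_eq_zero_of_ord` + finiteness of the support);
* `exists_place_over` / `infinite_place` : for a separating `x` there is a place over every `a : K`
  (lying over in the chart `K[x]`), distinct `a` give distinct places, hence infinitely many places;
* `deg_one` : every place has degree one (`S24.Ord.deg_eq_one` restated);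
* the instances for `F_L = ModularCurve.modularFunctionFieldBar N`, `x = jgen N`.
-/
import Fermat.Agent.S18.A.Defs
import Fermat.Agent.S24.Hurwitz
import Fermat.Agent.S24.Degree

set_option autoImplicit false

namespace Fermat.Agent.S18.A.Instances

open AlgebraicCurve IsDedekindDomain IntermediateField
  Fermat.Agent.S24.PlacePrime Fermat.Agent.S24.FF Fermat.Agent.S24.Ord Fermat.Agent.S24.Fibre
open scoped IntermediateField.algebraAdjoinAdjoin

universe u w

variable {K : Type w} {F : Type u} [Field K] [Field F] [Algebra K F]

/-! ### degree one -/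

/-- every place of a function field over an algebraically closed field has degree one -/
theorem deg_one [IsAlgClosed K] {x : F} (hx : IsFF K x) (v : Place K F) : v.deg = 1 :=
  deg_eq_one hx v

/-! ### principal divisors in characteristic zero -/

section CharZero

variable [IsAlgClosed K] [CharZero K] {x : F}

open Fermat.Agent.S24.Hurwitz in
/-- the divisor of a nonzero function, in characteristic zero -/
theorem exists_divisor_of_charZero (hx : IsFF K x) {f : F} (hf : f ≠ 0) :
    ∃ D : Divisor K F, (∀ v : Place K F, D v = v.ord f) ∧ Divisor.degree D = 0 := by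
  classical
  by_cases hconst : ∃ k : K, algebraMap K F k = f
  · obtain ⟨k, rfl⟩ := hconst
    refine ⟨0, fun v => ?_, map_zero _⟩
    rw [ord_algebraMap]
    rfl
  · push Not at hconst
    have hf' : IsFF K f := hx.of_not_mem_range hconst
    have hmem : ∀ v : Place K F, v.ord f ≠ 0 → v ∈ zeros hf' 0 ∪ poles hf' := by
      intro v hv
      rw [Finset.mem_union, mem_zeros, mem_poles, map_zero, sub_zero]
      rcases lt_or_gt_of_ne hv with h | h
      · exact Or.inr ((ord_neg_iff v hf).mp h)
      · exact Or.inl ((ord_pos_iff v hf).mp h)
    let D : Divisor K F := Finsupp.onFinset (zeros hf' 0 ∪ poles hf') (fun v => v.ord f) hmem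
    have hD : ∀ v : Place K F, D v = v.ord f := fun v => rfl
    exact ⟨D, hD, degree_eq_zero_of_ord hx hf D hD⟩

/-- **`HasPrincipalDivisors` in characteristic zero.** -/
theorem hasPrincipalDivisors_of_charZero (hx : IsFF K x) : HasPrincipalDivisors K F :=
  ⟨fun _ hf => exists_divisor_of_charZero hx hf⟩

end CharZero

/-! ### infinitely many places -/

section Infinite

variable {x : F}

/-- Over every `a : K` there is a place of `F` (lying over in the chart `K[x]`). -/
theorem exists_place_over (hx : IsFF K x) (hsep : Algebra.IsSeparable K⟮x⟯ F) (a : K) :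
    ∃ v : Place K F, v.adicValuation (x - algebraMap K F a) < 1 := by
  have := Defs.isDedekind hx hsep
  have := Defs.isFractionRing hx
  have := isPID hx.transcendental
  -- the maximal ideal `(x - a)` of `K[x]`
  let p : Ideal (polyRing K x) := Ideal.span {tA K x a}
  have hpmax : p.IsMaximal :=
    PrincipalIdealRing.isMaximal_of_irreducible (irreducible_tA hx.transcendental a)
  -- a maximal ideal of the integral closure above it
  obtain ⟨P, hPmax, hPp⟩ := Ideal.exists_ideal_over_maximal_of_isIntegral
    (S := intRing K x) p (by
      have hinj : Function.Injective (algebraMap (polyRing K x) (intRing K x)) :=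
        FaithfulSMul.algebraMap_injective _ _
      rw [(RingHom.injective_iff_ker_eq_bot _).mp hinj]
      exact bot_le)
  have hmem : algebraMap (polyRing K x) (intRing K x) (tA K x a) ∈ P := by
    have : tA K x a ∈ P.comap (algebraMap (polyRing K x) (intRing K x)) := by
      rw [hPp]
      exact Ideal.subset_span rfl
    exact this
  have hne : algebraMap (polyRing K x) (intRing K x) (tA K x a) ≠ 0 := by
    rw [Ne, FaithfulSMul.algebraMap_eq_zero_iff]
    exact tA_ne_zero hx.transcendental a
  have hPbot : P ≠ ⊥ := by
    rintro rfl
    exact hne (by simpa using hmem)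
  let Q : HeightOneSpectrum (intRing K x) := ⟨P, hPmax.isPrime, hPbot⟩
  refine ⟨placeOfPrime (K := K) Q, ?_⟩
  have hval : (placeOfPrime (K := K) Q).adicValuation (x - algebraMap K F a)
      = Q.valuation F (x - algebraMap K F a) := by
    have hxa : x - algebraMap K F a ≠ 0 := sub_ne_zero.mpr (hx.ne_algebraMap a)
    rw [Fermat.Agent.S24.Ord.adicValuation_eq _ hxa,
      valuation_eq_exp_neg_placeOfPrime_ord (K := K) Q hxa]
  rw [hval]
  have hcoe : (x - algebraMap K F a : F)
      = algebraMap (intRing K x) F (algebraMap (polyRing K x) (intRing K x) (tA K x a)) := rfl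
  rw [hcoe, HeightOneSpectrum.valuation_lt_one_iff_mem]
  exact hmem

/-- Two different constants cannot be the centre of the same place. -/
theorem eq_of_adicValuation_sub_lt_one (v : Place K F) {a b : K}
    (ha : v.adicValuation (x - algebraMap K F a) < 1)
    (hb : v.adicValuation (x - algebraMap K F b) < 1) : a = b := by
  by_contra hne
  have h1 : v.adicValuation ((x - algebraMap K F a) - (x - algebraMap K F b)) < 1 :=
    Valuation.map_sub_lt _ ha hb
  have h2 : (x - algebraMap K F a) - (x - algebraMap K F b) = algebraMap K F (b - a) := by
    rw [map_sub]; ring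
  rw [h2, adicValuation_algebraMap v (sub_ne_zero.mpr (Ne.symm hne))] at h1
  exact lt_irrefl _ h1

/-- **A function field with a separating element over an infinite field has infinitely many
places** (one over each `a : K`). -/
theorem infinite_place [Infinite K] (hx : IsFF K x) (hsep : Algebra.IsSeparable K⟮x⟯ F) :
    Infinite (Place K F) := by
  choose φ hφ using exists_place_over hx hsep
  refine Infinite.of_injective φ fun a b hab => ?_
  exact eq_of_adicValuation_sub_lt_one (φ a) (hφ a) (hab ▸ hφ b)

end Infinite

/-! ### the function field of `X₀(N)` over `ℚ̄` -/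

section X0

open ModularCurve

local notation "Kb" => AlgebraicClosure ℚ

variable (N : ℕ) [NeZero N]

/-- `j` is a separating variable of `ℚ̄(X₀(N))` (S24). -/
theorem isFF_jgen : IsFF Kb (Fermat.Agent.S24.DegreeAlg.jgen N) :=
  Fermat.Agent.S24.Degree.isFF N

/-- `[ℚ̄(X₀(N)) : ℚ̄(j)] = [SL₂(ℤ) : Γ₀(N)]` (S24). -/
theorem finrank_jgen :
    Module.finrank Kb⟮Fermat.Agent.S24.DegreeAlg.jgen N⟯ (modularFunctionFieldBar N)
      = Nat.card (Matrix.SpecialLinearGroup (Fin 2) ℤ ⧸ CongruenceSubgroup.Gamma0 N) :=
  Fermat.Agent.S24.Degree.finrank_eq_card N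

/-- separability of `ℚ̄(X₀(N)) / ℚ̄(j)` (characteristic zero) -/
theorem isSeparable_jgen :
    Algebra.IsSeparable Kb⟮Fermat.Agent.S24.DegreeAlg.jgen N⟯ (modularFunctionFieldBar N) := by
  have := (isFF_jgen N).finite
  infer_instance

/-- **principal divisors of `ℚ̄(X₀(N))` have degree zero** -/
theorem hasPrincipalDivisors_bar : HasPrincipalDivisors Kb (modularFunctionFieldBar N) :=
  hasPrincipalDivisors_of_charZero (isFF_jgen N)

theorem deg_one_bar (v : Place Kb (modularFunctionFieldBar N)) : v.deg = 1 :=
  deg_one (isFF_jgen N) v

theorem infinite_place_bar : Infinite (Place Kb (modularFunctionFieldBar N)) :=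
  infinite_place (isFF_jgen N) (isSeparable_jgen N)

end X0

end Fermat.Agent.S18.A.Instances
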