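import Mathlib
import Fermat.Prelude.Def_AlgebraicCurve_DivisorClassGroup
import Fermat.Prelude.Def_AlgebraicCurve_Repartitions
import Fermat.Agent.S24.Ord

/-!
# PROJECT H (S18), block A, slice H-A2a part 1: Riemann-Roch spaces, basics

Prelude language (`AlgebraicCurve.Place`, `Divisor`, `riemannRochSpace`), any field `K`, any
characteristic.  No Dedekind–Weber, no different, no differentials (Stichtenoth I.4).

* `ell D = dim_K L(D)`; `ell_add_div` : `ℓ(D + div f) = ℓ(D)`;
* `exists_le_sup_span`, `finite_add_single`, `ell_add_single_le` : adding a point of degree one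
  raises `ℓ` by at most one;
* `mem_rr_zero_iff`, `ell_zero`, `rr_eq_bot_of_degree_neg` : constants;
* `finite_rr`, `ell_le_of_nonneg`, `ell_mono` : `L(D)` is finite dimensional, `ℓ(D) ≤ deg D + 1`
  for effective `D`;
* `effective_induction` : induction on effective divisors, one point at a time.

Riemann's theorem itself is in `Fermat/Agent/S18/A/Riemann.lean` (same namespace).
-/

set_option autoImplicit false

namespace Fermat.Agent.S18.A.Riemann

open AlgebraicCurve WithZero Fermat.Agent.S24.Ord

universe u w

variable {K : Type w} {F : Type u} [Field K] [Field F] [Algebra K F]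

/-- `ℓ(D) = dim_K L(D)` -/
noncomputable def ell (D : Divisor K F) : ℕ := Module.finrank K (riemannRochSpace D)

theorem mem_iff_of_ne_zero {D : Divisor K F} {f : F} (hf : f ≠ 0) :
    f ∈ riemannRochSpace D ↔ ∀ v : Place K F, -D v ≤ v.ord f := by
  rw [mem_riemannRochSpace_iff]
  exact forall_congr' fun v => or_iff_right hf

theorem rr_mono {D D' : Divisor K F} (h : D ≤ D') :
    riemannRochSpace D ≤ riemannRochSpace D' :=
  fun _ hf v => (hf v).trans (exp_le_exp.mpr (Finsupp.le_def.mp h v))

/-! ### multiplication by a function -/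

theorem mul_mem_iff {D E : Divisor K F} {f : F} (hf : f ≠ 0) (hE : ∀ v, E v = v.ord f) (g : F) :
    g ∈ riemannRochSpace (D + E) ↔ f * g ∈ riemannRochSpace D := by
  rcases eq_or_ne g 0 with rfl | hg
  · simp
  rw [mem_iff_of_ne_zero hg, mem_iff_of_ne_zero (mul_ne_zero hf hg)]
  refine forall_congr' fun v => ?_
  rw [v.ord_mul hf hg, Finsupp.add_apply, hE v]
  constructor <;> intro h <;> linarith

theorem ell_add_div {D E : Divisor K F} {f : F} (hf : f ≠ 0) (hE : ∀ v, E v = v.ord f) :
    ell (D + E) = ell D := by
  let φ : riemannRochSpace (D + E) →ₗ[K] riemannRochSpace D :=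
    { toFun := fun g => ⟨f * g, (mul_mem_iff hf hE g).mp g.2⟩
      map_add' := fun a b => Subtype.ext (by simp [mul_add])
      map_smul' := fun c a => Subtype.ext (by simp [mul_smul_comm]) }
  have hbij : Function.Bijective φ := by
    constructor
    · intro a b hab
      have h1 : f * (a : F) = f * (b : F) := congrArg Subtype.val hab
      exact Subtype.ext (mul_left_cancel₀ hf h1)
    · intro b
      have hb : f⁻¹ * (b : F) ∈ riemannRochSpace (D + E) := by
        rw [mul_mem_iff hf hE, ← mul_assoc, mul_inv_cancel₀ hf, one_mul]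
        exact b.2
      exact ⟨⟨f⁻¹ * b, hb⟩, Subtype.ext (show f * (f⁻¹ * (b : F)) = b by
        rw [← mul_assoc, mul_inv_cancel₀ hf, one_mul])⟩
  exact (LinearEquiv.ofBijective φ hbij).finrank_eq

/-! ### degrees -/

theorem degree_nonneg {D : Divisor K F} (hD : 0 ≤ D) : 0 ≤ Divisor.degree D := by
  have h1 : Divisor.degree D = D.sum fun v n => n * (v.deg : ℤ) := by
    simp [Divisor.degree, Finsupp.liftAddHom_apply]
  rw [h1]
  exact Finsupp.sum_nonneg fun v _ => mul_nonneg (Finsupp.le_def.mp hD v) (Int.natCast_nonneg _)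

theorem apply_le_degree (hdeg : ∀ v : Place K F, v.deg = 1) {D : Divisor K F} (hD : 0 ≤ D)
    (v : Place K F) : D v ≤ Divisor.degree D := by
  classical
  have h1 : Finsupp.single v (D v) + D.erase v = D := Finsupp.single_add_erase v D
  have h2 : 0 ≤ D.erase v := by
    rw [Finsupp.le_def]
    intro w
    by_cases hw : w = v
    · subst hw; simp
    · rw [Finsupp.erase_ne hw]; exact Finsupp.le_def.mp hD w
  have h3 := degree_nonneg h2
  have h4 := congrArg Divisor.degree h1
  rw [map_add, Divisor.degree_single, hdeg v] at h4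
  simp only [Nat.cast_one, mul_one] at h4
  linarith

theorem eq_zero_of_degree_eq_zero (hdeg : ∀ v : Place K F, v.deg = 1) {D : Divisor K F}
    (hD : 0 ≤ D) (h0 : Divisor.degree D = 0) : D = 0 := by
  ext v
  have h1 := apply_le_degree hdeg hD v
  have h2 := Finsupp.le_def.mp hD v
  rw [h0] at h1
  simp only [Finsupp.coe_zero, Pi.zero_apply] at h2 ⊢
  omega

/-- induction on effective divisors, one point at a time -/
theorem effective_induction (hdeg : ∀ v : Place K F, v.deg = 1) {P : Divisor K F → Prop}
    (h0 : P 0) (hstep : ∀ (D : Divisor K F) (v : Place K F), 0 ≤ D → P D →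
      P (D + Finsupp.single v 1)) : ∀ D : Divisor K F, 0 ≤ D → P D := by
  classical
  have key : ∀ n : ℕ, ∀ D : Divisor K F, 0 ≤ D → Divisor.degree D = n → P D := by
    intro n
    induction n with
    | zero =>
      intro D hD h
      rw [eq_zero_of_degree_eq_zero hdeg hD (by simpa using h)]
      exact h0
    | succ n ih =>
      intro D hD h
      obtain ⟨v, hv⟩ : ∃ v, 0 < D v := by
        by_contra hne
        push Not at hne
        have : D = 0 := by
          ext v
          have h2 := Finsupp.le_def.mp hD v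
          have h3 := hne v
          simp only [Finsupp.coe_zero, Pi.zero_apply] at h2 ⊢
          omega
        rw [this, map_zero] at h
        push_cast at h
        omega
      have hD1 : 0 ≤ D - Finsupp.single v 1 := by
        rw [Finsupp.le_def]
        intro w
        rw [Finsupp.sub_apply, Finsupp.single_apply]
        have h2 := Finsupp.le_def.mp hD w
        simp only [Finsupp.coe_zero, Pi.zero_apply] at h2 ⊢
        split_ifs with hw
        · subst hw; omega
        · omega
      have hdeg1 : Divisor.degree (D - Finsupp.single v 1) = n := by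
        rw [map_sub, Divisor.degree_single, hdeg v, h]
        push_cast
        ring
      have := hstep _ v hD1 (ih _ hD1 hdeg1)
      rwa [sub_add_cancel] at this
  intro D hD
  have h1 := degree_nonneg hD
  exact key (Divisor.degree D).toNat D hD (by rw [Int.toNat_of_nonneg h1])

/-! ### adding a point -/

theorem exists_sub_const_lt_one (v : Place K F) (hv : v.deg = 1) {z : F}
    (hz : v.adicValuation z ≤ 1) : ∃ c : K, v.adicValuation (z - algebraMap K F c) < 1 := by
  have hz' : z ∈ v.toValuationSubring := (mem_iff v z).mpr hz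
  have h1 : Module.finrank K v.ResidueField = 1 := hv
  obtain ⟨c, hc⟩ := (finrank_eq_one_iff_of_nonzero' (1 : v.ResidueField) one_ne_zero).mp h1
    (IsLocalRing.residue _ ⟨z, hz'⟩)
  refine ⟨c, ?_⟩
  have h2 : IsLocalRing.residue v.toValuationSubring
      (⟨z, hz'⟩ - algebraMap K v.toValuationSubring c) = 0 := by
    rw [map_sub, ← hc, Algebra.smul_def, mul_one]
    exact sub_self _
  rw [IsLocalRing.residue_eq_zero_iff, mem_maximalIdeal_iff] at h2
  simpa using h2

theorem exists_uniformizer (v : Place K F) : ∃ t : F, t ≠ 0 ∧ v.ord t = 1 := by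
  obtain ⟨ϖ, hϖ⟩ := IsDiscreteValuationRing.exists_irreducible v.toValuationSubring
  refine ⟨(ϖ : F), ?_, v.ord_coe_irreducible hϖ⟩
  simpa [ne_eq, ZeroMemClass.coe_eq_zero] using hϖ.ne_zero

/-- `ord ≥ 0` in valuation form, allowing `0` -/
theorem adicValuation_le_one_of_ord_nonneg (v : Place K F) {f : F} (h : f = 0 ∨ 0 ≤ v.ord f) :
    v.adicValuation f ≤ 1 := v.adicValuation_le_one_iff.mpr h

theorem adicValuation_lt_one_iff (v : Place K F) {f : F} :
    v.adicValuation f < 1 ↔ f = 0 ∨ 0 < v.ord f := by
  rcases eq_or_ne f 0 with rfl | hf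
  · simp
  · rw [← ord_pos_iff v hf, or_iff_right hf]

/-- **Adding a point of degree one**: `L(D + v) ≤ L(D) + K g₀`. -/
theorem exists_le_sup_span (D : Divisor K F) (v : Place K F) (hv : v.deg = 1) :
    ∃ g₀ : F, riemannRochSpace (D + Finsupp.single v 1) ≤ riemannRochSpace D ⊔ K ∙ g₀ := by
  classical
  obtain ⟨t, ht0, ht⟩ := exists_uniformizer v
  set m : ℤ := D v + 1 with hm
  have htm0 : t ^ m ≠ 0 := zpow_ne_zero m ht0
  have hordtm : v.ord (t ^ m) = m := by rw [v.ord_zpow, ht, mul_one]
  -- elements of `L(D + v)` times `t^m` are regular at `v`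
  have hreg : ∀ g ∈ riemannRochSpace (D + Finsupp.single v 1), v.adicValuation (g * t ^ m) ≤ 1 := by
    intro g hg
    rcases eq_or_ne g 0 with rfl | hg0
    · simp
    apply adicValuation_le_one_of_ord_nonneg
    right
    have h1 := (mem_iff_of_ne_zero hg0).mp hg v
    rw [Finsupp.add_apply, Finsupp.single_eq_same] at h1
    rw [v.ord_mul hg0 htm0, hordtm]
    omega
  -- the kernel of the residue map is `L(D)`
  have hker : ∀ g ∈ riemannRochSpace (D + Finsupp.single v 1), v.adicValuation (g * t ^ m) < 1 →
      g ∈ riemannRochSpace D := by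
    intro g hg hlt
    rcases eq_or_ne g 0 with rfl | hg0
    · exact Submodule.zero_mem _
    rw [mem_iff_of_ne_zero hg0]
    intro w
    have h1 := (mem_iff_of_ne_zero hg0).mp hg w
    rw [Finsupp.add_apply, Finsupp.single_apply] at h1
    by_cases hw : v = w
    · subst hw
      rw [adicValuation_lt_one_iff, or_iff_right (mul_ne_zero hg0 htm0), v.ord_mul hg0 htm0,
        hordtm] at hlt
      omega
    · rw [if_neg hw] at h1
      omega
  by_cases hall : ∀ g ∈ riemannRochSpace (D + Finsupp.single v 1), v.adicValuation (g * t ^ m) < 1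
  · exact ⟨0, fun g hg => Submodule.mem_sup_left (hker g hg (hall g hg))⟩
  · push Not at hall
    obtain ⟨g₀, hg₀, hg₀1⟩ := hall
    obtain ⟨c₀, hc₀⟩ := exists_sub_const_lt_one v hv (hreg g₀ hg₀)
    have hc₀0 : c₀ ≠ 0 := by
      rintro rfl
      rw [map_zero, sub_zero] at hc₀
      exact absurd hc₀ (not_lt.mpr hg₀1)
    refine ⟨g₀, fun g hg => ?_⟩
    obtain ⟨c, hc⟩ := exists_sub_const_lt_one v hv (hreg g hg)
    set a : K := c / c₀ with ha
    have hmem : g - a • g₀ ∈ riemannRochSpace (D + Finsupp.single v 1) :=
      Submodule.sub_mem _ hg (Submodule.smul_mem _ a hg₀)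
    have hlt : v.adicValuation ((g - a • g₀) * t ^ m) < 1 := by
      have e : (g - a • g₀) * t ^ m = (g * t ^ m - algebraMap K F c) -
          algebraMap K F a * (g₀ * t ^ m - algebraMap K F c₀) := by
        have hac : algebraMap K F a * algebraMap K F c₀ = algebraMap K F c := by
          rw [← map_mul, ha, div_mul_cancel₀ c hc₀0]
        rw [Algebra.smul_def, mul_sub, hac]
        ring
      rw [e]
      refine Valuation.map_sub_lt _ hc ?_
      rw [map_mul]
      exact lt_of_le_of_lt (mul_le_of_le_one_left' (v.adicValuation_algebraMap_le_one a)) hc₀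
    have h1 := hker _ hmem hlt
    have h2 : g = (g - a • g₀) + a • g₀ := by ring
    rw [h2]
    exact Submodule.add_mem _ (Submodule.mem_sup_left h1)
      (Submodule.mem_sup_right (Submodule.smul_mem _ a (Submodule.mem_span_singleton_self g₀)))

theorem finite_add_single (D : Divisor K F) (v : Place K F) (hv : v.deg = 1)
    [Module.Finite K (riemannRochSpace D)] :
    Module.Finite K (riemannRochSpace (D + Finsupp.single v 1)) := by
  obtain ⟨g₀, h⟩ := exists_le_sup_span D v hv
  exact Submodule.finiteDimensional_of_le h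

theorem ell_add_single_le (D : Divisor K F) (v : Place K F) (hv : v.deg = 1)
    [Module.Finite K (riemannRochSpace D)] :
    ell (D + Finsupp.single v 1) ≤ ell D + 1 := by
  obtain ⟨g₀, h⟩ := exists_le_sup_span D v hv
  calc ell (D + Finsupp.single v 1)
      ≤ Module.finrank K ↥(riemannRochSpace D ⊔ K ∙ g₀) := Submodule.finrank_mono h
    _ ≤ Module.finrank K (riemannRochSpace D) + Module.finrank K ↥(K ∙ g₀) :=
        Submodule.finrank_add_le_finrank_add_finrank _ _
    _ ≤ ell D + 1 := by
        have : Module.finrank K ↥(K ∙ g₀) ≤ 1 := by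
          rcases eq_or_ne g₀ 0 with rfl | h0
          · rw [Submodule.span_zero_singleton, finrank_bot]
            exact Nat.zero_le _
          · rw [finrank_span_singleton h0]
        unfold ell
        omega

/-! ### constants and finiteness -/

theorem algebraMap_mem_rr_zero (c : K) :
    algebraMap K F c ∈ riemannRochSpace (0 : Divisor K F) := by
  intro v
  simpa using v.adicValuation_algebraMap_le_one c

/-- a function with a pole somewhere is not in `L(D)` for `deg D < 0`; more precisely `L(D) = 0` -/
theorem rr_eq_bot_of_degree_neg [HasPrincipalDivisors K F] {D : Divisor K F}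
    (hD : Divisor.degree D < 0) : riemannRochSpace D = ⊥ := by
  rw [Submodule.eq_bot_iff]
  intro f hf
  by_contra hf0
  obtain ⟨E, hE, hE0⟩ := HasPrincipalDivisors.exists_divisor (K := K) f hf0
  have hpos : 0 ≤ D + E := by
    rw [Finsupp.le_def]
    intro w
    have := (mem_iff_of_ne_zero hf0).mp hf w
    rw [Finsupp.add_apply, hE w]
    simp only [Finsupp.coe_zero, Pi.zero_apply]
    omega
  have := degree_nonneg hpos
  rw [map_add, hE0] at this
  omega

theorem ell_eq_zero_of_degree_neg [HasPrincipalDivisors K F] {D : Divisor K F}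
    (hD : Divisor.degree D < 0) : ell D = 0 := by
  unfold ell
  rw [rr_eq_bot_of_degree_neg hD, finrank_bot]

section Constants

variable (hdeg : ∀ v : Place K F, v.deg = 1) [HasPrincipalDivisors K F] [Nonempty (Place K F)]

include hdeg

/-- **Functions without poles are constant.** -/
theorem mem_rr_zero_iff {f : F} :
    f ∈ riemannRochSpace (0 : Divisor K F) ↔ ∃ c : K, f = algebraMap K F c := by
  constructor
  · intro hf
    obtain ⟨v₀⟩ := ‹Nonempty (Place K F)›
    have h1 : v₀.adicValuation f ≤ 1 := by simpa using hf v₀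
    obtain ⟨c, hc⟩ := exists_sub_const_lt_one v₀ (hdeg v₀) h1
    refine ⟨c, ?_⟩
    by_contra hne
    have hg : f - algebraMap K F c ≠ 0 := sub_ne_zero.mpr hne
    have hgmem : f - algebraMap K F c ∈ riemannRochSpace (0 : Divisor K F) :=
      Submodule.sub_mem _ hf (algebraMap_mem_rr_zero c)
    obtain ⟨E, hE, hE0⟩ := HasPrincipalDivisors.exists_divisor (K := K) _ hg
    have hEpos : 0 ≤ E := by
      rw [Finsupp.le_def]
      intro w
      have := (mem_iff_of_ne_zero hg).mp hgmem w
      rw [hE w]
      simpa using this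
    have h2 := apply_le_degree hdeg hEpos v₀
    rw [hE0, hE v₀] at h2
    have h3 := (ord_pos_iff v₀ hg).mpr hc
    omega
  · rintro ⟨c, rfl⟩
    exact algebraMap_mem_rr_zero c

theorem rr_zero_eq_span : riemannRochSpace (0 : Divisor K F) = K ∙ (1 : F) := by
  ext f
  rw [mem_rr_zero_iff hdeg, Submodule.mem_span_singleton]
  constructor
  · rintro ⟨c, rfl⟩
    exact ⟨c, by rw [Algebra.algebraMap_eq_smul_one]⟩
  · rintro ⟨c, rfl⟩
    exact ⟨c, by rw [Algebra.algebraMap_eq_smul_one]⟩

theorem ell_zero : ell (0 : Divisor K F) = 1 := by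
  unfold ell
  rw [rr_zero_eq_span hdeg, finrank_span_singleton one_ne_zero]

theorem finite_and_ell_le_of_nonneg : ∀ D : Divisor K F, 0 ≤ D →
    Module.Finite K (riemannRochSpace D) ∧ (ell D : ℤ) ≤ Divisor.degree D + 1 := by
  refine effective_induction hdeg
    (P := fun D => Module.Finite K (riemannRochSpace D) ∧ (ell D : ℤ) ≤ Divisor.degree D + 1)
    ?_ ?_
  · refine ⟨?_, ?_⟩
    · rw [rr_zero_eq_span hdeg]
      infer_instance
    · rw [ell_zero hdeg, map_zero]
      norm_num
  · rintro D v hD ⟨hfin, hle⟩
    haveI := hfin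
    refine ⟨finite_add_single D v (hdeg v), ?_⟩
    have h1 := ell_add_single_le D v (hdeg v)
    rw [map_add, Divisor.degree_single, hdeg v]
    push_cast
    have h2 : (ell (D + Finsupp.single v 1) : ℤ) ≤ (ell D : ℤ) + 1 := by exact_mod_cast h1
    linarith

/-- **`L(D)` is finite dimensional.** -/
theorem finite_rr (D : Divisor K F) : Module.Finite K (riemannRochSpace D) := by
  haveI := (finite_and_ell_le_of_nonneg hdeg (D ⊔ 0) le_sup_right).1
  exact Submodule.finiteDimensional_of_le (rr_mono (le_sup_left : D ≤ D ⊔ 0))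

theorem ell_le_of_nonneg {D : Divisor K F} (hD : 0 ≤ D) :
    (ell D : ℤ) ≤ Divisor.degree D + 1 :=
  (finite_and_ell_le_of_nonneg hdeg D hD).2

theorem ell_mono {D D' : Divisor K F} (h : D ≤ D') : ell D ≤ ell D' := by
  haveI := finite_rr hdeg D'
  exact Submodule.finrank_mono (rr_mono h)

end Constants

end Fermat.Agent.S18.A.Riemann
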