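import Mathlib
import Fermat.Agent.S24.Ord

/-!
# PROJECT H (S18), block A1: the fundamental identity `∑_{v | a} e_v = [F : K(x)]` under a
separability hypothesis (any characteristic)

`Fermat.Agent.S24.Fibre` / `Fermat.Agent.S24.Hurwitz` prove the fundamental identity for a function
field `F/K` with `K` algebraically closed of characteristic zero.  The characteristic is only used
through the separability of `F/K(x)`.  Here the same statements are proved for an algebraically
closed field `K` of arbitrary characteristic, `x : F` transcendental with `F/K(x)` finite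
(`hx : IsFF K x`) and **separable** (`hsep : Algebra.IsSeparable K⟮x⟯ F`, an explicit hypothesis).

Main declarations (all in the prelude `AlgebraicCurve.Place` language):

* `exists_fibre hx hsep a`, `exists_poles hx hsep`;
* `zeros hx hsep a`, `poles hx hsep : Finset (Place K F)` with `mem_zeros`, `sum_zeros`, `mem_poles`,
  `sum_poles`, `card_zeros`, `card_poles`, `finite_zeros`, `finite_poles`, `card_zeros_le`,
  `card_poles_le`;
* `divSub hx hsep a : Divisor K F`, the principal divisor of `x - a`, with `divSub_apply`,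
  `degree_divSub`;
* `exists_divisor_of_sep` : the `HasPrincipalDivisors` shape for one separating element.
-/

set_option autoImplicit false
set_option linter.style.haveILetI false

namespace Fermat.Agent.S18.A.FibreSep

open AlgebraicCurve IsDedekindDomain WithZero IntermediateField Polynomial
  Fermat.Agent.S24.PlacePrime Fermat.Agent.S24.FF Fermat.Agent.S24.Ord
open scoped IntermediateField.algebraAdjoinAdjoin

universe u w

variable {K : Type w} {F : Type u} [Field K] [Field F] [Algebra K F]

/-- the polynomial ring `K[x] ⊆ F` -/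
abbrev polyRing (K : Type w) {F : Type u} [Field K] [Field F] [Algebra K F] (x : F) :
    Subalgebra K F := Algebra.adjoin K {x}

/-- the integral closure of `K[x]` in `F` -/
abbrev intRing (K : Type w) {F : Type u} [Field K] [Field F] [Algebra K F] (x : F) :
    Subalgebra (polyRing K x) F := integralClosure (polyRing K x) F

theorem isPID {x : F} (hx : Transcendental K x) : IsPrincipalIdealRing (polyRing K x) :=
  IsPrincipalIdealRing.of_surjective
    (Polynomial.algEquivOfTranscendental K x hx).toRingEquiv.toRingHom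
    (Polynomial.algEquivOfTranscendental K x hx).surjective

section

variable {x : F}

theorem isDedekind (hx : IsFF K x) (hsep : Algebra.IsSeparable K⟮x⟯ F) :
    IsDedekindDomain (intRing K x) := by
  have := hx.finite
  have := isPID hx.transcendental
  exact integralClosure.isDedekindDomain (polyRing K x) K⟮x⟯ F

theorem isFractionRing (hx : IsFF K x) : IsFractionRing (intRing K x) F := by
  have := hx.finite
  exact integralClosure.isFractionRing_of_finite_extension K⟮x⟯ F

theorem moduleFinite (hx : IsFF K x) (hsep : Algebra.IsSeparable K⟮x⟯ F) :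
    Module.Finite (polyRing K x) (intRing K x) := by
  have := hx.finite
  have := isPID hx.transcendental
  exact IsIntegralClosure.finite (polyRing K x) K⟮x⟯ F _

theorem finrank_eq (hx : IsFF K x) :
    Module.finrank (polyRing K x) (intRing K x) = Module.finrank K⟮x⟯ F := by
  have := hx.finite
  have := isFractionRing hx
  exact (IsFractionRing.finrank_eq (polyRing K x) K⟮x⟯ (intRing K x) F).symm

/-- Places at which `x` is regular come from primes of the integral closure of `K[x]`. -/
theorem exists_prime (hx : IsFF K x) (hsep : Algebra.IsSeparable K⟮x⟯ F) (v : Place K F)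
    (hv : v.adicValuation x ≤ 1) :
    haveI := isDedekind hx hsep
    haveI := isFractionRing hx
    ∃ P : HeightOneSpectrum (intRing K x), placeOfPrime P = v := by
  have := isDedekind hx hsep
  have := isFractionRing hx
  exact exists_prime_of_place v fun b => (Fermat.Agent.S24.Ord.mem_iff v _).mpr
    (adicValuation_le_one_of_isIntegral v (adicValuation_adjoin_le_one v hv) b.2)

/-- `x - a` as an element of `K[x]` -/
def tA (K : Type w) {F : Type u} [Field K] [Field F] [Algebra K F] (x : F) (a : K) :
    polyRing K x :=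
  ⟨x - algebraMap K F a, sub_mem (Algebra.self_mem_adjoin_singleton K x) (Subalgebra.algebraMap_mem _ a)⟩

theorem irreducible_tA (hx : Transcendental K x) (a : K) : Irreducible (tA K x a) := by
  have h1 : (Polynomial.algEquivOfTranscendental K x hx) (X - C a) = tA K x a := by
    apply Subtype.ext
    simp [Polynomial.algEquivOfTranscendental_apply, tA]
  rw [← h1, MulEquiv.irreducible_iff]
  exact irreducible_X_sub_C a

theorem tA_ne_zero (hx : Transcendental K x) (a : K) : tA K x a ≠ 0 :=
  (irreducible_tA hx a).ne_zero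

/-- the adic valuation of the place of `P` is the `P`-adic valuation -/
theorem adicValuation_placeOfPrime {B : Type*} [CommRing B] [IsDedekindDomain B] [Algebra B F]
    [IsFractionRing B F] [Algebra K B] [IsScalarTower K B F] (P : HeightOneSpectrum B) (f : F) :
    (placeOfPrime (K := K) P).adicValuation f = P.valuation F f := by
  rcases eq_or_ne f 0 with rfl | hf
  · simp
  · rw [Fermat.Agent.S24.Ord.adicValuation_eq _ hf, valuation_eq_exp_neg_placeOfPrime_ord (K := K) P hf]

variable [IsAlgClosed K]

/-- **Fundamental identity** for the fibre of `x` over `a`, separable case. -/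
theorem exists_fibre (hx : IsFF K x) (hsep : Algebra.IsSeparable K⟮x⟯ F) (a : K) :
    ∃ s : Finset (Place K F), (∀ v, v ∈ s ↔ v.adicValuation (x - algebraMap K F a) < 1) ∧
      ∑ v ∈ s, v.ord (x - algebraMap K F a) = (Module.finrank K⟮x⟯ F : ℤ) := by
  classical
  have hDed := isDedekind hx hsep
  have hFr := isFractionRing hx
  have hfin := moduleFinite hx hsep
  have hpid := isPID hx.transcendental
  have hxa : x - algebraMap K F a ≠ 0 := sub_ne_zero.mpr (hx.ne_algebraMap a)
  -- the prime `(x - a)` of `K[x]`
  let p : Ideal (polyRing K x) := Ideal.span {tA K x a}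
  have hpmax : p.IsMaximal :=
    PrincipalIdealRing.isMaximal_of_irreducible (irreducible_tA hx.transcendental a)
  have hp0 : p ≠ ⊥ := by
    rw [Ne, Ideal.span_singleton_eq_bot]
    exact tA_ne_zero hx.transcendental a
  let tB : intRing K x := algebraMap (polyRing K x) (intRing K x) (tA K x a)
  have htB : algebraMap (intRing K x) F tB = x - algebraMap K F a := rfl
  have htB0 : tB ≠ 0 := by
    intro h0
    apply hxa
    rw [← htB, h0, map_zero]
  have hmap : Ideal.map (algebraMap (polyRing K x) (intRing K x)) p = Ideal.span {tB} := by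
    rw [Ideal.map_span, Set.image_singleton]
  have hmap0 : Ideal.map (algebraMap (polyRing K x) (intRing K x)) p ≠ ⊥ := by
    rw [hmap, Ne, Ideal.span_singleton_eq_bot]
    exact htB0
  have hfinset : (p.primesOver (intRing K x)).Finite := Algebra.QuasiFinite.finite_primesOver p
  letI : Fintype (p.primesOver (intRing K x)) := hfinset.fintype
  have hsum := Ideal.sum_ramification_inertia_eq_finrank p (intRing K x)
  -- primes over `p` as height one primes
  have hne : ∀ q : p.primesOver (intRing K x), q.1 ≠ ⊥ := fun q => by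
    haveI := q.2.2
    exact Ideal.ne_bot_of_liesOver_of_ne_bot hp0 q.1
  let toH : p.primesOver (intRing K x) → HeightOneSpectrum (intRing K x) :=
    fun q => ⟨q.1, q.2.1, hne q⟩
  let toPlace : p.primesOver (intRing K x) → Place K F := fun q => placeOfPrime (toH q)
  have hinj : Function.Injective toPlace := by
    intro q q' h
    have h1 := placeOfPrime_injective h
    apply Subtype.ext
    exact congrArg HeightOneSpectrum.asIdeal h1
  -- `x - a` lies in every prime over `p`
  have htmem : ∀ q : p.primesOver (intRing K x), tB ∈ q.1 := fun q => by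
    haveI := q.2.2
    have h1 : tA K x a ∈ p := Ideal.subset_span rfl
    rw [(Ideal.liesOver_iff q.1 p).mp q.2.2, Ideal.under_def] at h1
    exact h1
  -- the ramification index is `ord (x - a)`
  have he : ∀ q : p.primesOver (intRing K x),
      (toPlace q).ord (x - algebraMap K F a) = (q.1.ramificationIdx (polyRing K x) : ℤ) := by
    intro q
    haveI := q.2.1
    haveI := q.2.2
    rw [Ideal.IsDedekindDomain.ramificationIdx_eq_multiplicity p q.1 hmap0, hmap, ← htB]
    exact placeOfPrime_ord_algebraMap (toH q) htB0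
  -- the inertia degree is one
  have hf : ∀ q : p.primesOver (intRing K x), q.1.inertiaDeg (polyRing K x) = 1 := by
    intro q
    haveI := q.2.1
    haveI := q.2.2
    haveI : q.1.IsMaximal := q.2.1.isMaximal (hne q)
    rw [Ideal.inertiaDeg_eq_of_isMaximal p q.1]
    letI : Field (polyRing K x ⧸ p) := Ideal.Quotient.field p
    refine (finrank_eq_one_iff_of_nonzero' (1 : intRing K x ⧸ q.1) one_ne_zero).mpr ?_
    intro w
    obtain ⟨b, rfl⟩ := Ideal.Quotient.mk_surjective w
    have hb : (toPlace q).adicValuation (algebraMap (intRing K x) F b) ≤ 1 := by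
      rw [adicValuation_placeOfPrime]
      exact (toH q).valuation_le_one b
    obtain ⟨c, hc⟩ := exists_sub_lt_one hx (toPlace q) hb
    refine ⟨Ideal.Quotient.mk p (algebraMap K (polyRing K x) c), ?_⟩
    rw [Algebra.smul_def, mul_one, Ideal.Quotient.algebraMap_mk_of_liesOver]
    symm
    rw [Ideal.Quotient.eq]
    rw [adicValuation_placeOfPrime] at hc
    have h2 : algebraMap (intRing K x) F b - algebraMap K F c =
        algebraMap (intRing K x) F
          (b - algebraMap (polyRing K x) (intRing K x) (algebraMap K (polyRing K x) c)) := by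
      rw [map_sub]
      rfl
    rw [h2, HeightOneSpectrum.valuation_lt_one_iff_mem] at hc
    exact hc
  refine ⟨Finset.univ.image toPlace, fun v => ?_, ?_⟩
  · rw [Finset.mem_image]
    constructor
    · rintro ⟨q, -, rfl⟩
      rw [← Fermat.Agent.S24.Ord.ord_pos_iff _ hxa, ← htB, placeOfPrime_ord_pos_iff]
      exact ⟨htB0, htmem q⟩
    · intro hv
      have hvx : v.adicValuation x ≤ 1 := by
        have h1 : x = (x - algebraMap K F a) + algebraMap K F a := by ring
        rw [h1]
        exact Valuation.map_add_le _ hv.le ((Fermat.Agent.S24.Ord.mem_iff v _).mp (v.algebraMap_mem' a))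
      obtain ⟨P, hP⟩ := exists_prime hx hsep v hvx
      have hmemP : tB ∈ P.asIdeal := by
        have h1 := (Fermat.Agent.S24.Ord.ord_pos_iff v hxa).mpr hv
        rw [← hP, ← htB, placeOfPrime_ord_pos_iff] at h1
        exact h1.2
      have hlies : P.asIdeal.LiesOver p := by
        rw [Ideal.liesOver_iff, Ideal.under_def]
        refine hpmax.eq_of_le (Ideal.comap_ne_top _ P.isPrime.ne_top) ?_
        rw [Ideal.span_le, Set.singleton_subset_iff]
        exact hmemP
      refine ⟨⟨P.asIdeal, P.isPrime, hlies⟩, Finset.mem_univ _, ?_⟩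
      rw [← hP]
  · rw [Finset.sum_image fun q _ q' _ h => hinj h]
    rw [← finrank_eq hx, ← hsum, Nat.cast_sum]
    refine Finset.sum_congr rfl fun q _ => ?_
    rw [he q, hf q, mul_one]

omit [IsAlgClosed K] in
theorem adjoin_inv (x : F) : K⟮x⁻¹⟯ = K⟮x⟯ := by
  apply le_antisymm
  · rw [IntermediateField.adjoin_simple_le_iff]
    exact inv_mem (IntermediateField.mem_adjoin_simple_self K x)
  · rw [IntermediateField.adjoin_simple_le_iff]
    have := inv_mem (IntermediateField.mem_adjoin_simple_self K x⁻¹)
    rwa [inv_inv] at this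

omit [IsAlgClosed K] in
theorem adjoin_sub (x : F) (a : K) : K⟮x - algebraMap K F a⟯ = K⟮x⟯ := by
  apply le_antisymm
  · rw [IntermediateField.adjoin_simple_le_iff]
    exact sub_mem (IntermediateField.mem_adjoin_simple_self K x) (IntermediateField.algebraMap_mem _ a)
  · rw [IntermediateField.adjoin_simple_le_iff]
    have := add_mem (IntermediateField.mem_adjoin_simple_self K (x - algebraMap K F a))
      (IntermediateField.algebraMap_mem K⟮x - algebraMap K F a⟯ a)
    rwa [sub_add_cancel] at this

omit [IsAlgClosed K] in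
/-- separability over `K(x)` is separability over `K(x⁻¹)` -/
theorem isSeparable_inv (hsep : Algebra.IsSeparable K⟮x⟯ F) : Algebra.IsSeparable K⟮x⁻¹⟯ F := by
  rw [adjoin_inv]
  exact hsep

omit [IsAlgClosed K] in
/-- separability over `K(x)` is separability over `K(x - a)` -/
theorem isSeparable_sub (hsep : Algebra.IsSeparable K⟮x⟯ F) (a : K) :
    Algebra.IsSeparable K⟮x - algebraMap K F a⟯ F := by
  rw [adjoin_sub]
  exact hsep

/-- **Fundamental identity** for the poles of `x`, separable case. -/
theorem exists_poles (hx : IsFF K x) (hsep : Algebra.IsSeparable K⟮x⟯ F) :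
    ∃ s : Finset (Place K F), (∀ v, v ∈ s ↔ 1 < v.adicValuation x) ∧
      ∑ v ∈ s, -v.ord x = (Module.finrank K⟮x⟯ F : ℤ) := by
  obtain ⟨s, hs, hsum⟩ := exists_fibre hx.inv (isSeparable_inv hsep) 0
  refine ⟨s, fun v => ?_, ?_⟩
  · rw [hs, map_zero, sub_zero, map_inv₀, inv_lt_one₀ (zero_lt_iff.mpr (v.adicValuation_ne_zero hx.ne_zero))]
  · rw [adjoin_inv] at hsum
    rw [← hsum]
    refine Finset.sum_congr rfl fun v _ => ?_
    rw [map_zero, sub_zero, Place.ord_inv]

/-! ### the finite sets of zeros and poles -/

omit [IsAlgClosed K] in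
/-- membership in the maximal ideal of a place, in terms of the adic valuation -/
theorem mem_nonunits_iff (v : Place K F) (y : F) :
    y ∈ v.toValuationSubring.nonunits ↔ v.adicValuation y < 1 := by
  rw [ValuationSubring.mem_nonunits_iff_exists_mem_maximalIdeal]
  constructor
  · rintro ⟨hy, hmem⟩
    exact (mem_maximalIdeal_iff v ⟨y, hy⟩).mp hmem
  · intro h
    have hy : y ∈ v.toValuationSubring := (Fermat.Agent.S24.Ord.mem_iff v y).mpr h.le
    exact ⟨hy, (mem_maximalIdeal_iff v ⟨y, hy⟩).mpr h⟩

omit [IsAlgClosed K] in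
theorem not_mem_iff (v : Place K F) (y : F) :
    y ∉ v.toValuationSubring ↔ 1 < v.adicValuation y := by
  rw [Fermat.Agent.S24.Ord.mem_iff, not_le]

/-- the zeros of `x - a` -/
noncomputable def zeros (hx : IsFF K x) (hsep : Algebra.IsSeparable K⟮x⟯ F) (a : K) :
    Finset (Place K F) :=
  (exists_fibre hx hsep a).choose

theorem mem_zeros (hx : IsFF K x) (hsep : Algebra.IsSeparable K⟮x⟯ F) (a : K) (v : Place K F) :
    v ∈ zeros hx hsep a ↔ v.adicValuation (x - algebraMap K F a) < 1 :=
  (exists_fibre hx hsep a).choose_spec.1 v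

theorem mem_zeros_iff_ord_pos (hx : IsFF K x) (hsep : Algebra.IsSeparable K⟮x⟯ F) (a : K)
    (v : Place K F) : v ∈ zeros hx hsep a ↔ 0 < v.ord (x - algebraMap K F a) := by
  rw [mem_zeros, Fermat.Agent.S24.Ord.ord_pos_iff v (sub_ne_zero.mpr (hx.ne_algebraMap a))]

theorem sum_zeros (hx : IsFF K x) (hsep : Algebra.IsSeparable K⟮x⟯ F) (a : K) :
    ∑ v ∈ zeros hx hsep a, v.ord (x - algebraMap K F a) = (Module.finrank K⟮x⟯ F : ℤ) :=
  (exists_fibre hx hsep a).choose_spec.2

/-- the poles of `x` -/
noncomputable def poles (hx : IsFF K x) (hsep : Algebra.IsSeparable K⟮x⟯ F) :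
    Finset (Place K F) :=
  (exists_poles hx hsep).choose

theorem mem_poles (hx : IsFF K x) (hsep : Algebra.IsSeparable K⟮x⟯ F) (v : Place K F) :
    v ∈ poles hx hsep ↔ 1 < v.adicValuation x :=
  (exists_poles hx hsep).choose_spec.1 v

theorem mem_poles_iff_ord_neg (hx : IsFF K x) (hsep : Algebra.IsSeparable K⟮x⟯ F)
    (v : Place K F) : v ∈ poles hx hsep ↔ v.ord x < 0 := by
  rw [mem_poles, Fermat.Agent.S24.Ord.ord_neg_iff v hx.ne_zero]

theorem sum_poles (hx : IsFF K x) (hsep : Algebra.IsSeparable K⟮x⟯ F) :
    ∑ v ∈ poles hx hsep, -v.ord x = (Module.finrank K⟮x⟯ F : ℤ) :=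
  (exists_poles hx hsep).choose_spec.2

theorem card_zeros (hx : IsFF K x) (hsep : Algebra.IsSeparable K⟮x⟯ F) (a : K) :
    Nat.card {v : Place K F // x - algebraMap K F a ∈ v.toValuationSubring.nonunits}
      = (zeros hx hsep a).card :=
  Nat.subtype_card _ (fun v => by rw [mem_zeros, mem_nonunits_iff])

theorem card_poles (hx : IsFF K x) (hsep : Algebra.IsSeparable K⟮x⟯ F) :
    Nat.card {v : Place K F // x ∉ v.toValuationSubring} = (poles hx hsep).card :=
  Nat.subtype_card _ (fun v => by rw [mem_poles, not_mem_iff])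

theorem finite_zeros (hx : IsFF K x) (hsep : Algebra.IsSeparable K⟮x⟯ F) (a : K) :
    Finite {v : Place K F // x - algebraMap K F a ∈ v.toValuationSubring.nonunits} := by
  have h : {v : Place K F | x - algebraMap K F a ∈ v.toValuationSubring.nonunits}
      = ↑(zeros hx hsep a) := by
    ext v
    simp only [Set.mem_ofPred_eq, Finset.mem_coe, mem_zeros, mem_nonunits_iff]
  have hf : Set.Finite {v : Place K F | x - algebraMap K F a ∈ v.toValuationSubring.nonunits} :=
    h ▸ Finset.finite_toSet _
  exact hf.to_subtype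

theorem finite_poles (hx : IsFF K x) (hsep : Algebra.IsSeparable K⟮x⟯ F) :
    Finite {v : Place K F // x ∉ v.toValuationSubring} := by
  have h : {v : Place K F | x ∉ v.toValuationSubring} = ↑(poles hx hsep) := by
    ext v
    simp only [Set.mem_ofPred_eq, Finset.mem_coe, mem_poles, not_mem_iff]
  have hf : Set.Finite {v : Place K F | x ∉ v.toValuationSubring} :=
    h ▸ Finset.finite_toSet _
  exact hf.to_subtype

/-- the number of zeros of `x - a` is at most `[F : K(x)]` -/
theorem card_zeros_le (hx : IsFF K x) (hsep : Algebra.IsSeparable K⟮x⟯ F) (a : K) :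
    (zeros hx hsep a).card ≤ Module.finrank K⟮x⟯ F := by
  have h1 : ((zeros hx hsep a).card : ℤ) ≤ ∑ v ∈ zeros hx hsep a, v.ord (x - algebraMap K F a) := by
    rw [Finset.card_eq_sum_ones, Nat.cast_sum]
    refine Finset.sum_le_sum fun v hv => ?_
    have := (mem_zeros_iff_ord_pos hx hsep a v).mp hv
    simp only [Nat.cast_one]
    omega
  rw [sum_zeros] at h1
  exact_mod_cast h1

/-- the number of poles of `x` is at most `[F : K(x)]` -/
theorem card_poles_le (hx : IsFF K x) (hsep : Algebra.IsSeparable K⟮x⟯ F) :
    (poles hx hsep).card ≤ Module.finrank K⟮x⟯ F := by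
  have h1 : ((poles hx hsep).card : ℤ) ≤ ∑ v ∈ poles hx hsep, -v.ord x := by
    rw [Finset.card_eq_sum_ones, Nat.cast_sum]
    refine Finset.sum_le_sum fun v hv => ?_
    have := (mem_poles_iff_ord_neg hx hsep v).mp hv
    simp only [Nat.cast_one]
    omega
  rw [sum_poles] at h1
  exact_mod_cast h1

/-- zeros and poles are disjoint -/
theorem disjoint_zeros_poles (hx : IsFF K x) (hsep : Algebra.IsSeparable K⟮x⟯ F) :
    Disjoint (zeros hx hsep 0) (poles hx hsep) := by
  rw [Finset.disjoint_left]
  intro v hz hp
  have h1 := (mem_zeros_iff_ord_pos hx hsep 0 v).mp hz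
  have h2 := (mem_poles_iff_ord_neg hx hsep v).mp hp
  rw [map_zero, sub_zero] at h1
  omega

/-! ### the principal divisor of a separating element -/

/-- the divisor of zeros of `x` -/
noncomputable def zeroDiv (hx : IsFF K x) (hsep : Algebra.IsSeparable K⟮x⟯ F) : Divisor K F :=
  ∑ v ∈ zeros hx hsep 0, Finsupp.single v (v.ord x)

/-- the divisor of poles of `x` -/
noncomputable def poleDiv (hx : IsFF K x) (hsep : Algebra.IsSeparable K⟮x⟯ F) : Divisor K F :=
  ∑ v ∈ poles hx hsep, Finsupp.single v (-v.ord x)

theorem zeroDiv_apply (hx : IsFF K x) (hsep : Algebra.IsSeparable K⟮x⟯ F) (v : Place K F) :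
    zeroDiv hx hsep v = max (v.ord x) 0 := by
  classical
  unfold zeroDiv
  rw [Finset.sum_apply']
  simp only [Finsupp.single_apply]
  rw [Finset.sum_ite_eq']
  have h := mem_zeros_iff_ord_pos hx hsep 0 v
  rw [map_zero, sub_zero] at h
  split_ifs with hv
  · have := h.mp hv
    omega
  · have : ¬ 0 < v.ord x := fun h' => hv (h.mpr h')
    omega

theorem poleDiv_apply (hx : IsFF K x) (hsep : Algebra.IsSeparable K⟮x⟯ F) (v : Place K F) :
    poleDiv hx hsep v = max (-v.ord x) 0 := by
  classical
  unfold poleDiv
  rw [Finset.sum_apply']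
  simp only [Finsupp.single_apply]
  rw [Finset.sum_ite_eq']
  have h := mem_poles_iff_ord_neg hx hsep v
  split_ifs with hv
  · have := h.mp hv
    omega
  · have : ¬ v.ord x < 0 := fun h' => hv (h.mpr h')
    omega

theorem degree_zeroDiv (hx : IsFF K x) (hsep : Algebra.IsSeparable K⟮x⟯ F) :
    Divisor.degree (zeroDiv hx hsep) = (Module.finrank K⟮x⟯ F : ℤ) := by
  unfold zeroDiv
  rw [map_sum]
  have h := sum_zeros hx hsep 0
  simp only [map_zero, sub_zero] at h
  rw [← h]
  refine Finset.sum_congr rfl fun v _ => ?_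
  rw [Divisor.degree_single, deg_eq_one hx v, Nat.cast_one, mul_one]

theorem degree_poleDiv (hx : IsFF K x) (hsep : Algebra.IsSeparable K⟮x⟯ F) :
    Divisor.degree (poleDiv hx hsep) = (Module.finrank K⟮x⟯ F : ℤ) := by
  unfold poleDiv
  rw [map_sum, ← sum_poles hx hsep]
  refine Finset.sum_congr rfl fun v _ => ?_
  rw [Divisor.degree_single, deg_eq_one hx v, Nat.cast_one, mul_one]

/-- the principal divisor of `x` -/
noncomputable def divOf (hx : IsFF K x) (hsep : Algebra.IsSeparable K⟮x⟯ F) : Divisor K F :=
  zeroDiv hx hsep - poleDiv hx hsep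

theorem divOf_apply (hx : IsFF K x) (hsep : Algebra.IsSeparable K⟮x⟯ F) (v : Place K F) :
    divOf hx hsep v = v.ord x := by
  unfold divOf
  rw [Finsupp.sub_apply, zeroDiv_apply, poleDiv_apply]
  omega

theorem degree_divOf (hx : IsFF K x) (hsep : Algebra.IsSeparable K⟮x⟯ F) :
    Divisor.degree (divOf hx hsep) = 0 := by
  unfold divOf
  rw [map_sub, degree_zeroDiv, degree_poleDiv, sub_self]

/-- the `HasPrincipalDivisors` shape for a separating element -/
theorem exists_divisor_of_sep (hx : IsFF K x) (hsep : Algebra.IsSeparable K⟮x⟯ F) :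
    ∃ D : Divisor K F, (∀ v : Place K F, D v = v.ord x) ∧ Divisor.degree D = 0 :=
  ⟨divOf hx hsep, divOf_apply hx hsep, degree_divOf hx hsep⟩

/-- the principal divisor of `x - a` -/
noncomputable def divSub (hx : IsFF K x) (hsep : Algebra.IsSeparable K⟮x⟯ F) (a : K) :
    Divisor K F :=
  divOf (hx.sub_algebraMap a) (isSeparable_sub hsep a)

theorem divSub_apply (hx : IsFF K x) (hsep : Algebra.IsSeparable K⟮x⟯ F) (a : K) (v : Place K F) :
    divSub hx hsep a v = v.ord (x - algebraMap K F a) :=
  divOf_apply _ _ v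

theorem degree_divSub (hx : IsFF K x) (hsep : Algebra.IsSeparable K⟮x⟯ F) (a : K) :
    Divisor.degree (divSub hx hsep a) = 0 :=
  degree_divOf _ _

omit [IsAlgClosed K] in
/-- the poles of `x - a` are the poles of `x`, with the same order -/
theorem ord_sub_of_ord_neg (v : Place K F) (a : K) (h : v.ord x < 0) :
    v.ord (x - algebraMap K F a) = v.ord x := by
  rcases eq_or_ne x 0 with rfl | hx0
  · simp at h
  have hxa : x - algebraMap K F a ≠ 0 := by
    intro h0
    rw [sub_eq_zero] at h0
    rw [h0, ord_algebraMap] at h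
    exact lt_irrefl _ h
  have h1 : 1 < v.adicValuation x := (ord_neg_iff v hx0).mp h
  have h2 : v.adicValuation (algebraMap K F a) ≤ 1 :=
    (Fermat.Agent.S24.Ord.mem_iff v _).mp (v.algebraMap_mem' a)
  have h3 : v.adicValuation (x - algebraMap K F a) = v.adicValuation x := by
    rw [sub_eq_add_neg]
    refine Valuation.map_add_eq_of_lt_left _ ?_
    rw [Valuation.map_neg]
    exact lt_of_le_of_lt h2 h1
  rw [ord_eq, ord_eq, h3]

/-! ### principal divisors of degree zero: closure properties, elements of `K(x)` -/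

/-- `f` has a principal divisor (as a `Finsupp`) of degree zero -/
def HasDivZero (K : Type w) {F : Type u} [Field K] [Field F] [Algebra K F] (f : F) : Prop :=
  ∃ D : Divisor K F, (∀ v : Place K F, D v = v.ord f) ∧ Divisor.degree D = 0

omit [IsAlgClosed K] in
theorem hasDivZero_algebraMap (c : K) : HasDivZero K (algebraMap K F c) :=
  ⟨0, fun v => by rw [Finsupp.zero_apply, ord_algebraMap], map_zero _⟩

omit [IsAlgClosed K] in
theorem hasDivZero_one : HasDivZero K (1 : F) :=
  ⟨0, fun v => by rw [Finsupp.zero_apply, Place.ord_one], map_zero _⟩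

omit [IsAlgClosed K] in
theorem HasDivZero.mul {f g : F} (hf : HasDivZero K f) (hg : HasDivZero K g) (hf0 : f ≠ 0)
    (hg0 : g ≠ 0) : HasDivZero K (f * g) := by
  obtain ⟨D, hD, hD0⟩ := hf
  obtain ⟨E, hE, hE0⟩ := hg
  exact ⟨D + E, fun v => by rw [Finsupp.add_apply, hD, hE, v.ord_mul hf0 hg0],
    by rw [map_add, hD0, hE0, add_zero]⟩

omit [IsAlgClosed K] in
theorem HasDivZero.inv {f : F} (hf : HasDivZero K f) : HasDivZero K f⁻¹ := by
  obtain ⟨D, hD, hD0⟩ := hf
  exact ⟨-D, fun v => by rw [Finsupp.neg_apply, hD, v.ord_inv], by rw [map_neg, hD0, neg_zero]⟩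

omit [IsAlgClosed K] in
theorem HasDivZero.div {f g : F} (hf : HasDivZero K f) (hg : HasDivZero K g) (hf0 : f ≠ 0)
    (hg0 : g ≠ 0) : HasDivZero K (f / g) := by
  rw [div_eq_mul_inv]
  exact hf.mul hg.inv hf0 (inv_ne_zero hg0)

omit [IsAlgClosed K] in
theorem hasDivZero_multiset_prod (s : Multiset F) (hs : ∀ f ∈ s, f ≠ 0 ∧ HasDivZero K f) :
    HasDivZero K s.prod := by
  induction s using Multiset.induction_on with
  | empty => simpa using hasDivZero_one (K := K) (F := F)
  | cons a s ih =>
    rw [Multiset.prod_cons]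
    have ha := hs a (Multiset.mem_cons_self a s)
    have hs' : ∀ f ∈ s, f ≠ 0 ∧ HasDivZero K f := fun f hf => hs f (Multiset.mem_cons_of_mem hf)
    refine ha.2.mul (ih hs') ha.1 ?_
    rw [Ne, Multiset.prod_eq_zero_iff]
    exact fun h0 => (hs' 0 h0).1 rfl

theorem hasDivZero_sub (hx : IsFF K x) (hsep : Algebra.IsSeparable K⟮x⟯ F) (a : K) :
    HasDivZero K (x - algebraMap K F a) :=
  ⟨divSub hx hsep a, divSub_apply hx hsep a, degree_divSub hx hsep a⟩

/-- polynomials in `x` have principal divisors of degree zero -/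
theorem hasDivZero_aeval (hx : IsFF K x) (hsep : Algebra.IsSeparable K⟮x⟯ F) {g : K[X]}
    (hg : g ≠ 0) : HasDivZero K (aeval x g) := by
  have hs := (IsAlgClosed.splits g).eq_prod_roots
  have hlc : g.leadingCoeff ≠ 0 := leadingCoeff_ne_zero.mpr hg
  rw [hs, map_mul, aeval_C, map_multiset_prod, Multiset.map_map]
  have hprod : HasDivZero K (Multiset.map (⇑(aeval x) ∘ fun a => X - C a) g.roots).prod := by
    refine hasDivZero_multiset_prod _ fun f hf => ?_
    rw [Multiset.mem_map] at hf
    obtain ⟨r, -, rfl⟩ := hf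
    simp only [Function.comp_apply, map_sub, aeval_X, aeval_C]
    exact ⟨sub_ne_zero.mpr (hx.ne_algebraMap r), hasDivZero_sub hx hsep r⟩
  refine (hasDivZero_algebraMap g.leadingCoeff).mul hprod
    ((map_ne_zero_iff _ (algebraMap K F).injective).mpr hlc) ?_
  rw [Ne, Multiset.prod_eq_zero_iff, Multiset.mem_map]
  rintro ⟨r, -, hr⟩
  simp only [Function.comp_apply, map_sub, aeval_X, aeval_C] at hr
  exact hx.ne_algebraMap r (sub_eq_zero.mp hr)

/-- nonzero elements of `K(x)` have principal divisors of degree zero -/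
theorem hasDivZero_of_mem_adjoin (hx : IsFF K x) (hsep : Algebra.IsSeparable K⟮x⟯ F) {f : F}
    (hf : f ∈ K⟮x⟯) (hf0 : f ≠ 0) : HasDivZero K f := by
  obtain ⟨r, s, hrs⟩ := (IntermediateField.mem_adjoin_simple_iff K f).mp hf
  have hr : r ≠ 0 := by
    rintro rfl
    rw [map_zero, zero_div] at hrs
    exact hf0 hrs
  have hs : s ≠ 0 := by
    rintro rfl
    rw [map_zero, div_zero] at hrs
    exact hf0 hrs
  have hr0 : aeval x r ≠ 0 := fun h0 => hf0 (by rw [hrs, h0, zero_div])
  have hs0 : aeval x s ≠ 0 := fun h0 => hf0 (by rw [hrs, h0, div_zero])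
  rw [hrs]
  exact (hasDivZero_aeval hx hsep hr).div (hasDivZero_aeval hx hsep hs) hr0 hs0

end

end Fermat.Agent.S18.A.FibreSep
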