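import Fermat.Agent.S18.A.SepElement
import Fermat.Agent.S18.A.FibreSep
import Fermat.Agent.S18.A.Instances

/-!
# PROJECT H (S18), block A, slice H-A1b (part 2): `HasPrincipalDivisors` in any characteristic

For an algebraically closed field `K` (any characteristic) and a function field `F/K` with a
separating element `x` (`hx : IsFF K x`, `hsep : Algebra.IsSeparable K⟮x⟯ F`), every nonzero
`f : F` has a principal divisor of degree zero:

* `hasPrincipalDivisors_of_charP` : characteristic `p` (`SepElement.hasPrincipalDivisors_of_sep`
  fed with `FibreSep.exists_divisor_of_sep`);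
* `hasPrincipalDivisors` : any characteristic (`Instances.hasPrincipalDivisors_of_charZero` in
  characteristic zero).
-/

set_option autoImplicit false
set_option linter.style.haveILetI false

namespace Fermat.Agent.S18.A.PrincipalDivisors

open AlgebraicCurve IntermediateField Fermat.Agent.S24.FF

universe u w

variable {K : Type w} {F : Type u} [Field K] [Field F] [Algebra K F] [IsAlgClosed K]

/-- **`HasPrincipalDivisors` in characteristic `p`**, for a function field with a separating
element. -/
theorem hasPrincipalDivisors_of_charP (p : ℕ) [Fact p.Prime] [CharP K p] [CharP F p] {x : F}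
    (hx : IsFF K x) (hsep : Algebra.IsSeparable K⟮x⟯ F) : HasPrincipalDivisors K F :=
  SepElement.hasPrincipalDivisors_of_sep p hx hsep
    fun _ hg hs => FibreSep.exists_divisor_of_sep hg hs

/-- **`HasPrincipalDivisors` in any characteristic**, for a function field with a separating
element. -/
theorem hasPrincipalDivisors {x : F} (hx : IsFF K x) (hsep : Algebra.IsSeparable K⟮x⟯ F) :
    HasPrincipalDivisors K F := by
  obtain ⟨p, hp⟩ := CharP.exists K
  rcases CharP.char_is_prime_or_zero K p with hprime | rfl
  · haveI : Fact p.Prime := ⟨hprime⟩
    haveI : CharP F p := charP_of_injective_algebraMap (algebraMap K F).injective p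
    exact hasPrincipalDivisors_of_charP p hx hsep
  · haveI : CharZero K := CharP.charP_to_charZero K
    exact Instances.hasPrincipalDivisors_of_charZero hx

/-- principal divisors have degree zero -/
theorem degree_eq_zero_of_ord {x : F} (hx : IsFF K x) (hsep : Algebra.IsSeparable K⟮x⟯ F)
    {f : F} (hf : f ≠ 0) (D : Divisor K F) (hD : ∀ v : Place K F, D v = v.ord f) :
    Divisor.degree D = 0 := by
  haveI := hasPrincipalDivisors hx hsep
  obtain ⟨D', hD', h0⟩ := HasPrincipalDivisors.exists_divisor (K := K) f hf
  have : D = D' := by
    ext v
    rw [hD, hD']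
  rw [this, h0]

/-- the support of the divisor of a nonzero function is finite -/
theorem finite_ord_ne_zero {x : F} (hx : IsFF K x) (hsep : Algebra.IsSeparable K⟮x⟯ F)
    {f : F} (hf : f ≠ 0) : {v : Place K F | v.ord f ≠ 0}.Finite := by
  haveI := hasPrincipalDivisors hx hsep
  obtain ⟨D, hD, -⟩ := HasPrincipalDivisors.exists_divisor (K := K) f hf
  refine D.support.finite_toSet.subset fun v hv => ?_
  rw [Finset.mem_coe, Finsupp.mem_support_iff, hD]
  exact hv

end Fermat.Agent.S18.A.PrincipalDivisors
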