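import Fermat.Agent.S18.A.RiemannBasic
import Fermat.Agent.S18.A.Defs
import Fermat.Agent.S18.NonSpecial
import Fermat.Agent.S18.CoreDefs

/-!
# PROJECT H (S18), block A, slice H-A3: Riemann's theorem in abstract form

On top of the elementary layer `A/RiemannBasic.lean` (its `ell`, `ell_add_single_le`, `finite_rr`,
`ell_add_div`, `ell_zero`).  Standing hypotheses: principal divisors exist and have degree zero,
all places have degree one.

* `deg_sub_ell_mono` : the defect `deg D - ell D` is monotone in `D`.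
* `IsRiemannGenus K F γ` : finiteness, Riemann's inequality `deg D + 1 - γ ≤ ell D` for all `D`,
  equality for all `D` of large degree.
* `isRiemannGenus_of_attained` : inequality everywhere + equality once.
* `riemann` : from the count `ell (r • B) = r * deg B + 1 - γ` for all `r ≥ r0` (`r : ℤ`).
* `riemann_of_sum_count` : from the Dedekind-Weber count `ell (r • B) = ∑ i, max 0 (r - d i + 1)`.
* `exists_isRiemannGenus`, `exists_riemannHyp` : from a lower bound
  `deg (r • B) + 1 - c ≤ ell (r • B)` (`r : ℕ`) only.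
* adapters to `NonSpecial.RiemannHyp`, `Defs.RiemannHyp`, `CoreDefs.RiemannGe`.

NOTE: this file supersedes `A/Riemann.lean`, `A/RiemannAdapter.lean`, `A/RiemannExists.lean`
(same mathematics, but those three use the namespace of `A/RiemannBasic.lean` for their own copy of
the elementary layer and must not be imported together with it).
-/

set_option autoImplicit false

namespace Fermat.Agent.S18.A.RiemannThm

open AlgebraicCurve Fermat.Agent.S18.A.Riemann

universe u w

variable {K : Type w} {F : Type u} [Field K] [Field F] [Algebra K F]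

theorem ell_eq_nonSpecial (D : Divisor K F) :
    Fermat.Agent.S18.NonSpecial.ell D = ell D := rfl

theorem ell_eq_defs (D : Divisor K F) :
    Fermat.Agent.S18.A.Defs.ell D = ell D := rfl

theorem ell_sub_div {D E : Divisor K F} {f : F} (hf : f ≠ 0)
    (hE : ∀ v : Place K F, E v = v.ord f) : ell (D - E) = ell D := by
  have := ell_add_div (D := D - E) hf hE
  rwa [sub_add_cancel, eq_comm] at this

theorem degree_mono {D D' : Divisor K F} (h : D ≤ D') :
    Divisor.degree D ≤ Divisor.degree D' := by
  have h0 : 0 ≤ D' - D := sub_nonneg.mpr h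
  have := degree_nonneg h0
  rw [map_sub] at this
  linarith

theorem deg_sub_ell_mono_aux (hdeg : ∀ v : Place K F, v.deg = 1)
    (hfin : ∀ D : Divisor K F, Module.Finite K (riemannRochSpace D)) (n : ℕ) :
    ∀ D D' : Divisor K F, D ≤ D' → Divisor.degree D' - Divisor.degree D = n →
      Divisor.degree D - ell D ≤ Divisor.degree D' - ell D' := by
  induction n with
  | zero =>
    intro D D' h hn
    have h0 : D' - D = 0 := eq_zero_of_degree_eq_zero hdeg (sub_nonneg.mpr h)
      (by rw [map_sub]; simpa using hn)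
    rw [sub_eq_zero.mp h0]
  | succ n ih =>
    intro D D' h hn
    have hne : D' - D ≠ 0 := by
      intro h0
      rw [sub_eq_zero.mp h0] at hn
      push_cast at hn
      omega
    obtain ⟨v, hv⟩ : ∃ v, (D' - D) v ≠ 0 := by
      by_contra hall
      push Not at hall
      exact hne (Finsupp.ext hall)
    have hvpos : D v + 1 ≤ D' v := by
      have h1 := h v
      rw [Finsupp.sub_apply] at hv
      omega
    have hle : D + Finsupp.single v 1 ≤ D' := by
      intro w
      classical
      simp only [Finsupp.add_apply, Finsupp.single_apply]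
      split_ifs with hw
      · subst hw; exact hvpos
      · simpa using h w
    have hdeg1 : Divisor.degree (D + Finsupp.single v 1) = Divisor.degree D + 1 := by
      rw [map_add, Divisor.degree_single, hdeg v]; simp
    have h2 := ih (D + Finsupp.single v 1) D' hle (by rw [hdeg1]; push_cast at hn; omega)
    haveI := hfin D
    have h3 := ell_add_single_le D v (hdeg v)
    rw [hdeg1] at h2
    omega

/-- The defect `deg D - ell D` is monotone. -/
theorem deg_sub_ell_mono (hdeg : ∀ v : Place K F, v.deg = 1)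
    (hfin : ∀ D : Divisor K F, Module.Finite K (riemannRochSpace D))
    {D D' : Divisor K F} (h : D ≤ D') :
    Divisor.degree D - ell D ≤ Divisor.degree D' - ell D' := by
  have h0 := degree_mono h
  exact deg_sub_ell_mono_aux hdeg hfin (Divisor.degree D' - Divisor.degree D).toNat D D' h
    (by rw [Int.toNat_of_nonneg (by omega)])

theorem exists_ne_zero_mem_of_ell_pos {D : Divisor K F} (h : 0 < ell D) :
    ∃ f : F, f ≠ 0 ∧ f ∈ riemannRochSpace D := by
  unfold ell at h
  have := Module.finite_of_finrank_pos h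
  rw [Module.finrank_pos_iff_exists_ne_zero] at h
  obtain ⟨⟨f, hf⟩, hne⟩ := h
  exact ⟨f, fun h0 => hne (Subtype.ext h0), hf⟩

/-- `γ` is a Riemann genus of `F / K`. -/
structure IsRiemannGenus (K : Type w) (F : Type u) [Field K] [Field F] [Algebra K F] (γ : ℤ) :
    Prop where
  finite : ∀ D : Divisor K F, Module.Finite K (riemannRochSpace D)
  ineq : ∀ D : Divisor K F, Divisor.degree D + 1 - γ ≤ ell D
  sharp : ∃ c : ℤ, ∀ D : Divisor K F, c ≤ Divisor.degree D →
    (ell D : ℤ) = Divisor.degree D + 1 - γ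

/-- If the Riemann inequality with constant `γ` holds for all divisors and is an equality for one
divisor, then it is an equality for all divisors of large degree. -/
theorem isRiemannGenus_of_attained [HasPrincipalDivisors K F]
    (hdeg : ∀ v : Place K F, v.deg = 1)
    (hfin : ∀ D : Divisor K F, Module.Finite K (riemannRochSpace D)) (γ : ℤ)
    (hineq : ∀ D : Divisor K F, Divisor.degree D + 1 - γ ≤ ell D) (D₀ : Divisor K F)
    (h₀ : (ell D₀ : ℤ) = Divisor.degree D₀ + 1 - γ) : IsRiemannGenus K F γ := by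
  refine ⟨hfin, hineq, Divisor.degree D₀ + γ, fun D hD => ?_⟩
  refine le_antisymm ?_ (hineq D)
  have h1 := hineq (D - D₀)
  rw [map_sub] at h1
  have hpos : 0 < ell (D - D₀) := by
    have : (0 : ℤ) < ell (D - D₀) := by omega
    exact_mod_cast this
  obtain ⟨z, hz0, hz⟩ := exists_ne_zero_mem_of_ell_pos hpos
  obtain ⟨E, hE, hE0⟩ := HasPrincipalDivisors.exists_divisor (K := K) z hz0
  have hD' : D₀ ≤ D + E := by
    intro v
    have := (mem_iff_of_ne_zero hz0).mp hz v
    simp only [Finsupp.sub_apply, Finsupp.add_apply, hE v] at this ⊢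
    omega
  have hell : ell (D + E) = ell D := ell_add_div hz0 hE
  have hm := deg_sub_ell_mono hdeg hfin hD'
  rw [map_add, hE0, hell] at hm
  omega

/-- From a lower bound for the multiples of one divisor of positive degree to the Riemann
inequality (with the same constant) for all divisors. -/
theorem defect_le_of_lower [HasPrincipalDivisors K F] (hdeg : ∀ v : Place K F, v.deg = 1)
    (hfin : ∀ D : Divisor K F, Module.Finite K (riemannRochSpace D))
    (B : Divisor K F) (hBpos : 0 < Divisor.degree B) (c : ℤ)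
    (hlow : ∀ r : ℕ, Divisor.degree (r • B) + 1 - c ≤ (ell (r • B) : ℤ)) (D : Divisor K F) :
    Divisor.degree D + 1 - c ≤ ell D := by
  set n := Divisor.degree B with hn
  have hdegr : ∀ r : ℕ, Divisor.degree (r • B) = r * n := fun r => by
    rw [map_nsmul, nsmul_eq_mul]
  obtain ⟨P, hP0, hPD⟩ : ∃ P : Divisor K F, 0 ≤ P ∧ D ≤ P := ⟨D ⊔ 0, le_sup_right, le_sup_left⟩
  obtain ⟨r, hr⟩ : ∃ r : ℕ, c + Divisor.degree P ≤ r * n := by
    refine ⟨(c + Divisor.degree P).toNat, ?_⟩
    have h1 : c + Divisor.degree P ≤ ((c + Divisor.degree P).toNat : ℤ) := Int.self_le_toNat _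
    have h2 : (0 : ℤ) ≤ ((c + Divisor.degree P).toNat : ℤ) := Int.natCast_nonneg _
    nlinarith
  have hm := deg_sub_ell_mono hdeg hfin (D := r • B - P) (D' := r • B) (sub_le_self _ hP0)
  have hl := hlow r
  rw [map_sub, hdegr] at hm
  rw [hdegr] at hl
  have hpos : 0 < ell (r • B - P) := by
    have : (0 : ℤ) < ell (r • B - P) := by omega
    exact_mod_cast this
  obtain ⟨f, hf0, hf⟩ := exists_ne_zero_mem_of_ell_pos hpos
  have hf' : f ∈ riemannRochSpace (r • B - D) := rr_mono (sub_le_sub_left hPD _) hf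
  obtain ⟨E, hE, hE0⟩ := HasPrincipalDivisors.exists_divisor (K := K) f hf0
  have hD' : D - E ≤ r • B := by
    intro v
    have := (mem_iff_of_ne_zero hf0).mp hf' v
    simp only [Finsupp.sub_apply, hE v] at this ⊢
    omega
  have hell : ell (D - E) = ell D := ell_sub_div hf0 hE
  have hm2 := deg_sub_ell_mono hdeg hfin hD'
  rw [map_sub, hE0, hdegr, hell] at hm2
  omega

theorem nonempty_place_of_degree_pos {B : Divisor K F} (hBpos : 0 < Divisor.degree B) :
    Nonempty (Place K F) := by
  by_contra hemp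
  rw [not_nonempty_iff] at hemp
  have : B = 0 := Finsupp.ext fun v => (hemp.false v).elim
  rw [this, map_zero] at hBpos
  exact lt_irrefl _ hBpos

namespace IsRiemannGenus

variable {γ : ℤ}

theorem nonneg [HasPrincipalDivisors K F] (hdeg : ∀ v : Place K F, v.deg = 1)
    [Nonempty (Place K F)] (h : IsRiemannGenus K F γ) : 0 ≤ γ := by
  have h1 := h.ineq 0
  rw [map_zero, ell_zero hdeg] at h1
  push_cast at h1
  omega

/-- every divisor of degree `≥ γ` has a nonzero section -/
theorem exists_ne_zero_mem (h : IsRiemannGenus K F γ) {D : Divisor K F}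
    (hD : γ ≤ Divisor.degree D) : ∃ f : F, f ≠ 0 ∧ f ∈ riemannRochSpace D := by
  apply exists_ne_zero_mem_of_ell_pos
  have h1 := h.ineq D
  have : (0 : ℤ) < ell D := by omega
  exact_mod_cast this

/-- block D's form of Riemann's inequality -/
theorem riemannGe (h : IsRiemannGenus K F γ) (g : ℕ) (hg : γ ≤ g) :
    Fermat.Agent.S18.CoreDefs.RiemannGe K F g :=
  fun _ hD => h.exists_ne_zero_mem (hg.trans hD)

/-- the Riemann genus is unique -/
theorem unique (hdeg : ∀ v : Place K F, v.deg = 1) [Nonempty (Place K F)] {γ' : ℤ}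
    (h : IsRiemannGenus K F γ) (h' : IsRiemannGenus K F γ') : γ = γ' := by
  obtain ⟨v0⟩ := ‹Nonempty (Place K F)›
  obtain ⟨c, hc⟩ := h.sharp
  obtain ⟨c', hc'⟩ := h'.sharp
  have hd : Divisor.degree (Finsupp.single v0 (max c c')) = max c c' := by
    rw [Divisor.degree_single, hdeg v0]; simp
  have h1 := hc (Finsupp.single v0 (max c c')) (by rw [hd]; exact le_max_left _ _)
  have h2 := hc' (Finsupp.single v0 (max c c')) (by rw [hd]; exact le_max_right _ _)
  omega

/-- comparison: a Riemann inequality with constant `g` for all divisors forces `γ ≤ g` -/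
theorem le_of_forall_le (hdeg : ∀ v : Place K F, v.deg = 1) [Nonempty (Place K F)] {g : ℤ}
    (h : IsRiemannGenus K F γ) (hg : ∀ D : Divisor K F, Divisor.degree D + 1 - g ≤ ell D) :
    γ ≤ g := by
  obtain ⟨v0⟩ := ‹Nonempty (Place K F)›
  obtain ⟨c, hc⟩ := h.sharp
  have hd : Divisor.degree (Finsupp.single v0 c) = c := by
    rw [Divisor.degree_single, hdeg v0]; simp
  have h1 := hc (Finsupp.single v0 c) (by rw [hd])
  have h2 := hg (Finsupp.single v0 c)
  omega

/-- helper3's interface -/
theorem riemannHyp_nonSpecial [HasPrincipalDivisors K F] (hdeg : ∀ v : Place K F, v.deg = 1)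
    (hinf : Infinite (Place K F)) (h : IsRiemannGenus K F γ) :
    Fermat.Agent.S18.NonSpecial.RiemannHyp K F γ.toNat := by
  have hγ : ((γ.toNat : ℕ) : ℤ) = γ := Int.toNat_of_nonneg (h.nonneg hdeg)
  refine ⟨h.finite, ?_, ?_, hdeg, hinf⟩
  · rw [ell_eq_nonSpecial]
    exact ell_zero hdeg
  · obtain ⟨c, hc⟩ := h.sharp
    refine ⟨c, fun D hD => ?_⟩
    rw [ell_eq_nonSpecial, hγ]
    exact hc D hD

/-- the block A interface -/
theorem riemannHyp_defs [HasPrincipalDivisors K F] (hdeg : ∀ v : Place K F, v.deg = 1)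
    (hinf : Infinite (Place K F)) (h : IsRiemannGenus K F γ) :
    Fermat.Agent.S18.A.Defs.RiemannHyp K F γ.toNat := by
  have hγ : ((γ.toNat : ℕ) : ℤ) = γ := Int.toNat_of_nonneg (h.nonneg hdeg)
  refine ⟨h.finite, ?_, ?_, ?_, hdeg, hinf⟩
  · rw [ell_eq_defs]
    exact ell_zero hdeg
  · intro D
    rw [ell_eq_defs, hγ]
    exact h.ineq D
  · obtain ⟨c, hc⟩ := h.sharp
    refine ⟨c, fun D hD => ?_⟩
    rw [ell_eq_defs, hγ]
    exact hc D hD

end IsRiemannGenus

/-- conversely, the block A interface shape gives `IsRiemannGenus` -/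
theorem isRiemannGenus_of_defs {g : ℕ} (h : Fermat.Agent.S18.A.Defs.RiemannHyp K F g) :
    IsRiemannGenus K F g :=
  ⟨h.finite, h.riemann_ineq, h.riemann_eq⟩

/-- conversely, helper3's interface shape gives `IsRiemannGenus` -/
theorem isRiemannGenus_of_nonSpecial {g : ℕ}
    (h : Fermat.Agent.S18.NonSpecial.RiemannHyp K F g) : IsRiemannGenus K F g :=
  ⟨h.finite, Fermat.Agent.S18.NonSpecial.riemann_ineq h, h.riemann_eq⟩

/-- the Riemann genus is unique (interface form) -/
theorem genus_unique {g g' : ℕ} (h : Fermat.Agent.S18.NonSpecial.RiemannHyp K F g)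
    (h' : Fermat.Agent.S18.NonSpecial.RiemannHyp K F g') : g = g' := by
  have := h.infinite
  have := (isRiemannGenus_of_nonSpecial h).unique h.deg_one (isRiemannGenus_of_nonSpecial h')
  exact_mod_cast this

/-- **Riemann's theorem**, from an exact count for the multiples of one divisor. -/
theorem riemann [HasPrincipalDivisors K F] (hdeg : ∀ v : Place K F, v.deg = 1)
    (B : Divisor K F) (hBpos : 0 < Divisor.degree B) (γ r0 : ℤ)
    (hcount : ∀ r : ℤ, r0 ≤ r → (ell (r • B) : ℤ) = r * Divisor.degree B + 1 - γ) :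
    IsRiemannGenus K F γ := by
  haveI := nonempty_place_of_degree_pos hBpos
  have hfin : ∀ D : Divisor K F, Module.Finite K (riemannRochSpace D) := finite_rr hdeg
  -- the count at natural multiples
  have hnat : ∀ r : ℕ, r0 ≤ (r : ℤ) →
      (ell (r • B) : ℤ) = Divisor.degree (r • B) + 1 - γ := fun r hr => by
    have := hcount r hr
    rw [natCast_zsmul] at this
    rw [this, map_nsmul, nsmul_eq_mul]
  -- lower bound with a possibly bigger constant, for all natural `r`
  have hineq : ∀ D : Divisor K F, Divisor.degree D + 1 - γ ≤ ell D := by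
    -- use the multiples of `B' = m • B` shifted: simplest is to bound via monotonicity
    intro D
    obtain ⟨P, hP0, hPD⟩ : ∃ P : Divisor K F, 0 ≤ P ∧ D ≤ P := ⟨D ⊔ 0, le_sup_right, le_sup_left⟩
    obtain ⟨r, hr0, hr⟩ : ∃ r : ℕ, r0 ≤ (r : ℤ) ∧ γ + Divisor.degree P ≤ r * Divisor.degree B := by
      refine ⟨(max r0 (γ + Divisor.degree P)).toNat, ?_, ?_⟩
      · exact (le_max_left _ _).trans (Int.self_le_toNat _)
      · have h1 : γ + Divisor.degree P ≤ ((max r0 (γ + Divisor.degree P)).toNat : ℤ) :=
          (le_max_right _ _).trans (Int.self_le_toNat _)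
        have h2 : (0 : ℤ) ≤ ((max r0 (γ + Divisor.degree P)).toNat : ℤ) := Int.natCast_nonneg _
        nlinarith
    have hdegr : Divisor.degree (r • B) = r * Divisor.degree B := by
      rw [map_nsmul, nsmul_eq_mul]
    have hm := deg_sub_ell_mono hdeg hfin (D := r • B - P) (D' := r • B) (sub_le_self _ hP0)
    have hl := hnat r hr0
    rw [map_sub] at hm
    have hpos : 0 < ell (r • B - P) := by
      have : (0 : ℤ) < ell (r • B - P) := by omega
      exact_mod_cast this
    obtain ⟨f, hf0, hf⟩ := exists_ne_zero_mem_of_ell_pos hpos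
    have hf' : f ∈ riemannRochSpace (r • B - D) := rr_mono (sub_le_sub_left hPD _) hf
    obtain ⟨E, hE, hE0⟩ := HasPrincipalDivisors.exists_divisor (K := K) f hf0
    have hD' : D - E ≤ r • B := by
      intro v
      have := (mem_iff_of_ne_zero hf0).mp hf' v
      simp only [Finsupp.sub_apply, hE v] at this ⊢
      omega
    have hell : ell (D - E) = ell D := ell_sub_div hf0 hE
    have hm2 := deg_sub_ell_mono hdeg hfin hD'
    rw [map_sub, hE0, hell] at hm2
    omega
  exact isRiemannGenus_of_attained hdeg hfin γ hineq (r0.toNat • B)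
    (hnat r0.toNat (Int.self_le_toNat _))

/-- Riemann's theorem from the Dedekind-Weber count
`ell (r • B) = ∑ i, max 0 (r - d i + 1)`. -/
theorem riemann_of_sum_count [HasPrincipalDivisors K F] (hdeg : ∀ v : Place K F, v.deg = 1)
    {ι : Type*} [Fintype ι] (B : Divisor K F) (hB : Divisor.degree B = Fintype.card ι)
    (hι : Nonempty ι) (d : ι → ℤ) (r0 : ℤ)
    (hcount : ∀ r : ℤ, r0 ≤ r → (ell (r • B) : ℤ) = ∑ i, max 0 (r - d i + 1)) :
    IsRiemannGenus K F (1 - Fintype.card ι + ∑ i, d i) := by
  have hpos : 0 < Divisor.degree B := by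
    rw [hB]
    exact_mod_cast Fintype.card_pos
  refine riemann hdeg B hpos _ (max r0 (∑ i, |d i|)) fun r hr => ?_
  rw [hcount r ((le_max_left _ _).trans hr)]
  have hr2 : ∀ i, d i ≤ r := fun i => by
    have h1 : |d i| ≤ ∑ j, |d j| :=
      Finset.single_le_sum (f := fun j => |d j|) (fun j _ => abs_nonneg _) (Finset.mem_univ i)
    have h2 := le_abs_self (d i)
    have h3 := (le_max_right r0 (∑ i, |d i|)).trans hr
    omega
  have : ∀ i, max 0 (r - d i + 1) = r - d i + 1 := fun i => max_eq_right (by have := hr2 i; omega)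
  simp only [this]
  rw [Finset.sum_add_distrib, Finset.sum_sub_distrib, hB]
  simp only [Finset.sum_const, Finset.card_univ, nsmul_eq_mul, mul_one]
  ring

/-- **Existence of the Riemann genus** from a lower bound for the multiples of one divisor. -/
theorem exists_isRiemannGenus [HasPrincipalDivisors K F] (hdeg : ∀ v : Place K F, v.deg = 1)
    (B : Divisor K F) (hBpos : 0 < Divisor.degree B)
    (hlow : ∃ c : ℤ, ∀ r : ℕ, Divisor.degree (r • B) + 1 - c ≤ (ell (r • B) : ℤ)) :
    ∃ γ : ℤ, 0 ≤ γ ∧ IsRiemannGenus K F γ := by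
  haveI := nonempty_place_of_degree_pos hBpos
  have hfin : ∀ D : Divisor K F, Module.Finite K (riemannRochSpace D) := finite_rr hdeg
  obtain ⟨c, hc⟩ := hlow
  have hbd := defect_le_of_lower hdeg hfin B hBpos c hc
  obtain ⟨γ, ⟨D₀, hD₀⟩, hmax⟩ := Int.exists_greatest_of_bdd
    (P := fun m : ℤ => ∃ D : Divisor K F, m = Divisor.degree D + 1 - ell D)
    ⟨c, by rintro z ⟨D, rfl⟩; have := hbd D; omega⟩ ⟨_, 0, rfl⟩
  have hineq : ∀ D : Divisor K F, Divisor.degree D + 1 - γ ≤ ell D := fun D => by
    have := hmax _ ⟨D, rfl⟩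
    omega
  have h := isRiemannGenus_of_attained hdeg hfin γ hineq D₀ (by omega)
  exact ⟨γ, h.nonneg hdeg, h⟩

/-- Slice H-A3 in the shape of the block A DAG. -/
theorem exists_riemannHyp [HasPrincipalDivisors K F] (hdeg : ∀ v : Place K F, v.deg = 1)
    (hinf : Infinite (Place K F)) (Dinf : Divisor K F) (hpos : 0 < Divisor.degree Dinf)
    (hlow : ∃ c : ℤ, ∀ r : ℕ, Divisor.degree (r • Dinf) + 1 - c ≤ (ell (r • Dinf) : ℤ)) :
    ∃ g : ℕ, Fermat.Agent.S18.NonSpecial.RiemannHyp K F g ∧
      ∃ r0 : ℕ, ∀ r : ℕ, r0 ≤ r →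
        (ell (r • Dinf) : ℤ) = Divisor.degree (r • Dinf) + 1 - g := by
  obtain ⟨γ, hγ, h⟩ := exists_isRiemannGenus hdeg Dinf hpos hlow
  have hγ' : ((γ.toNat : ℕ) : ℤ) = γ := Int.toNat_of_nonneg hγ
  refine ⟨γ.toNat, h.riemannHyp_nonSpecial hdeg hinf, ?_⟩
  obtain ⟨c, hc⟩ := h.sharp
  refine ⟨c.toNat, fun r hr => ?_⟩
  rw [hγ']
  apply hc
  rw [map_nsmul, nsmul_eq_mul]
  have h1 : c ≤ (c.toNat : ℤ) := Int.self_le_toNat _
  have h2 : ((c.toNat : ℕ) : ℤ) ≤ r := by exact_mod_cast hr
  have h3 : (0 : ℤ) ≤ r := Int.natCast_nonneg _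
  nlinarith

end Fermat.Agent.S18.A.RiemannThm
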