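import Mathlib
import Fermat.Agent.S18.A.RiemannX1
import Fermat.Agent.S18.A.PrincipalDivisors
import Fermat.Agent.S18.B.FkBasics

/-!
# PROJECT H (S18), block A: Riemann's theorem for `F_k = k(X₀(N))` (contract X1 for `F_k`)

For an algebraically closed field `k` and a separability hypothesis `hsep` for `F_k / k(j̄)`
(slice H-B3), `exists_riemannHyp_Fk` gives a Riemann genus `g` of `F_k` together with the count
`ℓ(r (j̄)_∞) = r n + 1 - g` for all large `r`.  `exists_riemannHyp_FL` is the twin for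
`F_L = ℚ̄(X₀(N))` (a restatement of `RiemannX1.exists_riemannHyp_bar`).
-/

set_option autoImplicit false

namespace Fermat.Agent.S18.A.RiemannFk

open AlgebraicCurve IntermediateField ModularCurve Fermat.Agent.S18.A.Riemann
  Fermat.Agent.S18.A.FibreSep Fermat.Agent.S18.B.FkBasics

/-- **Riemann's theorem for `F_k`** (contract X1 for `F_k`). -/
theorem exists_riemannHyp_Fk (k : Type*) [Field k] [IsAlgClosed k] (N : ℕ) [NeZero N]
    (hsep : Algebra.IsSeparable k⟮jk k N⟯ (modularFunctionFieldFullC k N)) :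
    ∃ g : ℕ, Fermat.Agent.S18.NonSpecial.RiemannHyp k (modularFunctionFieldFullC k N) g ∧
      ∃ r0 : ℕ, ∀ r : ℕ, r0 ≤ r →
        (ell (r • poleDiv (isFF k N) hsep) : ℤ) =
          (r : ℤ) * (Module.finrank k⟮jk k N⟯ (modularFunctionFieldFullC k N) : ℤ) + 1 - g := by
  haveI := Fermat.Agent.S18.A.PrincipalDivisors.hasPrincipalDivisors (isFF k N) hsep
  exact Fermat.Agent.S18.A.RiemannX1.exists_riemannHyp_of_sep (isFF k N) hsep

/-- the existence part only -/
theorem exists_riemannHyp_Fk' (k : Type*) [Field k] [IsAlgClosed k] (N : ℕ) [NeZero N]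
    (hsep : Algebra.IsSeparable k⟮jk k N⟯ (modularFunctionFieldFullC k N)) :
    ∃ g : ℕ, Fermat.Agent.S18.NonSpecial.RiemannHyp k (modularFunctionFieldFullC k N) g := by
  obtain ⟨g, hg, -⟩ := exists_riemannHyp_Fk k N hsep
  exact ⟨g, hg⟩

/-- **Riemann's theorem for `F_L = ℚ̄(X₀(N))`**, existence part. -/
theorem exists_riemannHyp_FL (N : ℕ) [NeZero N] :
    ∃ g : ℕ, Fermat.Agent.S18.NonSpecial.RiemannHyp (AlgebraicClosure ℚ)
      (modularFunctionFieldBar N) g := by
  obtain ⟨g, hg, -⟩ := Fermat.Agent.S18.A.RiemannX1.exists_riemannHyp_bar N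
  exact ⟨g, hg⟩

end Fermat.Agent.S18.A.RiemannFk
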