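/-
PROJECT H (S18), slice H-A10 (helper3): different exponents versus ramification, in PLACE language.

Setting: `[IsAlgClosed K]`, `hx : IsFF K x`, `hsep : Algebra.IsSeparable K⟮x⟯ F` (ANY characteristic),
`Defs.diffExp hx hsep Q` = the different exponent `d_Q` of `F/K(x)` at the place `Q`.

Abstract AKLB layer (`A K L B` as in Mathlib's `Different` file, `[Algebra.IsSeparable K L]`):
* `isSeparable_fractionRing_aux`    : the `FractionRing` form of separability;
* `differentIdeal_ne_bot_aux`       : `differentIdeal A B ≠ ⊥`;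
* `pow_dvd_differentIdeal_iff`      : `P ^ n ∣ differentIdeal A B ↔ n ≤ Defs.diffExpAt A P`;
* `sub_one_le_diffExpAt`            : `P ^ e ∣ p B → e - 1 ≤ d_P`;
* `finite_diffExpAt_ne_zero`        : `{P | d_P ≠ 0}` is finite;
* `diffExpAt_eq_of_tame`, `diffExpAt_eq_of_tame_of_residue` : `d_P = e - 1` in the tame case
  (via `S18.Different.Tame`).

Place language (the deliverables):
* `sub_one_le_diffExp_zero hx hsep a (hQa : Q.adicValuation (x - a) < 1) : Q.ord (x - a) - 1 ≤ d_Q`;
* `sub_one_le_diffExp_pole hx hsep (hQ : 1 < Q.adicValuation x) : -Q.ord x - 1 ≤ d_Q`;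
* `diffExp_eq_of_tame_zero` / `_pole`     : equality if `((ord : ℤ) : K) ≠ 0`;
* `diffExp_eq_of_not_dvd_zero` / `_pole`  : the same for `[CharP K p]`, `¬ (p : ℤ) ∣ ord`;
* `diffExp_eq_of_charZero_zero` / `_pole` : the same for `[CharZero K]`;
* `diffExp_eq_zero_of_ord_eq_one`, `diffExp_eq_zero_of_ord_eq_neg_one` : unramified places;
* `finite_diffExp_ne_zero` : `{Q | d_Q ≠ 0}` is finite.
-/
import Mathlib
import Fermat.Agent.S18.A.Defs
import Fermat.Agent.S18.Different.Tame

set_option autoImplicit false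
set_option linter.unusedSectionVars false
set_option linter.overlappingInstances false

namespace Fermat.Agent.S18.A.DiffLower

open AlgebraicCurve IsDedekindDomain IntermediateField WithZero
  Fermat.Agent.S24.PlacePrime Fermat.Agent.S24.FF Fermat.Agent.S24.Ord Fermat.Agent.S24.Fibre
  Fermat.Agent.S18.A.Defs
open scoped IntermediateField.algebraAdjoinAdjoin nonZeroDivisors

attribute [local instance] FractionRing.liftAlgebra FractionRing.isScalarTower_liftAlgebra

/-! ### abstract AKLB part -/

section Abstract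

variable (A K L : Type*) {B : Type*} [CommRing A] [Field K] [CommRing B] [Field L]
  [Algebra A K] [Algebra B L] [Algebra A B] [Algebra K L] [Algebra A L]
  [IsScalarTower A K L] [IsScalarTower A B L]
  [IsFractionRing A K] [FiniteDimensional K L] [Algebra.IsSeparable K L]
  [IsIntegralClosure B A L] [IsFractionRing B L] [IsDedekindDomain A] [IsDedekindDomain B]
  [Module.IsTorsionFree A B] [Module.Finite A B]

include K L in
/-- separability of `L/K` in the `FractionRing` form used by Mathlib's `Different` file -/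
theorem isSeparable_fractionRing_aux :
    Algebra.IsSeparable (FractionRing A) (FractionRing B) := by
  have H : RingHom.comp (algebraMap (FractionRing A) (FractionRing B))
      ↑(FractionRing.algEquiv A K).symm.toRingEquiv =
        RingHom.comp ↑(FractionRing.algEquiv B L).symm.toRingEquiv (algebraMap K L) := by
    apply IsLocalization.ringHom_ext A⁰
    ext
    simp only [RingHom.coe_comp, RingHom.coe_coe,
      AlgEquiv.coe_ringEquiv, Function.comp_apply, AlgEquiv.commutes,
      ← IsScalarTower.algebraMap_apply]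
    rw [IsScalarTower.algebraMap_apply A B L, AlgEquiv.commutes, ← IsScalarTower.algebraMap_apply]
  exact Algebra.IsSeparable.of_equiv_equiv _ _ H

include K L in
theorem differentIdeal_ne_bot_aux : differentIdeal A B ≠ ⊥ := by
  have := isSeparable_fractionRing_aux A K L (B := B)
  exact differentIdeal_ne_bot

include K L in
/-- `P ^ n ∣ 𝔇_{B/A} ↔ n ≤ d_P` -/
theorem pow_dvd_differentIdeal_iff (P : HeightOneSpectrum B) (n : ℕ) :
    P.asIdeal ^ n ∣ differentIdeal A B ↔ n ≤ diffExpAt A P := by
  have h0 : Associates.mk (differentIdeal A B) ≠ 0 := by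
    rw [Associates.mk_ne_zero]
    exact differentIdeal_ne_bot_aux A K L
  unfold diffExpAt
  rw [← Associates.prime_pow_dvd_iff_le h0 P.associates_irreducible, ← Associates.mk_pow,
    Associates.mk_le_mk_iff_dvd]

include K L in
/-- `e - 1 ≤ d_P` (Dedekind) -/
theorem sub_one_le_diffExpAt {p : Ideal A} [p.IsMaximal] (hp : p ≠ ⊥) (P : HeightOneSpectrum B)
    (e : ℕ) (hP : P.asIdeal ^ e ∣ p.map (algebraMap A B)) : e - 1 ≤ diffExpAt A P := by
  rw [← pow_dvd_differentIdeal_iff A K L]
  have := isSeparable_fractionRing_aux A K L (B := B)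
  exact pow_sub_one_dvd_differentIdeal A P.asIdeal e hp hP

include K L in
/-- the different exponents vanish outside a finite set of primes -/
theorem finite_diffExpAt_ne_zero : {P : HeightOneSpectrum B | diffExpAt A P ≠ 0}.Finite := by
  refine (Ideal.finite_factors (differentIdeal_ne_bot_aux A K L (B := B))).subset ?_
  intro P hP
  change diffExpAt A P ≠ 0 at hP
  change P.asIdeal ∣ differentIdeal A B
  rw [← pow_one P.asIdeal, pow_dvd_differentIdeal_iff A K L]
  omega

include K L in
/-- tame case: `d_P = e - 1` -/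
theorem diffExpAt_eq_of_tame {p : Ideal A} [p.IsMaximal] (hp : p ≠ ⊥) (P : HeightOneSpectrum B)
    [P.asIdeal.LiesOver p]
    (e : ℕ) (hle : Ideal.map (algebraMap A B) p ≤ P.asIdeal ^ e)
    (hnle : ¬ Ideal.map (algebraMap A B) p ≤ P.asIdeal ^ (e + 1))
    (htame :
      letI : Field (A ⧸ p) := Ideal.Quotient.field p
      ((e * Module.finrank (A ⧸ p) (B ⧸ P.asIdeal) : ℕ) : A ⧸ p) ≠ 0) :
    diffExpAt A P = e - 1 := by
  have := isSeparable_fractionRing_aux A K L (B := B)
  have hmax : P.asIdeal.IsMaximal := P.isMaximal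
  obtain ⟨h1, h2⟩ := Different.Tame.pow_sub_one_dvd_and_not_pow_dvd_of_tame A hp P.asIdeal e hle hnle
    htame
  rw [pow_dvd_differentIdeal_iff A K L] at h1 h2
  have he0 : e ≠ 0 := by
    rintro rfl
    simp at htame
  omega

include K L in
/-- tame case with trivial residue field extension (`B / P = k = A / p` for a coefficient field
`k`): `d_P = e - 1` as soon as `e` is invertible in `k`. -/
theorem diffExpAt_eq_of_tame_of_residue (k : Type*) [Field k] [Algebra k A] [Algebra k B]
    [IsScalarTower k A B] {p : Ideal A} [p.IsMaximal] (hp : p ≠ ⊥) (P : HeightOneSpectrum B)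
    [P.asIdeal.LiesOver p]
    (e : ℕ) (hle : Ideal.map (algebraMap A B) p ≤ P.asIdeal ^ e)
    (hnle : ¬ Ideal.map (algebraMap A B) p ≤ P.asIdeal ^ (e + 1))
    (hres : ∀ b : B, ∃ c : k, b - algebraMap k B c ∈ P.asIdeal)
    (he : ((e : ℕ) : k) ≠ 0) :
    diffExpAt A P = e - 1 := by
  let _ : Field (A ⧸ p) := Ideal.Quotient.field p
  have hf : Module.finrank (A ⧸ p) (B ⧸ P.asIdeal) = 1 := by
    refine (finrank_eq_one_iff_of_nonzero' (1 : B ⧸ P.asIdeal) one_ne_zero).mpr ?_
    intro w
    obtain ⟨b, rfl⟩ := Ideal.Quotient.mk_surjective w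
    obtain ⟨c, hc⟩ := hres b
    refine ⟨Ideal.Quotient.mk p (algebraMap k A c), ?_⟩
    rw [Algebra.smul_def, mul_one, Ideal.Quotient.algebraMap_mk_of_liesOver]
    symm
    rw [Ideal.Quotient.eq, ← IsScalarTower.algebraMap_apply]
    exact hc
  refine diffExpAt_eq_of_tame A K L hp P e hle hnle ?_
  rw [hf, mul_one]
  intro h0
  apply he
  have h1 : algebraMap k (A ⧸ p) ((e : ℕ) : k) = 0 := by
    rw [map_natCast]
    exact h0
  exact (map_eq_zero_iff _ (algebraMap k (A ⧸ p)).injective).mp h1

end Abstract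

/-! ### the chart `K[x]` of a separating element -/

section Chart

universe u w

variable {K : Type w} {F : Type u} [Field K] [Field F] [Algebra K F]

/-- the adic valuation of the place of `P` is the `P`-adic valuation (no characteristic
hypothesis) -/
theorem adicValuation_placeOfPrime {B : Type*} [CommRing B] [IsDedekindDomain B] [Algebra B F]
    [IsFractionRing B F] [Algebra K B] [IsScalarTower K B F] (P : HeightOneSpectrum B) (f : F) :
    (placeOfPrime (K := K) P).adicValuation f = P.valuation F f := by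
  rcases eq_or_ne f 0 with rfl | hf
  · simp
  · rw [Fermat.Agent.S24.Ord.adicValuation_eq _ hf,
      valuation_eq_exp_neg_placeOfPrime_ord (K := K) P hf]

variable [IsAlgClosed K] {x : F}

set_option maxHeartbeats 1600000 in
/-- In the chart `K[x]`, at a zero `Q` of `x - a` with `e = ord_Q (x - a)`: `e - 1 ≤ d_Q`, with
equality if `e` is invertible in `K` (tame ramification). -/
theorem diffExpFin_spec (hx : IsFF K x) (hsep : Algebra.IsSeparable K⟮x⟯ F) (a : K)
    (Q : Place K F) (hQ : Q.adicValuation x ≤ 1)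
    (hQa : Q.adicValuation (x - algebraMap K F a) < 1) :
    Q.ord (x - algebraMap K F a) - 1 ≤ (diffExpFin hx hsep Q hQ : ℤ) ∧
    ((((Q.ord (x - algebraMap K F a)).toNat : ℕ) : K) ≠ 0 →
      (diffExpFin hx hsep Q hQ : ℤ) = Q.ord (x - algebraMap K F a) - 1) := by
  classical
  have hDed := Defs.isDedekind hx hsep
  have hFr := Defs.isFractionRing hx
  have hfin := Defs.moduleFinite hx hsep
  have hpid := isPID hx.transcendental
  have hKL : FiniteDimensional K⟮x⟯ F := hx.finite
  have hxa : x - algebraMap K F a ≠ 0 := sub_ne_zero.mpr (hx.ne_algebraMap a)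
  -- the prime of `Q`
  have hP : placeOfPrime (K := K) (Defs.exists_prime hx hsep Q hQ).choose = Q :=
    (Defs.exists_prime hx hsep Q hQ).choose_spec
  unfold diffExpFin
  generalize (Defs.exists_prime hx hsep Q hQ).choose = P at hP ⊢
  -- the prime `(x - a)` of `K[x]`
  let p : Ideal (polyRing K x) := Ideal.span {tA K x a}
  have hpmax : p.IsMaximal :=
    PrincipalIdealRing.isMaximal_of_irreducible (irreducible_tA hx.transcendental a)
  have hp0 : p ≠ ⊥ := by
    rw [Ne, Ideal.span_singleton_eq_bot]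
    exact tA_ne_zero hx.transcendental a
  let tB : intRing K x := algebraMap (polyRing K x) (intRing K x) (tA K x a)
  have htB : algebraMap (intRing K x) F tB = x - algebraMap K F a := rfl
  have htB0 : tB ≠ 0 := by
    intro h0
    apply hxa
    rw [← htB, h0, map_zero]
  have hmap : Ideal.map (algebraMap (polyRing K x) (intRing K x)) p = Ideal.span {tB} := by
    rw [Ideal.map_span, Set.image_singleton]
  have hspan0 : Ideal.span {tB} ≠ ⊥ := by
    rw [Ne, Ideal.span_singleton_eq_bot]
    exact htB0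
  have hmemP : tB ∈ P.asIdeal := by
    have h1 := (Fermat.Agent.S24.Ord.ord_pos_iff Q hxa).mpr hQa
    rw [← hP, ← htB, placeOfPrime_ord_pos_iff] at h1
    exact h1.2
  have hlies : P.asIdeal.LiesOver p := by
    rw [Ideal.liesOver_iff, Ideal.under_def]
    refine hpmax.eq_of_le (Ideal.comap_ne_top _ P.isPrime.ne_top) ?_
    rw [Ideal.span_le, Set.singleton_subset_iff]
    exact hmemP
  have hPmax : P.asIdeal.IsMaximal := P.isMaximal
  -- `e = ord_Q (x - a)` is the multiplicity of `P` in `p B`
  have hord : Q.ord (x - algebraMap K F a) = (multiplicity P.asIdeal (Ideal.span {tB}) : ℤ) := by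
    rw [← hP, ← htB]
    exact placeOfPrime_ord_algebraMap P htB0
  have hfm : FiniteMultiplicity P.asIdeal (Ideal.span {tB}) :=
    FiniteMultiplicity.of_prime_left P.prime hspan0
  set e : ℕ := multiplicity P.asIdeal (Ideal.span {tB}) with he
  have hle : Ideal.map (algebraMap (polyRing K x) (intRing K x)) p ≤ P.asIdeal ^ e := by
    rw [hmap, ← Ideal.dvd_iff_le]
    exact pow_multiplicity_dvd _ _
  have hnle : ¬ Ideal.map (algebraMap (polyRing K x) (intRing K x)) p ≤ P.asIdeal ^ (e + 1) := by
    rw [hmap, ← Ideal.dvd_iff_le]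
    exact hfm.not_pow_dvd_of_multiplicity_lt (Nat.lt_succ_self _)
  have hlow := sub_one_le_diffExpAt (polyRing K x) K⟮x⟯ F hp0 P e (Ideal.dvd_iff_le.mpr hle)
  refine ⟨by rw [hord]; omega, fun htame => ?_⟩
  rw [hord, Int.toNat_natCast] at htame
  rw [hord]
  -- the residue field extension is trivial
  have hres : ∀ b : intRing K x, ∃ c : K, b - algebraMap K (intRing K x) c ∈ P.asIdeal := by
    intro b
    have hb : Q.adicValuation (algebraMap (intRing K x) F b) ≤ 1 := by
      rw [← hP, adicValuation_placeOfPrime]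
      exact P.valuation_le_one b
    obtain ⟨c, hc⟩ := exists_sub_lt_one hx Q hb
    refine ⟨c, ?_⟩
    rw [← hP, adicValuation_placeOfPrime] at hc
    have h2 : algebraMap (intRing K x) F b - algebraMap K F c =
        algebraMap (intRing K x) F (b - algebraMap K (intRing K x) c) := by
      rw [map_sub]
      rfl
    rw [h2, HeightOneSpectrum.valuation_lt_one_iff_mem] at hc
    exact hc
  have heq := diffExpAt_eq_of_tame_of_residue (polyRing K x) K⟮x⟯ F K hp0 P e hle hnle hres htame
  rw [heq]
  have he0 : e ≠ 0 := by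
    rintro h
    rw [h] at htame
    simp at htame
  omega

/-- In the chart `K[x]`, the different exponents vanish outside a finite set of places. -/
theorem finite_diffExpFin_ne_zero (hx : IsFF K x) (hsep : Algebra.IsSeparable K⟮x⟯ F) :
    {Q : Place K F | ∃ hQ : Q.adicValuation x ≤ 1, diffExpFin hx hsep Q hQ ≠ 0}.Finite := by
  have hDed := Defs.isDedekind hx hsep
  have hFr := Defs.isFractionRing hx
  have hfin := Defs.moduleFinite hx hsep
  have hpid := isPID hx.transcendental
  have hKL : FiniteDimensional K⟮x⟯ F := hx.finite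
  have h1 := finite_diffExpAt_ne_zero (polyRing K x) K⟮x⟯ F (B := intRing K x)
  refine (h1.image (placeOfPrime (K := K))).subset ?_
  rintro Q ⟨hQ, hne⟩
  exact ⟨(Defs.exists_prime hx hsep Q hQ).choose, hne, (Defs.exists_prime hx hsep Q hQ).choose_spec⟩

end Chart

/-! ### place language -/

section PlaceLanguage

universe u w

variable {K : Type w} {F : Type u} [Field K] [Field F] [Algebra K F] [IsAlgClosed K] {x : F}

theorem diffExp_eq_fin (hx : IsFF K x) (hsep : Algebra.IsSeparable K⟮x⟯ F) {Q : Place K F}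
    (hQ : Q.adicValuation x ≤ 1) : diffExp hx hsep Q = diffExpFin hx hsep Q hQ := by
  unfold diffExp
  rw [dif_pos hQ]

theorem diffExp_eq_inv (hx : IsFF K x) (hsep : Algebra.IsSeparable K⟮x⟯ F) {Q : Place K F}
    (hQ : ¬ Q.adicValuation x ≤ 1) :
    diffExp hx hsep Q =
      diffExpFin hx.inv (isSeparable_inv hsep) Q (adicValuation_inv_le_one hQ) := by
  unfold diffExp
  rw [dif_neg hQ]

omit [IsAlgClosed K] in
theorem adicValuation_le_one_of_sub_lt_one {Q : Place K F} {a : K}
    (hQa : Q.adicValuation (x - algebraMap K F a) < 1) : Q.adicValuation x ≤ 1 := by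
  have h1 : x = (x - algebraMap K F a) + algebraMap K F a := by ring
  rw [h1]
  exact Valuation.map_add_le _ hQa.le
    ((Fermat.Agent.S24.Ord.mem_iff Q _).mp (Q.algebraMap_mem' a))

omit [IsAlgClosed K] in
theorem adicValuation_inv_sub_zero_lt_one {Q : Place K F} (hQ : 1 < Q.adicValuation x) :
    Q.adicValuation (x⁻¹ - algebraMap K F 0) < 1 := by
  rw [map_zero, sub_zero, map_inv₀]
  exact inv_lt_one_of_one_lt₀ hQ

omit [IsAlgClosed K] in
theorem ord_inv_sub_zero (Q : Place K F) : Q.ord (x⁻¹ - algebraMap K F 0) = -Q.ord x := by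
  rw [map_zero, sub_zero, Place.ord_inv]

/-- **(1)** `e_Q - 1 ≤ d_Q` at a zero of `x - a`. -/
theorem sub_one_le_diffExp_zero (hx : IsFF K x) (hsep : Algebra.IsSeparable K⟮x⟯ F) (a : K)
    {Q : Place K F} (hQa : Q.adicValuation (x - algebraMap K F a) < 1) :
    Q.ord (x - algebraMap K F a) - 1 ≤ (diffExp hx hsep Q : ℤ) := by
  have hQ := adicValuation_le_one_of_sub_lt_one hQa
  rw [diffExp_eq_fin hx hsep hQ]
  exact (diffExpFin_spec hx hsep a Q hQ hQa).1

/-- **(2)** `e_Q - 1 ≤ d_Q` at a pole of `x`. -/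
theorem sub_one_le_diffExp_pole (hx : IsFF K x) (hsep : Algebra.IsSeparable K⟮x⟯ F)
    {Q : Place K F} (hQ : 1 < Q.adicValuation x) :
    -Q.ord x - 1 ≤ (diffExp hx hsep Q : ℤ) := by
  rw [diffExp_eq_inv hx hsep (not_le.mpr hQ), ← ord_inv_sub_zero Q]
  exact (diffExpFin_spec hx.inv (isSeparable_inv hsep) 0 Q (adicValuation_inv_le_one (not_le.mpr hQ))
    (adicValuation_inv_sub_zero_lt_one hQ)).1

/-- **(3)** tame equality `d_Q = e_Q - 1` at a zero of `x - a` with `e_Q` invertible in `K`. -/
theorem diffExp_eq_of_tame_zero (hx : IsFF K x) (hsep : Algebra.IsSeparable K⟮x⟯ F) (a : K)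
    {Q : Place K F} (hQa : Q.adicValuation (x - algebraMap K F a) < 1)
    (htame : ((Q.ord (x - algebraMap K F a) : ℤ) : K) ≠ 0) :
    (diffExp hx hsep Q : ℤ) = Q.ord (x - algebraMap K F a) - 1 := by
  have hQ := adicValuation_le_one_of_sub_lt_one hQa
  have hxa : x - algebraMap K F a ≠ 0 := sub_ne_zero.mpr (hx.ne_algebraMap a)
  have hpos := (Fermat.Agent.S24.Ord.ord_pos_iff Q hxa).mpr hQa
  rw [diffExp_eq_fin hx hsep hQ]
  refine (diffExpFin_spec hx hsep a Q hQ hQa).2 ?_
  rw [← Int.cast_natCast, Int.toNat_of_nonneg hpos.le]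
  exact htame

/-- **(3')** tame equality `d_Q = e_Q - 1` at a pole of `x` with `e_Q` invertible in `K`. -/
theorem diffExp_eq_of_tame_pole (hx : IsFF K x) (hsep : Algebra.IsSeparable K⟮x⟯ F)
    {Q : Place K F} (hQ : 1 < Q.adicValuation x) (htame : ((Q.ord x : ℤ) : K) ≠ 0) :
    (diffExp hx hsep Q : ℤ) = -Q.ord x - 1 := by
  have hQ' := adicValuation_inv_sub_zero_lt_one (K := K) hQ
  have hx0 : x⁻¹ - algebraMap K F 0 ≠ 0 := sub_ne_zero.mpr (hx.inv.ne_algebraMap 0)
  have hpos := (Fermat.Agent.S24.Ord.ord_pos_iff Q hx0).mpr hQ'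
  rw [diffExp_eq_inv hx hsep (not_le.mpr hQ), ← ord_inv_sub_zero Q]
  refine (diffExpFin_spec hx.inv (isSeparable_inv hsep) 0 Q
    (adicValuation_inv_le_one (not_le.mpr hQ)) hQ').2 ?_
  rw [← Int.cast_natCast, Int.toNat_of_nonneg hpos.le, ord_inv_sub_zero, Int.cast_neg, neg_ne_zero]
  exact htame

/-- **(4)** unramified zeros of `x - a` have `d_Q = 0`. -/
theorem diffExp_eq_zero_of_ord_eq_one (hx : IsFF K x) (hsep : Algebra.IsSeparable K⟮x⟯ F) (a : K)
    {Q : Place K F} (hQ1 : Q.ord (x - algebraMap K F a) = 1) : diffExp hx hsep Q = 0 := by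
  have hxa : x - algebraMap K F a ≠ 0 := sub_ne_zero.mpr (hx.ne_algebraMap a)
  have hQa : Q.adicValuation (x - algebraMap K F a) < 1 :=
    (Fermat.Agent.S24.Ord.ord_pos_iff Q hxa).mp (by omega)
  have h := diffExp_eq_of_tame_zero hx hsep a hQa (by rw [hQ1]; simp)
  omega

/-- **(4')** simple poles of `x` have `d_Q = 0`. -/
theorem diffExp_eq_zero_of_ord_eq_neg_one (hx : IsFF K x) (hsep : Algebra.IsSeparable K⟮x⟯ F)
    {Q : Place K F} (hQ1 : Q.ord x = -1) : diffExp hx hsep Q = 0 := by
  have hx0 : x ≠ 0 := by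
    have := hx.ne_algebraMap 0
    rwa [map_zero] at this
  have hQ : 1 < Q.adicValuation x := (Fermat.Agent.S24.Ord.ord_neg_iff Q hx0).mp (by omega)
  have h := diffExp_eq_of_tame_pole hx hsep hQ (by rw [hQ1]; simp)
  omega

/-- **(4'')** the different exponents vanish outside a finite set of places. -/
theorem finite_diffExp_ne_zero (hx : IsFF K x) (hsep : Algebra.IsSeparable K⟮x⟯ F) :
    {Q : Place K F | diffExp hx hsep Q ≠ 0}.Finite := by
  refine ((finite_diffExpFin_ne_zero hx hsep).union
    (finite_diffExpFin_ne_zero hx.inv (isSeparable_inv hsep))).subset ?_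
  intro Q hne
  change diffExp hx hsep Q ≠ 0 at hne
  by_cases hQ : Q.adicValuation x ≤ 1
  · left
    rw [diffExp_eq_fin hx hsep hQ] at hne
    exact ⟨hQ, hne⟩
  · right
    rw [diffExp_eq_inv hx hsep hQ] at hne
    exact ⟨adicValuation_inv_le_one hQ, hne⟩

/-- characteristic zero: `d_Q = e_Q - 1` at every zero of `x - a`. -/
theorem diffExp_eq_of_charZero_zero [CharZero K] (hx : IsFF K x)
    (hsep : Algebra.IsSeparable K⟮x⟯ F) (a : K)
    {Q : Place K F} (hQa : Q.adicValuation (x - algebraMap K F a) < 1) :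
    (diffExp hx hsep Q : ℤ) = Q.ord (x - algebraMap K F a) - 1 := by
  have hxa : x - algebraMap K F a ≠ 0 := sub_ne_zero.mpr (hx.ne_algebraMap a)
  have hpos := (Fermat.Agent.S24.Ord.ord_pos_iff Q hxa).mpr hQa
  refine diffExp_eq_of_tame_zero hx hsep a hQa ?_
  rw [Int.cast_ne_zero]
  omega

/-- characteristic zero: `d_Q = e_Q - 1` at every pole of `x`. -/
theorem diffExp_eq_of_charZero_pole [CharZero K] (hx : IsFF K x)
    (hsep : Algebra.IsSeparable K⟮x⟯ F)
    {Q : Place K F} (hQ : 1 < Q.adicValuation x) :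
    (diffExp hx hsep Q : ℤ) = -Q.ord x - 1 := by
  have hx0 : x ≠ 0 := by
    have := hx.ne_algebraMap 0
    rwa [map_zero] at this
  have hneg := (Fermat.Agent.S24.Ord.ord_neg_iff Q hx0).mpr hQ
  refine diffExp_eq_of_tame_pole hx hsep hQ ?_
  rw [Int.cast_ne_zero]
  omega

/-- characteristic `p`: `d_Q = e_Q - 1` at a zero of `x - a` with `p ∤ e_Q`. -/
theorem diffExp_eq_of_not_dvd_zero (p : ℕ) [CharP K p] (hx : IsFF K x)
    (hsep : Algebra.IsSeparable K⟮x⟯ F) (a : K)
    {Q : Place K F} (hQa : Q.adicValuation (x - algebraMap K F a) < 1)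
    (hp : ¬ (p : ℤ) ∣ Q.ord (x - algebraMap K F a)) :
    (diffExp hx hsep Q : ℤ) = Q.ord (x - algebraMap K F a) - 1 := by
  refine diffExp_eq_of_tame_zero hx hsep a hQa ?_
  rwa [Ne, CharP.intCast_eq_zero_iff K p]

/-- characteristic `p`: `d_Q = e_Q - 1` at a pole of `x` with `p ∤ e_Q`. -/
theorem diffExp_eq_of_not_dvd_pole (p : ℕ) [CharP K p] (hx : IsFF K x)
    (hsep : Algebra.IsSeparable K⟮x⟯ F)
    {Q : Place K F} (hQ : 1 < Q.adicValuation x) (hp : ¬ (p : ℤ) ∣ Q.ord x) :
    (diffExp hx hsep Q : ℤ) = -Q.ord x - 1 := by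
  refine diffExp_eq_of_tame_pole hx hsep hQ ?_
  rwa [Ne, CharP.intCast_eq_zero_iff K p]

end PlaceLanguage

end Fermat.Agent.S18.A.DiffLower
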