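/-
PROJECT H (S18), slice H-A10 addendum (helper3): the different divisor `W = ∑_Q d_Q Q` of a
separating element, as a `Divisor K F` (finite support from `DiffLower.finite_diffExp_ne_zero`).

* `diffDivisor hx hsep : Divisor K F`, `diffDivisor_apply : diffDivisor hx hsep Q = diffExp hx hsep Q`;
* `exists_diffDivisor`, `diffDivisor_nonneg`, `support_diffDivisor`, `mem_support_diffDivisor`;
* `degree_diffDivisor : degree W = ∑ Q ∈ W.support, d_Q` (all places have degree one);
* `hurwitzFormula_iff` : `Defs.HurwitzFormula hx hsep g ↔ 2g - 2 = -2n + degree W`.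
-/
import Mathlib
import Fermat.Agent.S18.A.DiffLower

set_option autoImplicit false

namespace Fermat.Agent.S18.A.DiffDivisor

open AlgebraicCurve IntermediateField
  Fermat.Agent.S24.FF Fermat.Agent.S24.Ord Fermat.Agent.S18.A.Defs Fermat.Agent.S18.A.DiffLower

universe u w

variable {K : Type w} {F : Type u} [Field K] [Field F] [Algebra K F] [IsAlgClosed K] {x : F}

/-- **The different divisor** `W = ∑_Q d_Q Q` of `F/K(x)`. -/
noncomputable def diffDivisor (hx : IsFF K x) (hsep : Algebra.IsSeparable K⟮x⟯ F) : Divisor K F :=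
  Finsupp.ofSupportFinite (fun Q => (diffExp hx hsep Q : ℤ)) (by
    refine (finite_diffExp_ne_zero hx hsep).subset ?_
    intro Q hQ
    have h1 : (diffExp hx hsep Q : ℤ) ≠ 0 := hQ
    have h2 : diffExp hx hsep Q ≠ 0 := by exact_mod_cast h1
    exact h2)

@[simp]
theorem diffDivisor_apply (hx : IsFF K x) (hsep : Algebra.IsSeparable K⟮x⟯ F) (Q : Place K F) :
    diffDivisor hx hsep Q = (diffExp hx hsep Q : ℤ) := rfl

theorem exists_diffDivisor (hx : IsFF K x) (hsep : Algebra.IsSeparable K⟮x⟯ F) :
    ∃ W : Divisor K F, ∀ Q, W Q = (diffExp hx hsep Q : ℤ) :=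
  ⟨diffDivisor hx hsep, diffDivisor_apply hx hsep⟩

theorem diffDivisor_nonneg (hx : IsFF K x) (hsep : Algebra.IsSeparable K⟮x⟯ F) :
    0 ≤ diffDivisor hx hsep := by
  intro Q
  rw [diffDivisor_apply]
  exact Int.natCast_nonneg _

theorem mem_support_diffDivisor (hx : IsFF K x) (hsep : Algebra.IsSeparable K⟮x⟯ F)
    (Q : Place K F) : Q ∈ (diffDivisor hx hsep).support ↔ diffExp hx hsep Q ≠ 0 := by
  rw [Finsupp.mem_support_iff, diffDivisor_apply]
  exact_mod_cast Iff.rfl

theorem diffExp_eq_zero_of_not_mem_support (hx : IsFF K x) (hsep : Algebra.IsSeparable K⟮x⟯ F)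
    {Q : Place K F} (hQ : Q ∉ (diffDivisor hx hsep).support) : diffExp hx hsep Q = 0 := by
  rw [mem_support_diffDivisor] at hQ
  exact not_not.mp hQ

/-- every place of a function field over an algebraically closed field has degree one -/
theorem deg_eq_one (hx : IsFF K x) (Q : Place K F) : Q.deg = 1 :=
  Fermat.Agent.S24.Ord.deg_eq_one hx Q

theorem degree_diffDivisor (hx : IsFF K x) (hsep : Algebra.IsSeparable K⟮x⟯ F) :
    Divisor.degree (diffDivisor hx hsep) =
      ∑ Q ∈ (diffDivisor hx hsep).support, (diffExp hx hsep Q : ℤ) := by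
  unfold Divisor.degree
  rw [Finsupp.liftAddHom_apply, Finsupp.sum]
  refine Finset.sum_congr rfl fun Q _ => ?_
  rw [AddMonoidHom.mulRight_apply, deg_eq_one hx Q, diffDivisor_apply]
  simp

/-- the sum of the different exponents over any finite set containing the support -/
theorem degree_diffDivisor_eq_sum (hx : IsFF K x) (hsep : Algebra.IsSeparable K⟮x⟯ F)
    (S : Finset (Place K F)) (hS : ∀ Q, Q ∉ S → diffExp hx hsep Q = 0) :
    Divisor.degree (diffDivisor hx hsep) = ∑ Q ∈ S, (diffExp hx hsep Q : ℤ) := by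
  rw [degree_diffDivisor]
  refine Finset.sum_subset ?_ ?_
  · intro Q hQ
    by_contra hQS
    exact (mem_support_diffDivisor hx hsep Q).mp hQ (hS Q hQS)
  · intro Q _ hQ
    rw [diffExp_eq_zero_of_not_mem_support hx hsep hQ, Nat.cast_zero]

/-- **Hurwitz formula in divisor form**: `2g - 2 = -2 [F : K(x)] + deg W`. -/
theorem hurwitzFormula_iff (hx : IsFF K x) (hsep : Algebra.IsSeparable K⟮x⟯ F) (g : ℕ) :
    HurwitzFormula hx hsep g ↔
      2 * (g : ℤ) - 2 = -2 * (Module.finrank K⟮x⟯ F : ℤ) +
        Divisor.degree (diffDivisor hx hsep) := by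
  constructor
  · rintro ⟨S, hS, h⟩
    rw [degree_diffDivisor_eq_sum hx hsep S hS]
    exact h
  · intro h
    refine ⟨(diffDivisor hx hsep).support,
      fun Q hQ => diffExp_eq_zero_of_not_mem_support hx hsep hQ, ?_⟩
    rw [← degree_diffDivisor]
    exact h

end Fermat.Agent.S18.A.DiffDivisor
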