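/-
PROJECT H (S18), block A, slice H-A7 (helper27): the trace dual of a Dedekind domain, by valuations.

Pure Mathlib (Dedekind domains).  `B` a Dedekind domain with fraction field `L`.

* `cnt P I`                     : the multiplicity of the prime `P` in the ideal `I`
                                  (same expression as `Defs.diffExpAt` and as in Mathlib's `intValuation`);
* `le_pow_iff`                  : `I ≤ P ^ k ↔ k ≤ cnt P I`;
* `mem_iff_intValuation`        : `b ∈ I ↔ ∀ P, v_P(b) ≤ exp (-cnt P I)`;
* `exists_mem_intValuation_eq`  : some `y ∈ I` has `v_P(y) = exp (-cnt P I)`;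
* `mem_coeIdeal_iff_valuation`  : `z ∈ (I : FractionalIdeal) ↔ ∀ P, v_P(z) ≤ exp (-cnt P I)`;
* `mem_inv_iff_valuation`       : `z ∈ (I : FractionalIdeal)⁻¹ ↔ ∀ P, v_P(z) ≤ exp (cnt P I)`;
* `mem_traceDual_one_iff`       : in the AKLB setting of Mathlib's `Different` file,
    `z ∈ Submodule.traceDual A K (1 : Submodule B L) ↔ ∀ P, v_P(z) ≤ exp (Defs.diffExpAt A P)`.
-/
import Fermat.Agent.S18.A.Defs

set_option autoImplicit false

namespace Fermat.Agent.S18.A.DualVal

open IsDedekindDomain IsDedekindDomain.HeightOneSpectrum WithZero nonZeroDivisors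

/-! ### ideals of a Dedekind domain and the adic valuations -/

section IdealPart

variable {B : Type*} [CommRing B] [IsDedekindDomain B]

/-- the multiplicity of the prime `P` in the ideal `I` -/
noncomputable def cnt (P : HeightOneSpectrum B) (I : Ideal B) : ℕ :=
  (Associates.mk P.asIdeal).count (Associates.mk I).factors

theorem maxPowDividing_eq (P : HeightOneSpectrum B) (I : Ideal B) :
    P.maxPowDividing I = P.asIdeal ^ cnt P I := rfl

theorem le_pow_iff {I : Ideal B} (hI : I ≠ ⊥) (P : HeightOneSpectrum B) (k : ℕ) :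
    I ≤ P.asIdeal ^ k ↔ k ≤ cnt P I := by
  rw [cnt, ← Associates.prime_pow_dvd_iff_le (Associates.mk_ne_zero.mpr hI)
    P.associates_irreducible, ← Associates.mk_pow, Associates.mk_le_mk_iff_dvd, Ideal.dvd_iff_le]

theorem intValuation_le_of_mem {I : Ideal B} (hI : I ≠ ⊥) (P : HeightOneSpectrum B) {y : B}
    (hy : y ∈ I) : P.intValuation y ≤ exp (-(cnt P I : ℤ)) := by
  rw [intValuation_le_pow_iff_mem]
  exact (le_pow_iff hI P _).mpr le_rfl hy

/-- **Membership in a nonzero ideal of a Dedekind domain, by valuations.** -/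
theorem mem_iff_intValuation {I : Ideal B} (hI : I ≠ ⊥) (b : B) :
    b ∈ I ↔ ∀ P : HeightOneSpectrum B, P.intValuation b ≤ exp (-(cnt P I : ℤ)) := by
  refine ⟨fun hb P => intValuation_le_of_mem hI P hb, fun h => ?_⟩
  rw [← Ideal.iInf_maxPowDividing_eq (I := I) (by rwa [Ne, Ideal.zero_eq_bot]), Ideal.mem_iInf]
  intro P
  rw [maxPowDividing_eq, ← intValuation_le_pow_iff_mem]
  exact h P

theorem exists_mem_intValuation_eq {I : Ideal B} (hI : I ≠ ⊥) (P : HeightOneSpectrum B) :
    ∃ y ∈ I, P.intValuation y = exp (-(cnt P I : ℤ)) := by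
  have hnot : ¬ I ≤ P.asIdeal ^ (cnt P I + 1) := by
    rw [le_pow_iff hI]; omega
  obtain ⟨y, hyI, hy⟩ := SetLike.not_le_iff_exists.mp hnot
  refine ⟨y, hyI, le_antisymm (intValuation_le_of_mem hI P hyI) ?_⟩
  rw [← intValuation_le_pow_iff_mem] at hy
  have hy0 : P.intValuation y ≠ 0 := fun h => hy (by rw [h]; exact zero_le)
  obtain ⟨m, hm⟩ : ∃ m : ℤ, P.intValuation y = exp m :=
    ⟨log (P.intValuation y), (exp_log hy0).symm⟩
  rw [hm] at hy ⊢
  rw [exp_le_exp] at hy ⊢
  push_cast at hy
  omega

end IdealPart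

/-! ### fractional ideals -/

section Frac

variable {B : Type*} [CommRing B] [IsDedekindDomain B]
variable {L : Type*} [Field L] [Algebra B L] [IsFractionRing B L]

/-- **Membership in a nonzero integral ideal, for elements of the fraction field.** -/
theorem mem_coeIdeal_iff_valuation {I : Ideal B} (hI : I ≠ ⊥) (z : L) :
    z ∈ (I : FractionalIdeal B⁰ L) ↔
      ∀ P : HeightOneSpectrum B, P.valuation L z ≤ exp (-(cnt P I : ℤ)) := by
  rw [FractionalIdeal.mem_coeIdeal]
  constructor
  · rintro ⟨y, hyI, rfl⟩ P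
    rw [valuation_of_algebraMap]
    exact intValuation_le_of_mem hI P hyI
  · intro h
    obtain ⟨b, rfl⟩ := mem_integers_of_valuation_le_one L z fun P =>
      (h P).trans (by rw [← exp_zero, exp_le_exp]; omega)
    refine ⟨b, (mem_iff_intValuation hI b).mpr fun P => ?_, rfl⟩
    rw [← valuation_of_algebraMap (K := L)]
    exact h P

/-- **Membership in the inverse of a nonzero ideal, by valuations.** -/
theorem mem_inv_iff_valuation {I : Ideal B} (hI : I ≠ ⊥) (z : L) :
    z ∈ ((I : FractionalIdeal B⁰ L))⁻¹ ↔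
      ∀ P : HeightOneSpectrum B, P.valuation L z ≤ exp (cnt P I : ℤ) := by
  have hI' : (I : FractionalIdeal B⁰ L) ≠ 0 := by
    rwa [Ne, FractionalIdeal.coeIdeal_eq_zero]
  rw [FractionalIdeal.mem_inv_iff hI']
  constructor
  · intro h P
    obtain ⟨y, hyI, hy⟩ := exists_mem_intValuation_eq hI P
    have h1 := h (algebraMap B L y) ((FractionalIdeal.mem_coeIdeal _).mpr ⟨y, hyI, rfl⟩)
    obtain ⟨b, hb⟩ := (FractionalIdeal.mem_one_iff _).mp h1
    have h2 : P.valuation L (z * algebraMap B L y) ≤ 1 := by
      rw [← hb]; exact P.valuation_le_one b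
    rw [map_mul, valuation_of_algebraMap, hy] at h2
    have h3 : P.valuation L z = P.valuation L z * exp (-(cnt P I : ℤ)) * exp (cnt P I : ℤ) := by
      rw [mul_assoc, ← exp_add, neg_add_cancel, exp_zero, mul_one]
    rw [h3]
    calc P.valuation L z * exp (-(cnt P I : ℤ)) * exp (cnt P I : ℤ)
        ≤ 1 * exp (cnt P I : ℤ) := mul_le_mul_left h2 _
      _ = exp (cnt P I : ℤ) := one_mul _
  · intro h y hy
    obtain ⟨y', hy'I, rfl⟩ := (FractionalIdeal.mem_coeIdeal _).mp hy
    rw [FractionalIdeal.mem_one_iff]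
    exact mem_integers_of_valuation_le_one L (z * algebraMap B L y') (fun P => by
      rw [map_mul, valuation_of_algebraMap]
      calc P.valuation L z * P.intValuation y'
          ≤ exp (cnt P I : ℤ) * exp (-(cnt P I : ℤ)) :=
            mul_le_mul' (h P) (intValuation_le_of_mem hI P hy'I)
        _ = 1 := by rw [← exp_add, add_neg_cancel, exp_zero])

end Frac

/-! ### the trace dual of `B` -/

section Dual

variable (A K L : Type*) {B : Type*} [CommRing A] [Field K] [CommRing B] [Field L]
variable [Algebra A K] [Algebra B L] [Algebra A B] [Algebra K L] [Algebra A L]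
variable [IsScalarTower A K L] [IsScalarTower A B L]
variable [IsDomain A] [IsFractionRing A K] [FiniteDimensional K L] [Algebra.IsSeparable K L]
  [IsIntegralClosure B A L] [IsIntegrallyClosed A] [IsDedekindDomain B] [IsFractionRing B L]
  [Module.IsTorsionFree A B]

include K L in
/-- the different is nonzero (statement of Mathlib's `differentIdeal_ne_bot` for arbitrary models
`K`, `L` of the fraction fields) -/
theorem differentIdeal_ne_bot : differentIdeal A B ≠ ⊥ := by
  rw [ne_eq, ← FractionalIdeal.coeIdeal_inj (K := L), coeIdeal_differentIdeal A K L B]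
  simp

/-- the dual of `B` is the inverse of the different -/
theorem dual_one_eq_inv :
    FractionalIdeal.dual A K (1 : FractionalIdeal B⁰ L)
      = ((differentIdeal A B : Ideal B) : FractionalIdeal B⁰ L)⁻¹ := by
  rw [coeIdeal_differentIdeal A K L B, inv_inv]

variable {L}

theorem mem_traceDual_one_iff_mem_inv (z : L) :
    z ∈ Submodule.traceDual A K (1 : Submodule B L) ↔
      z ∈ ((differentIdeal A B : Ideal B) : FractionalIdeal B⁰ L)⁻¹ := by
  rw [← dual_one_eq_inv A K, ← FractionalIdeal.mem_coe, FractionalIdeal.coe_dual_one]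

/-- `Defs.diffExpAt` is `cnt` of the different. -/
theorem diffExpAt_eq (P : HeightOneSpectrum B) :
    Defs.diffExpAt A P = cnt P (differentIdeal A B) := rfl

/-- **The trace dual of `B` over `A`, by valuations**: `z ∈ B^∨` iff `ord_P z ≥ -d_P` at every
prime `P` of `B`, `d_P` the different exponent. -/
theorem mem_traceDual_one_iff (z : L) :
    z ∈ Submodule.traceDual A K (1 : Submodule B L) ↔
      ∀ P : HeightOneSpectrum B, P.valuation L z ≤ exp (Defs.diffExpAt A P : ℤ) := by
  rw [mem_traceDual_one_iff_mem_inv A K z,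
    mem_inv_iff_valuation (differentIdeal_ne_bot A K L) z]
  rfl

variable (L) in
include K L in
/-- the different exponent vanishes at all but finitely many primes -/
theorem finite_setOf_diffExpAt_ne_zero :
    {P : HeightOneSpectrum B | Defs.diffExpAt A P ≠ 0}.Finite := by
  have h := Ideal.finite_factors (I := differentIdeal A B)
    (by rw [Ne, Ideal.zero_eq_bot]; exact differentIdeal_ne_bot A K L)
  refine h.subset fun P hP => ?_
  have hP' : cnt P (differentIdeal A B) ≠ 0 := hP
  rw [Set.mem_ofPred_eq]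
  have h1 : 1 ≤ cnt P (differentIdeal A B) := Nat.one_le_iff_ne_zero.mpr hP'
  rw [← le_pow_iff (differentIdeal_ne_bot A K L), pow_one] at h1
  exact Ideal.dvd_iff_le.mpr h1

end Dual

end Fermat.Agent.S18.A.DualVal
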