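/-
Project H (S18), block A1: the Dedekind–Weber reduced basis theorem as pure linear algebra
over `K[X] ⊆ K(X)`.  This file: definitions and the basic API.

* `degInf f : WithBot ℤ` – degree at infinity of a rational function (`⊥` at `0`).
* `nrm c v : WithBot ℤ` – the sup-norm (additively written) of `v` with respect to a
  `K(X)`-basis `c`; its unit ball `{nrm c v ≤ 0}` is the `R_∞`-lattice spanned by `c`.
* `IsReduced c w` – the family `w` is orthogonal for `nrm c`.
-/
import Mathlib

namespace Fermat.Agent.S18.A.ReducedBasis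

open Polynomial

variable {K : Type*} [Field K]

/-- Degree at infinity of a rational function: `⊥` at `0`, `RatFunc.intDegree` otherwise. -/
noncomputable def degInf (f : RatFunc K) : WithBot ℤ :=
  open Classical in if f = 0 then ⊥ else ((f.intDegree : ℤ) : WithBot ℤ)

@[simp] theorem degInf_zero : degInf (0 : RatFunc K) = ⊥ := by simp [degInf]

theorem degInf_of_ne_zero {f : RatFunc K} (hf : f ≠ 0) :
    degInf f = ((f.intDegree : ℤ) : WithBot ℤ) := by simp [degInf, hf]

@[simp] theorem degInf_eq_bot_iff {f : RatFunc K} : degInf f = ⊥ ↔ f = 0 := by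
  by_cases hf : f = 0
  · simp [hf]
  · simp [degInf_of_ne_zero hf, hf]

theorem degInf_ne_bot {f : RatFunc K} (hf : f ≠ 0) : degInf f ≠ ⊥ := by
  simpa using hf

@[simp] theorem degInf_one : degInf (1 : RatFunc K) = 0 := by
  rw [degInf_of_ne_zero (one_ne_zero (α := RatFunc K)), RatFunc.intDegree_one]; rfl

theorem degInf_mul (f g : RatFunc K) : degInf (f * g) = degInf f + degInf g := by
  by_cases hf : f = 0
  · simp [hf]
  by_cases hg : g = 0
  · simp [hg]
  rw [degInf_of_ne_zero hf, degInf_of_ne_zero hg, degInf_of_ne_zero (mul_ne_zero hf hg),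
    RatFunc.intDegree_mul hf hg, WithBot.coe_add]

@[simp] theorem degInf_neg (f : RatFunc K) : degInf (-f) = degInf f := by
  by_cases hf : f = 0
  · simp [hf]
  rw [degInf_of_ne_zero hf, degInf_of_ne_zero (neg_ne_zero.mpr hf), RatFunc.intDegree_neg]

theorem degInf_add_le (f g : RatFunc K) : degInf (f + g) ≤ max (degInf f) (degInf g) := by
  by_cases hg : g = 0
  · simp [hg]
  by_cases hfg : f + g = 0
  · simp [hfg]
  by_cases hf : f = 0
  · simp [hf]
  rw [degInf_of_ne_zero hf, degInf_of_ne_zero hg, degInf_of_ne_zero hfg, ← WithBot.coe_max,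
    WithBot.coe_le_coe]
  exact RatFunc.intDegree_add_le hg hfg

theorem degInf_sub_le (f g : RatFunc K) : degInf (f - g) ≤ max (degInf f) (degInf g) := by
  rw [sub_eq_add_neg]
  exact (degInf_add_le f (-g)).trans (by rw [degInf_neg])

theorem degInf_sum_le {κ : Type*} (s : Finset κ) (f : κ → RatFunc K) :
    degInf (∑ i ∈ s, f i) ≤ s.sup (fun i => degInf (f i)) := by
  classical
  induction s using Finset.induction_on with
  | empty => simp
  | insert a s ha ih =>
    rw [Finset.sum_insert ha, Finset.sup_insert]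
    exact (degInf_add_le _ _).trans (max_le_max le_rfl ih)

theorem degInf_algebraMap_of_ne_zero {p : K[X]} (hp : p ≠ 0) :
    degInf (algebraMap K[X] (RatFunc K) p) = ((p.natDegree : ℤ) : WithBot ℤ) := by
  have h : algebraMap K[X] (RatFunc K) p ≠ 0 := by
    simpa using hp
  rw [degInf_of_ne_zero h, RatFunc.intDegree_polynomial]

theorem degInf_algebraMap_nonneg {p : K[X]} (hp : p ≠ 0) :
    (0 : WithBot ℤ) ≤ degInf (algebraMap K[X] (RatFunc K) p) := by
  rw [degInf_algebraMap_of_ne_zero hp]
  exact_mod_cast Int.natCast_nonneg _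

theorem degInf_algebraMap_le (p : K[X]) :
    degInf (algebraMap K[X] (RatFunc K) p) ≤ ((p.natDegree : ℤ) : WithBot ℤ) := by
  by_cases hp : p = 0
  · simp [hp]
  · exact (degInf_algebraMap_of_ne_zero hp).le

theorem degInf_C {a : K} (ha : a ≠ 0) : degInf (RatFunc.C a) = 0 := by
  have h : (RatFunc.C a : RatFunc K) ≠ 0 := by simpa using ha
  rw [degInf_of_ne_zero h, RatFunc.intDegree_C]; rfl

theorem degInf_X : degInf (RatFunc.X : RatFunc K) = 1 := by
  rw [degInf_of_ne_zero RatFunc.X_ne_zero, RatFunc.intDegree_X]; rfl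

theorem degInf_inv (f : RatFunc K) (hf : f ≠ 0) :
    degInf f⁻¹ = ((-f.intDegree : ℤ) : WithBot ℤ) := by
  rw [degInf_of_ne_zero (inv_ne_zero hf), RatFunc.intDegree_inv]

theorem degInf_X_zpow (n : ℤ) : degInf ((RatFunc.X : RatFunc K) ^ n) = ((n : ℤ) : WithBot ℤ) := by
  have hX : (RatFunc.X : RatFunc K) ≠ 0 := RatFunc.X_ne_zero
  have key : ∀ m : ℕ, ((RatFunc.X : RatFunc K) ^ m).intDegree = m := by
    intro m
    induction m with
    | zero => simp
    | succ m ih =>
      rw [pow_succ, RatFunc.intDegree_mul (pow_ne_zero m hX) hX, ih, RatFunc.intDegree_X]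
      push_cast; ring
  rw [degInf_of_ne_zero (zpow_ne_zero n hX)]
  congr 1
  obtain ⟨m, rfl | rfl⟩ := n.eq_nat_or_neg
  · simpa using key m
  · rw [zpow_neg, RatFunc.intDegree_inv, zpow_natCast, key m]

/-- Left addition distributes over finite suprema in `WithBot ℤ`. -/
theorem sup_const_add {κ : Type*} (s : Finset κ) (a : WithBot ℤ) (g : κ → WithBot ℤ) :
    s.sup (fun i => a + g i) = a + s.sup g := by
  classical
  induction s using Finset.induction_on with
  | empty => simp
  | insert x s hx ih =>
    rw [Finset.sup_insert, Finset.sup_insert, ih]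
    exact max_add_add_left _ _ _

theorem lt_coe_iff_le_pred {x : WithBot ℤ} {m : ℤ} :
    x < (m : WithBot ℤ) ↔ x ≤ ((m - 1 : ℤ) : WithBot ℤ) := by
  induction x using WithBot.recBotCoe with
  | bot => simp
  | coe a =>
    rw [WithBot.coe_lt_coe, WithBot.coe_le_coe]; omega

section Norm

variable {ι : Type*} [Fintype ι] {V : Type*} [AddCommGroup V] [Module (RatFunc K) V]

/-- The (additively written) sup-norm attached to a `K(X)`-basis `c`:
`nrm c v = sup_i degInf (c.repr v i)`.  Its unit ball is the `R_∞`-span of `c`. -/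
noncomputable def nrm (c : Module.Basis ι (RatFunc K) V) (v : V) : WithBot ℤ :=
  Finset.univ.sup (fun i => degInf (c.repr v i))

variable (c : Module.Basis ι (RatFunc K) V)

theorem nrm_le_iff {v : V} {r : WithBot ℤ} :
    nrm c v ≤ r ↔ ∀ i, degInf (c.repr v i) ≤ r := by
  simp [nrm, Finset.sup_le_iff]

theorem degInf_repr_le (v : V) (i : ι) : degInf (c.repr v i) ≤ nrm c v :=
  Finset.le_sup (f := fun i => degInf (c.repr v i)) (Finset.mem_univ i)

@[simp] theorem nrm_zero : nrm c (0 : V) = ⊥ := by
  simp [nrm]

@[simp] theorem nrm_eq_bot_iff {v : V} : nrm c v = ⊥ ↔ v = 0 := by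
  constructor
  · intro h
    have h' : ∀ i, c.repr v i = 0 := by
      intro i
      have := degInf_repr_le c v i
      rw [h, le_bot_iff] at this
      simpa using this
    apply c.repr.injective
    ext i
    simpa using h' i
  · rintro rfl; simp

theorem nrm_ne_bot {v : V} (hv : v ≠ 0) : nrm c v ≠ ⊥ := by
  simpa using hv

theorem nrm_smul (f : RatFunc K) (v : V) : nrm c (f • v) = degInf f + nrm c v := by
  unfold nrm
  rw [← sup_const_add]
  congr 1
  funext i
  simp [degInf_mul]

@[simp] theorem nrm_neg (v : V) : nrm c (-v) = nrm c v := by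
  unfold nrm
  congr 1
  funext i
  simp

theorem nrm_add_le (u v : V) : nrm c (u + v) ≤ max (nrm c u) (nrm c v) := by
  rw [nrm_le_iff]
  intro i
  rw [map_add, Finsupp.add_apply]
  exact (degInf_add_le _ _).trans (max_le_max (degInf_repr_le c u i) (degInf_repr_le c v i))

theorem nrm_sub_le (u v : V) : nrm c (u - v) ≤ max (nrm c u) (nrm c v) := by
  rw [sub_eq_add_neg]
  exact (nrm_add_le c u (-v)).trans (by rw [nrm_neg])

theorem nrm_sum_le {κ : Type*} (s : Finset κ) (f : κ → V) :
    nrm c (∑ i ∈ s, f i) ≤ s.sup (fun i => nrm c (f i)) := by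
  classical
  induction s using Finset.induction_on with
  | empty => simp
  | insert a s ha ih =>
    rw [Finset.sum_insert ha, Finset.sup_insert]
    exact (nrm_add_le c _ _).trans (max_le_max le_rfl ih)

theorem nrm_basis (i : ι) : nrm c (c i) = 0 := by
  classical
  apply le_antisymm
  · rw [nrm_le_iff]
    intro j
    rw [c.repr_self, Finsupp.single_apply]
    split_ifs
    · simp
    · simp
  · have := degInf_repr_le c (c i) i
    rwa [c.repr_self, Finsupp.single_eq_same, degInf_one] at this

/-- The ultrametric upper bound for linear combinations. -/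
theorem nrm_sum_smul_le (w : ι → V) (a : ι → RatFunc K) :
    nrm c (∑ i, a i • w i) ≤ Finset.univ.sup (fun i => degInf (a i) + nrm c (w i)) := by
  refine (nrm_sum_le c _ _).trans (le_of_eq ?_)
  congr 1
  funext i
  exact nrm_smul c _ _

/-- Comparison of the norms attached to two bases. -/
theorem nrm_le_nrm_add (b : Module.Basis ι (RatFunc K) V) (v : V) :
    nrm b v ≤ nrm c v + Finset.univ.sup (fun j => nrm b (c j)) := by
  conv_lhs => rw [← c.sum_repr v]
  refine (nrm_sum_smul_le b (fun j => c j) (fun j => c.repr v j)).trans ?_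
  rw [Finset.sup_le_iff]
  intro j _
  exact add_le_add (degInf_repr_le c v j)
    (Finset.le_sup (f := fun j => nrm b (c j)) (Finset.mem_univ j))

/-- A family `w` is *reduced* (orthogonal) for the norm `nrm c`: the norm of every
`K(X)`-linear combination is the maximum of the norms of its terms. -/
def IsReduced (w : ι → V) : Prop :=
  ∀ a : ι → RatFunc K,
    nrm c (∑ i, a i • w i) = Finset.univ.sup (fun i => degInf (a i) + nrm c (w i))

/-- The polynomial-coefficient form of reducedness (it implies `IsReduced`, see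
`isReduced_of_isReducedPoly`). -/
def IsReducedPoly (w : ι → V) : Prop :=
  ∀ p : ι → K[X],
    Finset.univ.sup (fun i => degInf (algebraMap K[X] (RatFunc K) (p i)) + nrm c (w i)) ≤
      nrm c (∑ i, algebraMap K[X] (RatFunc K) (p i) • w i)

theorem IsReduced.isReducedPoly {w : ι → V} (h : IsReduced c w) : IsReducedPoly c w :=
  fun p => (h fun i => algebraMap K[X] (RatFunc K) (p i)).ge

/-- Clearing denominators: polynomial reducedness implies reducedness. -/
theorem isReduced_of_isReducedPoly {w : ι → V} (h : IsReducedPoly c w) : IsReduced c w := by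
  classical
  intro a
  refine le_antisymm (nrm_sum_smul_le c w a) ?_
  -- common denominator
  obtain ⟨q, hq⟩ := IsLocalization.exist_integer_multiples_of_finset (nonZeroDivisors K[X])
    (Finset.univ.image a)
  have hq0 : algebraMap K[X] (RatFunc K) (q : K[X]) ≠ 0 := by
    simp
  have hmem : ∀ i, ∃ p : K[X], algebraMap K[X] (RatFunc K) p =
      algebraMap K[X] (RatFunc K) (q : K[X]) * a i := by
    intro i
    obtain ⟨p, hp⟩ := hq (a i) (Finset.mem_image_of_mem a (Finset.mem_univ i))
    exact ⟨p, by rw [hp, Algebra.smul_def]⟩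
  choose p hp using hmem
  have h1 := h p
  have h2 : ∑ i, algebraMap K[X] (RatFunc K) (p i) • w i =
      algebraMap K[X] (RatFunc K) (q : K[X]) • ∑ i, a i • w i := by
    rw [Finset.smul_sum]
    refine Finset.sum_congr rfl fun i _ => ?_
    rw [hp i, mul_smul]
  rw [h2, nrm_smul] at h1
  have h3 : Finset.univ.sup
      (fun i => degInf (algebraMap K[X] (RatFunc K) (p i)) + nrm c (w i)) =
      degInf (algebraMap K[X] (RatFunc K) (q : K[X])) +
        Finset.univ.sup (fun i => degInf (a i) + nrm c (w i)) := by
    rw [← sup_const_add]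
    congr 1
    funext i
    rw [hp i, degInf_mul, add_assoc]
  rw [h3, degInf_of_ne_zero hq0] at h1
  exact (WithBot.add_le_add_iff_left WithBot.coe_ne_bot).mp h1

end Norm

end Fermat.Agent.S18.A.ReducedBasis
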