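import Mathlib
import Fermat.Agent.S18.A.Defs
import Fermat.Agent.S18.A.FibreSep
import Fermat.Agent.S18.A.ReducedDefs

/-!
# PROJECT H (S18), block A: the `RatFunc K`-chart of a function field

Glue between the prelude language (places of `F/K`) and helper7's reduced-basis theory over
`K[X] ⊆ RatFunc K` (`A/ReducedDefs.lean`).
-/

set_option autoImplicit false

namespace Fermat.Agent.S18.A.Chart

open AlgebraicCurve IsDedekindDomain IntermediateField Polynomial
  Fermat.Agent.S24.FF Fermat.Agent.S24.PlacePrime Fermat.Agent.S24.Ord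

universe u w

variable {K : Type w} {F : Type u} [Field K] [Field F] [Algebra K F] {x : F}

/-! ### evaluation `RatFunc K → F`, `X ↦ x` -/

/-- evaluation at a transcendental `x`, as a `K`-algebra homomorphism `RatFunc K → F` -/
noncomputable def evalRat (hx : Transcendental K x) : RatFunc K →ₐ[K] F :=
  RatFunc.liftAlgHom (aeval x)
    (nonZeroDivisors_le_comap_nonZeroDivisors_of_injective _ (transcendental_iff_injective.mp hx))

theorem evalRat_apply (hx : Transcendental K x) (a : RatFunc K) :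
    evalRat hx a = aeval x a.num / aeval x a.denom :=
  RatFunc.liftAlgHom_apply _ _ a

theorem evalRat_algebraMap (hx : Transcendental K x) (p : K[X]) :
    evalRat hx (algebraMap K[X] (RatFunc K) p) = aeval x p := by
  have h := RatFunc.liftAlgHom_apply_div (aeval x)
    (nonZeroDivisors_le_comap_nonZeroDivisors_of_injective _ (transcendental_iff_injective.mp hx))
    p 1
  simpa [evalRat] using h

@[simp] theorem evalRat_X (hx : Transcendental K x) : evalRat hx RatFunc.X = x := by
  rw [← RatFunc.algebraMap_X, evalRat_algebraMap, aeval_X]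

theorem evalRat_injective (hx : Transcendental K x) : Function.Injective (evalRat hx) :=
  (evalRat hx).toRingHom.injective

/-! ### orders at the poles of `x` -/

section OrdPole

theorem sub_ne_zero_of_transcendental (hx : Transcendental K x) (a : K) :
    x - algebraMap K F a ≠ 0 := by
  intro h
  apply hx
  rw [sub_eq_zero.mp h]
  exact isAlgebraic_algebraMap a

theorem ord_prod_sub_of_pole (hx : Transcendental K x) (Q : Place K F) (hQ : Q.ord x < 0)
    (s : Multiset K) :
    (s.map fun a => x - algebraMap K F a).prod ≠ 0 ∧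
      Q.ord (s.map fun a => x - algebraMap K F a).prod = (Multiset.card s : ℤ) * Q.ord x := by
  induction s using Multiset.induction_on with
  | empty => simp
  | cons a s ih =>
    obtain ⟨h0, h1⟩ := ih
    rw [Multiset.map_cons, Multiset.prod_cons]
    refine ⟨mul_ne_zero (sub_ne_zero_of_transcendental hx a) h0, ?_⟩
    rw [Q.ord_mul (sub_ne_zero_of_transcendental hx a) h0, h1,
      FibreSep.ord_sub_of_ord_neg Q a hQ, Multiset.card_cons]
    push_cast
    ring

variable [IsAlgClosed K]

/-- at a pole `Q` of `x`: `ord_Q (p(x)) = deg p * ord_Q x` -/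
theorem ord_aeval_of_pole (hx : Transcendental K x) (Q : Place K F) (hQ : Q.ord x < 0)
    {p : K[X]} (hp : p ≠ 0) :
    Q.ord (aeval x p) = (p.natDegree : ℤ) * Q.ord x := by
  have hs := (IsAlgClosed.splits p).eq_prod_roots
  have hlc : p.leadingCoeff ≠ 0 := leadingCoeff_ne_zero.mpr hp
  have hcard : Multiset.card p.roots = p.natDegree :=
    (IsAlgClosed.splits p).natDegree_eq_card_roots.symm
  obtain ⟨h0, h1⟩ := ord_prod_sub_of_pole hx Q hQ p.roots
  have hmap : aeval x p = algebraMap K F p.leadingCoeff *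
      (p.roots.map fun a => x - algebraMap K F a).prod := by
    conv_lhs => rw [hs]
    rw [map_mul, aeval_C, map_multiset_prod, Multiset.map_map]
    congr 2
    refine Multiset.map_congr rfl fun a _ => ?_
    simp
  rw [hmap, Q.ord_mul ((map_ne_zero_iff _ (algebraMap K F).injective).mpr hlc) h0,
    ord_algebraMap, zero_add, h1, hcard]

theorem aeval_ne_zero (hx : Transcendental K x) {p : K[X]} (hp : p ≠ 0) : aeval x p ≠ 0 := by
  intro h
  exact hp (transcendental_iff_injective.mp hx (by rw [h, map_zero]))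

/-- at a pole `Q` of `x`: `ord_Q (a(x)) = intDegree a * ord_Q x` -/
theorem ord_evalRat_of_pole (hx : Transcendental K x) (Q : Place K F) (hQ : Q.ord x < 0)
    {a : RatFunc K} (ha : a ≠ 0) :
    Q.ord (evalRat hx a) = a.intDegree * Q.ord x := by
  have hnum : a.num ≠ 0 := RatFunc.num_ne_zero ha
  have hden : a.denom ≠ 0 := RatFunc.denom_ne_zero a
  rw [evalRat_apply, div_eq_mul_inv,
    Q.ord_mul (aeval_ne_zero hx hnum) (inv_ne_zero (aeval_ne_zero hx hden)), Q.ord_inv,
    ord_aeval_of_pole hx Q hQ hnum, ord_aeval_of_pole hx Q hQ hden, RatFunc.intDegree]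
  push_cast
  ring

end OrdPole

/-! ### an integral basis of `intRing K x` over `K[x]`, as a `K(x)`-basis of `F` -/

section IntegralBasis

open scoped IntermediateField.algebraAdjoinAdjoin
open Fermat.Agent.S24.Fibre

theorem exists_integral_basis (hx : IsFF K x) (hsep : Algebra.IsSeparable K⟮x⟯ F) :
    ∃ b : Module.Basis (Fin (Module.finrank K⟮x⟯ F)) K⟮x⟯ F,
      (∀ i, b i ∈ intRing K x) ∧
      ∀ g ∈ intRing K x, ∀ i, ∃ p : polyRing K x,
        b.repr g i = algebraMap (polyRing K x) K⟮x⟯ p := by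
  have := hx.finite
  have := isPID hx.transcendental
  have hfree : Module.Free (polyRing K x) (intRing K x) :=
    IsIntegralClosure.module_free (polyRing K x) K⟮x⟯ F (intRing K x)
  have hrank : Module.finrank (polyRing K x) (intRing K x) = Module.finrank K⟮x⟯ F :=
    IsIntegralClosure.rank (polyRing K x) K⟮x⟯ F (intRing K x)
  have hfin : Module.Finite (polyRing K x) (intRing K x) :=
    IsIntegralClosure.finite (polyRing K x) K⟮x⟯ F (intRing K x)
  have hloc : IsLocalization (Algebra.algebraMapSubmonoid (intRing K x)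
      (nonZeroDivisors (polyRing K x))) F :=
    IsIntegralClosure.isLocalization (polyRing K x) K⟮x⟯ F (intRing K x)
  let b₀ : Module.Basis (Fin (Module.finrank K⟮x⟯ F)) (polyRing K x) (intRing K x) :=
    Module.finBasisOfFinrankEq (polyRing K x) (intRing K x) hrank
  refine ⟨b₀.localizationLocalization K⟮x⟯ (nonZeroDivisors (polyRing K x)) F, fun i => ?_,
    fun g hg i => ?_⟩
  · rw [Module.Basis.localizationLocalization_apply]
    exact (b₀ i).2
  · refine ⟨b₀.repr ⟨g, hg⟩ i, ?_⟩
    have h := Module.Basis.localizationLocalization_repr_algebraMap K⟮x⟯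
      (nonZeroDivisors (polyRing K x)) F b₀ ⟨g, hg⟩ i
    exact h

end IntegralBasis

/-! ### `RatFunc K ≃ K(y)` and the `RatFunc K`-structure on `F` -/

section RatStructure

/-- the `RatFunc K`-algebra structure on `F` given by `X ↦ x` (use as a local instance) -/
@[reducible] noncomputable def ratAlgebra (hx : Transcendental K x) : Algebra (RatFunc K) F :=
  (evalRat hx).toRingHom.toAlgebra

theorem ratAlgebra_smul_def (hx : Transcendental K x) (a : RatFunc K) (v : F) :
    letI := ratAlgebra hx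
    a • v = evalRat hx a * v := rfl

theorem evalRat_mem_adjoin (hx : Transcendental K x) {y : F} (hxy : x ∈ K⟮y⟯) (a : RatFunc K) :
    evalRat hx a ∈ K⟮y⟯ := by
  rw [evalRat_apply]
  have h : ∀ p : K[X], aeval x p ∈ K⟮y⟯ := by
    intro p
    have h1 : aeval x p ∈ Algebra.adjoin K {x} := Polynomial.aeval_mem_adjoin_singleton K x
    have h2 : Algebra.adjoin K {x} ≤ K⟮y⟯.toSubalgebra :=
      Algebra.adjoin_le (Set.singleton_subset_iff.mpr hxy)
    exact h2 h1
  exact div_mem (h _) (h _)

/-- For `y = Y₀(x)` with `x ∈ K(y)`: the ring homomorphism `RatFunc K → K(y)`, `a ↦ a(x)`. -/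
noncomputable def ratToAdjoin (hx : Transcendental K x) {y : F} (hxy : x ∈ K⟮y⟯) :
    RatFunc K →+* K⟮y⟯ :=
  (evalRat hx).toRingHom.codRestrict K⟮y⟯ (evalRat_mem_adjoin hx hxy)

theorem coe_ratToAdjoin (hx : Transcendental K x) {y : F} (hxy : x ∈ K⟮y⟯) (a : RatFunc K) :
    (ratToAdjoin hx hxy a : F) = evalRat hx a := rfl

theorem ratToAdjoin_bijective (hx : Transcendental K x) {y : F} (hxy : x ∈ K⟮y⟯)
    {Y₀ : RatFunc K} (hY : evalRat hx Y₀ = y) : Function.Bijective (ratToAdjoin hx hxy) := by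
  refine ⟨(ratToAdjoin hx hxy).injective, fun z => ?_⟩
  obtain ⟨r, s, hrs⟩ := (IntermediateField.mem_adjoin_simple_iff K (z : F)).mp z.2
  refine ⟨aeval Y₀ r / aeval Y₀ s, Subtype.ext ?_⟩
  rw [coe_ratToAdjoin, map_div₀, ← Polynomial.aeval_algHom_apply, ← Polynomial.aeval_algHom_apply,
    hY, hrs]

/-- For `y = Y₀(x)` with `x ∈ K(y)`: the ring isomorphism `RatFunc K ≃ K(y)`, `a ↦ a(x)`. -/
noncomputable def ratEquivAdjoin (hx : Transcendental K x) {y : F} (hxy : x ∈ K⟮y⟯)
    {Y₀ : RatFunc K} (hY : evalRat hx Y₀ = y) : RatFunc K ≃+* K⟮y⟯ :=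
  RingEquiv.ofBijective (ratToAdjoin hx hxy) (ratToAdjoin_bijective hx hxy hY)

theorem coe_ratEquivAdjoin (hx : Transcendental K x) {y : F} (hxy : x ∈ K⟮y⟯)
    {Y₀ : RatFunc K} (hY : evalRat hx Y₀ = y) (a : RatFunc K) :
    (ratEquivAdjoin hx hxy hY a : F) = evalRat hx a := rfl

theorem evalRat_ratEquivAdjoin_symm (hx : Transcendental K x) {y : F} (hxy : x ∈ K⟮y⟯)
    {Y₀ : RatFunc K} (hY : evalRat hx Y₀ = y) (c : K⟮y⟯) :
    evalRat hx ((ratEquivAdjoin hx hxy hY).symm c) = (c : F) := by
  rw [← coe_ratEquivAdjoin hx hxy hY, RingEquiv.apply_symm_apply]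

/-- transport of a `K(y)`-basis of `F` to a `RatFunc K`-basis -/
noncomputable def ratBasis (hx : Transcendental K x) {y : F} (hxy : x ∈ K⟮y⟯)
    {Y₀ : RatFunc K} (hY : evalRat hx Y₀ = y) {ι : Type*} (b : Module.Basis ι K⟮y⟯ F) :
    letI := ratAlgebra hx
    Module.Basis ι (RatFunc K) F :=
  letI := ratAlgebra hx
  b.mapCoeffs (ratEquivAdjoin hx hxy hY).symm (fun c v => by
    rw [ratAlgebra_smul_def, evalRat_ratEquivAdjoin_symm]
    rfl)

theorem ratBasis_apply (hx : Transcendental K x) {y : F} (hxy : x ∈ K⟮y⟯)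
    {Y₀ : RatFunc K} (hY : evalRat hx Y₀ = y) {ι : Type*} (b : Module.Basis ι K⟮y⟯ F) (i : ι) :
    ratBasis hx hxy hY b i = b i := by
  letI := ratAlgebra hx
  exact Module.Basis.mapCoeffs_apply _ _ _ i

theorem evalRat_ratBasis_repr (hx : Transcendental K x) {y : F} (hxy : x ∈ K⟮y⟯)
    {Y₀ : RatFunc K} (hY : evalRat hx Y₀ = y) {ι : Type*} (b : Module.Basis ι K⟮y⟯ F)
    (v : F) (i : ι) :
    letI := ratAlgebra hx
    evalRat hx ((ratBasis hx hxy hY b).repr v i) = (b.repr v i : F) := by
  letI := ratAlgebra hx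
  have h : (ratBasis hx hxy hY b).repr v i = (ratEquivAdjoin hx hxy hY).symm (b.repr v i) := by
    simp [ratBasis, Module.Basis.mapCoeffs]
    rfl
  rw [h, evalRat_ratEquivAdjoin_symm]

end RatStructure

/-! ### the two chart bases over `RatFunc K` -/

section ChartBases

open scoped IntermediateField.algebraAdjoinAdjoin
open Fermat.Agent.S24.Fibre

theorem mem_polyRing_iff (g : F) : g ∈ polyRing K x ↔ ∃ p : K[X], aeval x p = g := by
  rw [show polyRing K x = Algebra.adjoin K {x} from rfl, Algebra.adjoin_singleton_eq_range_aeval]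
  exact Iff.rfl

/-- **chart basis at finite distance**: a `RatFunc K`-basis of `F` consisting of elements of
`intRing K x`, in which the elements of `intRing K x` have polynomial coordinates. -/
theorem exists_basis_fin (hx : IsFF K x) (hsep : Algebra.IsSeparable K⟮x⟯ F) :
    letI := ratAlgebra hx.transcendental
    ∃ b : Module.Basis (Fin (Module.finrank K⟮x⟯ F)) (RatFunc K) F,
      (∀ i, b i ∈ intRing K x) ∧
      ∀ g ∈ intRing K x, ∀ i, ∃ p : K[X], b.repr g i = algebraMap K[X] (RatFunc K) p := by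
  letI := ratAlgebra hx.transcendental
  obtain ⟨b', hb1, hb2⟩ := exists_integral_basis hx hsep
  have hxy : x ∈ K⟮x⟯ := IntermediateField.mem_adjoin_simple_self K x
  have hY : evalRat hx.transcendental RatFunc.X = x := evalRat_X _
  refine ⟨ratBasis hx.transcendental hxy hY b', fun i => ?_, fun g hg i => ?_⟩
  · rw [ratBasis_apply]
    exact hb1 i
  · obtain ⟨p', hp'⟩ := hb2 g hg i
    obtain ⟨p, hp⟩ := (mem_polyRing_iff (p' : F)).mp p'.2
    refine ⟨p, evalRat_injective hx.transcendental ?_⟩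
    rw [evalRat_ratBasis_repr, hp', evalRat_algebraMap, hp]
    rfl

theorem finrank_adjoin_inv (x : F) : Module.finrank K⟮x⁻¹⟯ F = Module.finrank K⟮x⟯ F := by
  rw [FibreSep.adjoin_inv]

/-- **chart basis at infinity**: a `RatFunc K`-basis of `F` consisting of elements of
`intRing K x⁻¹`, in which the elements of `intRing K x⁻¹` have coordinates in `K[X⁻¹]`. -/
theorem exists_basis_inf (hx : IsFF K x) (hsep : Algebra.IsSeparable K⟮x⟯ F) :
    letI := ratAlgebra hx.transcendental
    ∃ c : Module.Basis (Fin (Module.finrank K⟮x⟯ F)) (RatFunc K) F,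
      (∀ i, c i ∈ intRing K x⁻¹) ∧
      ∀ g ∈ intRing K x⁻¹, ∀ i, ∃ q : K[X],
        c.repr g i = aeval (RatFunc.X⁻¹ : RatFunc K) q := by
  letI := ratAlgebra hx.transcendental
  obtain ⟨c', hc1, hc2⟩ := exists_integral_basis hx.inv (FibreSep.isSeparable_inv hsep)
  have hxy : x ∈ K⟮x⁻¹⟯ := by
    have h := IntermediateField.mem_adjoin_simple_self K x⁻¹
    have h2 := inv_mem h
    rwa [inv_inv] at h2
  have hY : evalRat hx.transcendental (RatFunc.X⁻¹) = x⁻¹ := by
    rw [map_inv₀, evalRat_X]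
  refine ⟨(ratBasis hx.transcendental hxy hY c').reindex (finCongr (finrank_adjoin_inv x)),
    fun i => ?_, fun g hg i => ?_⟩
  · rw [Module.Basis.reindex_apply, ratBasis_apply]
    exact hc1 _
  · obtain ⟨q', hq'⟩ := hc2 g hg ((finCongr (finrank_adjoin_inv x)).symm i)
    obtain ⟨q, hq⟩ := (mem_polyRing_iff (q' : F)).mp q'.2
    refine ⟨q, evalRat_injective hx.transcendental ?_⟩
    rw [Module.Basis.repr_reindex_apply, evalRat_ratBasis_repr, hq',
      ← Polynomial.aeval_algHom_apply, hY, hq]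
    rfl

end ChartBases

/-! ### degrees at infinity of elements of `K[X⁻¹]` -/

section DegInv

open ReducedBasis

theorem degInf_add_eq_of_lt {f g : RatFunc K} (h : degInf g < degInf f) :
    degInf (g + f) = degInf f := by
  refine le_antisymm ((degInf_add_le g f).trans (max_le h.le le_rfl)) ?_
  have h1 : degInf f ≤ max (degInf (g + f)) (degInf g) := by
    have h2 := degInf_sub_le (g + f) g
    rwa [add_sub_cancel_left] at h2
  rcases le_max_iff.mp h1 with h3 | h3
  · exact h3
  · exact absurd h3 (not_le.mpr h)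

theorem degInf_C_le (a : K) : degInf (RatFunc.C a) ≤ 0 := by
  rcases eq_or_ne a 0 with rfl | ha
  · simp
  · exact (degInf_C ha).le

theorem degInf_inv_X_pow (n : ℕ) :
    degInf ((RatFunc.X⁻¹ : RatFunc K) ^ n) = ((-(n : ℤ) : ℤ) : WithBot ℤ) := by
  have h : (RatFunc.X⁻¹ : RatFunc K) ^ n = RatFunc.X ^ (-(n : ℤ)) := by
    rw [zpow_neg, zpow_natCast, inv_pow]
  rw [h, degInf_X_zpow]

theorem degInf_aeval_inv_le (q : K[X]) : degInf (aeval (RatFunc.X⁻¹ : RatFunc K) q) ≤ 0 := by
  induction q using Polynomial.induction_on with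
  | C a =>
    rw [aeval_C]
    exact degInf_C_le a
  | add p q hp hq =>
    rw [map_add]
    exact (degInf_add_le _ _).trans (max_le hp hq)
  | monomial n a _ =>
    rw [map_mul, aeval_C, map_pow, aeval_X, degInf_mul, degInf_inv_X_pow]
    have h1 : degInf (algebraMap K (RatFunc K) a) ≤ 0 := degInf_C_le a
    have h2 : (((-((n + 1 : ℕ) : ℤ)) : ℤ) : WithBot ℤ) ≤ 0 := by
      exact_mod_cast (by omega : -((n + 1 : ℕ) : ℤ) ≤ 0)
    calc degInf (algebraMap K (RatFunc K) a) + (((-((n + 1 : ℕ) : ℤ)) : ℤ) : WithBot ℤ)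
        ≤ 0 + 0 := add_le_add h1 h2
      _ = 0 := add_zero 0

theorem degInf_aeval_inv_eq_zero {p : K[X]} (hp : p.eval 0 ≠ 0) :
    degInf (aeval (RatFunc.X⁻¹ : RatFunc K) p) = 0 := by
  have hc : p.coeff 0 ≠ 0 := by rwa [Polynomial.coeff_zero_eq_eval_zero]
  have h1 : aeval (RatFunc.X⁻¹ : RatFunc K) p =
      aeval (RatFunc.X⁻¹ : RatFunc K) p.divX * RatFunc.X⁻¹ + RatFunc.C (p.coeff 0) := by
    conv_lhs => rw [← Polynomial.divX_mul_X_add p]
    rw [map_add, map_mul, aeval_X, aeval_C]
    rfl
  have h2 : degInf (aeval (RatFunc.X⁻¹ : RatFunc K) p.divX * RatFunc.X⁻¹) <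
      degInf (RatFunc.C (p.coeff 0) : RatFunc K) := by
    rw [degInf_C hc, degInf_mul]
    have h3 := degInf_inv_X_pow (K := K) 1
    rw [pow_one] at h3
    rw [h3]
    have h4 := degInf_aeval_inv_le p.divX
    calc degInf (aeval (RatFunc.X⁻¹ : RatFunc K) p.divX) + (((-((1 : ℕ) : ℤ)) : ℤ) : WithBot ℤ)
        ≤ 0 + (((-((1 : ℕ) : ℤ)) : ℤ) : WithBot ℤ) := add_le_add h4 le_rfl
      _ = (((-((1 : ℕ) : ℤ)) : ℤ) : WithBot ℤ) := zero_add _
      _ < 0 := by exact_mod_cast (by omega : -((1 : ℕ) : ℤ) < 0)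
  rw [h1, degInf_add_eq_of_lt h2, degInf_C hc]

end DegInv

/-! ### `intRing K x` = functions regular wherever `x` is regular -/

section Regular

open scoped IntermediateField.algebraAdjoinAdjoin
open Fermat.Agent.S24.Fibre

theorem adicValuation_le_one_of_mem_intRing {f : F} (hf : f ∈ intRing K x) (Q : Place K F)
    (hQ : Q.adicValuation x ≤ 1) : Q.adicValuation f ≤ 1 :=
  adicValuation_le_one_of_isIntegral Q (adicValuation_adjoin_le_one Q hQ) hf

theorem mem_intRing_iff (hx : IsFF K x) (hsep : Algebra.IsSeparable K⟮x⟯ F) (f : F) :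
    f ∈ intRing K x ↔ ∀ Q : Place K F, Q.adicValuation x ≤ 1 → Q.adicValuation f ≤ 1 := by
  refine ⟨fun hf Q hQ => adicValuation_le_one_of_mem_intRing hf Q hQ, fun h => ?_⟩
  haveI := Defs.isDedekind hx hsep
  haveI := Defs.isFractionRing (K := K) hx
  have hxO : x ∈ intRing K x :=
    Subalgebra.algebraMap_mem (intRing K x) (⟨x, Algebra.self_mem_adjoin_singleton K x⟩ : polyRing K x)
  have hmem : f ∈ (algebraMap (intRing K x) F).range := by
    refine HeightOneSpectrum.mem_integers_of_valuation_le_one F f fun P => ?_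
    have h1 : (placeOfPrime (K := K) P).adicValuation x ≤ 1 := by
      rw [FibreSep.adicValuation_placeOfPrime]
      exact P.valuation_le_one (⟨x, hxO⟩ : intRing K x)
    have h2 := h (placeOfPrime (K := K) P) h1
    rwa [FibreSep.adicValuation_placeOfPrime] at h2
  obtain ⟨g, rfl⟩ := hmem
  exact g.2

theorem one_lt_adicValuation_of_inv_lt_one (hx0 : x ≠ 0) {Q : Place K F}
    (h : Q.adicValuation x⁻¹ < 1) : 1 < Q.adicValuation x := by
  rw [map_inv₀] at h
  by_contra hle
  rw [not_lt] at hle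
  have h0 : Q.adicValuation x ≠ 0 := Q.adicValuation_ne_zero hx0
  have : 1 ≤ (Q.adicValuation x)⁻¹ := (one_le_inv₀ (zero_lt_iff.mpr h0)).mpr hle
  exact absurd h (not_lt.mpr this)

/-- a function regular at the poles of `x` becomes integral over `K[x⁻¹]` after multiplication
by a polynomial in `x⁻¹` with nonzero constant term -/
theorem exists_mul_mem_intRing_inv (hx : IsFF K x) (hsep : Algebra.IsSeparable K⟮x⟯ F) (f : F)
    (hf : ∀ Q : Place K F, 1 < Q.adicValuation x → Q.adicValuation f ≤ 1) :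
    ∃ p : K[X], p.eval 0 ≠ 0 ∧ aeval x⁻¹ p * f ∈ intRing K x⁻¹ := by
  have hy := hx.inv
  have hsepy := FibreSep.isSeparable_inv hsep
  have := hy.finite
  obtain ⟨s, hs0, hs⟩ := exists_integral_multiples (polyRing K x⁻¹) K⟮x⁻¹⟯ ({f} : Finset F)
  have hsf : s • f ∈ intRing K x⁻¹ := hs f (Finset.mem_singleton_self f)
  obtain ⟨q, hq⟩ := (mem_polyRing_iff (s : F)).mp s.2
  have hq0 : q ≠ 0 := by
    rintro rfl
    apply hs0
    apply Subtype.ext
    rw [← hq, map_zero]
    rfl
  obtain ⟨p, hqp, hp⟩ := Polynomial.exists_eq_pow_rootMultiplicity_mul_and_not_dvd q hq0 0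
  refine ⟨p, fun h => hp ((Polynomial.dvd_iff_isRoot).mpr h), ?_⟩
  rw [mem_intRing_iff hy hsepy]
  intro Q hQ
  rcases lt_or_eq_of_le hQ with hlt | heq
  · have hpole := one_lt_adicValuation_of_inv_lt_one hx.ne_zero hlt
    rw [map_mul]
    have h1 : Q.adicValuation (aeval x⁻¹ p) ≤ 1 :=
      adicValuation_adjoin_le_one Q hQ ⟨aeval x⁻¹ p, (mem_polyRing_iff _).mpr ⟨p, rfl⟩⟩
    exact mul_le_one' h1 (hf Q hpole)
  · have h1 : Q.adicValuation (s • f) ≤ 1 := adicValuation_le_one_of_mem_intRing hsf Q hQ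
    have h2 : s • f = x⁻¹ ^ (q.rootMultiplicity 0) * (aeval x⁻¹ p * f) := by
      rw [Algebra.smul_def, ← mul_assoc]
      congr 1
      change (s : F) = _
      rw [← hq]
      conv_lhs => rw [hqp]
      rw [map_mul, map_pow, map_sub, aeval_X, aeval_C, map_zero, sub_zero]
    rw [h2, map_mul, map_pow, heq, one_pow, one_mul] at h1
    exact h1

end Regular

/-! ### the unit ball of the chart basis at infinity -/

section UnitBall

open ReducedBasis Fermat.Agent.S24.Fibre

variable [IsAlgClosed K] [Algebra (RatFunc K) F] {ι : Type*} [Fintype ι]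

theorem smul_eq_evalRat_mul (hx : Transcendental K x)
    (halg : ∀ a : RatFunc K, algebraMap (RatFunc K) F a = evalRat hx a) (a : RatFunc K) (v : F) :
    a • v = evalRat hx a * v := by
  rw [Algebra.smul_def, halg]

theorem adicValuation_evalRat_le_one_of_pole (hx : Transcendental K x) {Q : Place K F}
    (hQ : Q.ord x < 0) {a : RatFunc K} (ha : degInf a ≤ 0) :
    Q.adicValuation (evalRat hx a) ≤ 1 := by
  rw [Q.adicValuation_le_one_iff]
  rcases eq_or_ne a 0 with rfl | ha0
  · left
    exact map_zero _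
  · right
    rw [ord_evalRat_of_pole hx Q hQ ha0]
    rw [degInf_of_ne_zero ha0] at ha
    have h1 : a.intDegree ≤ 0 := by exact_mod_cast ha
    exact mul_nonneg_of_nonpos_of_nonpos h1 hQ.le

/-- **the unit ball of the chart basis at infinity** is the ring of functions regular at the
poles of `x` -/
theorem nrm_le_zero_iff (hx : IsFF K x) (hsep : Algebra.IsSeparable K⟮x⟯ F)
    (halg : ∀ a : RatFunc K, algebraMap (RatFunc K) F a = evalRat hx.transcendental a)
    (c : Module.Basis ι (RatFunc K) F) (hc1 : ∀ i, c i ∈ intRing K x⁻¹)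
    (hc2 : ∀ g ∈ intRing K x⁻¹, ∀ i, ∃ q : K[X], c.repr g i = aeval (RatFunc.X⁻¹ : RatFunc K) q)
    (f : F) :
    nrm c f ≤ 0 ↔ ∀ Q : Place K F, Q.ord x < 0 → Q.adicValuation f ≤ 1 := by
  constructor
  · intro h Q hQ
    have hQ1 : 1 < Q.adicValuation x := (ord_neg_iff Q hx.ne_zero).mp hQ
    have hQy : Q.adicValuation x⁻¹ ≤ 1 := by
      rw [map_inv₀]
      exact inv_le_one_of_one_le₀ hQ1.le
    rw [← c.sum_repr f]
    refine Valuation.map_sum_le _ fun i _ => ?_
    rw [smul_eq_evalRat_mul hx.transcendental halg, map_mul]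
    refine mul_le_one' (adicValuation_evalRat_le_one_of_pole hx.transcendental hQ
      ((degInf_repr_le c f i).trans h)) ?_
    exact adicValuation_le_one_of_mem_intRing (hc1 i) Q hQy
  · intro h
    obtain ⟨p, hp0, hp⟩ := exists_mul_mem_intRing_inv hx hsep f (fun Q hQ =>
      h Q ((ord_neg_iff Q hx.ne_zero).mpr hQ))
    rw [nrm_le_iff]
    intro i
    obtain ⟨q, hq⟩ := hc2 _ hp i
    have h1 : aeval x⁻¹ p * f = (aeval (RatFunc.X⁻¹ : RatFunc K) p) • f := by
      rw [smul_eq_evalRat_mul hx.transcendental halg, ← Polynomial.aeval_algHom_apply, map_inv₀,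
        evalRat_X]
    rw [h1, map_smul, Finsupp.smul_apply, smul_eq_mul] at hq
    have h2 := congrArg degInf hq
    rw [degInf_mul, degInf_aeval_inv_eq_zero hp0, zero_add] at h2
    rw [h2]
    exact degInf_aeval_inv_le q

theorem evalRat_X_zpow (hx : Transcendental K x) (r : ℤ) :
    evalRat hx ((RatFunc.X : RatFunc K) ^ r) = x ^ r := by
  rw [map_zpow₀, evalRat_X]

/-- the balls of the chart basis at infinity in terms of the orders at the poles of `x` -/
theorem nrm_le_iff_pole (hx : IsFF K x) (hsep : Algebra.IsSeparable K⟮x⟯ F)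
    (halg : ∀ a : RatFunc K, algebraMap (RatFunc K) F a = evalRat hx.transcendental a)
    (c : Module.Basis ι (RatFunc K) F) (hc1 : ∀ i, c i ∈ intRing K x⁻¹)
    (hc2 : ∀ g ∈ intRing K x⁻¹, ∀ i, ∃ q : K[X], c.repr g i = aeval (RatFunc.X⁻¹ : RatFunc K) q)
    (f : F) (r : ℤ) :
    nrm c f ≤ ((r : ℤ) : WithBot ℤ) ↔
      ∀ Q : Place K F, Q.ord x < 0 → f = 0 ∨ r * Q.ord x ≤ Q.ord f := by
  rcases eq_or_ne f 0 with rfl | hf
  · simp
  have hX : (RatFunc.X : RatFunc K) ^ (-r) ≠ 0 := zpow_ne_zero _ RatFunc.X_ne_zero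
  have h1 : nrm c f ≤ ((r : ℤ) : WithBot ℤ) ↔ nrm c (((RatFunc.X : RatFunc K) ^ (-r)) • f) ≤ 0 := by
    rw [nrm_smul, degInf_X_zpow]
    obtain ⟨m, hm⟩ := WithBot.ne_bot_iff_exists.mp (nrm_ne_bot c hf)
    rw [← hm, ← WithBot.coe_add, ← WithBot.coe_zero, WithBot.coe_le_coe, WithBot.coe_le_coe]
    omega
  rw [h1, nrm_le_zero_iff hx hsep halg c hc1 hc2]
  refine forall₂_congr fun Q hQ => ?_
  rw [smul_eq_evalRat_mul hx.transcendental halg, evalRat_X_zpow, Q.adicValuation_le_one_iff]
  have hxr : x ^ (-r) ≠ 0 := zpow_ne_zero _ hx.ne_zero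
  rw [Q.ord_mul hxr hf, Q.ord_zpow]
  constructor
  · rintro (h | h)
    · exact absurd h (mul_ne_zero hxr hf)
    · right
      linarith
  · rintro (h | h)
    · exact absurd h hf
    · right
      linarith

end UnitBall

/-! ### the lattice of the chart basis at finite distance and the Riemann-Roch spaces -/

section Lattice

open ReducedBasis Fermat.Agent.S24.Fibre

variable [Algebra (RatFunc K) F] [Module K[X] F] [IsScalarTower K[X] (RatFunc K) F]
  {ι : Type*} [Fintype ι]

theorem poly_smul_eq (hx : Transcendental K x)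
    (halg : ∀ a : RatFunc K, algebraMap (RatFunc K) F a = evalRat hx a) (p : K[X]) (v : F) :
    p • v = aeval x p * v := by
  rw [← algebraMap_smul (RatFunc K) p v, Algebra.smul_def, halg, evalRat_algebraMap]

theorem aeval_mem_intRing (p : K[X]) : aeval x p ∈ intRing K x :=
  Subalgebra.algebraMap_mem (intRing K x)
    (⟨aeval x p, (mem_polyRing_iff _).mpr ⟨p, rfl⟩⟩ : polyRing K x)

/-- the `K[X]`-span of the chart basis at finite distance is `intRing K x` -/
theorem mem_span_iff_mem_intRing (hx : Transcendental K x)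
    (halg : ∀ a : RatFunc K, algebraMap (RatFunc K) F a = evalRat hx a)
    (b : Module.Basis ι (RatFunc K) F) (hb1 : ∀ i, b i ∈ intRing K x)
    (hb2 : ∀ g ∈ intRing K x, ∀ i, ∃ p : K[X], b.repr g i = algebraMap K[X] (RatFunc K) p)
    (v : F) :
    v ∈ Submodule.span K[X] (Set.range b) ↔ v ∈ intRing K x := by
  constructor
  · intro hv
    induction hv using Submodule.span_induction with
    | mem y hy =>
      obtain ⟨i, rfl⟩ := hy
      exact hb1 i
    | zero => exact (intRing K x).zero_mem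
    | add y z _ _ hy hz => exact (intRing K x).add_mem hy hz
    | smul p y _ hy =>
      rw [poly_smul_eq hx halg]
      exact (intRing K x).mul_mem (aeval_mem_intRing p) hy
  · intro hv
    choose p hp using hb2 v hv
    rw [← b.sum_repr v]
    refine Submodule.sum_mem _ fun i _ => ?_
    rw [hp i, algebraMap_smul]
    exact Submodule.smul_mem _ _ (Submodule.subset_span ⟨i, rfl⟩)

variable [IsAlgClosed K]

/-- **`L(r (x)_∞)` in the chart**: integral over `K[x]` and of norm at most `r` at infinity -/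
theorem mem_riemannRochSpace_smul_poleDiv_iff (hx : IsFF K x)
    (hsep : Algebra.IsSeparable K⟮x⟯ F)
    (halg : ∀ a : RatFunc K, algebraMap (RatFunc K) F a = evalRat hx.transcendental a)
    (c : Module.Basis ι (RatFunc K) F) (hc1 : ∀ i, c i ∈ intRing K x⁻¹)
    (hc2 : ∀ g ∈ intRing K x⁻¹, ∀ i, ∃ q : K[X], c.repr g i = aeval (RatFunc.X⁻¹ : RatFunc K) q)
    (f : F) (r : ℤ) :
    f ∈ riemannRochSpace (r • FibreSep.poleDiv hx hsep) ↔
      f ∈ intRing K x ∧ nrm c f ≤ ((r : ℤ) : WithBot ℤ) := by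
  rw [mem_riemannRochSpace_iff, mem_intRing_iff hx hsep, nrm_le_iff_pole hx hsep halg c hc1 hc2]
  have hD : ∀ Q : Place K F, (r • FibreSep.poleDiv hx hsep) Q = r * max (-Q.ord x) 0 := by
    intro Q
    rw [Finsupp.smul_apply, FibreSep.poleDiv_apply, smul_eq_mul]
  constructor
  · intro h
    refine ⟨fun Q hQ => ?_, fun Q hQ => ?_⟩
    · have h0 : 0 ≤ Q.ord x := (ord_nonneg_iff Q hx.ne_zero).mpr hQ
      have h1 := h Q
      rw [hD, max_eq_right (by omega), mul_zero, neg_zero] at h1
      exact Q.adicValuation_le_one_iff.mpr h1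
    · have h1 := h Q
      rw [hD, max_eq_left (by omega)] at h1
      rcases h1 with h1 | h1
      · exact Or.inl h1
      · right
        linarith
  · rintro ⟨h1, h2⟩ Q
    rw [hD]
    rcases lt_or_ge (Q.ord x) 0 with hQ | hQ
    · rcases h2 Q hQ with h3 | h3
      · exact Or.inl h3
      · right
        rw [max_eq_left (by omega)]
        linarith
    · rw [max_eq_right (by omega), mul_zero, neg_zero]
      exact Q.adicValuation_le_one_iff.mp (h1 Q ((ord_nonneg_iff Q hx.ne_zero).mp hQ))

end Lattice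

/-! ### the local instances used by the consumers -/

section Instances

/-- the `K[X]`-module structure on `F` induced by a `RatFunc K`-algebra structure
(use as a local instance together with `ratAlgebra`) -/
@[reducible] noncomputable def polyModule (K : Type w) (F : Type u) [Field K] [Field F]
    [Algebra (RatFunc K) F] : Module K[X] F :=
  Module.compHom F (algebraMap K[X] (RatFunc K))

theorem isScalarTower_polyModule [Algebra (RatFunc K) F] :
    letI := polyModule K F
    IsScalarTower K[X] (RatFunc K) F := by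
  letI := polyModule K F
  refine ⟨fun p a v => ?_⟩
  change (p • a) • v = (algebraMap K[X] (RatFunc K) p) • (a • v)
  rw [Algebra.smul_def p a, mul_smul]

theorem isScalarTower_ratAlgebra (hx : Transcendental K x) :
    letI := ratAlgebra hx
    IsScalarTower K (RatFunc K) F := by
  letI := ratAlgebra hx
  refine ⟨fun a r v => ?_⟩
  rw [ratAlgebra_smul_def, ratAlgebra_smul_def, map_smul, smul_mul_assoc]

theorem ratAlgebra_algebraMap (hx : Transcendental K x) (a : RatFunc K) :
    letI := ratAlgebra hx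
    algebraMap (RatFunc K) F a = evalRat hx a := rfl

end Instances

end Fermat.Agent.S18.A.Chart
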