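/-
Project H (S18), block A1: the Dedekind–Weber reduced basis theorem as pure linear algebra
over `K[X] ⊆ K(X)`.  This file: existence of a reduced basis.

Main results
* `exists_smaller` – a non-reduced family admits a unimodular elementary move that strictly
  lowers one of the norms (leading-coefficient swap);
* `exists_reduced` – for two `K(X)`-bases `b`, `c` of `V` there is a `K(X)`-basis `w` with the same
  `K[X]`-span as `b` which is reduced for `nrm c`;
* `exists_reduced_invariants` – the same with the integer invariants `d i` and the coefficient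
  formula spelled out.
-/
import Fermat.Agent.S18.A.ReducedDefs

namespace Fermat.Agent.S18.A.ReducedBasis

open Polynomial

variable {K : Type*} [Field K] {ι : Type*} [Fintype ι] {V : Type*} [AddCommGroup V]
  [Module (RatFunc K) V]

local notation "φ" => algebraMap K[X] (RatFunc K)

theorem add_le_coe_of_le {x : WithBot ℤ} {a b : ℤ} (h : ((a : ℤ) : WithBot ℤ) + x ≤ ((a + b : ℤ) : WithBot ℤ)) :
    x ≤ ((b : ℤ) : WithBot ℤ) := by
  induction x using WithBot.recBotCoe with
  | bot => simp
  | coe y =>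
    rw [← WithBot.coe_add, WithBot.coe_le_coe] at h
    rw [WithBot.coe_le_coe]; omega

/-- **The elementary move.**  If `w` (a family of nonzero vectors) is not reduced for `nrm c`, then
some `K[X]`-combination `u = ∑ q i • w i` whose `i₀`-th coefficient is a unit has norm strictly
smaller than `w i₀`. -/
theorem exists_smaller (c : Module.Basis ι (RatFunc K) V) (w : ι → V) (hw : ∀ i, w i ≠ 0)
    (hnot : ¬ IsReducedPoly c w) :
    ∃ (i₀ : ι) (q : ι → K[X]), IsUnit (q i₀) ∧ nrm c (∑ i, φ (q i) • w i) < nrm c (w i₀) := by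
  classical
  unfold IsReducedPoly at hnot
  push Not at hnot
  obtain ⟨p, hp⟩ := hnot
  -- integer invariants
  have hd : ∀ i, ∃ d : ℤ, nrm c (w i) = d := fun i =>
    (WithBot.ne_bot_iff_exists.mp (nrm_ne_bot c (hw i))).imp fun d h => h.symm
  choose d hd using hd
  obtain ⟨m', hm'⟩ := WithBot.ne_bot_iff_exists.mp (ne_bot_of_gt hp)
  rw [← hm'] at hp
  have hle : ∀ i, degInf (φ (p i)) + nrm c (w i) ≤ ((m' : ℤ) : WithBot ℤ) := by
    intro i
    rw [hm']
    exact Finset.le_sup (f := fun i => degInf (φ (p i)) + nrm c (w i)) (Finset.mem_univ i)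
  have hne : (Finset.univ : Finset ι).Nonempty := by
    by_contra h
    rw [Finset.not_nonempty_iff_eq_empty] at h
    rw [h, Finset.sup_empty] at hm'
    exact WithBot.coe_ne_bot hm'
  obtain ⟨i₁, -, hi₁⟩ := Finset.exists_mem_eq_sup Finset.univ hne
    (fun i => degInf (φ (p i)) + nrm c (w i))
  set I : Finset ι := Finset.univ.filter
    (fun i => degInf (φ (p i)) + nrm c (w i) = ((m' : ℤ) : WithBot ℤ)) with hI
  have hInon : I.Nonempty := ⟨i₁, by rw [hI, Finset.mem_filter]; exact ⟨Finset.mem_univ _, by rw [hm', hi₁]⟩⟩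
  have hIp : ∀ i ∈ I, p i ≠ 0 ∧ ((p i).natDegree : ℤ) + d i = m' := by
    intro i hi
    rw [hI, Finset.mem_filter] at hi
    have hpi : p i ≠ 0 := by
      intro h0
      rw [h0, map_zero, degInf_zero, WithBot.bot_add] at hi
      exact WithBot.coe_ne_bot hi.2.symm
    refine ⟨hpi, ?_⟩
    have := hi.2
    rw [degInf_algebraMap_of_ne_zero hpi, hd i, ← WithBot.coe_add, WithBot.coe_inj] at this
    exact this
  obtain ⟨i₀, hi₀I, hi₀min⟩ := Finset.exists_min_image I (fun i => (p i).natDegree) hInon
  set n₀ := (p i₀).natDegree with hn₀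
  set q : ι → K[X] := fun i =>
    if i ∈ I then C (p i).leadingCoeff * X ^ ((p i).natDegree - n₀) else 0 with hq
  refine ⟨i₀, q, ?_, ?_⟩
  · -- the coefficient at `i₀` is a nonzero constant
    have : q i₀ = C (p i₀).leadingCoeff := by
      simp [hq, hi₀I, hn₀]
    rw [this]
    exact Polynomial.isUnit_C.mpr (isUnit_iff_ne_zero.mpr (leadingCoeff_ne_zero.mpr (hIp i₀ hi₀I).1))
  · -- the norm estimate
    set r : ι → K[X] := fun i => p i - q i * X ^ n₀ with hr
    have hrle : ∀ i, degInf (φ (r i)) + nrm c (w i) ≤ (((m' - 1 : ℤ)) : WithBot ℤ) := by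
      intro i
      by_cases hi : i ∈ I
      · obtain ⟨hpi, hdeg⟩ := hIp i hi
        have hqi : q i * X ^ n₀ = C (p i).leadingCoeff * X ^ (p i).natDegree := by
          simp only [hq, hi, if_true]
          rw [mul_assoc, ← pow_add, Nat.sub_add_cancel (hi₀min i hi)]
        have hri : r i = (p i).eraseLead := by
          simp only [hr]
          rw [hqi, Polynomial.self_sub_C_mul_X_pow]
        rw [hri]
        rcases Polynomial.eraseLead_natDegree_lt_or_eraseLead_eq_zero (p i) with hlt | h0
        · refine (add_le_add (degInf_algebraMap_le _) (hd i).le).trans ?_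
          rw [← WithBot.coe_add, WithBot.coe_le_coe]
          omega
        · rw [h0, map_zero, degInf_zero, WithBot.bot_add]
          exact bot_le
      · have hri : r i = p i := by
          simp [hr, hq, hi]
        rw [hri, ← lt_coe_iff_le_pred]
        refine lt_of_le_of_ne (hle i) ?_
        intro h
        exact hi (by rw [hI, Finset.mem_filter]; exact ⟨Finset.mem_univ _, h⟩)
    have hsum : φ (X ^ n₀) • ∑ i, φ (q i) • w i =
        ∑ i, φ (p i) • w i - ∑ i, φ (r i) • w i := by
      rw [Finset.smul_sum, ← Finset.sum_sub_distrib]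
      refine Finset.sum_congr rfl fun i _ => ?_
      rw [← sub_smul, ← map_sub, smul_smul, ← map_mul]
      congr 2
      simp only [hr]
      ring
    have h1 : nrm c (φ (X ^ n₀) • ∑ i, φ (q i) • w i) ≤ (((m' - 1 : ℤ)) : WithBot ℤ) := by
      rw [hsum]
      refine (nrm_sub_le c _ _).trans (max_le (lt_coe_iff_le_pred.mp hp) ?_)
      refine (nrm_sum_smul_le c w _).trans ?_
      rw [Finset.sup_le_iff]
      intro i _
      exact hrle i
    have hXn : degInf (φ ((X : K[X]) ^ n₀)) = ((n₀ : ℤ) : WithBot ℤ) := by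
      rw [degInf_algebraMap_of_ne_zero (pow_ne_zero _ X_ne_zero), natDegree_X_pow]
    rw [nrm_smul, hXn] at h1
    have h0 := (hIp i₀ hi₀I).2
    have h2 : nrm c (∑ i, φ (q i) • w i) ≤ (((d i₀ - 1 : ℤ)) : WithBot ℤ) := by
      apply add_le_coe_of_le (a := (n₀ : ℤ))
      refine h1.trans (le_of_eq ?_)
      congr 1
      omega
    rw [hd i₀, lt_coe_iff_le_pred]
    exact h2

/-- The integer-valued norm (`0` at the zero vector). -/
noncomputable def nrmZ (c : Module.Basis ι (RatFunc K) V) (v : V) : ℤ := (nrm c v).unbotD 0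

theorem coe_nrmZ (c : Module.Basis ι (RatFunc K) V) {v : V} (hv : v ≠ 0) :
    ((nrmZ c v : ℤ) : WithBot ℤ) = nrm c v := by
  obtain ⟨d, hd⟩ := WithBot.ne_bot_iff_exists.mp (nrm_ne_bot c hv)
  rw [nrmZ, ← hd]
  rfl

section Lattice

variable [Module K[X] V] [IsScalarTower K[X] (RatFunc K) V]

theorem sum_smul_eq_sum_algebraMap_smul (w : ι → V) (p : ι → K[X]) :
    ∑ j, p j • w j = ∑ j, φ (p j) • w j :=
  Finset.sum_congr rfl fun j _ => (algebraMap_smul (RatFunc K) (p j) (w j)).symm

/-- Nonzero vectors of the `K[X]`-lattice spanned by a basis `b` have `nrm b ≥ 0`. -/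
theorem nrm_nonneg_of_mem_span (b : Module.Basis ι (RatFunc K) V) {v : V}
    (hv : v ∈ Submodule.span K[X] (Set.range b)) (hv0 : v ≠ 0) : (0 : WithBot ℤ) ≤ nrm b v := by
  obtain ⟨p, rfl⟩ := (Submodule.mem_span_range_iff_exists_fun K[X]).mp hv
  have : ∃ i, p i ≠ 0 := by
    by_contra h
    push Not at h
    apply hv0
    simp [h]
  obtain ⟨i, hi⟩ := this
  have hrepr : b.repr (∑ j, p j • b j) i = φ (p i) := by
    rw [sum_smul_eq_sum_algebraMap_smul, b.repr_sum_self]
  calc (0 : WithBot ℤ) ≤ degInf (φ (p i)) := degInf_algebraMap_nonneg hi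
    _ = degInf (b.repr (∑ j, p j • b j) i) := by rw [hrepr]
    _ ≤ nrm b _ := degInf_repr_le b _ i

/-- `nrm c` is bounded below on the nonzero vectors of a `K[X]`-lattice. -/
theorem exists_lower_bound (b c : Module.Basis ι (RatFunc K) V) :
    ∃ M : ℤ, ∀ v ∈ Submodule.span K[X] (Set.range b), v ≠ 0 → -M ≤ nrmZ c v := by
  obtain ⟨M, hM⟩ : ∃ M : ℤ, Finset.univ.sup (fun j => nrm b (c j)) ≤ ((M : ℤ) : WithBot ℤ) := by
    induction Finset.univ.sup (fun j => nrm b (c j)) using WithBot.recBotCoe with
    | bot => exact ⟨0, bot_le⟩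
    | coe a => exact ⟨a, le_rfl⟩
  refine ⟨M, fun v hv hv0 => ?_⟩
  have h1 := nrm_nonneg_of_mem_span b hv hv0
  have h2 := (nrm_le_nrm_add c b v).trans (add_le_add le_rfl hM)
  have h3 := h1.trans h2
  rw [← coe_nrmZ c hv0, ← WithBot.coe_add, ← WithBot.coe_zero, WithBot.coe_le_coe] at h3
  omega

omit [Module (RatFunc K) V] [IsScalarTower K[X] (RatFunc K) V] in
/-- Replacing `w i₀` by a `K[X]`-combination of `w` whose `i₀`-th coefficient is a unit
does not change the `K[X]`-span. -/
theorem span_update_eq [DecidableEq ι] (w : ι → V) (i₀ : ι) (q : ι → K[X]) (hq : IsUnit (q i₀)) :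
    Submodule.span K[X] (Set.range (Function.update w i₀ (∑ i, q i • w i))) =
      Submodule.span K[X] (Set.range w) := by
  classical
  set u := ∑ i, q i • w i with hu
  apply le_antisymm
  · rw [Submodule.span_le]
    rintro _ ⟨j, rfl⟩
    by_cases hj : j = i₀
    · subst hj
      rw [Function.update_self]
      exact Submodule.sum_mem _ fun i _ =>
        Submodule.smul_mem _ _ (Submodule.subset_span ⟨i, rfl⟩)
    · rw [Function.update_of_ne hj]
      exact Submodule.subset_span ⟨j, rfl⟩
  · rw [Submodule.span_le]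
    have hmem : ∀ j, j ≠ i₀ →
        w j ∈ Submodule.span K[X] (Set.range (Function.update w i₀ u)) := by
      intro j hj
      exact Submodule.subset_span ⟨j, by rw [Function.update_of_ne hj]⟩
    have humem : u ∈ Submodule.span K[X] (Set.range (Function.update w i₀ u)) :=
      Submodule.subset_span ⟨i₀, by rw [Function.update_self]⟩
    rintro _ ⟨j, rfl⟩
    by_cases hj : j = i₀
    · subst hj
      have h1 : q j • w j = u - ∑ i ∈ Finset.univ.erase j, q i • w i := by
        rw [hu, ← Finset.add_sum_erase Finset.univ (fun i => q i • w i) (Finset.mem_univ j)]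
        abel
      have h2 : q j • w j ∈ Submodule.span K[X] (Set.range (Function.update w j u)) := by
        rw [h1]
        refine Submodule.sub_mem _ humem (Submodule.sum_mem _ fun i hi => ?_)
        exact Submodule.smul_mem _ _ (hmem i (Finset.ne_of_mem_erase hi))
      have h3 : w j = (↑(hq.unit⁻¹) : K[X]) • (q j • w j) := by
        rw [smul_smul, IsUnit.val_inv_mul, one_smul]
      rw [SetLike.mem_coe, h3]
      exact Submodule.smul_mem _ _ h2
    · exact hmem j hj

/-- The updated family is again a `K(X)`-basis. -/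
theorem exists_basis_update [DecidableEq ι] (w : Module.Basis ι (RatFunc K) V) (i₀ : ι) (q : ι → K[X])
    (hq : IsUnit (q i₀)) :
    ∃ w' : Module.Basis ι (RatFunc K) V,
      (w' : ι → V) = Function.update w i₀ (∑ i, q i • w i) := by
  classical
  have hspan := span_update_eq (w : ι → V) i₀ q hq
  have htop : ⊤ ≤ Submodule.span (RatFunc K)
      (Set.range (Function.update w i₀ (∑ i, q i • w i))) := by
    rw [← w.span_eq, Submodule.span_le]
    rintro _ ⟨j, rfl⟩
    have : w j ∈ Submodule.span K[X] (Set.range (Function.update w i₀ (∑ i, q i • w i))) := by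
      rw [hspan]
      exact Submodule.subset_span ⟨j, rfl⟩
    exact Submodule.span_subset_span K[X] (RatFunc K) _ this
  exact ⟨basisOfTopLeSpanOfCardEqFinrank _ htop (Module.finrank_eq_card_basis w).symm,
    coe_basisOfTopLeSpanOfCardEqFinrank _ _ _⟩

/-- **Dedekind–Weber reduced basis theorem** (linear algebra form).  Given two `K(X)`-bases
`b` (spanning the `K[X]`-lattice `Λ`) and `c` (defining the norm at infinity), there is a
`K[X]`-basis `w` of `Λ` which is reduced (orthogonal) for `nrm c`. -/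
theorem exists_reduced (b c : Module.Basis ι (RatFunc K) V) :
    ∃ w : Module.Basis ι (RatFunc K) V,
      Submodule.span K[X] (Set.range w) = Submodule.span K[X] (Set.range b) ∧
        IsReduced c w := by
  classical
  obtain ⟨M, hM⟩ := exists_lower_bound b c
  let P : ℤ → Prop := fun z => ∃ w : Module.Basis ι (RatFunc K) V,
    Submodule.span K[X] (Set.range w) = Submodule.span K[X] (Set.range b) ∧
      ∑ i, nrmZ c (w i) = z
  have hbdd : ∃ B : ℤ, ∀ z, P z → B ≤ z := by
    refine ⟨∑ _i : ι, -M, ?_⟩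
    rintro z ⟨w, hw, rfl⟩
    refine Finset.sum_le_sum fun i _ => hM (w i) ?_ (w.ne_zero i)
    rw [← hw]
    exact Submodule.subset_span ⟨i, rfl⟩
  have hinh : ∃ z, P z := ⟨_, b, rfl, rfl⟩
  obtain ⟨lb, ⟨w, hw, hwlb⟩, hmin⟩ := Int.exists_least_of_bdd hbdd hinh
  refine ⟨w, hw, isReduced_of_isReducedPoly c ?_⟩
  by_contra hnot
  obtain ⟨i₀, q, hq, hlt⟩ := exists_smaller c (w : ι → V) w.ne_zero hnot
  rw [← sum_smul_eq_sum_algebraMap_smul] at hlt
  obtain ⟨w', hw'⟩ := exists_basis_update w i₀ q hq
  have hspan : Submodule.span K[X] (Set.range w') = Submodule.span K[X] (Set.range b) := by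
    rw [hw', span_update_eq (w : ι → V) i₀ q hq, hw]
  have hless : ∑ i, nrmZ c (w' i) < ∑ i, nrmZ c (w i) := by
    apply Finset.sum_lt_sum
    · intro i _
      by_cases hi : i = i₀
      · subst hi
        have h1 := hlt
        have hne : w' i ≠ 0 := w'.ne_zero i
        rw [hw', Function.update_self] at hne ⊢
        rw [← coe_nrmZ c hne, ← coe_nrmZ c (w.ne_zero i), WithBot.coe_lt_coe] at h1
        exact h1.le
      · rw [hw', Function.update_of_ne hi]
    · refine ⟨i₀, Finset.mem_univ _, ?_⟩
      have h1 := hlt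
      have hne : w' i₀ ≠ 0 := w'.ne_zero i₀
      rw [hw', Function.update_self] at hne ⊢
      rw [← coe_nrmZ c hne, ← coe_nrmZ c (w.ne_zero i₀), WithBot.coe_lt_coe] at h1
      exact h1
  have := hmin _ ⟨w', hspan, rfl⟩
  omega

/-- For a reduced family with integer invariants `d`, membership of a `K[X]`-combination in the
ball of radius `r` is read off from the degrees of the coefficients. -/
theorem IsReduced.nrm_sum_le_iff {c : Module.Basis ι (RatFunc K) V} {w : ι → V}
    (h : IsReduced c w) {d : ι → ℤ} (hd : ∀ i, nrm c (w i) = ((d i : ℤ) : WithBot ℤ))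
    (p : ι → K[X]) (r : ℤ) :
    nrm c (∑ i, p i • w i) ≤ ((r : ℤ) : WithBot ℤ) ↔
      ∀ i, p i ≠ 0 → ((p i).natDegree : ℤ) + d i ≤ r := by
  rw [sum_smul_eq_sum_algebraMap_smul, h, Finset.sup_le_iff]
  refine forall_congr' fun i => ?_
  simp only [Finset.mem_univ, true_imp_iff]
  by_cases hp : p i = 0
  · simp [hp]
  · rw [degInf_algebraMap_of_ne_zero hp, hd i, ← WithBot.coe_add, WithBot.coe_le_coe]
    simp [hp]

/-- **Reduced basis theorem with the invariants spelled out.** -/
theorem exists_reduced_invariants (b c : Module.Basis ι (RatFunc K) V) :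
    ∃ (w : Module.Basis ι (RatFunc K) V) (d : ι → ℤ),
      Submodule.span K[X] (Set.range w) = Submodule.span K[X] (Set.range b) ∧
      IsReduced c w ∧
      (∀ i, nrm c (w i) = ((d i : ℤ) : WithBot ℤ)) ∧
      (∀ a : ι → RatFunc K, nrm c (∑ i, a i • w i) =
        Finset.univ.sup (fun i => degInf (a i) + ((d i : ℤ) : WithBot ℤ))) ∧
      (∀ (p : ι → K[X]) (r : ℤ), nrm c (∑ i, p i • w i) ≤ ((r : ℤ) : WithBot ℤ) ↔
        ∀ i, p i ≠ 0 → ((p i).natDegree : ℤ) + d i ≤ r) := by
  obtain ⟨w, hw, hred⟩ := exists_reduced b c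
  have hd : ∀ i, nrm c (w i) = ((nrmZ c (w i) : ℤ) : WithBot ℤ) :=
    fun i => (coe_nrmZ c (w.ne_zero i)).symm
  refine ⟨w, fun i => nrmZ c (w i), hw, hred, hd, fun a => ?_, fun p r => hred.nrm_sum_le_iff hd p r⟩
  rw [hred a]
  congr 1
  funext i
  rw [hd i]

end Lattice

end Fermat.Agent.S18.A.ReducedBasis
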