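/-
Project H (S18), block A1: the Dedekind–Weber reduced basis theorem as pure linear algebra
over `K[X] ⊆ K(X)`.  This file: the dimension count

  `dim_K {v ∈ Λ | nrm c v ≤ r} = ∑ i, max 0 (r - d i + 1)`

for a `K[X]`-lattice `Λ` with reduced basis `w` of invariants `d i = nrm c (w i)`.
-/
import Fermat.Agent.S18.A.ReducedBasis

namespace Fermat.Agent.S18.A.ReducedBasis

open Polynomial

variable {K : Type*} [Field K] {ι : Type*} [Fintype ι] {V : Type*} [AddCommGroup V]
  [Module (RatFunc K) V] [Module K[X] V] [IsScalarTower K[X] (RatFunc K) V]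
  [Module K V] [IsScalarTower K (RatFunc K) V]

local notation "φ" => algebraMap K[X] (RatFunc K)

/-- The scalar tower `K → K[X] → V` is a consequence of the two given towers. -/
theorem isScalarTower_poly : IsScalarTower K K[X] V := by
  refine ⟨fun a p v => ?_⟩
  rw [← algebraMap_smul (RatFunc K) (a • p) v, ← algebraMap_smul (RatFunc K) p v,
    ← smul_assoc]
  congr 1
  exact map_smul (IsScalarTower.toAlgHom K K[X] (RatFunc K)) a p

theorem degInf_algebraMap_field_le (a : K) :
    degInf (algebraMap K (RatFunc K) a) ≤ 0 := by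
  by_cases ha : a = 0
  · simp [ha]
  · rw [RatFunc.algebraMap_eq_C, degInf_C ha]

/-- The `K`-subspace of vectors of the `K[X]`-lattice `Λ` of norm at most `r`. -/
def ball (Λ : Submodule K[X] V) (c : Module.Basis ι (RatFunc K) V) (r : ℤ) : Submodule K V where
  carrier := {v | v ∈ Λ ∧ nrm c v ≤ ((r : ℤ) : WithBot ℤ)}
  zero_mem' := ⟨Λ.zero_mem, by simp⟩
  add_mem' := fun h h' =>
    ⟨Λ.add_mem h.1 h'.1, (nrm_add_le c _ _).trans (max_le h.2 h'.2)⟩
  smul_mem' := fun a v h => by
    have : IsScalarTower K K[X] V := isScalarTower_poly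
    refine ⟨?_, ?_⟩
    · have : a • v = (C a : K[X]) • v := by
        rw [← smul_one_smul K[X] a v, Polynomial.smul_eq_C_mul, mul_one]
      show a • v ∈ Λ
      rw [this]
      exact Λ.smul_mem _ h.1
    · rw [← algebraMap_smul (RatFunc K) a v, nrm_smul]
      refine le_trans ?_ h.2
      calc degInf (algebraMap K (RatFunc K) a) + nrm c v ≤ 0 + nrm c v :=
            add_le_add (degInf_algebraMap_field_le a) le_rfl
        _ = nrm c v := zero_add _

theorem mem_ball {Λ : Submodule K[X] V} {c : Module.Basis ι (RatFunc K) V} {r : ℤ} {v : V} :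
    v ∈ ball Λ c r ↔ v ∈ Λ ∧ nrm c v ≤ ((r : ℤ) : WithBot ℤ) := Iff.rfl

theorem ball_mono (Λ : Submodule K[X] V) (c : Module.Basis ι (RatFunc K) V) {r s : ℤ}
    (h : r ≤ s) : ball Λ c r ≤ ball Λ c s := fun _ hv =>
  ⟨hv.1, hv.2.trans (WithBot.coe_le_coe.mpr h)⟩

/-- The `K`-linear map `(p_i)_i ↦ ∑ p_i • w_i` on tuples of polynomials of bounded degree. -/
noncomputable def comb (w : ι → V) (n : ι → ℕ) : (∀ i, degreeLT K (n i)) →ₗ[K] V :=
  haveI : IsScalarTower K K[X] V := isScalarTower_poly
  ((Fintype.linearCombination K[X] w).restrictScalars K).comp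
    (LinearMap.pi fun i => (degreeLT K (n i)).subtype.comp (LinearMap.proj i))

theorem comb_apply (w : ι → V) (n : ι → ℕ) (p : ∀ i, degreeLT K (n i)) :
    comb w n p = ∑ i, ((p i : K[X])) • w i := rfl

theorem comb_injective (w : Module.Basis ι (RatFunc K) V) (n : ι → ℕ) :
    Function.Injective (comb (K := K) (w : ι → V) n) := by
  intro p p' h
  rw [comb_apply, comb_apply, sum_smul_eq_sum_algebraMap_smul, sum_smul_eq_sum_algebraMap_smul]
    at h
  funext i
  have h2 : w.repr (∑ j, φ (p j : K[X]) • w j) i = w.repr (∑ j, φ (p' j : K[X]) • w j) i := by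
    rw [h]
  rw [w.repr_sum_self, w.repr_sum_self] at h2
  exact Subtype.ext (IsFractionRing.injective K[X] (RatFunc K) h2)

theorem mem_degreeLT_toNat_iff (p : K[X]) (z : ℤ) :
    p ∈ degreeLT K z.toNat ↔ (p ≠ 0 → ((p.natDegree : ℤ)) < z) := by
  rw [Polynomial.mem_degreeLT]
  by_cases hp : p = 0
  · simp [hp]
  · rw [Polynomial.degree_eq_natDegree hp]
    simp only [ne_eq, hp, not_false_eq_true, true_imp_iff]
    rw [Nat.cast_lt, Int.lt_toNat]

/-- For a reduced basis the ball is the image of `comb`. -/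
theorem ball_eq_range (c : Module.Basis ι (RatFunc K) V) (w : Module.Basis ι (RatFunc K) V)
    (hred : IsReduced c w) {d : ι → ℤ} (hd : ∀ i, nrm c (w i) = ((d i : ℤ) : WithBot ℤ)) (r : ℤ) :
    ball (Submodule.span K[X] (Set.range w)) c r =
      LinearMap.range (comb (K := K) (w : ι → V) fun i => (r - d i + 1).toNat) := by
  ext v
  rw [mem_ball, LinearMap.mem_range]
  constructor
  · rintro ⟨hv, hr⟩
    obtain ⟨p, rfl⟩ := (Submodule.mem_span_range_iff_exists_fun K[X]).mp hv
    rw [hred.nrm_sum_le_iff hd] at hr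
    refine ⟨fun i => ⟨p i, ?_⟩, rfl⟩
    rw [mem_degreeLT_toNat_iff]
    intro hp
    have := hr i hp
    omega
  · rintro ⟨p, rfl⟩
    rw [comb_apply]
    refine ⟨Submodule.sum_mem _ fun i _ =>
      Submodule.smul_mem _ _ (Submodule.subset_span ⟨i, rfl⟩), ?_⟩
    rw [hred.nrm_sum_le_iff hd]
    intro i hp
    have := (mem_degreeLT_toNat_iff _ _).mp (p i).2 hp
    omega

theorem finrank_degreeLT (n : ℕ) : Module.finrank K (degreeLT K n) = n := by
  rw [LinearEquiv.finrank_eq (Polynomial.degreeLTEquiv K n), Module.finrank_fin_fun]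

instance finite_degreeLT (n : ℕ) : Module.Finite K (degreeLT K n) :=
  Module.Finite.equiv (Polynomial.degreeLTEquiv K n).symm

/-- **The count**: for a reduced basis `w` with invariants `d`, the ball of radius `r` in the
lattice spanned by `w` has dimension `∑ i, max 0 (r - d i + 1)`. -/
theorem finrank_ball_of_isReduced (c : Module.Basis ι (RatFunc K) V)
    (w : Module.Basis ι (RatFunc K) V) (hred : IsReduced c w) {d : ι → ℤ}
    (hd : ∀ i, nrm c (w i) = ((d i : ℤ) : WithBot ℤ)) (r : ℤ) :
    Module.finrank K (ball (Submodule.span K[X] (Set.range w)) c r) =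
      ∑ i, (r - d i + 1).toNat := by
  rw [ball_eq_range c w hred hd r, LinearMap.finrank_range_of_inj (comb_injective w _),
    Module.finrank_pi_fintype]
  exact Finset.sum_congr rfl fun i _ => finrank_degreeLT _

theorem finite_ball_of_isReduced (c : Module.Basis ι (RatFunc K) V)
    (w : Module.Basis ι (RatFunc K) V) (hred : IsReduced c w) {d : ι → ℤ}
    (hd : ∀ i, nrm c (w i) = ((d i : ℤ) : WithBot ℤ)) (r : ℤ) :
    Module.Finite K (ball (Submodule.span K[X] (Set.range w)) c r) := by
  rw [ball_eq_range c w hred hd r]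
  exact Module.Finite.range _

/-- **Reduced basis theorem with the count.**  For two `K(X)`-bases `b` (spanning the
`K[X]`-lattice `Λ`) and `c` (whose `R_∞`-span is the unit ball at infinity) there are a reduced
basis `w` of `Λ` and integers `d i = nrm c (w i)` such that for every `r`
`dim_K {v ∈ Λ | nrm c v ≤ r} = ∑ i, max 0 (r - d i + 1)`. -/
theorem exists_reduced_count (b c : Module.Basis ι (RatFunc K) V) :
    ∃ (w : Module.Basis ι (RatFunc K) V) (d : ι → ℤ),
      Submodule.span K[X] (Set.range w) = Submodule.span K[X] (Set.range b) ∧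
      IsReduced c w ∧
      (∀ i, nrm c (w i) = ((d i : ℤ) : WithBot ℤ)) ∧
      (∀ r : ℤ, Module.Finite K (ball (Submodule.span K[X] (Set.range b)) c r)) ∧
      (∀ r : ℤ, Module.finrank K (ball (Submodule.span K[X] (Set.range b)) c r) =
        ∑ i, (r - d i + 1).toNat) ∧
      (∀ r : ℤ, (Module.finrank K (ball (Submodule.span K[X] (Set.range b)) c r) : ℤ) =
        ∑ i, max 0 (r - d i + 1)) := by
  obtain ⟨w, d, hw, hred, hd, -, -⟩ := exists_reduced_invariants b c
  have hfin : ∀ r : ℤ, Module.finrank K (ball (Submodule.span K[X] (Set.range b)) c r) =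
      ∑ i, (r - d i + 1).toNat := by
    intro r
    rw [← hw]
    exact finrank_ball_of_isReduced c w hred hd r
  refine ⟨w, d, hw, hred, hd, fun r => ?_, hfin, fun r => ?_⟩
  · rw [← hw]
    exact finite_ball_of_isReduced c w hred hd r
  · rw [hfin r, Nat.cast_sum]
    refine Finset.sum_congr rfl fun i _ => ?_
    rw [Int.toNat_eq_max, max_comm]

/-- For large `r` the count is `n (r + 1) - ∑ d i`. -/
theorem sum_toNat_eq_of_le (d : ι → ℤ) (r : ℤ) (hr : ∀ i, d i ≤ r + 1) :
    ((∑ i, (r - d i + 1).toNat : ℕ) : ℤ) = (Fintype.card ι : ℤ) * (r + 1) - ∑ i, d i := by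
  rw [Nat.cast_sum]
  have : ∀ i, (((r - d i + 1).toNat : ℕ) : ℤ) = (r + 1) - d i := by
    intro i
    rw [Int.toNat_of_nonneg (by have := hr i; omega)]
    ring
  simp_rw [this]
  rw [Finset.sum_sub_distrib, Finset.sum_const, Finset.card_univ, nsmul_eq_mul]

end Fermat.Agent.S18.A.ReducedBasis
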