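import Mathlib
import Fermat.Agent.S18.A.Chart
import Fermat.Agent.S18.A.ReducedCount

/-!
# PROJECT H (S18), block A, slice H-A6: the reduced basis of a function field and `l(r (x)_∞)`

For a separating element `x` of a function field `F/K` (`K` algebraically closed, any
characteristic), `n = [F : K(x)]`, with the `RatFunc K`-structure `X ↦ x` on `F`
(`Chart.ratAlgebra`, `Chart.polyModule`): there are

* `b` : a `RatFunc K`-basis of `F` which is a `K[x]`-basis of `intRing K x`,
* `c` : a `RatFunc K`-basis of `F` which is a `K[x⁻¹]`-basis of `intRing K x⁻¹`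
        (its unit ball is the ring of functions regular at the poles of `x`),
* `w` : a reduced basis of the lattice of `b` for the norm of `c`, with invariants `d i`,

such that `L(r (x)_∞) = {v ∈ span_{K[X]} b | nrm c v ≤ r}` and
`l(r (x)_∞) = ∑ i, max 0 (r - d i + 1)` for every `r : ℤ`.
-/

set_option autoImplicit false

namespace Fermat.Agent.S18.A.PoleLattice

open AlgebraicCurve IntermediateField Polynomial
  Fermat.Agent.S24.FF Fermat.Agent.S24.Fibre Fermat.Agent.S18.A.Chart
  Fermat.Agent.S18.A.ReducedBasis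

universe u w

variable {K : Type w} {F : Type u} [Field K] [Field F] [Algebra K F] {x : F} [IsAlgClosed K]

/-- **The reduced chart of a function field.** -/
theorem exists_reduced_chart (hx : IsFF K x) (hsep : Algebra.IsSeparable K⟮x⟯ F) :
    letI := ratAlgebra hx.transcendental
    letI := polyModule K F
    ∃ (b c w : Module.Basis (Fin (Module.finrank K⟮x⟯ F)) (RatFunc K) F)
      (d : Fin (Module.finrank K⟮x⟯ F) → ℤ),
      (∀ i, b i ∈ intRing K x) ∧
      (∀ g ∈ intRing K x, ∀ i, ∃ p : K[X], b.repr g i = algebraMap K[X] (RatFunc K) p) ∧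
      (∀ i, c i ∈ intRing K x⁻¹) ∧
      (∀ g ∈ intRing K x⁻¹, ∀ i, ∃ q : K[X], c.repr g i = aeval (RatFunc.X⁻¹ : RatFunc K) q) ∧
      Submodule.span K[X] (Set.range w) = Submodule.span K[X] (Set.range b) ∧
      IsReduced c w ∧
      (∀ i, nrm c (w i) = ((d i : ℤ) : WithBot ℤ)) ∧
      (∀ (f : F) (r : ℤ), f ∈ riemannRochSpace (r • FibreSep.poleDiv hx hsep) ↔
        f ∈ Submodule.span K[X] (Set.range b) ∧ nrm c f ≤ ((r : ℤ) : WithBot ℤ)) ∧
      (∀ r : ℤ, Module.Finite K (riemannRochSpace (r • FibreSep.poleDiv hx hsep))) ∧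
      (∀ r : ℤ, Module.finrank K (riemannRochSpace (r • FibreSep.poleDiv hx hsep)) =
        ∑ i, (r - d i + 1).toNat) := by
  letI := ratAlgebra hx.transcendental
  letI := polyModule K F
  haveI : IsScalarTower K[X] (RatFunc K) F := isScalarTower_polyModule
  haveI : IsScalarTower K (RatFunc K) F := isScalarTower_ratAlgebra hx.transcendental
  have halg : ∀ a : RatFunc K, algebraMap (RatFunc K) F a = evalRat hx.transcendental a :=
    fun _ => rfl
  obtain ⟨b, hb1, hb2⟩ := exists_basis_fin hx hsep
  obtain ⟨c, hc1, hc2⟩ := exists_basis_inf hx hsep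
  obtain ⟨w, d, hw, hred, hd, hfin, hcount, -⟩ := exists_reduced_count b c
  have hmem : ∀ (f : F) (r : ℤ), f ∈ riemannRochSpace (r • FibreSep.poleDiv hx hsep) ↔
      f ∈ Submodule.span K[X] (Set.range b) ∧ nrm c f ≤ ((r : ℤ) : WithBot ℤ) := by
    intro f r
    rw [mem_riemannRochSpace_smul_poleDiv_iff hx hsep halg c hc1 hc2,
      mem_span_iff_mem_intRing hx.transcendental halg b hb1 hb2]
  have heq : ∀ r : ℤ, riemannRochSpace (r • FibreSep.poleDiv hx hsep) =
      ball (Submodule.span K[X] (Set.range b)) c r := by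
    intro r
    ext f
    rw [hmem, mem_ball]
  refine ⟨b, c, w, d, hb1, hb2, hc1, hc2, hw, hred, hd, hmem, fun r => ?_, fun r => ?_⟩
  · rw [heq r]
    exact hfin r
  · rw [heq r]
    exact hcount r

end Fermat.Agent.S18.A.PoleLattice
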