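/-
Project H (S18), block A, slice H-A7 part (i): the DUAL SIDE of the Dedekind–Weber reduced basis
theorem.  `β` a nondegenerate `K(X)`-bilinear form on `V` (the trace form in the application),
`c*`, `w*` the `β`-dual bases.

* `nrm_dualBasis` / `nrm_dualBasis_le_iff` : the norm attached to `c*` is the dual norm
  (`nrm c* z ≤ r ↔ ∀ u` in the unit ball of `c`, `degInf (β z u) ≤ r`).
* `nrm_dual_sum`, `nrm_dualBasis_apply`, `isReduced_dual` : if `w` is reduced for `c` with invariants `d i`
  then `w*` is reduced for `c*` with invariants `- d i`.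
* `span_dualBasis_eq` : the `K[X]`-lattice spanned by `w*` is the `β`-dual lattice.
* `exists_reduced_dual_count` : both counts
  `dim_K {v ∈ Λ | nrm c v ≤ r} = ∑ (r - d i + 1).toNat`,
  `dim_K {v ∈ Λ^∨ | nrm c* v ≤ r} = ∑ (r + d i + 1).toNat` for the same `d`.
-/
import Fermat.Agent.S18.A.ReducedCount

set_option autoImplicit false
set_option linter.unusedSectionVars false

namespace Fermat.Agent.S18.A.ReducedDual

open Polynomial Fermat.Agent.S18.A.ReducedBasis
open LinearMap (BilinForm)

variable {K : Type*} [Field K] {ι : Type*} [Fintype ι] [DecidableEq ι] {V : Type*}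
  [AddCommGroup V] [Module (RatFunc K) V]

/-! ### Two order lemmas in `WithBot ℤ` -/

theorem add_neg_le_of_le_add {x y : WithBot ℤ} {d : ℤ}
    (h : x ≤ ((d : ℤ) : WithBot ℤ) + y) : x + ((-d : ℤ) : WithBot ℤ) ≤ y := by
  induction x using WithBot.recBotCoe with
  | bot => simp
  | coe a =>
    induction y using WithBot.recBotCoe with
    | bot => simp at h
    | coe b =>
      rw [← WithBot.coe_add, WithBot.coe_le_coe] at h ⊢
      omega

theorem le_neg_of_add_le_zero {x : WithBot ℤ} {d : ℤ}
    (h : x + ((d : ℤ) : WithBot ℤ) ≤ 0) : x ≤ ((-d : ℤ) : WithBot ℤ) := by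
  induction x using WithBot.recBotCoe with
  | bot => simp
  | coe a =>
    rw [← WithBot.coe_add, ← WithBot.coe_zero, WithBot.coe_le_coe] at h
    rw [WithBot.coe_le_coe]
    omega

/-! ### The dual norm -/

variable (β : BilinForm (RatFunc K) V) (hβ : β.Nondegenerate)

/-- `degInf` of a pairing `β z (∑ s j • u j)`. -/
theorem degInf_apply_sum_le (z : V) (u : ι → V) (s : ι → RatFunc K) :
    degInf (β z (∑ j, s j • u j)) ≤ Finset.univ.sup fun j => degInf (s j) + degInf (β z (u j)) := by
  rw [map_sum]
  refine (degInf_sum_le _ _).trans (le_of_eq ?_)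
  congr 1
  funext j
  rw [map_smul, smul_eq_mul, degInf_mul]

/-- The norm attached to the dual basis is the dual norm. -/
theorem nrm_dualBasis (c : Module.Basis ι (RatFunc K) V) (z : V) :
    nrm (β.dualBasis hβ c) z = Finset.univ.sup fun j => degInf (β z (c j)) := by
  unfold nrm
  congr 1
  funext j
  rw [BilinForm.dualBasis_repr_apply]

/-- The ball of radius `r` of the dual basis `c*` is the `β`-dual of the unit ball of `c`. -/
theorem nrm_dualBasis_le_iff (c : Module.Basis ι (RatFunc K) V) (z : V) (r : WithBot ℤ) :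
    nrm (β.dualBasis hβ c) z ≤ r ↔ ∀ u : V, nrm c u ≤ 0 → degInf (β z u) ≤ r := by
  rw [nrm_dualBasis, Finset.sup_le_iff]
  constructor
  · intro h u hu
    rw [← c.sum_repr u]
    refine (degInf_apply_sum_le β z (fun j => c j) (fun j => c.repr u j)).trans ?_
    rw [Finset.sup_le_iff]
    intro j _
    calc degInf (c.repr u j) + degInf (β z (c j)) ≤ 0 + r :=
          add_le_add ((degInf_repr_le c u j).trans hu) (h j (Finset.mem_univ j))
      _ = r := zero_add _
  · intro h j _
    exact h (c j) (nrm_basis c j).le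

/-! ### The dual of a reduced basis -/

/-- **Change of basis for the dual norm.**  If `w` is reduced for `c` with invariants `d`, the
dual norm can be computed on `w`: `sup_j degInf (β z (c j)) = sup_i (degInf (β z (w i)) - d i)`. -/
theorem sup_apply_eq_of_isReduced {c w : Module.Basis ι (RatFunc K) V} (h : IsReduced c w)
    {d : ι → ℤ} (hd : ∀ i, nrm c (w i) = ((d i : ℤ) : WithBot ℤ)) (z : V) :
    (Finset.univ.sup fun j => degInf (β z (c j))) =
      Finset.univ.sup fun i => degInf (β z (w i)) + ((-d i : ℤ) : WithBot ℤ) := by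
  apply le_antisymm
  · -- express `c j` in the basis `w`; reducedness bounds the coefficients
    rw [Finset.sup_le_iff]
    intro j _
    have hsum : ∑ i, w.repr (c j) i • w i = c j := w.sum_repr (c j)
    have hcoef : ∀ i, degInf (w.repr (c j) i) ≤ ((-d i : ℤ) : WithBot ℤ) := by
      intro i
      have h1 := h (fun i => w.repr (c j) i)
      rw [hsum, nrm_basis] at h1
      have h2 : degInf (w.repr (c j) i) + nrm c (w i) ≤ 0 := by
        rw [h1]
        exact Finset.le_sup (f := fun i => degInf (w.repr (c j) i) + nrm c (w i))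
          (Finset.mem_univ i)
      rw [hd i] at h2
      exact le_neg_of_add_le_zero h2
    rw [← hsum]
    refine (degInf_apply_sum_le β z (fun i => w i) (fun i => w.repr (c j) i)).trans ?_
    rw [Finset.sup_le_iff]
    intro i _
    refine le_trans ?_ (Finset.le_sup (f := fun i => degInf (β z (w i)) + ((-d i : ℤ) : WithBot ℤ))
      (Finset.mem_univ i))
    rw [add_comm]
    exact add_le_add le_rfl (hcoef i)
  · -- express `w i` in the basis `c`
    rw [Finset.sup_le_iff]
    intro i _
    apply add_neg_le_of_le_add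
    have hsum : ∑ j, c.repr (w i) j • c j = w i := c.sum_repr (w i)
    rw [← hsum]
    refine (degInf_apply_sum_le β z (fun j => c j) (fun j => c.repr (w i) j)).trans ?_
    rw [Finset.sup_le_iff]
    intro j _
    refine add_le_add ?_ (Finset.le_sup (f := fun j => degInf (β z (c j))) (Finset.mem_univ j))
    rw [← hd i]
    exact degInf_repr_le c (w i) j

/-- **Norm of a combination of the dual basis**: for `w` reduced for `c` with invariants `d`,
`nrm c* (∑ a i • w* i) = sup_i (degInf (a i) - d i)`. -/
theorem nrm_dual_sum {c w : Module.Basis ι (RatFunc K) V} (h : IsReduced c w)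
    {d : ι → ℤ} (hd : ∀ i, nrm c (w i) = ((d i : ℤ) : WithBot ℤ)) (a : ι → RatFunc K) :
    nrm (β.dualBasis hβ c) (∑ i, a i • β.dualBasis hβ w i) =
      Finset.univ.sup fun i => degInf (a i) + ((-d i : ℤ) : WithBot ℤ) := by
  rw [nrm_dualBasis, sup_apply_eq_of_isReduced β h hd]
  congr 1
  funext i
  have : β (∑ k, a k • β.dualBasis hβ w k) (w i) = a i := by
    rw [map_sum, LinearMap.sum_apply]
    simp only [map_smul, LinearMap.smul_apply, BilinForm.apply_dualBasis_left, smul_eq_mul,
      mul_ite, mul_one, mul_zero]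
    rw [Finset.sum_ite_eq]
    simp
  rw [this]

/-- The invariants of the dual basis are `- d i`. -/
theorem nrm_dualBasis_apply {c w : Module.Basis ι (RatFunc K) V} (h : IsReduced c w)
    {d : ι → ℤ} (hd : ∀ i, nrm c (w i) = ((d i : ℤ) : WithBot ℤ)) (i : ι) :
    nrm (β.dualBasis hβ c) (β.dualBasis hβ w i) = ((-d i : ℤ) : WithBot ℤ) := by
  have h1 := nrm_dual_sum β hβ h hd (fun k => if k = i then 1 else 0)
  have h2 : ∑ k, (if k = i then (1 : RatFunc K) else 0) • β.dualBasis hβ w k
      = β.dualBasis hβ w i := by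
    simp
  rw [h2] at h1
  rw [h1]
  apply le_antisymm
  · rw [Finset.sup_le_iff]
    intro k _
    by_cases hk : k = i
    · subst hk; simp
    · simp [hk]
  · refine le_trans ?_ (Finset.le_sup (f := fun k =>
      degInf (if k = i then (1 : RatFunc K) else 0) + ((-d k : ℤ) : WithBot ℤ)) (Finset.mem_univ i))
    simp

/-- **The dual basis of a reduced basis is reduced**, with invariants `- d i`. -/
theorem isReduced_dual {c w : Module.Basis ι (RatFunc K) V} (h : IsReduced c w)
    {d : ι → ℤ} (hd : ∀ i, nrm c (w i) = ((d i : ℤ) : WithBot ℤ)) :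
    IsReduced (β.dualBasis hβ c) (β.dualBasis hβ w) := by
  intro a
  rw [nrm_dual_sum β hβ h hd a]
  congr 1
  funext i
  rw [nrm_dualBasis_apply β hβ h hd i]

/-! ### Lattices and the two counts -/

section Lattice

variable [Module K[X] V] [IsScalarTower K[X] (RatFunc K) V]

/-- The `K[X]`-lattice spanned by the dual basis is the `β`-dual lattice. -/
theorem span_dualBasis_eq (w : Module.Basis ι (RatFunc K) V) :
    Submodule.span K[X] (Set.range (β.dualBasis hβ w)) =
      β.dualSubmodule (Submodule.span K[X] (Set.range w)) :=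
  (BilinForm.dualSubmodule_span_of_basis β hβ w).symm

theorem span_dualBasis_eq_of_span_eq {b w : Module.Basis ι (RatFunc K) V}
    (h : Submodule.span K[X] (Set.range w) = Submodule.span K[X] (Set.range b)) :
    Submodule.span K[X] (Set.range (β.dualBasis hβ w)) =
      Submodule.span K[X] (Set.range (β.dualBasis hβ b)) := by
  rw [span_dualBasis_eq, span_dualBasis_eq, h]

variable [Module K V] [IsScalarTower K (RatFunc K) V]

/-- **The dual count** for a given reduced basis: the ball of radius `r` of the dual lattice for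
the dual norm has dimension `∑ i, max 0 (r + d i + 1)`. -/
theorem finrank_ball_dual {c w : Module.Basis ι (RatFunc K) V} (h : IsReduced c w)
    {d : ι → ℤ} (hd : ∀ i, nrm c (w i) = ((d i : ℤ) : WithBot ℤ)) (r : ℤ) :
    Module.finrank K (ball (β.dualSubmodule (Submodule.span K[X] (Set.range w)))
      (β.dualBasis hβ c) r) = ∑ i, (r + d i + 1).toNat := by
  rw [← span_dualBasis_eq β hβ w,
    finrank_ball_of_isReduced (β.dualBasis hβ c) (β.dualBasis hβ w) (isReduced_dual β hβ h hd)
      (nrm_dualBasis_apply β hβ h hd) r]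
  refine Finset.sum_congr rfl fun i _ => ?_
  congr 1
  ring

theorem finite_ball_dual {c w : Module.Basis ι (RatFunc K) V} (h : IsReduced c w)
    {d : ι → ℤ} (hd : ∀ i, nrm c (w i) = ((d i : ℤ) : WithBot ℤ)) (r : ℤ) :
    Module.Finite K (ball (β.dualSubmodule (Submodule.span K[X] (Set.range w)))
      (β.dualBasis hβ c) r) := by
  rw [← span_dualBasis_eq β hβ w]
  exact finite_ball_of_isReduced (β.dualBasis hβ c) (β.dualBasis hβ w) (isReduced_dual β hβ h hd)
    (nrm_dualBasis_apply β hβ h hd) r

/-- Membership in the dual ball, coefficientwise. -/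
theorem nrm_dual_sum_le_iff {c w : Module.Basis ι (RatFunc K) V} (h : IsReduced c w)
    {d : ι → ℤ} (hd : ∀ i, nrm c (w i) = ((d i : ℤ) : WithBot ℤ)) (p : ι → K[X]) (r : ℤ) :
    nrm (β.dualBasis hβ c) (∑ i, p i • β.dualBasis hβ w i) ≤ ((r : ℤ) : WithBot ℤ) ↔
      ∀ i, p i ≠ 0 → ((p i).natDegree : ℤ) - d i ≤ r := by
  rw [(isReduced_dual β hβ h hd).nrm_sum_le_iff (nrm_dualBasis_apply β hβ h hd) p r]
  refine forall_congr' fun i => imp_congr_right fun _ => ?_
  rw [sub_eq_add_neg]

/-- **Reduced basis theorem with both counts.**  For `K(X)`-bases `b` (spanning the `K[X]`-lattice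
`Λ`) and `c` (spanning the unit ball at infinity) and a nondegenerate form `β` there are a reduced
basis `w` of `Λ` with invariants `d` such that the `β`-dual basis `w*` is a reduced basis of the
dual lattice `Λ^∨` for the dual norm `nrm c*`, with invariants `-d`; hence
`dim {v ∈ Λ | nrm c v ≤ r} = ∑ max 0 (r - d i + 1)` and
`dim {v ∈ Λ^∨ | nrm c* v ≤ r} = ∑ max 0 (r + d i + 1)`. -/
theorem exists_reduced_dual_count (b c : Module.Basis ι (RatFunc K) V) :
    ∃ (w : Module.Basis ι (RatFunc K) V) (d : ι → ℤ),
      Submodule.span K[X] (Set.range w) = Submodule.span K[X] (Set.range b) ∧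
      IsReduced c w ∧
      (∀ i, nrm c (w i) = ((d i : ℤ) : WithBot ℤ)) ∧
      (∀ r : ℤ, Module.Finite K (ball (Submodule.span K[X] (Set.range b)) c r)) ∧
      (∀ r : ℤ, Module.finrank K (ball (Submodule.span K[X] (Set.range b)) c r) =
        ∑ i, (r - d i + 1).toNat) ∧
      Submodule.span K[X] (Set.range (β.dualBasis hβ w)) =
        β.dualSubmodule (Submodule.span K[X] (Set.range b)) ∧
      IsReduced (β.dualBasis hβ c) (β.dualBasis hβ w) ∧
      (∀ i, nrm (β.dualBasis hβ c) (β.dualBasis hβ w i) = ((-d i : ℤ) : WithBot ℤ)) ∧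
      (∀ r : ℤ, Module.Finite K
        (ball (β.dualSubmodule (Submodule.span K[X] (Set.range b))) (β.dualBasis hβ c) r)) ∧
      (∀ r : ℤ, Module.finrank K
        (ball (β.dualSubmodule (Submodule.span K[X] (Set.range b))) (β.dualBasis hβ c) r) =
          ∑ i, (r + d i + 1).toNat) := by
  obtain ⟨w, d, hw, hred, hd, hfin, hcount, -⟩ := exists_reduced_count b c
  refine ⟨w, d, hw, hred, hd, hfin, hcount, ?_, isReduced_dual β hβ hred hd,
    nrm_dualBasis_apply β hβ hred hd, fun r => ?_, fun r => ?_⟩
  · rw [span_dualBasis_eq, hw]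
  · rw [← hw]
    exact finite_ball_dual β hβ hred hd r
  · rw [← hw]
    exact finrank_ball_dual β hβ hred hd r

end Lattice

end Fermat.Agent.S18.A.ReducedDual
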