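import Mathlib
import Fermat.Agent.S18.A.PoleLattice
import Fermat.Agent.S18.A.DualVal
import Fermat.Agent.S18.A.DiffDivisor
import Fermat.Agent.S18.A.ReducedDual

/-!
# PROJECT H (S18), block A: the dual count `l(r (x)_∞ + W)` in the `RatFunc K` chart

`W = ∑_Q d_Q Q` the different divisor of `F/K(x)`.  With the chart bases `b`, `c` and the reduced
basis `w` (invariants `d`) of `PoleLattice.exists_reduced_chart` and `β` the trace form of `F`
over `RatFunc K` (`X ↦ x`):

* `L(r (x)_∞ + W) = {z ∈ (span_{K[X]} b)^∨ | nrm c* z ≤ r}`  (`c*` the `β`-dual basis of `c`),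
* hence `l(r (x)_∞ + W) = ∑ i, max 0 (r + d i + 1)` (by `ReducedDual.finrank_ball_dual`).
-/

set_option autoImplicit false

namespace Fermat.Agent.S18.A.DualChart

open AlgebraicCurve IntermediateField Polynomial IsDedekindDomain
  Fermat.Agent.S24.FF Fermat.Agent.S24.Fibre Fermat.Agent.S24.Ord Fermat.Agent.S24.PlacePrime
  Fermat.Agent.S18.A.Chart Fermat.Agent.S18.A.ReducedBasis
open scoped IntermediateField.algebraAdjoinAdjoin

universe u w

variable {K : Type w} {F : Type u} [Field K] [Field F] [Algebra K F] {x : F}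

/-! ### the trace over `RatFunc K` and over `K⟮y⟯` -/

section Trace

/-- the trace of `F` over `RatFunc K` (`X ↦ x`) is the trace over `K⟮y⟯`, for `K⟮y⟯ = K⟮x⟯` -/
theorem evalRat_trace (hx : Transcendental K x) [Algebra (RatFunc K) F]
    (halg : ∀ a : RatFunc K, algebraMap (RatFunc K) F a = evalRat hx a)
    {y : F} (hxy : x ∈ K⟮y⟯) {Y₀ : RatFunc K} (hY : evalRat hx Y₀ = y) (z : F) :
    evalRat hx (Algebra.trace (RatFunc K) F z) = ((Algebra.trace K⟮y⟯ F z : K⟮y⟯) : F) := by
  have he : (algebraMap K⟮y⟯ F).comp (ratEquivAdjoin hx hxy hY : RatFunc K →+* K⟮y⟯) =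
      algebraMap (RatFunc K) F := by
    ext a
    rw [halg]
    rfl
  rw [← Algebra.trace_eq_of_ringEquiv (ratEquivAdjoin hx hxy hY) he z, coe_ratEquivAdjoin]

end Trace

/-! ### the trace dual of `intRing K y`, by places -/

section ChartDual

variable [IsAlgClosed K] {y : F}

/-- **the trace dual of the integral closure of `K[y]`**, in the language of places -/
theorem mem_traceDual_iff_place (hy : IsFF K y) (hsepy : Algebra.IsSeparable K⟮y⟯ F) (z : F) :
    haveI := Defs.isDedekind hy hsepy
    haveI := Defs.isFractionRing (K := K) hy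
    haveI := isPID hy.transcendental
    haveI : FiniteDimensional K⟮y⟯ F := hy.finite
    z ∈ Submodule.traceDual (polyRing K y) K⟮y⟯ (1 : Submodule (intRing K y) F) ↔
      ∀ (Q : Place K F) (hQ : Q.adicValuation y ≤ 1),
        Q.adicValuation z ≤ WithZero.exp (Defs.diffExpFin hy hsepy Q hQ : ℤ) := by
  have hDed := Defs.isDedekind hy hsepy
  have hFr := Defs.isFractionRing (K := K) hy
  have hpid := isPID hy.transcendental
  have hKL : FiniteDimensional K⟮y⟯ F := hy.finite
  rw [DualVal.mem_traceDual_one_iff (polyRing K y) K⟮y⟯ z]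
  constructor
  · intro h Q hQ
    have hP : placeOfPrime (K := K) (Defs.exists_prime hy hsepy Q hQ).choose = Q :=
      (Defs.exists_prime hy hsepy Q hQ).choose_spec
    unfold Defs.diffExpFin
    generalize (Defs.exists_prime hy hsepy Q hQ).choose = P at hP ⊢
    rw [← hP, FibreSep.adicValuation_placeOfPrime]
    exact h P
  · intro h P
    have hyO : y ∈ intRing K y :=
      Subalgebra.algebraMap_mem (intRing K y)
        (⟨y, Algebra.self_mem_adjoin_singleton K y⟩ : polyRing K y)
    have hQ : (placeOfPrime (K := K) P).adicValuation y ≤ 1 := by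
      rw [FibreSep.adicValuation_placeOfPrime]
      exact P.valuation_le_one (⟨y, hyO⟩ : intRing K y)
    have h1 := h (placeOfPrime (K := K) P) hQ
    have hP : placeOfPrime (K := K) (Defs.exists_prime hy hsepy _ hQ).choose =
        placeOfPrime (K := K) P := (Defs.exists_prime hy hsepy _ hQ).choose_spec
    have hP' := placeOfPrime_injective hP
    unfold Defs.diffExpFin at h1
    rw [hP', FibreSep.adicValuation_placeOfPrime] at h1
    exact h1

/-- **the trace dual of the integral closure of `K[y]`** (`K⟮y⟯ = K⟮x⟯`, `y = Y₀(x)`), with the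
trace over `RatFunc K`: `Tr(z a) ∈ K[Y₀]` for all integral `a`, iff `z` has order at least
`-d_Q` at every place `Q` at which `y` is regular -/
theorem chart_dual_iff (hx : Transcendental K x) [Algebra (RatFunc K) F]
    (halg : ∀ a : RatFunc K, algebraMap (RatFunc K) F a = evalRat hx a)
    (hy : IsFF K y) (hsepy : Algebra.IsSeparable K⟮y⟯ F)
    (hxy : x ∈ K⟮y⟯) {Y₀ : RatFunc K} (hY : evalRat hx Y₀ = y) (z : F) :
    (∀ a ∈ intRing K y, ∃ q : K[X], Algebra.trace (RatFunc K) F (z * a) = aeval Y₀ q) ↔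
      ∀ (Q : Place K F) (hQ : Q.adicValuation y ≤ 1),
        Q.adicValuation z ≤ WithZero.exp (Defs.diffExpFin hy hsepy Q hQ : ℤ) := by
  have hDed := Defs.isDedekind hy hsepy
  have hFr := Defs.isFractionRing (K := K) hy
  have hpid := isPID hy.transcendental
  have hKL : FiniteDimensional K⟮y⟯ F := hy.finite
  rw [← mem_traceDual_iff_place hy hsepy z, Submodule.mem_traceDual]
  have key : ∀ a : F, (∃ q : K[X], Algebra.trace (RatFunc K) F (z * a) = aeval Y₀ q) ↔
      Algebra.traceForm K⟮y⟯ F z a ∈ (algebraMap (polyRing K y) K⟮y⟯).range := by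
    intro a
    rw [Algebra.traceForm_apply]
    constructor
    · rintro ⟨q, hq⟩
      refine ⟨⟨aeval y q, (mem_polyRing_iff _).mpr ⟨q, rfl⟩⟩, Subtype.ext ?_⟩
      rw [← evalRat_trace hx halg hxy hY, hq, ← Polynomial.aeval_algHom_apply, hY]
      rfl
    · rintro ⟨p', hp'⟩
      obtain ⟨q, hq⟩ := (mem_polyRing_iff (p' : F)).mp p'.2
      refine ⟨q, evalRat_injective hx ?_⟩
      rw [evalRat_trace hx halg hxy hY, ← hp', ← Polynomial.aeval_algHom_apply, hY, hq]
      rfl
  constructor
  · intro h a ha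
    obtain ⟨b, rfl⟩ := Submodule.mem_one.mp ha
    exact (key _).mp (h _ b.2)
  · intro h a ha
    exact (key a).mpr (h a (Submodule.mem_one.mpr ⟨⟨a, ha⟩, rfl⟩))

end ChartDual

/-! ### the trace form over `RatFunc K` -/

section Form

theorem isSeparable_rat (hx : Transcendental K x) [Algebra (RatFunc K) F]
    (halg : ∀ a : RatFunc K, algebraMap (RatFunc K) F a = evalRat hx a)
    (hsep : Algebra.IsSeparable K⟮x⟯ F) : Algebra.IsSeparable (RatFunc K) F := by
  have hxx : x ∈ K⟮x⟯ := mem_adjoin_simple_self K x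
  refine Algebra.IsSeparable.of_equiv_equiv (ratEquivAdjoin hx hxx (evalRat_X hx)).symm
    (RingEquiv.refl F) ?_
  ext a
  change algebraMap (RatFunc K) F ((ratEquivAdjoin hx hxx (evalRat_X hx)).symm a) = (a : F)
  rw [halg, evalRat_ratEquivAdjoin_symm]

end Form

/-! ### the dual lattice at finite distance -/

section Lattice

open LinearMap (BilinForm)

variable [IsAlgClosed K] [Algebra (RatFunc K) F] [Module K[X] F] [IsScalarTower K[X] (RatFunc K) F]
  {ι : Type*} [Fintype ι]

/-- **the dual of the lattice of the chart basis at finite distance**: orders at least `-d_Q` at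
all places where `x` is regular -/
theorem mem_dualSubmodule_iff (hx : IsFF K x) (hsep : Algebra.IsSeparable K⟮x⟯ F)
    (halg : ∀ a : RatFunc K, algebraMap (RatFunc K) F a = evalRat hx.transcendental a)
    (b : Module.Basis ι (RatFunc K) F) (hb1 : ∀ i, b i ∈ intRing K x)
    (hb2 : ∀ g ∈ intRing K x, ∀ i, ∃ p : K[X], b.repr g i = algebraMap K[X] (RatFunc K) p)
    (z : F) :
    z ∈ (Algebra.traceForm (RatFunc K) F).dualSubmodule (Submodule.span K[X] (Set.range b)) ↔
      ∀ (Q : Place K F) (hQ : Q.adicValuation x ≤ 1),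
        Q.adicValuation z ≤ WithZero.exp (Defs.diffExpFin hx hsep Q hQ : ℤ) := by
  rw [← chart_dual_iff hx.transcendental halg hx hsep (mem_adjoin_simple_self K x)
    (evalRat_X hx.transcendental) z, BilinForm.mem_dualSubmodule]
  refine forall_congr' fun a => ?_
  rw [mem_span_iff_mem_intRing hx.transcendental halg b hb1 hb2, Submodule.mem_one,
    Algebra.traceForm_apply]
  refine imp_congr_right fun _ => exists_congr fun q => ?_
  rw [RatFunc.aeval_X_left_eq_algebraMap, eq_comm]

end Lattice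

/-! ### the dual norm at infinity -/

section Infinity

open LinearMap (BilinForm)

variable [IsAlgClosed K]

/-- a function with poles of order at most `d_Q` at the poles `Q` of `x` lies, after
multiplication by a polynomial in `x⁻¹` with nonzero constant term, in the trace dual of the
integral closure of `K[x⁻¹]` -/
theorem exists_mul_dual_inv (hx : IsFF K x) (hsep : Algebra.IsSeparable K⟮x⟯ F) (z : F)
    (hz : ∀ Q : Place K F, 1 < Q.adicValuation x →
      Q.adicValuation z ≤ WithZero.exp (Defs.diffExp hx hsep Q : ℤ)) :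
    ∃ p : K[X], p.eval 0 ≠ 0 ∧ ∀ (Q : Place K F) (hQ : Q.adicValuation x⁻¹ ≤ 1),
      Q.adicValuation (aeval x⁻¹ p * z) ≤
        WithZero.exp (Defs.diffExpFin hx.inv (Defs.isSeparable_inv hsep) Q hQ : ℤ) := by
  have hy := hx.inv
  have hsepy := FibreSep.isSeparable_inv hsep
  have := hy.finite
  obtain ⟨s, hs0, hs⟩ := exists_integral_multiples (polyRing K x⁻¹) K⟮x⁻¹⟯ ({z} : Finset F)
  have hsf : s • z ∈ intRing K x⁻¹ := hs z (Finset.mem_singleton_self z)
  obtain ⟨q, hq⟩ := (mem_polyRing_iff (s : F)).mp s.2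
  have hq0 : q ≠ 0 := by
    rintro rfl
    apply hs0
    apply Subtype.ext
    rw [← hq, map_zero]
    rfl
  obtain ⟨p, hqp, hp⟩ := Polynomial.exists_eq_pow_rootMultiplicity_mul_and_not_dvd q hq0 0
  refine ⟨p, fun h => hp ((Polynomial.dvd_iff_isRoot).mpr h), ?_⟩
  intro Q hQ
  rcases lt_or_eq_of_le hQ with hlt | heq
  · have hpole := one_lt_adicValuation_of_inv_lt_one hx.ne_zero hlt
    rw [map_mul]
    have h1 : Q.adicValuation (aeval x⁻¹ p) ≤ 1 :=
      adicValuation_adjoin_le_one Q hQ ⟨aeval x⁻¹ p, (mem_polyRing_iff _).mpr ⟨p, rfl⟩⟩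
    have h2 := hz Q hpole
    rw [DiffLower.diffExp_eq_inv hx hsep (not_le.mpr hpole)] at h2
    calc Q.adicValuation (aeval x⁻¹ p) * Q.adicValuation z
        ≤ 1 * WithZero.exp (Defs.diffExpFin hx.inv (Defs.isSeparable_inv hsep) Q hQ : ℤ) :=
          mul_le_mul' h1 h2
      _ = _ := one_mul _
  · have h1 : Q.adicValuation (s • z) ≤ 1 := adicValuation_le_one_of_mem_intRing hsf Q hQ
    have h2 : s • z = x⁻¹ ^ (q.rootMultiplicity 0) * (aeval x⁻¹ p * z) := by
      rw [Algebra.smul_def, ← mul_assoc]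
      congr 1
      change (s : F) = _
      rw [← hq]
      conv_lhs => rw [hqp]
      rw [map_mul, map_pow, map_sub, aeval_X, aeval_C, map_zero, sub_zero]
    rw [h2, map_mul, map_pow, heq, one_pow, one_mul] at h1
    refine h1.trans ?_
    rw [← WithZero.exp_zero, WithZero.exp_le_exp]
    exact Int.natCast_nonneg _

variable [Algebra (RatFunc K) F] {ι : Type*} [Fintype ι] [DecidableEq ι]

omit [IsAlgClosed K] in
/-- pairing the dual basis with an arbitrary vector gives its coordinate -/
theorem apply_dualBasis_left_eq_repr (β : BilinForm (RatFunc K) F) (hβ : β.Nondegenerate)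
    (c : Module.Basis ι (RatFunc K) F) (i : ι) (a : F) :
    β (β.dualBasis hβ c i) a = c.repr a i := by
  conv_lhs => rw [← c.sum_repr a]
  rw [map_sum]
  simp only [map_smul, BilinForm.apply_dualBasis_left, smul_eq_mul, mul_ite, mul_one, mul_zero]
  rw [Finset.sum_ite_eq' Finset.univ i]
  simp

/-- **the unit ball of the dual norm at infinity**: poles of order at most `d_Q` at the poles
`Q` of `x` (`β` the trace form of `F` over `RatFunc K`) -/
theorem nrm_dualBasis_le_zero_iff (hx : IsFF K x) (hsep : Algebra.IsSeparable K⟮x⟯ F)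
    (halg : ∀ a : RatFunc K, algebraMap (RatFunc K) F a = evalRat hx.transcendental a)
    (β : BilinForm (RatFunc K) F) (hβ : β.Nondegenerate)
    (hβtr : ∀ u v : F, β u v = Algebra.trace (RatFunc K) F (u * v))
    (c : Module.Basis ι (RatFunc K) F) (hc1 : ∀ i, c i ∈ intRing K x⁻¹)
    (hc2 : ∀ g ∈ intRing K x⁻¹, ∀ i, ∃ q : K[X], c.repr g i = aeval (RatFunc.X⁻¹ : RatFunc K) q)
    (z : F) :
    nrm (β.dualBasis hβ c) z ≤ 0 ↔
      ∀ Q : Place K F, Q.ord x < 0 →
        Q.adicValuation z ≤ WithZero.exp (Defs.diffExp hx hsep Q : ℤ) := by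
  have hxy : x ∈ K⟮x⁻¹⟯ := by
    have h := IntermediateField.mem_adjoin_simple_self K x⁻¹
    have h2 := inv_mem h
    rwa [inv_inv] at h2
  have hY : evalRat hx.transcendental (RatFunc.X⁻¹) = x⁻¹ := by
    rw [map_inv₀, evalRat_X]
  have hchart := fun z' => chart_dual_iff hx.transcendental halg hx.inv
    (Defs.isSeparable_inv hsep) hxy hY z'
  constructor
  · intro h Q hQ
    have hQ1 : 1 < Q.adicValuation x := (ord_neg_iff Q hx.ne_zero).mp hQ
    have hQy : Q.adicValuation x⁻¹ ≤ 1 := by
      rw [map_inv₀]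
      exact inv_le_one_of_one_le₀ hQ1.le
    rw [DiffLower.diffExp_eq_inv hx hsep (not_le.mpr hQ1), ← (β.dualBasis hβ c).sum_repr z]
    refine Valuation.map_sum_le _ fun i _ => ?_
    rw [smul_eq_evalRat_mul hx.transcendental halg, map_mul]
    have h1 : Q.adicValuation (evalRat hx.transcendental ((β.dualBasis hβ c).repr z i)) ≤ 1 :=
      adicValuation_evalRat_le_one_of_pole hx.transcendental hQ
        ((degInf_repr_le (β.dualBasis hβ c) z i).trans h)
    have h2 : Q.adicValuation (β.dualBasis hβ c i) ≤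
        WithZero.exp (Defs.diffExpFin hx.inv (Defs.isSeparable_inv hsep) Q hQy : ℤ) := by
      refine (hchart (β.dualBasis hβ c i)).mp (fun a ha => ?_) Q hQy
      obtain ⟨q, hq⟩ := hc2 a ha i
      refine ⟨q, ?_⟩
      rw [← hq, ← apply_dualBasis_left_eq_repr β hβ c i a, hβtr]
    calc _ ≤ 1 * WithZero.exp (Defs.diffExpFin hx.inv (Defs.isSeparable_inv hsep) Q hQy : ℤ) :=
          mul_le_mul' h1 h2
      _ = _ := one_mul _
  · intro h
    obtain ⟨p, hp0, hp⟩ := exists_mul_dual_inv hx hsep z (fun Q hQ =>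
      h Q ((ord_neg_iff Q hx.ne_zero).mpr hQ))
    rw [nrm_le_iff]
    intro i
    obtain ⟨q, hq⟩ := (hchart (aeval x⁻¹ p * z)).mpr hp (c i) (hc1 i)
    have h1 : aeval x⁻¹ p * z = (aeval (RatFunc.X⁻¹ : RatFunc K) p) • z := by
      rw [smul_eq_evalRat_mul hx.transcendental halg, ← Polynomial.aeval_algHom_apply, map_inv₀,
        evalRat_X]
    rw [h1, ← hβtr, ← BilinForm.dualBasis_repr_apply hβ c,
      map_smul, Finsupp.smul_apply, smul_eq_mul] at hq
    have h2 := congrArg degInf hq
    rw [degInf_mul, degInf_aeval_inv_eq_zero hp0, zero_add] at h2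
    rw [h2]
    exact degInf_aeval_inv_le q

/-- the balls of the dual norm at infinity in terms of the orders at the poles of `x` -/
theorem nrm_dualBasis_le_iff_pole (hx : IsFF K x) (hsep : Algebra.IsSeparable K⟮x⟯ F)
    (halg : ∀ a : RatFunc K, algebraMap (RatFunc K) F a = evalRat hx.transcendental a)
    (β : BilinForm (RatFunc K) F) (hβ : β.Nondegenerate)
    (hβtr : ∀ u v : F, β u v = Algebra.trace (RatFunc K) F (u * v))
    (c : Module.Basis ι (RatFunc K) F) (hc1 : ∀ i, c i ∈ intRing K x⁻¹)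
    (hc2 : ∀ g ∈ intRing K x⁻¹, ∀ i, ∃ q : K[X], c.repr g i = aeval (RatFunc.X⁻¹ : RatFunc K) q)
    (z : F) (r : ℤ) :
    nrm (β.dualBasis hβ c) z ≤ ((r : ℤ) : WithBot ℤ) ↔
      ∀ Q : Place K F, Q.ord x < 0 →
        Q.adicValuation z ≤ WithZero.exp (r * (-Q.ord x) + (Defs.diffExp hx hsep Q : ℤ)) := by
  rcases eq_or_ne z 0 with rfl | hz
  · simp
  have hX : (RatFunc.X : RatFunc K) ^ (-r) ≠ 0 := zpow_ne_zero _ RatFunc.X_ne_zero
  have h1 : nrm (β.dualBasis hβ c) z ≤ ((r : ℤ) : WithBot ℤ) ↔
      nrm (β.dualBasis hβ c) (((RatFunc.X : RatFunc K) ^ (-r)) • z) ≤ 0 := by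
    rw [nrm_smul, degInf_X_zpow]
    obtain ⟨m, hm⟩ := WithBot.ne_bot_iff_exists.mp (nrm_ne_bot (β.dualBasis hβ c) hz)
    rw [← hm, ← WithBot.coe_add, ← WithBot.coe_zero, WithBot.coe_le_coe, WithBot.coe_le_coe]
    omega
  rw [h1, nrm_dualBasis_le_zero_iff hx hsep halg β hβ hβtr c hc1 hc2]
  refine forall₂_congr fun Q hQ => ?_
  rw [smul_eq_evalRat_mul hx.transcendental halg, evalRat_X_zpow, Q.adicValuation_le_exp_iff,
    Q.adicValuation_le_exp_iff]
  have hxr : x ^ (-r) ≠ 0 := zpow_ne_zero _ hx.ne_zero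
  rw [Q.ord_mul hxr hz, Q.ord_zpow]
  constructor
  · rintro (h | h)
    · exact absurd h (mul_ne_zero hxr hz)
    · right
      linarith
  · rintro (h | h)
    · exact absurd h hz
    · right
      linarith

end Infinity

/-! ### the Riemann-Roch spaces `L(r (x)_∞ + W)` and the dual count -/

section Count

open LinearMap (BilinForm)

variable [IsAlgClosed K]

/-- **The dual count.**  For the reduced chart `(b, c, w, d)` of `PoleLattice.exists_reduced_chart`
(any reduced chart with these properties): `l(r (x)_∞ + W) = ∑ i, max 0 (r + d i + 1)`, `W` the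
different divisor of `F/K(x)`. -/
theorem finrank_dual_of_chart (hx : IsFF K x) (hsep : Algebra.IsSeparable K⟮x⟯ F)
    {ι : Type*} [Fintype ι] [DecidableEq ι]
    [Algebra (RatFunc K) F] [Module K[X] F] [IsScalarTower K[X] (RatFunc K) F]
    [IsScalarTower K (RatFunc K) F]
    (halg : ∀ a : RatFunc K, algebraMap (RatFunc K) F a = evalRat hx.transcendental a)
    (b c w : Module.Basis ι (RatFunc K) F) (d : ι → ℤ)
    (hb1 : ∀ i, b i ∈ intRing K x)
    (hb2 : ∀ g ∈ intRing K x, ∀ i, ∃ p : K[X], b.repr g i = algebraMap K[X] (RatFunc K) p)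
    (hc1 : ∀ i, c i ∈ intRing K x⁻¹)
    (hc2 : ∀ g ∈ intRing K x⁻¹, ∀ i, ∃ q : K[X], c.repr g i = aeval (RatFunc.X⁻¹ : RatFunc K) q)
    (hw : Submodule.span K[X] (Set.range w) = Submodule.span K[X] (Set.range b))
    (hred : IsReduced c w) (hd : ∀ i, nrm c (w i) = ((d i : ℤ) : WithBot ℤ)) (r : ℤ) :
    Module.Finite K
        (riemannRochSpace (r • FibreSep.poleDiv hx hsep + DiffDivisor.diffDivisor hx hsep)) ∧
      Module.finrank K
        (riemannRochSpace (r • FibreSep.poleDiv hx hsep + DiffDivisor.diffDivisor hx hsep)) =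
        ∑ i, (r + d i + 1).toNat := by
  haveI : FiniteDimensional (RatFunc K) F := Module.Finite.of_basis b
  haveI : Algebra.IsSeparable (RatFunc K) F := isSeparable_rat hx.transcendental halg hsep
  have hβ : (Algebra.traceForm (RatFunc K) F).Nondegenerate := traceForm_nondegenerate _ _
  have hβtr : ∀ u v : F, Algebra.traceForm (RatFunc K) F u v =
      Algebra.trace (RatFunc K) F (u * v) := fun u v => Algebra.traceForm_apply _ _ _
  have heq : riemannRochSpace (r • FibreSep.poleDiv hx hsep + DiffDivisor.diffDivisor hx hsep) =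
      ball ((Algebra.traceForm (RatFunc K) F).dualSubmodule
        (Submodule.span K[X] (Set.range w)))
        ((Algebra.traceForm (RatFunc K) F).dualBasis hβ c) r := by
    ext z
    rw [mem_ball, hw, mem_dualSubmodule_iff hx hsep halg b hb1 hb2,
      nrm_dualBasis_le_iff_pole hx hsep halg _ hβ hβtr c hc1 hc2]
    have hD : ∀ Q : Place K F,
        (r • FibreSep.poleDiv hx hsep + DiffDivisor.diffDivisor hx hsep) Q =
          r * max (-Q.ord x) 0 + (Defs.diffExp hx hsep Q : ℤ) := by
      intro Q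
      rw [Finsupp.add_apply, Finsupp.smul_apply, FibreSep.poleDiv_apply, smul_eq_mul,
        DiffDivisor.diffDivisor_apply]
    change (∀ Q : Place K F, Q.adicValuation z ≤ WithZero.exp
      ((r • FibreSep.poleDiv hx hsep + DiffDivisor.diffDivisor hx hsep) Q)) ↔ _
    constructor
    · intro h
      refine ⟨fun Q hQ => ?_, fun Q hQ => ?_⟩
      · have h0 : 0 ≤ Q.ord x := (ord_nonneg_iff Q hx.ne_zero).mpr hQ
        have h1 := h Q
        rw [hD, max_eq_right (by omega), mul_zero, zero_add,
          DiffLower.diffExp_eq_fin hx hsep hQ] at h1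
        exact h1
      · have h1 := h Q
        rw [hD, max_eq_left (by omega)] at h1
        exact h1
    · rintro ⟨h1, h2⟩ Q
      rw [hD]
      rcases lt_or_ge (Q.ord x) 0 with hQ | hQ
      · rw [max_eq_left (by omega)]
        exact h2 Q hQ
      · have hQ' : Q.adicValuation x ≤ 1 := (ord_nonneg_iff Q hx.ne_zero).mp hQ
        rw [max_eq_right (by omega), mul_zero, zero_add, DiffLower.diffExp_eq_fin hx hsep hQ']
        exact h1 Q hQ'
  rw [heq]
  exact ⟨ReducedDual.finite_ball_dual _ hβ hred hd r, ReducedDual.finrank_ball_dual _ hβ hred hd r⟩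

/-- **Both Dedekind-Weber counts of a function field with a separating element**, with the same
invariants `d`: `l(r (x)_∞) = ∑ i, max 0 (r - d i + 1)` and
`l(r (x)_∞ + W) = ∑ i, max 0 (r + d i + 1)`, `W` the different divisor of `F/K(x)`. -/
theorem exists_counts (hx : IsFF K x) (hsep : Algebra.IsSeparable K⟮x⟯ F) :
    ∃ d : Fin (Module.finrank K⟮x⟯ F) → ℤ,
      (∀ r : ℤ, Module.Finite K (riemannRochSpace (r • FibreSep.poleDiv hx hsep))) ∧
      (∀ r : ℤ, Module.finrank K (riemannRochSpace (r • FibreSep.poleDiv hx hsep)) =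
        ∑ i, (r - d i + 1).toNat) ∧
      (∀ r : ℤ, Module.Finite K
        (riemannRochSpace (r • FibreSep.poleDiv hx hsep + DiffDivisor.diffDivisor hx hsep))) ∧
      (∀ r : ℤ, Module.finrank K
        (riemannRochSpace (r • FibreSep.poleDiv hx hsep + DiffDivisor.diffDivisor hx hsep)) =
        ∑ i, (r + d i + 1).toNat) := by
  letI := ratAlgebra hx.transcendental
  letI := polyModule K F
  haveI : IsScalarTower K[X] (RatFunc K) F := isScalarTower_polyModule
  haveI : IsScalarTower K (RatFunc K) F := isScalarTower_ratAlgebra hx.transcendental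
  have halg : ∀ a : RatFunc K, algebraMap (RatFunc K) F a = evalRat hx.transcendental a :=
    fun _ => rfl
  obtain ⟨b, c, w, d, hb1, hb2, hc1, hc2, hw, hred, hd, -, hfin, hcount⟩ :=
    PoleLattice.exists_reduced_chart hx hsep
  exact ⟨d, hfin, hcount,
    fun r => (finrank_dual_of_chart hx hsep halg b c w d hb1 hb2 hc1 hc2 hw hred hd r).1,
    fun r => (finrank_dual_of_chart hx hsep halg b c w d hb1 hb2 hc1 hc2 hw hred hd r).2⟩

end Count

end Fermat.Agent.S18.A.DualChart
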