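/-
Project H (S18), block A, arithmetic core of slice H-A9: the Hurwitz formula from the two
Dedekind–Weber counts `l(r D_∞) = ∑ max 0 (r - d_i + 1)` and
`l(r D_∞ + W) = ∑ max 0 (r + d_i + 1)` together with Riemann's theorem.
-/
import Fermat.Agent.S18.A.Defs
import Fermat.Agent.S18.NonSpecial

set_option autoImplicit false

namespace Fermat.Agent.S18.A.HurwitzCore

open AlgebraicCurve IntermediateField Fermat.Agent.S24.FF

universe u w

variable {K : Type w} {F : Type u} [Field K] [Field F] [Algebra K F]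

/-- for `r` large the count `∑ max 0 (r + e_i + 1)` is `n (r + 1) + ∑ e_i` -/
theorem sum_max_eq_of_le {ι : Type*} [Fintype ι] (e : ι → ℤ) (r : ℤ)
    (hr : ∀ i, 0 ≤ r + e i + 1) :
    ∑ i, max 0 (r + e i + 1) = (Fintype.card ι : ℤ) * (r + 1) + ∑ i, e i := by
  have : ∀ i, max 0 (r + e i + 1) = (r + 1) + e i := by
    intro i
    rw [max_eq_right (hr i)]
    ring
  simp_rw [this]
  rw [Finset.sum_add_distrib, Finset.sum_const, Finset.card_univ, nsmul_eq_mul]

theorem exists_forall_le {ι : Type*} [Fintype ι] (e : ι → ℤ) : ∃ M : ℤ, ∀ i, e i ≤ M ∧ -e i ≤ M := by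
  classical
  refine ⟨∑ i, |e i|, fun i => ?_⟩
  have h : |e i| ≤ ∑ j, |e j| :=
    Finset.single_le_sum (f := fun j => |e j|) (fun j _ => abs_nonneg (e j)) (Finset.mem_univ i)
  exact ⟨(le_abs_self _).trans h, (neg_le_abs (e i)).trans h⟩

theorem degree_eq_sum_of_deg_one (hdeg : ∀ v : Place K F, v.deg = 1) (W : Divisor K F) :
    Divisor.degree W = ∑ Q ∈ W.support, W Q := by
  unfold Divisor.degree
  rw [Finsupp.liftAddHom_apply, Finsupp.sum]
  refine Finset.sum_congr rfl fun Q _ => ?_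
  simp [hdeg Q]

/-- **Arithmetic core of the Hurwitz formula.** -/
theorem hurwitz_of_counts {ι : Type*} [Fintype ι] {x : F} (hx : IsFF K x)
    (hsep : Algebra.IsSeparable K⟮x⟯ F) {g : ℕ}
    (hR : Fermat.Agent.S18.NonSpecial.RiemannHyp K F g)
    (Dinf W : Divisor K F)
    (hdeg : Divisor.degree Dinf = (Module.finrank K⟮x⟯ F : ℤ))
    (hι : Fintype.card ι = Module.finrank K⟮x⟯ F)
    (hW : ∀ Q, W Q = (Defs.diffExp hx hsep Q : ℤ))
    (d : ι → ℤ)
    (h1 : ∀ r : ℤ, (Defs.ell (r • Dinf) : ℤ) = ∑ i, max 0 (r - d i + 1))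
    (h2 : ∀ r : ℤ, (Defs.ell (r • Dinf + W) : ℤ) = ∑ i, max 0 (r + d i + 1)) :
    Defs.HurwitzFormula hx hsep g ∧
      (g : ℤ) = 1 - (Module.finrank K⟮x⟯ F : ℤ) + ∑ i, d i := by
  have hfin := hx.finite
  have hnpos : 0 < Module.finrank K⟮x⟯ F := Module.finrank_pos
  set n : ℤ := (Module.finrank K⟮x⟯ F : ℤ) with hn
  have hn1 : 1 ≤ n := by rw [hn]; exact_mod_cast hnpos
  obtain ⟨c, hc⟩ := hR.riemann_eq
  obtain ⟨M, hM⟩ := exists_forall_le d
  have hWnonneg : 0 ≤ Divisor.degree W := by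
    rw [degree_eq_sum_of_deg_one hR.deg_one]
    refine Finset.sum_nonneg fun Q _ => ?_
    rw [hW Q]
    exact Int.natCast_nonneg _
  -- choose `r` large
  set r : ℤ := max (|c|) M + 1 with hr
  have hrM : M ≤ r := by rw [hr]; have := le_max_right (|c|) M; omega
  have hrc : c ≤ r := by
    rw [hr]; have := le_max_left (|c|) M; have := le_abs_self c; omega
  have hr0 : 0 ≤ r := by
    rw [hr]; have := le_max_left (|c|) M; have := abs_nonneg c; omega
  have hdeg1 : Divisor.degree (r • Dinf) = r * n := by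
    rw [map_zsmul, hdeg, smul_eq_mul]
  have hcr : c ≤ r * n := by nlinarith
  -- first count
  have e1 : (Defs.ell (r • Dinf) : ℤ) = r * n + 1 - g := by
    have := hc (r • Dinf) (by rw [hdeg1]; exact hcr)
    rw [hdeg1] at this
    exact this
  have e1' : (Defs.ell (r • Dinf) : ℤ) = n * (r + 1) + ∑ i, (-d i) := by
    rw [h1 r]
    have := sum_max_eq_of_le (fun i => -d i) r (fun i => by have := (hM i).1; omega)
    rw [hι, ← hn] at this
    rw [← this]
    refine Finset.sum_congr rfl fun i _ => ?_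
    ring_nf
  -- second count
  have hdeg2 : Divisor.degree (r • Dinf + W) = r * n + Divisor.degree W := by
    rw [map_add, hdeg1]
  have e2 : (Defs.ell (r • Dinf + W) : ℤ) = r * n + Divisor.degree W + 1 - g := by
    have := hc (r • Dinf + W) (by rw [hdeg2]; linarith)
    rw [hdeg2] at this
    exact this
  have e2' : (Defs.ell (r • Dinf + W) : ℤ) = n * (r + 1) + ∑ i, d i := by
    rw [h2 r]
    have := sum_max_eq_of_le d r (fun i => by have := (hM i).2; omega)
    rw [hι, ← hn] at this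
    exact this
  have hsumneg : ∑ i, (-d i) = -∑ i, d i := by
    rw [Finset.sum_neg_distrib]
  have hg : (g : ℤ) = 1 - n + ∑ i, d i := by
    rw [e1', hsumneg] at e1
    linarith
  have hWdeg : Divisor.degree W = 2 * (g : ℤ) - 2 + 2 * n := by
    rw [e2'] at e2
    linarith
  refine ⟨⟨W.support, fun Q hQ => ?_, ?_⟩, hg⟩
  · have := Finsupp.notMem_support_iff.mp hQ
    rw [hW Q] at this
    exact_mod_cast this
  · have h3 : ∑ Q ∈ W.support, (Defs.diffExp hx hsep Q : ℤ) = Divisor.degree W := by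
      rw [degree_eq_sum_of_deg_one hR.deg_one]
      exact Finset.sum_congr rfl fun Q _ => (hW Q).symm
    rw [h3, hWdeg]
    ring

end Fermat.Agent.S18.A.HurwitzCore
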