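import Mathlib
import Fermat.Agent.S18.A.DualChart
import Fermat.Agent.S18.A.HurwitzCore
import Fermat.Agent.S18.A.RiemannFk

/-!
# PROJECT H (S18), block A, slice H-A9: the Hurwitz genus formula (contract X2)

For a function field `F/K` (`K` algebraically closed, any characteristic) with a separating
element `x` and Riemann genus `g` (`NonSpecial.RiemannHyp K F g`):

  `2g - 2 = -2 [F : K(x)] + ∑_Q d_Q`   (`Defs.HurwitzFormula hx hsep g`),

`d_Q` the different exponents of `F/K(x)`.  Proof: the two Dedekind-Weber counts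
`l(r (x)_∞) = ∑ max 0 (r - d_i + 1)`, `l(r (x)_∞ + W) = ∑ max 0 (r + d_i + 1)`
(`DualChart.exists_counts`) and Riemann's theorem (`HurwitzCore.hurwitz_of_counts`).

Exports (contracts X1 + X2 of block A, same `g`):
* `hurwitzFormula hx hsep hR : Defs.HurwitzFormula hx hsep g`;
* `exists_riemannHyp_hurwitz hx hsep : ∃ g, RiemannHyp K F g ∧ HurwitzFormula hx hsep g`;
* `exists_genus_FL N`, `exists_genus_Fk k N hsep` : the instances for `ℚ̄(X₀(N))` and `k(X₀(N))`.
-/

set_option autoImplicit false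

namespace Fermat.Agent.S18.A.Hurwitz

open AlgebraicCurve IntermediateField ModularCurve Fermat.Agent.S24.FF

universe u w

variable {K : Type w} {F : Type u} [Field K] [Field F] [Algebra K F] [IsAlgClosed K] {x : F}

/-- the two counts in the shape of `HurwitzCore.hurwitz_of_counts` -/
theorem exists_counts_ell (hx : IsFF K x) (hsep : Algebra.IsSeparable K⟮x⟯ F) :
    ∃ d : Fin (Module.finrank K⟮x⟯ F) → ℤ,
      (∀ r : ℤ, (Defs.ell (r • FibreSep.poleDiv hx hsep) : ℤ) = ∑ i, max 0 (r - d i + 1)) ∧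
      (∀ r : ℤ, (Defs.ell (r • FibreSep.poleDiv hx hsep + DiffDivisor.diffDivisor hx hsep) : ℤ) =
        ∑ i, max 0 (r + d i + 1)) := by
  obtain ⟨d, -, h1, -, h2⟩ := DualChart.exists_counts hx hsep
  refine ⟨d, fun r => ?_, fun r => ?_⟩
  · unfold Defs.ell
    rw [h1 r]
    push_cast
    exact Finset.sum_congr rfl fun i _ => by rw [Int.toNat_eq_max, max_comm]
  · unfold Defs.ell
    rw [h2 r]
    push_cast
    exact Finset.sum_congr rfl fun i _ => by rw [Int.toNat_eq_max, max_comm]

/-- **Hurwitz genus formula** (contract X2 of block A): for a separating element `x` of a function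
field with Riemann genus `g`, `2g - 2 = -2 [F : K(x)] + ∑_Q d_Q`. -/
theorem hurwitzFormula (hx : IsFF K x) (hsep : Algebra.IsSeparable K⟮x⟯ F) {g : ℕ}
    (hR : Fermat.Agent.S18.NonSpecial.RiemannHyp K F g) : Defs.HurwitzFormula hx hsep g := by
  obtain ⟨d, h1, h2⟩ := exists_counts_ell hx hsep
  exact (HurwitzCore.hurwitz_of_counts hx hsep hR (FibreSep.poleDiv hx hsep)
    (DiffDivisor.diffDivisor hx hsep) (FibreSep.degree_poleDiv hx hsep) (Fintype.card_fin _)
    (DiffDivisor.diffDivisor_apply hx hsep) d h1 h2).1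

/-- the degree of the different divisor is `2g - 2 + 2n` -/
theorem degree_diffDivisor (hx : IsFF K x) (hsep : Algebra.IsSeparable K⟮x⟯ F) {g : ℕ}
    (hR : Fermat.Agent.S18.NonSpecial.RiemannHyp K F g) :
    Divisor.degree (DiffDivisor.diffDivisor hx hsep) =
      2 * (g : ℤ) - 2 + 2 * (Module.finrank K⟮x⟯ F : ℤ) := by
  have h := (DiffDivisor.hurwitzFormula_iff hx hsep g).mp (hurwitzFormula hx hsep hR)
  linarith

/-- **Contracts X1 + X2 together**: a function field with a separating element over an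
algebraically closed field has a Riemann genus `g`, and `g` satisfies the Hurwitz formula. -/
theorem exists_riemannHyp_hurwitz [HasPrincipalDivisors K F] (hx : IsFF K x)
    (hsep : Algebra.IsSeparable K⟮x⟯ F) :
    ∃ g : ℕ, Fermat.Agent.S18.NonSpecial.RiemannHyp K F g ∧ Defs.HurwitzFormula hx hsep g := by
  obtain ⟨g, hg, -⟩ := RiemannX1.exists_riemannHyp_of_sep hx hsep
  exact ⟨g, hg, hurwitzFormula hx hsep hg⟩

/-- **`F_L = ℚ̄(X₀(N))`**: Riemann genus + Hurwitz formula for `j`. -/
theorem exists_genus_FL (N : ℕ) [NeZero N] :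
    ∃ g : ℕ, Fermat.Agent.S18.NonSpecial.RiemannHyp (AlgebraicClosure ℚ)
        (modularFunctionFieldBar N) g ∧
      Defs.HurwitzFormula (Instances.isFF_jgen N) (Instances.isSeparable_jgen N) g := by
  obtain ⟨g, hg⟩ := RiemannFk.exists_riemannHyp_FL N
  exact ⟨g, hg, hurwitzFormula _ _ hg⟩

/-- **`F_k = k(X₀(N))`**: Riemann genus + Hurwitz formula for `j̄`, given separability. -/
theorem exists_genus_Fk (k : Type*) [Field k] [IsAlgClosed k] (N : ℕ) [NeZero N]
    (hsep : Algebra.IsSeparable k⟮Fermat.Agent.S18.B.FkBasics.jk k N⟯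
      (modularFunctionFieldFullC k N)) :
    ∃ g : ℕ, Fermat.Agent.S18.NonSpecial.RiemannHyp k (modularFunctionFieldFullC k N) g ∧
      Defs.HurwitzFormula (Fermat.Agent.S18.B.FkBasics.isFF k N) hsep g := by
  obtain ⟨g, hg⟩ := RiemannFk.exists_riemannHyp_Fk' k N hsep
  exact ⟨g, hg, hurwitzFormula _ _ hg⟩

end Fermat.Agent.S18.A.Hurwitz
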