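import Fermat.Agent.S18.A.Unram
import Fermat.Agent.S18.A.DiffLower

/-!
# PROJECT H (S18), block A, slice H-A14 (layer (b)): `hunram`, hypothesis free

For an algebraically closed field `K` (any characteristic) and a function field `F/K` with a
separating element `x`, all but finitely many places `Q` of `F` satisfy `ord_Q (x - γ) = 1` for
some `γ : K`.  This is the hypothesis `hunram` of `Fermat.Agent.S18.Core.core` /
`Fermat.Agent.S18.Assembly.of_inputs` (with `x = jk`).
-/

set_option autoImplicit false

namespace Fermat.Agent.S18.A.Unram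

open AlgebraicCurve IntermediateField Fermat.Agent.S24.FF Fermat.Agent.S18.A

universe u w

variable {K : Type w} {F : Type u} [Field K] [Field F] [Algebra K F] [IsAlgClosed K] {x : F}

/-- **`hunram`**: all but finitely many places are simple zeros of some `x - γ`. -/
theorem finite_not_simple (hx : IsFF K x) (hsep : Algebra.IsSeparable K⟮x⟯ F) :
    {Q : Place K F | ¬ ∃ γ : K, Q.ord (x - algebraMap K F γ) = 1}.Finite :=
  finite_not_simple_of hx hsep (fun _ a hQa => DiffLower.sub_one_le_diffExp_zero hx hsep a hQa)
    (DiffLower.finite_diffExp_ne_zero hx hsep)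

/-- a place with vanishing different exponent at which `x` is regular is a simple zero -/
theorem exists_ord_eq_one_of_diffExp_eq_zero (hx : IsFF K x) (hsep : Algebra.IsSeparable K⟮x⟯ F)
    (Q : Place K F) (hQ : Q.adicValuation x ≤ 1) (hd : Defs.diffExp hx hsep Q = 0) :
    ∃ γ : K, Q.ord (x - algebraMap K F γ) = 1 :=
  ord_eq_one_of_diffExp_eq_zero hx hsep
    (fun _ a hQa => DiffLower.sub_one_le_diffExp_zero hx hsep a hQa) Q hQ hd

end Fermat.Agent.S18.A.Unram
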