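import Mathlib
import Fermat.Agent.S18.A.Defs
import Fermat.Agent.S18.A.FibreSep
import Fermat.Agent.S18.A.DiffLower
import Fermat.Agent.S18.Different.LocalPrimes

/-!
# PROJECT H (S18), slice H-C8d (part 2): the local chart of a function field at `x = a`

`K` algebraically closed, `hx : IsFF K x`, `hsep : Algebra.IsSeparable K⟮x⟯ F`, `a : K`.
`A = polyRing K x = K[x]`, `B = intRing K x` (integral closure of `K[x]` in `F`),
`pA K x a = (x - a) ⊆ K[x]`, `Dj K x a = K[x]_(x - a)` (a DVR),
`Ej K x a = B localised at K[x] \ (x - a)` (a semilocal Dedekind domain, the integral closure of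
`Dj` in `F`).

* `overEquiv hx hsep a : (pA K x a).primesOver (intRing K x) ≃ {Q // Q ∈ FibreSep.zeros hx hsep a}`;
* `localEquiv a hx hsep : HeightOneSpectrum (Ej K x a) ≃ {Q // Q ∈ FibreSep.zeros hx hsep a}`;
* `diffExp_placeOfOver` : `Defs.diffExp hx hsep Q = Defs.diffExpAt (polyRing K x) P` for `Q ↔ P`;
* `diffExpAt_local` : `Defs.diffExpAt (Dj K x a) Q' = Defs.diffExp hx hsep (localEquiv a hx hsep Q')`;
* `finsum_diffExpAt_local` : `∑ᶠ Q', diffExpAt (Dj K x a) Q' = ∑ Q ∈ zeros hx hsep a, diffExp Q`.
-/

set_option autoImplicit false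
set_option linter.style.haveILetI false
set_option linter.unusedSectionVars false
set_option synthInstance.maxHeartbeats 400000

namespace Fermat.Agent.S18.A.LocalChart

open AlgebraicCurve IsDedekindDomain IntermediateField WithZero
  Fermat.Agent.S24.PlacePrime Fermat.Agent.S24.FF Fermat.Agent.S24.Ord Fermat.Agent.S24.Fibre
  Fermat.Agent.S18.Different.LocalPrimes
open scoped IntermediateField.algebraAdjoinAdjoin nonZeroDivisors

attribute [local instance] FractionRing.liftAlgebra FractionRing.isScalarTower_liftAlgebra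

universe u w

variable {K : Type w} {F : Type u} [Field K] [Field F] [Algebra K F] {x : F}

instance faithfulSMul_chart (K : Type w) {F : Type u} [Field K] [Field F] [Algebra K F] (x : F) :
    FaithfulSMul (polyRing K x) (intRing K x) := by
  rw [faithfulSMul_iff_algebraMap_injective]
  intro a b h
  have h2 := congrArg (algebraMap (intRing K x) F) h
  exact Subtype.ext h2

/-- `K[x]` is a Dedekind domain -/
theorem isDedekind_poly (hx : Transcendental K x) : IsDedekindDomain (polyRing K x) := by
  have := isPID hx
  infer_instance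

/-- separability in the `FractionRing` form of Mathlib's `Different` file -/
theorem isSeparable_fractionRing (hx : IsFF K x) (hsep : Algebra.IsSeparable K⟮x⟯ F) :
    Algebra.IsSeparable (FractionRing (polyRing K x)) (FractionRing (intRing K x)) := by
  have hDed := Defs.isDedekind hx hsep
  have hFr := Defs.isFractionRing hx
  have hfin := Defs.moduleFinite hx hsep
  have hpid := isPID hx.transcendental
  have hKL : FiniteDimensional K⟮x⟯ F := hx.finite
  exact DiffLower.isSeparable_fractionRing_aux (polyRing K x) K⟮x⟯ F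

/-- the prime `(x - a)` of `K[x]` -/
def pA (K : Type w) {F : Type u} [Field K] [Field F] [Algebra K F] (x : F) (a : K) :
    Ideal (polyRing K x) := Ideal.span {tA K x a}

theorem isMaximal_pA (hx : Transcendental K x) (a : K) : (pA K x a).IsMaximal :=
  haveI := isPID hx
  PrincipalIdealRing.isMaximal_of_irreducible (irreducible_tA hx a)

theorem pA_ne_bot (hx : Transcendental K x) (a : K) : pA K x a ≠ ⊥ := by
  rw [pA, Ne, Ideal.span_singleton_eq_bot]
  exact tA_ne_zero hx a

/-- the local ring `K[x]_(x - a)` -/
abbrev Dj (K : Type w) {F : Type u} [Field K] [Field F] [Algebra K F] (x : F) (a : K)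
    [(pA K x a).IsPrime] : Type u := Localization.AtPrime (pA K x a)

/-- the semilocal ring: integral closure of `K[x]_(x - a)` in `F` -/
abbrev Ej (K : Type w) {F : Type u} [Field K] [Field F] [Algebra K F] (x : F) (a : K)
    [(pA K x a).IsPrime] : Type u :=
  Localization (Algebra.algebraMapSubmonoid (intRing K x) (pA K x a).primeCompl)

section Over

variable [IsAlgClosed K]

/-- `x - a` as an element of the integral closure -/
def tB (K : Type w) {F : Type u} [Field K] [Field F] [Algebra K F] (x : F) (a : K) :
    intRing K x := algebraMap (polyRing K x) (intRing K x) (tA K x a)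

omit [IsAlgClosed K] in
theorem algebraMap_tB (a : K) : algebraMap (intRing K x) F (tB K x a) = x - algebraMap K F a := rfl

omit [IsAlgClosed K] in
theorem tB_ne_zero (hx : IsFF K x) (a : K) : tB K x a ≠ 0 := by
  intro h0
  apply sub_ne_zero.mpr (hx.ne_algebraMap a)
  rw [← algebraMap_tB, h0, map_zero]

omit [IsAlgClosed K] in
/-- a prime of the integral closure lies over `(x - a)` iff it contains `x - a` -/
theorem liesOver_pA_iff (hx : IsFF K x) (a : K) (P : Ideal (intRing K x)) [P.IsPrime] :
    P.LiesOver (pA K x a) ↔ tB K x a ∈ P := by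
  constructor
  · intro h
    have h1 : tA K x a ∈ pA K x a := Ideal.subset_span rfl
    rw [(Ideal.liesOver_iff P (pA K x a)).mp h, Ideal.under_def] at h1
    exact h1
  · intro h
    rw [Ideal.liesOver_iff, Ideal.under_def]
    refine (isMaximal_pA hx.transcendental a).eq_of_le (Ideal.comap_ne_top _ ‹P.IsPrime›.ne_top) ?_
    rw [pA, Ideal.span_le, Set.singleton_subset_iff]
    exact h

/-- the place of a prime over `(x - a)` -/
noncomputable def placeOfOver (hx : IsFF K x) (hsep : Algebra.IsSeparable K⟮x⟯ F) (a : K)
    (P : (pA K x a).primesOver (intRing K x)) : Place K F :=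
  haveI := Defs.isDedekind hx hsep
  haveI := Defs.isFractionRing hx
  haveI := isDedekind_poly hx.transcendental
  haveI := Defs.moduleFinite hx hsep
  haveI := isMaximal_pA hx.transcendental a
  placeOfPrime (toHeightOne (polyRing K x) (intRing K x) (pA K x a)
    (pA_ne_bot hx.transcendental a) P)

theorem placeOfOver_mem_zeros (hx : IsFF K x) (hsep : Algebra.IsSeparable K⟮x⟯ F) (a : K)
    (P : (pA K x a).primesOver (intRing K x)) :
    placeOfOver hx hsep a P ∈ FibreSep.zeros hx hsep a := by
  haveI := Defs.isDedekind hx hsep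
  haveI := Defs.isFractionRing hx
  haveI := isDedekind_poly hx.transcendental
  haveI := Defs.moduleFinite hx hsep
  haveI := isMaximal_pA hx.transcendental a
  have hxa : x - algebraMap K F a ≠ 0 := sub_ne_zero.mpr (hx.ne_algebraMap a)
  rw [FibreSep.mem_zeros, ← Fermat.Agent.S24.Ord.ord_pos_iff _ hxa, ← algebraMap_tB, placeOfOver,
    placeOfPrime_ord_pos_iff]
  refine ⟨tB_ne_zero hx a, ?_⟩
  haveI := P.2.1
  exact (liesOver_pA_iff hx a P.1).mp P.2.2

theorem placeOfOver_injective (hx : IsFF K x) (hsep : Algebra.IsSeparable K⟮x⟯ F) (a : K) :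
    Function.Injective (placeOfOver hx hsep a) := by
  haveI := Defs.isDedekind hx hsep
  haveI := Defs.isFractionRing hx
  haveI := isDedekind_poly hx.transcendental
  haveI := Defs.moduleFinite hx hsep
  haveI := isMaximal_pA hx.transcendental a
  intro P P' h
  exact toHeightOne_injective _ _ _ _ (placeOfPrime_injective h)

theorem exists_placeOfOver_eq (hx : IsFF K x) (hsep : Algebra.IsSeparable K⟮x⟯ F) (a : K)
    (Q : Place K F) (hQ : Q ∈ FibreSep.zeros hx hsep a) :
    ∃ P : (pA K x a).primesOver (intRing K x), placeOfOver hx hsep a P = Q := by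
  haveI := Defs.isDedekind hx hsep
  haveI := Defs.isFractionRing hx
  haveI := isDedekind_poly hx.transcendental
  haveI := Defs.moduleFinite hx hsep
  haveI := isMaximal_pA hx.transcendental a
  have hxa : x - algebraMap K F a ≠ 0 := sub_ne_zero.mpr (hx.ne_algebraMap a)
  have hv := (FibreSep.mem_zeros hx hsep a Q).mp hQ
  have hvx : Q.adicValuation x ≤ 1 := by
    have h1 : x = (x - algebraMap K F a) + algebraMap K F a := by ring
    rw [h1]
    exact Valuation.map_add_le _ hv.le
      ((Fermat.Agent.S24.Ord.mem_iff Q _).mp (Q.algebraMap_mem' a))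
  obtain ⟨P, hP⟩ := Defs.exists_prime hx hsep Q hvx
  have hmemP : tB K x a ∈ P.asIdeal := by
    have h1 := (Fermat.Agent.S24.Ord.ord_pos_iff Q hxa).mpr hv
    rw [← hP, ← algebraMap_tB, placeOfPrime_ord_pos_iff] at h1
    exact h1.2
  haveI := P.isPrime
  refine ⟨⟨P.asIdeal, P.isPrime, (liesOver_pA_iff hx a P.asIdeal).mpr hmemP⟩, ?_⟩
  rw [← hP]
  rfl

/-- **primes of the chart over `(x - a)` = places over `a`** -/
noncomputable def overEquiv (hx : IsFF K x) (hsep : Algebra.IsSeparable K⟮x⟯ F) (a : K) :
    (pA K x a).primesOver (intRing K x) ≃ {Q : Place K F // Q ∈ FibreSep.zeros hx hsep a} :=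
  Equiv.ofBijective (fun P => ⟨placeOfOver hx hsep a P, placeOfOver_mem_zeros hx hsep a P⟩)
    ⟨fun P P' h => placeOfOver_injective hx hsep a (congrArg Subtype.val h),
      fun Q => by
        obtain ⟨P, hP⟩ := exists_placeOfOver_eq hx hsep a Q.1 Q.2
        exact ⟨P, Subtype.ext hP⟩⟩

@[simp]
theorem coe_overEquiv (hx : IsFF K x) (hsep : Algebra.IsSeparable K⟮x⟯ F) (a : K)
    (P : (pA K x a).primesOver (intRing K x)) :
    ((overEquiv hx hsep a P : {Q : Place K F // Q ∈ FibreSep.zeros hx hsep a}) : Place K F) =
      placeOfOver hx hsep a P := rfl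

theorem adicValuation_le_one_of_mem_zeros (hx : IsFF K x) (hsep : Algebra.IsSeparable K⟮x⟯ F)
    (a : K) {Q : Place K F} (hQ : Q ∈ FibreSep.zeros hx hsep a) : Q.adicValuation x ≤ 1 := by
  have hv := (FibreSep.mem_zeros hx hsep a Q).mp hQ
  have h1 : x = (x - algebraMap K F a) + algebraMap K F a := by ring
  rw [h1]
  exact Valuation.map_add_le _ hv.le
    ((Fermat.Agent.S24.Ord.mem_iff Q _).mp (Q.algebraMap_mem' a))

/-- **the different exponent of `F/K(x)` at the place of a prime `P` over `(x - a)` is the
exponent of `P` in the different of the chart** -/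
theorem diffExp_placeOfOver (hx : IsFF K x) (hsep : Algebra.IsSeparable K⟮x⟯ F) (a : K)
    (P : (pA K x a).primesOver (intRing K x)) :
    haveI := Defs.isDedekind hx hsep
    haveI := isDedekind_poly hx.transcendental
    haveI := Defs.moduleFinite hx hsep
    haveI := isMaximal_pA hx.transcendental a
    Defs.diffExp hx hsep (placeOfOver hx hsep a P) =
      Defs.diffExpAt (polyRing K x) (toHeightOne (polyRing K x) (intRing K x) (pA K x a)
        (pA_ne_bot hx.transcendental a) P) := by
  haveI := Defs.isDedekind hx hsep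
  haveI := Defs.isFractionRing hx
  haveI := isDedekind_poly hx.transcendental
  haveI := Defs.moduleFinite hx hsep
  haveI := isMaximal_pA hx.transcendental a
  have hQ : (placeOfOver hx hsep a P).adicValuation x ≤ 1 :=
    adicValuation_le_one_of_mem_zeros hx hsep a (placeOfOver_mem_zeros hx hsep a P)
  rw [DiffLower.diffExp_eq_fin hx hsep hQ]
  unfold Defs.diffExpFin
  have hspec := (Defs.exists_prime hx hsep (placeOfOver hx hsep a P) hQ).choose_spec
  have heq : (Defs.exists_prime hx hsep (placeOfOver hx hsep a P) hQ).choose =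
      toHeightOne (polyRing K x) (intRing K x) (pA K x a) (pA_ne_bot hx.transcendental a) P :=
    placeOfPrime_injective (K := K) hspec
  rw [heq]

end Over

/-! ### the localised chart -/

section Local

variable [IsAlgClosed K] (a : K) [(pA K x a).IsMaximal] [IsDedekindDomain (polyRing K x)]
  [IsDedekindDomain (intRing K x)] [Module.Finite (polyRing K x) (intRing K x)]

/-- **nonzero primes of the semilocal ring `Ej` = places of `F` over `a`** -/
noncomputable def localEquiv (hx : IsFF K x) (hsep : Algebra.IsSeparable K⟮x⟯ F) :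
    HeightOneSpectrum (Ej K x a) ≃ {Q : Place K F // Q ∈ FibreSep.zeros hx hsep a} :=
  (heightOneEquiv (polyRing K x) (intRing K x) (pA K x a) (pA_ne_bot hx.transcendental a)).trans
    (overEquiv hx hsep a)

/-- `Ej` is semilocal -/
theorem finite_heightOneSpectrum_Ej (hx : IsFF K x) : Finite (HeightOneSpectrum (Ej K x a)) :=
  finite_heightOneSpectrum (polyRing K x) (intRing K x) (pA K x a) (pA_ne_bot hx.transcendental a)

/-- **the different exponent of the local chart `Ej / Dj` at `Q'` is the different exponent
`Defs.diffExp` of `F/K(x)` at the corresponding place** -/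
theorem diffExpAt_local (hx : IsFF K x) (hsep : Algebra.IsSeparable K⟮x⟯ F)
    (Q' : HeightOneSpectrum (Ej K x a)) :
    Defs.diffExpAt (Dj K x a) Q' = Defs.diffExp hx hsep (localEquiv a hx hsep Q') := by
  haveI := isSeparable_fractionRing hx hsep
  have h1 := count_differentIdeal_heightOneEquiv (polyRing K x) (intRing K x) (pA K x a)
    (pA_ne_bot hx.transcendental a) Q'
  have h2 := diffExp_placeOfOver hx hsep a
    (heightOneEquiv (polyRing K x) (intRing K x) (pA K x a) (pA_ne_bot hx.transcendental a) Q')
  unfold Defs.diffExpAt at h2 ⊢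
  rw [h1]
  exact h2.symm

/-- **sum formula**: the sum of the different exponents of the local chart is the sum of
`Defs.diffExp` over the zeros of `x - a`. -/
theorem finsum_diffExpAt_local (hx : IsFF K x) (hsep : Algebra.IsSeparable K⟮x⟯ F) :
    ∑ᶠ Q' : HeightOneSpectrum (Ej K x a), Defs.diffExpAt (Dj K x a) Q' =
      ∑ Q ∈ FibreSep.zeros hx hsep a, Defs.diffExp hx hsep Q := by
  rw [← finsum_comp_equiv (localEquiv a hx hsep).symm]
  have h : ∀ Q : {Q : Place K F // Q ∈ FibreSep.zeros hx hsep a},
      Defs.diffExpAt (Dj K x a) ((localEquiv a hx hsep).symm Q) = Defs.diffExp hx hsep Q.1 := by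
    intro Q
    rw [diffExpAt_local a hx hsep, Equiv.apply_symm_apply]
  rw [finsum_congr h]
  rw [finsum_eq_sum_of_fintype, ← Finset.sum_coe_sort (FibreSep.zeros hx hsep a)]

end Local

end Fermat.Agent.S18.A.LocalChart
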