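import Mathlib
import Fermat.Agent.S18.A.LocalChart
import Fermat.Agent.S18.Different.Congr

/-!
# PROJECT H (S18), slice H-C8d (part 4): recognition of the local chart at `x = a`

`K` algebraically closed, `hx : IsFF K x`, `hsep : Algebra.IsSeparable K⟮x⟯ F`, `a : K`;
`Dj K x a = K[x]_(x - a)`, `Ej K x a` = its integral closure in `F` (see `A/LocalChart`).

* `ringEquivOfRangeEq`, `exists_ringEquiv_of_range_eq` : two pairs `Dᵢ ⊆ Eᵢ` inside a ring `T`, `Eᵢ`
  the integral closure of `Dᵢ`, with the same image of `Dᵢ`, are compatibly isomorphic;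
* `algebraEjF`, `algebraDjF` (reducible defs, NOT instances: use `letI`), scalar towers,
  `isFractionRing_Ej`, `isIntegralClosure_Ej`, `faithfulSMul_Dj_Ej`, `isDVR_Dj`;
* `IsRegularAt K x a f` : `f = p(x)/q(x)` with `q(a) ≠ 0`;  `mem_range_Dj_iff`;
* `diffExpAt_congr`, `finsum_diffExpAt_congr` (LC4): `Defs.diffExpAt` is invariant under compatible
  ring isomorphisms `eA : A₁ ≃+* A₂`, `eB : B₁ ≃+* B₂`;
* **`exists_equiv_diffExpAt_of_isIntegralClosure`**, **`finsum_diffExpAt_of_isIntegralClosure`** :
  for ANY pair `D' ⊆ E'` of subrings of `F` (given as algebras) with `D'` = the functions regular at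
  `a` and `E'` the integral closure of `D'` in `F`:
  `∑ᶠ Q : HeightOneSpectrum E', Defs.diffExpAt D' Q = ∑ Q ∈ FibreSep.zeros hx hsep a, Defs.diffExp hx hsep Q`.
-/

set_option autoImplicit false
set_option linter.style.haveILetI false
set_option linter.unusedSectionVars false
set_option synthInstance.maxHeartbeats 400000

namespace Fermat.Agent.S18.A.LocalChartExtras

open AlgebraicCurve IsDedekindDomain IntermediateField WithZero Polynomial
  Fermat.Agent.S24.PlacePrime Fermat.Agent.S24.FF Fermat.Agent.S24.Ord Fermat.Agent.S24.Fibre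
  Fermat.Agent.S18.Different.LocalPrimes Fermat.Agent.S18.Different.Congr
  Fermat.Agent.S18.A.LocalChart
open scoped IntermediateField.algebraAdjoinAdjoin nonZeroDivisors

universe u w

/-! ### two injective ring homs with the same range -/

section RangeEq

variable {R1 R2 T : Type*} [CommRing R1] [CommRing R2] [CommRing T]

/-- two injective ring homs into `T` with the same range have isomorphic sources -/
noncomputable def ringEquivOfRangeEq (φ1 : R1 →+* T) (φ2 : R2 →+* T)
    (h1 : Function.Injective φ1) (h2 : Function.Injective φ2)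
    (h : ∀ t : T, (∃ r1, φ1 r1 = t) ↔ ∃ r2, φ2 r2 = t) :
    R1 ≃+* R2 :=
  (RingEquiv.ofBijective φ1.rangeRestrict
    ⟨fun _ _ hab => h1 (congrArg Subtype.val hab), φ1.rangeRestrict_surjective⟩).trans
  ((RingEquiv.subringCongr (show φ1.range = φ2.range from Subring.ext h)).trans
    (RingEquiv.ofBijective φ2.rangeRestrict
      ⟨fun _ _ hab => h2 (congrArg Subtype.val hab), φ2.rangeRestrict_surjective⟩).symm)

theorem ringEquivOfRangeEq_apply (φ1 : R1 →+* T) (φ2 : R2 →+* T)
    (h1 : Function.Injective φ1) (h2 : Function.Injective φ2)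
    (h : ∀ t : T, (∃ r1, φ1 r1 = t) ↔ ∃ r2, φ2 r2 = t)
    (r : R1) : φ2 (ringEquivOfRangeEq φ1 φ2 h1 h2 h r) = φ1 r := by
  set e2 := (RingEquiv.ofBijective φ2.rangeRestrict
      ⟨fun _ _ hab => h2 (congrArg Subtype.val hab), φ2.rangeRestrict_surjective⟩) with he2
  have key : ∀ y : φ2.range, φ2 (e2.symm y) = y := by
    intro y
    have : e2 (e2.symm y) = y := e2.apply_symm_apply y
    have h3 := congrArg Subtype.val this
    exact h3
  unfold ringEquivOfRangeEq
  simp only [RingEquiv.trans_apply]
  rw [key]
  rfl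

end RangeEq

/-! ### the local chart inside `F` -/

section Structures

variable {K : Type w} {F : Type u} [Field K] [Field F] [Algebra K F] {x : F}

theorem isUnit_algebraMap_of_mem (a : K) [(pA K x a).IsPrime]
    (y : Algebra.algebraMapSubmonoid (intRing K x) (pA K x a).primeCompl) :
    IsUnit (algebraMap (intRing K x) F y) := by
  obtain ⟨s, hs, hsy⟩ := y.2
  have hs0 : s ≠ 0 := by
    rintro rfl
    exact hs (Ideal.zero_mem _)
  apply IsUnit.mk0
  rw [← hsy]
  intro h0
  apply hs0
  apply Subtype.ext
  exact h0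

/-- `Ej ⊆ F` -/
@[reducible] noncomputable def algebraEjF (K : Type w) {F : Type u} [Field K] [Field F]
    [Algebra K F] (x : F) (a : K) [(pA K x a).IsPrime] : Algebra (Ej K x a) F :=
  (IsLocalization.lift (M := Algebra.algebraMapSubmonoid (intRing K x) (pA K x a).primeCompl)
    (S := Ej K x a) (g := algebraMap (intRing K x) F) (isUnit_algebraMap_of_mem a)).toAlgebra

/-- `Dj ⊆ F` -/
@[reducible] noncomputable def algebraDjF (K : Type w) {F : Type u} [Field K] [Field F]
    [Algebra K F] (x : F) (a : K) [(pA K x a).IsPrime] : Algebra (Dj K x a) F :=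
  ((algebraEjF K x a).algebraMap.comp (algebraMap (Dj K x a) (Ej K x a))).toAlgebra

attribute [local instance] algebraEjF algebraDjF

variable (a : K) [(pA K x a).IsPrime]

theorem algebraMap_Ej_F_algebraMap (b : intRing K x) :
    algebraMap (Ej K x a) F (algebraMap (intRing K x) (Ej K x a) b) = b :=
  IsLocalization.lift_eq _ b

instance isScalarTower_int_Ej_F : IsScalarTower (intRing K x) (Ej K x a) F :=
  IsScalarTower.of_algebraMap_eq (R := intRing K x) (S := Ej K x a) (A := F)
    fun b => (algebraMap_Ej_F_algebraMap a b).symm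

instance isScalarTower_Dj_Ej_F : IsScalarTower (Dj K x a) (Ej K x a) F :=
  IsScalarTower.of_algebraMap_eq (R := Dj K x a) (S := Ej K x a) (A := F) fun _ => rfl

theorem algebraMap_Dj_F_algebraMap (r : polyRing K x) :
    algebraMap (Dj K x a) F (algebraMap (polyRing K x) (Dj K x a) r) = r := by
  change algebraMap (Ej K x a) F (algebraMap (Dj K x a) (Ej K x a)
    (algebraMap (polyRing K x) (Dj K x a) r)) = r
  rw [← IsScalarTower.algebraMap_apply (polyRing K x) (Dj K x a) (Ej K x a),
    IsScalarTower.algebraMap_apply (polyRing K x) (intRing K x) (Ej K x a),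
    algebraMap_Ej_F_algebraMap]
  rfl

instance isScalarTower_poly_Dj_F : IsScalarTower (polyRing K x) (Dj K x a) F :=
  IsScalarTower.of_algebraMap_eq (R := polyRing K x) (S := Dj K x a) (A := F)
    fun r => (algebraMap_Dj_F_algebraMap a r).symm

theorem isFractionRing_Ej (hx : IsFF K x) : IsFractionRing (Ej K x a) F := by
  haveI := Defs.isFractionRing hx
  exact IsFractionRing.isFractionRing_of_isDomain_of_isLocalization
    (Algebra.algebraMapSubmonoid (intRing K x) (pA K x a).primeCompl) (Ej K x a) F

theorem algebraMap_Ej_F_injective (hx : IsFF K x) :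
    Function.Injective (algebraMap (Ej K x a) F) := by
  haveI := isFractionRing_Ej a hx
  exact IsFractionRing.injective (Ej K x a) F

end Structures

section Closure

variable {K : Type w} {F : Type u} [Field K] [Field F] [Algebra K F] {x : F}

attribute [local instance] algebraEjF algebraDjF

variable [IsAlgClosed K] (a : K) [(pA K x a).IsMaximal] [IsDedekindDomain (polyRing K x)]
  [IsDedekindDomain (intRing K x)] [Module.Finite (polyRing K x) (intRing K x)]

theorem faithfulSMul_Dj_Ej : FaithfulSMul (Dj K x a) (Ej K x a) :=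
  (Module.isTorsionFree_iff_faithfulSMul (R := Dj K x a) (A := Ej K x a)).mp inferInstance

omit [IsDedekindDomain (intRing K x)] [Module.Finite (polyRing K x) (intRing K x)] in
/-- `Dj = K[x]_(x - a)` is a discrete valuation ring -/
theorem isDVR_Dj (hx : IsFF K x) : IsDiscreteValuationRing (Dj K x a) :=
  IsLocalization.AtPrime.isDiscreteValuationRing_of_dedekind_domain (polyRing K x)
    (pA_ne_bot hx.transcendental a) (Dj K x a)

theorem isIntegralClosure_Ej (hx : IsFF K x) :
    IsIntegralClosure (Ej K x a) (Dj K x a) F := by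
  haveI := isFractionRing_Ej a hx
  haveI : Algebra.IsIntegral (Dj K x a) (Ej K x a) := Algebra.IsIntegral.of_finite _ _
  exact IsIntegralClosure.of_isIntegrallyClosed (Ej K x a) (Dj K x a) F

theorem algebraMap_Dj_F_injective (hx : IsFF K x) :
    Function.Injective (algebraMap (Dj K x a) F) := by
  have h1 := algebraMap_Ej_F_injective a hx
  haveI := faithfulSMul_Dj_Ej (x := x) a
  have h2 : Function.Injective (algebraMap (Dj K x a) (Ej K x a)) :=
    FaithfulSMul.algebraMap_injective _ _
  exact h1.comp h2

/-- `f ∈ F` is a quotient `p(x)/q(x)` of polynomials in `x` with `q(a) ≠ 0`: an element of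
`K(x)` regular at `x = a` -/
def IsRegularAt (K : Type w) {F : Type u} [Field K] [Field F] [Algebra K F] (x : F) (a : K)
    (f : F) : Prop :=
  ∃ p q : K[X], q.eval a ≠ 0 ∧ f * aeval x q = aeval x p

omit [IsAlgClosed K] [(pA K x a).IsMaximal] [IsDedekindDomain (polyRing K x)]
  [IsDedekindDomain (intRing K x)] [Module.Finite (polyRing K x) (intRing K x)] in
theorem coe_algEquivOfTranscendental (hx : Transcendental K x) (q : K[X]) :
    ((Polynomial.algEquivOfTranscendental K x hx q : polyRing K x) : F) = aeval x q := by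
  rw [Polynomial.algEquivOfTranscendental_apply, Polynomial.aeval_subalgebra_coe]

omit [IsAlgClosed K] [(pA K x a).IsMaximal] [IsDedekindDomain (polyRing K x)]
  [IsDedekindDomain (intRing K x)] [Module.Finite (polyRing K x) (intRing K x)] in
theorem algEquivOfTranscendental_mem_pA_iff (hx : Transcendental K x) (q : K[X]) :
    Polynomial.algEquivOfTranscendental K x hx q ∈ pA K x a ↔ q.eval a = 0 := by
  have h1 : (Polynomial.algEquivOfTranscendental K x hx) (X - C a) = tA K x a := by
    apply Subtype.ext
    simp [Polynomial.algEquivOfTranscendental_apply, tA]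
  rw [pA, Ideal.mem_span_singleton, ← h1, map_dvd_iff, Polynomial.dvd_iff_isRoot]
  rfl

/-- **the image of `Dj = K[x]_(x - a)` in `F`** is the set of `p(x)/q(x)` with `q(a) ≠ 0` -/
theorem mem_range_Dj_iff (hx : IsFF K x) (f : F) :
    f ∈ (algebraMap (Dj K x a) F).range ↔ IsRegularAt K x a f := by
  set e := Polynomial.algEquivOfTranscendental K x hx.transcendental with he
  constructor
  · rintro ⟨d, rfl⟩
    obtain ⟨r, s, rfl⟩ := IsLocalization.exists_mk'_eq (pA K x a).primeCompl d
    refine ⟨e.symm r, e.symm s.1, ?_, ?_⟩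
    · intro h0
      rw [← algEquivOfTranscendental_mem_pA_iff a hx.transcendental, ← he,
        AlgEquiv.apply_symm_apply] at h0
      exact s.2 h0
    · rw [← coe_algEquivOfTranscendental hx.transcendental, ← coe_algEquivOfTranscendental
        hx.transcendental, ← he, AlgEquiv.apply_symm_apply, AlgEquiv.apply_symm_apply,
        ← algebraMap_Dj_F_algebraMap a s.1, ← map_mul, IsLocalization.mk'_spec,
        algebraMap_Dj_F_algebraMap]
  · rintro ⟨p, q, hq, hf⟩
    have hs : e q ∈ (pA K x a).primeCompl := by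
      intro h0
      exact hq ((algEquivOfTranscendental_mem_pA_iff a hx.transcendental q).mp h0)
    refine ⟨IsLocalization.mk' (Dj K x a) (e p) ⟨e q, hs⟩, ?_⟩
    have hq0 : aeval x q ≠ 0 := by
      intro h0
      have : q = 0 := by
        by_contra hne
        exact hx.transcendental ⟨q, hne, h0⟩
      rw [this] at hq
      simp at hq
    apply mul_right_cancel₀ hq0
    rw [hf, ← coe_algEquivOfTranscendental hx.transcendental,
      ← coe_algEquivOfTranscendental hx.transcendental, ← he]
    have h1 := IsLocalization.mk'_spec (Dj K x a) (e p) ⟨e q, hs⟩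
    have h2 := congrArg (algebraMap (Dj K x a) F) h1
    rw [map_mul, algebraMap_Dj_F_algebraMap, algebraMap_Dj_F_algebraMap] at h2
    exact h2

end Closure

/-! ### transport of `Defs.diffExpAt` along ring isomorphisms -/

section DiffExpCongr

variable {A1 B1 A2 B2 : Type*} [CommRing A1] [CommRing B1] [CommRing A2] [CommRing B2]
  [Algebra A1 B1] [Algebra A2 B2]
  [IsDomain A1] [IsIntegrallyClosed A1] [IsDedekindDomain B1] [Module.IsTorsionFree A1 B1]
  [IsDomain A2] [IsIntegrallyClosed A2] [IsDedekindDomain B2] [Module.IsTorsionFree A2 B2]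
  (eA : A1 ≃+* A2) (eB : B1 ≃+* B2)
  (h : ∀ a, eB (algebraMap A1 B1 a) = algebraMap A2 B2 (eA a))

include h in
/-- **(LC4)** `Defs.diffExpAt` is invariant under compatible ring isomorphisms -/
theorem diffExpAt_congr (P1 : HeightOneSpectrum B1) (P2 : HeightOneSpectrum B2)
    (hP : P2.asIdeal = P1.asIdeal.map (eB : B1 →+* B2)) :
    Defs.diffExpAt A2 P2 = Defs.diffExpAt A1 P1 :=
  count_differentIdeal_congr eA eB h P1 P2 hP

include h in
theorem diffExpAt_heightOneCongr (P1 : HeightOneSpectrum B1) :
    Defs.diffExpAt A2 (heightOneCongr eB P1) = Defs.diffExpAt A1 P1 :=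
  diffExpAt_congr eA eB h P1 _ rfl

include h in
theorem finsum_diffExpAt_congr :
    ∑ᶠ P2 : HeightOneSpectrum B2, Defs.diffExpAt A2 P2 =
      ∑ᶠ P1 : HeightOneSpectrum B1, Defs.diffExpAt A1 P1 :=
  finsum_count_differentIdeal_congr eA eB h

end DiffExpCongr

/-! ### recognition of the local chart -/

section Recognition

theorem isIntegral_congr_ringEquiv {R1 R2 T : Type*} [CommRing R1] [CommRing R2] [CommRing T]
    [Algebra R1 T] [Algebra R2 T] (e : R1 ≃+* R2)
    (h : ∀ r, algebraMap R2 T (e r) = algebraMap R1 T r) (t : T) :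
    IsIntegral R1 t ↔ IsIntegral R2 t := by
  have hcomp : (algebraMap R2 T).comp (e : R1 →+* R2) = algebraMap R1 T := by
    ext r
    exact h r
  have hcomp' : (algebraMap R1 T).comp (e.symm : R2 →+* R1) = algebraMap R2 T := by
    ext r
    simp only [RingHom.coe_comp, RingHom.coe_coe, Function.comp_apply]
    rw [← h, RingEquiv.apply_symm_apply]
  constructor
  · rintro ⟨p, hp, hroot⟩
    refine ⟨p.map (e : R1 →+* R2), hp.map _, ?_⟩
    rw [Polynomial.eval₂_map, hcomp]
    exact hroot
  · rintro ⟨p, hp, hroot⟩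
    refine ⟨p.map (e.symm : R2 →+* R1), hp.map _, ?_⟩
    rw [Polynomial.eval₂_map, hcomp']
    exact hroot

/-- two pairs `Dᵢ ⊆ Eᵢ` inside `T`, `Eᵢ` the integral closure of `Dᵢ`, with the same image of
`Dᵢ` in `T`, are isomorphic -/
theorem exists_ringEquiv_of_range_eq {T : Type*} [CommRing T]
    {D1 E1 D2 E2 : Type*} [CommRing D1] [CommRing E1] [CommRing D2] [CommRing E2]
    [Algebra D1 E1] [Algebra D1 T] [Algebra E1 T] [IsScalarTower D1 E1 T]
    [IsIntegralClosure E1 D1 T]
    [Algebra D2 E2] [Algebra D2 T] [Algebra E2 T] [IsScalarTower D2 E2 T]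
    [IsIntegralClosure E2 D2 T]
    (h1 : Function.Injective (algebraMap D1 T)) (h2 : Function.Injective (algebraMap D2 T))
    (h : ∀ t : T, (∃ d, algebraMap D1 T d = t) ↔ ∃ d, algebraMap D2 T d = t) :
    ∃ (eD : D1 ≃+* D2) (eE : E1 ≃+* E2),
      (∀ d, eE (algebraMap D1 E1 d) = algebraMap D2 E2 (eD d)) ∧
      (∀ d, algebraMap D2 T (eD d) = algebraMap D1 T d) ∧
      (∀ e, algebraMap E2 T (eE e) = algebraMap E1 T e) := by
  set eD := ringEquivOfRangeEq (algebraMap D1 T) (algebraMap D2 T) h1 h2 h with heD
  have heD_spec : ∀ d, algebraMap D2 T (eD d) = algebraMap D1 T d :=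
    fun d => ringEquivOfRangeEq_apply _ _ _ _ _ d
  have hErange : ∀ f : T, (∃ e, algebraMap E1 T e = f) ↔ ∃ e, algebraMap E2 T e = f := by
    intro f
    rw [← IsIntegralClosure.isIntegral_iff (R := D1),
      ← IsIntegralClosure.isIntegral_iff (R := D2)]
    exact isIntegral_congr_ringEquiv eD heD_spec f
  have hE2inj : Function.Injective (algebraMap E2 T) :=
    IsIntegralClosure.algebraMap_injective E2 D2 T
  set eE := ringEquivOfRangeEq (algebraMap E1 T) (algebraMap E2 T)
    (IsIntegralClosure.algebraMap_injective E1 D1 T) hE2inj hErange with heE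
  have heE_spec : ∀ e, algebraMap E2 T (eE e) = algebraMap E1 T e :=
    fun e => ringEquivOfRangeEq_apply _ _ _ _ _ e
  refine ⟨eD, eE, ?_, heD_spec, heE_spec⟩
  intro d
  apply hE2inj
  rw [heE_spec, ← IsScalarTower.algebraMap_apply D1 E1 T,
    ← IsScalarTower.algebraMap_apply D2 E2 T, heD_spec]

variable {K : Type w} {F : Type u} [Field K] [Field F] [Algebra K F] {x : F} [IsAlgClosed K]

attribute [local instance] algebraEjF algebraDjF

/-- **recognition of the local chart**: for ANY pair `D' ⊆ E'` inside `F` with `D'` = the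
functions `p(x)/q(x)`, `q(a) ≠ 0`, and `E'` = the integral closure of `D'` in `F`, the nonzero
primes of `E'` are the places of `F` above `x = a`, and the different exponents of `E'/D'` are the
different exponents `Defs.diffExp` of `F/K(x)`. -/
theorem exists_equiv_diffExpAt_of_isIntegralClosure (hx : IsFF K x)
    (hsep : Algebra.IsSeparable K⟮x⟯ F) (a : K)
    {D' E' : Type*} [CommRing D'] [CommRing E'] [Algebra D' E'] [Algebra D' F] [Algebra E' F]
    [IsScalarTower D' E' F] [IsIntegralClosure E' D' F]
    [IsDomain D'] [IsIntegrallyClosed D'] [IsDedekindDomain E'] [Module.IsTorsionFree D' E']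
    (hinj : Function.Injective (algebraMap D' F))
    (hrange : ∀ f : F, f ∈ (algebraMap D' F).range ↔ IsRegularAt K x a f) :
    ∃ φ : HeightOneSpectrum E' ≃ {Q : Place K F // Q ∈ FibreSep.zeros hx hsep a},
      ∀ Q' : HeightOneSpectrum E', Defs.diffExpAt D' Q' = Defs.diffExp hx hsep (φ Q') := by
  haveI := isMaximal_pA hx.transcendental a
  haveI := isDedekind_poly hx.transcendental
  haveI := Defs.isDedekind hx hsep
  haveI := Defs.moduleFinite hx hsep
  haveI := isIntegralClosure_Ej a hx
  have hDrange : ∀ f : F, (∃ d, algebraMap D' F d = f) ↔ ∃ d, algebraMap (Dj K x a) F d = f := by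
    intro f
    have h1 := hrange f
    have h2 := mem_range_Dj_iff a hx f
    rw [RingHom.mem_range] at h1 h2
    rw [h1, h2]
  obtain ⟨eD, eE, hcompat, -, -⟩ := exists_ringEquiv_of_range_eq (E1 := E') (E2 := Ej K x a) hinj
    (algebraMap_Dj_F_injective (x := x) a hx) hDrange
  refine ⟨(heightOneCongr eE).trans (localEquiv a hx hsep), fun Q' => ?_⟩
  rw [Equiv.trans_apply, ← diffExpAt_local a hx hsep]
  exact (diffExpAt_heightOneCongr eD eE hcompat Q').symm

/-- **sum formula for a recognised local chart**: for ANY pair `D' ⊆ E'` inside `F` with `D'` = the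
functions `p(x)/q(x)`, `q(a) ≠ 0`, and `E'` = the integral closure of `D'` in `F`, the sum of the
different exponents of `E'/D'` is the sum of `Defs.diffExp` over the places above `x = a`. -/
theorem finsum_diffExpAt_of_isIntegralClosure (hx : IsFF K x)
    (hsep : Algebra.IsSeparable K⟮x⟯ F) (a : K)
    {D' E' : Type*} [CommRing D'] [CommRing E'] [Algebra D' E'] [Algebra D' F] [Algebra E' F]
    [IsScalarTower D' E' F] [IsIntegralClosure E' D' F]
    [IsDomain D'] [IsIntegrallyClosed D'] [IsDedekindDomain E'] [Module.IsTorsionFree D' E']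
    (hinj : Function.Injective (algebraMap D' F))
    (hrange : ∀ f : F, f ∈ (algebraMap D' F).range ↔ IsRegularAt K x a f) :
    ∑ᶠ Q : HeightOneSpectrum E', Defs.diffExpAt D' Q =
      ∑ Q ∈ FibreSep.zeros hx hsep a, Defs.diffExp hx hsep Q := by
  obtain ⟨φ, hφ⟩ := exists_equiv_diffExpAt_of_isIntegralClosure (E' := E') hx hsep a hinj hrange
  rw [finsum_congr hφ, finsum_comp_equiv φ (f := fun Q => Defs.diffExp hx hsep Q.1),
    finsum_eq_sum_of_fintype, ← Finset.sum_coe_sort (FibreSep.zeros hx hsep a)]

/-- the local chart is semilocal: finitely many primes -/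
theorem finite_heightOneSpectrum_of_isIntegralClosure (hx : IsFF K x)
    (hsep : Algebra.IsSeparable K⟮x⟯ F) (a : K)
    {D' E' : Type*} [CommRing D'] [CommRing E'] [Algebra D' E'] [Algebra D' F] [Algebra E' F]
    [IsScalarTower D' E' F] [IsIntegralClosure E' D' F]
    [IsDomain D'] [IsIntegrallyClosed D'] [IsDedekindDomain E'] [Module.IsTorsionFree D' E']
    (hinj : Function.Injective (algebraMap D' F))
    (hrange : ∀ f : F, f ∈ (algebraMap D' F).range ↔ IsRegularAt K x a f) :
    Finite (HeightOneSpectrum E') := by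
  obtain ⟨φ, -⟩ := exists_equiv_diffExpAt_of_isIntegralClosure (E' := E') hx hsep a hinj hrange
  exact Finite.of_equiv _ φ.symm

end Recognition

end Fermat.Agent.S18.A.LocalChartExtras
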