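import Mathlib
import Fermat.Agent.S18.A.Defs
import Fermat.Agent.S18.A.FibreSep

/-!
# PROJECT H (S18), block A, slice H-A8a (part 1): the chart at infinity

`y := x⁻¹`, `O' := intRing K y` (integral closure of `K[y]` in `F`).

* `Ooo K x : Subalgebra K F`    : the functions regular at every pole of `x`;
* `Roo K x : Subalgebra K K⟮x⟯` : the elements of `K(x)` regular at infinity;
* `mem_intRing_iff`             : `g ∈ intRing K x ↔ g` is regular wherever `x` is;
* `exists_mul_mem`              : `f ∈ Ooo K x → ∃ p : K[X], p.coeff 0 ≠ 0 ∧ p(y) * f ∈ O'`.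
-/

set_option autoImplicit false

namespace Fermat.Agent.S18.A.Infinity

open AlgebraicCurve IsDedekindDomain WithZero IntermediateField Polynomial
  Fermat.Agent.S24.PlacePrime Fermat.Agent.S24.FF Fermat.Agent.S24.Ord Fermat.Agent.S24.Fibre
open scoped IntermediateField.algebraAdjoinAdjoin

universe u w

variable {K : Type w} {F : Type u} [Field K] [Field F] [Algebra K F]

/-- The `K`-algebra of functions regular at every pole of `x`. -/
def Ooo (K : Type w) {F : Type u} [Field K] [Field F] [Algebra K F] (x : F) : Subalgebra K F where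
  carrier := {f | ∀ Q : Place K F, 1 < Q.adicValuation x → Q.adicValuation f ≤ 1}
  mul_mem' := fun {a b} ha hb Q hQ => by
    rw [map_mul]
    exact mul_le_one' (ha Q hQ) (hb Q hQ)
  add_mem' := fun {a b} ha hb Q hQ => Valuation.map_add_le _ (ha Q hQ) (hb Q hQ)
  algebraMap_mem' := fun c Q _ => (Fermat.Agent.S24.Ord.mem_iff Q _).mp (Q.algebraMap_mem' c)

theorem mem_Ooo {x f : F} :
    f ∈ Ooo K x ↔ ∀ Q : Place K F, 1 < Q.adicValuation x → Q.adicValuation f ≤ 1 := Iff.rfl

theorem mem_Ooo_iff_ord {x f : F} :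
    f ∈ Ooo K x ↔ ∀ Q : Place K F, 1 < Q.adicValuation x → 0 ≤ Q.ord f := by
  rw [mem_Ooo]
  refine forall₂_congr fun Q _ => ?_
  rcases eq_or_ne f 0 with rfl | hf
  · simp
  · exact (Fermat.Agent.S24.Ord.ord_nonneg_iff Q hf).symm

/-- The elements of `K(x)` regular at infinity. -/
def Roo (K : Type w) {F : Type u} [Field K] [Field F] [Algebra K F] (x : F) :
    Subalgebra K K⟮x⟯ := (Ooo K x).comap (K⟮x⟯.val)

theorem mem_Roo {x : F} {a : K⟮x⟯} : a ∈ Roo K x ↔ (a : F) ∈ Ooo K x := Iff.rfl

section Basic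

variable {x : F}

/-- at a pole of `x`, `y = x⁻¹` is in the maximal ideal -/
theorem adicValuation_inv_lt_one {Q : Place K F} (hQ : 1 < Q.adicValuation x) :
    Q.adicValuation x⁻¹ < 1 := by
  rw [map_inv₀]
  exact inv_lt_one_of_one_lt₀ hQ

/-- where `y = x⁻¹` is regular, either `x` has a pole or `y` is a unit -/
theorem pole_or_unit (hx0 : x ≠ 0) {Q : Place K F} (hQ : Q.adicValuation x⁻¹ ≤ 1) :
    1 < Q.adicValuation x ∨ Q.adicValuation x⁻¹ = 1 := by
  rcases lt_or_eq_of_le hQ with h | h
  · left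
    rw [map_inv₀] at h
    have h0 : 0 < Q.adicValuation x := zero_lt_iff.mpr (Q.adicValuation_ne_zero hx0)
    exact (inv_lt_one₀ h0).mp h
  · exact Or.inr h

/-- polynomials in `y = x⁻¹` are regular at the poles of `x` -/
theorem adicValuation_aeval_inv_le_one {Q : Place K F} (hQ : 1 < Q.adicValuation x) (p : K[X]) :
    Q.adicValuation (aeval x⁻¹ p) ≤ 1 := by
  have h := adicValuation_adjoin_le_one Q (adicValuation_inv_lt_one hQ).le
    ⟨aeval x⁻¹ p, by
      rw [Algebra.adjoin_singleton_eq_range_aeval]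
      exact ⟨p, rfl⟩⟩
  exact h

/-- polynomials in `y = x⁻¹` with nonzero constant term are units at the poles of `x` -/
theorem adicValuation_aeval_inv_eq_one {Q : Place K F} (hQ : 1 < Q.adicValuation x) {p : K[X]}
    (hp : p.coeff 0 ≠ 0) : Q.adicValuation (aeval x⁻¹ p) = 1 := by
  have h1 : aeval x⁻¹ p = aeval x⁻¹ p.divX * x⁻¹ + algebraMap K F (p.coeff 0) := by
    conv_lhs => rw [← Polynomial.divX_mul_X_add p]
    simp
  have h2 : Q.adicValuation (aeval x⁻¹ p.divX * x⁻¹) < 1 := by
    rw [map_mul]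
    calc Q.adicValuation (aeval x⁻¹ p.divX) * Q.adicValuation x⁻¹
        ≤ 1 * Q.adicValuation x⁻¹ := by
          gcongr
          exact adicValuation_aeval_inv_le_one hQ _
      _ = Q.adicValuation x⁻¹ := one_mul _
      _ < 1 := adicValuation_inv_lt_one hQ
  have h3 : Q.adicValuation (algebraMap K F (p.coeff 0)) = 1 := adicValuation_algebraMap Q hp
  rw [h1, Valuation.map_add_eq_of_lt_right _ (by rw [h3]; exact h2), h3]

end Basic

section Integral

variable {x : F}

/-- **Integrality by valuations**: `g` is integral over `K[x]` iff it is regular at every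
place where `x` is regular. -/
theorem mem_intRing_iff (hx : IsFF K x) (hsep : Algebra.IsSeparable K⟮x⟯ F) (g : F) :
    g ∈ intRing K x ↔ ∀ Q : Place K F, Q.adicValuation x ≤ 1 → Q.adicValuation g ≤ 1 := by
  constructor
  · intro hg Q hQ
    exact adicValuation_le_one_of_isIntegral Q (adicValuation_adjoin_le_one Q hQ) hg
  · intro h
    have := Defs.isDedekind hx hsep
    have := Defs.isFractionRing hx
    have hmem := HeightOneSpectrum.mem_integers_of_valuation_le_one (R := intRing K x) F g
      (fun P => by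
        rw [← FibreSep.adicValuation_placeOfPrime (K := K) P g]
        apply h
        rw [FibreSep.adicValuation_placeOfPrime (K := K) P x]
        have hxmem : x ∈ intRing K x :=
          (intRing K x).algebraMap_mem ⟨x, Algebra.self_mem_adjoin_singleton K x⟩
        exact P.valuation_le_one ⟨x, hxmem⟩)
    obtain ⟨b, hb⟩ := hmem
    rw [← hb]
    exact b.2

end Integral

section MulMem

variable {x : F}

/-- one step of the descent: a factor `y = x⁻¹` of the multiplier can be removed -/
theorem mul_mem_of_mul_X_mem (hx : IsFF K x) (hsep : Algebra.IsSeparable K⟮x⟯ F) {f : F}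
    (hf : f ∈ Ooo K x) (p : K[X]) (h : aeval x⁻¹ (p * X) * f ∈ intRing K x⁻¹) :
    aeval x⁻¹ p * f ∈ intRing K x⁻¹ := by
  rw [mem_intRing_iff hx.inv (Defs.isSeparable_inv hsep)] at h ⊢
  intro Q hQ
  rcases pole_or_unit hx.ne_zero hQ with hpole | hunit
  · rw [map_mul]
    exact mul_le_one' (adicValuation_aeval_inv_le_one hpole p) (hf Q hpole)
  · have h1 := h Q hQ
    have e : aeval x⁻¹ (p * X) = aeval x⁻¹ p * x⁻¹ := by rw [map_mul, aeval_X]
    rw [e, map_mul, map_mul, hunit, mul_one] at h1
    rw [map_mul]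
    exact h1

/-- some nonzero polynomial in `y = x⁻¹` clears the denominator of `f` -/
theorem exists_ne_zero_mul_mem (hx : IsFF K x) (hsep : Algebra.IsSeparable K⟮x⟯ F) (f : F) :
    ∃ p : K[X], p ≠ 0 ∧ aeval x p * f ∈ intRing K x := by
  have := Defs.isDedekind hx hsep
  have := Defs.isFractionRing hx
  obtain ⟨a, b, hb, hab⟩ := IsFractionRing.div_surjective (A := intRing K x) f
  have hb0 : b ≠ 0 := nonZeroDivisors.ne_zero hb
  have hbint : IsIntegral (polyRing K x) b := integralClosure.isIntegral b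
  have hne := Ideal.comap_ne_bot_of_integral_mem (I := Ideal.span {b}) hb0
    (Ideal.subset_span rfl) hbint
  obtain ⟨s, hs, hs0⟩ := Submodule.exists_mem_ne_zero_of_ne_bot hne
  rw [Ideal.mem_comap, Ideal.mem_span_singleton'] at hs
  obtain ⟨c, hc⟩ := hs
  obtain ⟨p, hp⟩ : ∃ p : K[X], aeval x p = (s : F) := by
    have hs2 : (s : F) ∈ Algebra.adjoin K {x} := s.2
    rw [Algebra.adjoin_singleton_eq_range_aeval] at hs2
    exact hs2
  refine ⟨p, ?_, ?_⟩
  · rintro rfl
    apply hs0
    apply Subtype.ext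
    rw [← hp]
    simp
  · have hbF : algebraMap (intRing K x) F b ≠ 0 :=
      (map_ne_zero_iff _ (IsFractionRing.injective (intRing K x) F)).mpr hb0
    have hcF : algebraMap (intRing K x) F c * algebraMap (intRing K x) F b = (s : F) := by
      rw [← map_mul, hc]
      rfl
    have : aeval x p * f = algebraMap (intRing K x) F (c * a) := by
      rw [hp, ← hab, ← hcF, map_mul]
      field_simp
    rw [this]
    exact (c * a).2

/-- **(I1)** a function regular at the poles of `x` becomes integral over `K[x⁻¹]` after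
multiplication by a polynomial in `x⁻¹` with nonzero constant term. -/
theorem exists_mul_mem (hx : IsFF K x) (hsep : Algebra.IsSeparable K⟮x⟯ F) {f : F}
    (hf : f ∈ Ooo K x) :
    ∃ p : K[X], p.coeff 0 ≠ 0 ∧ aeval x⁻¹ p * f ∈ intRing K x⁻¹ := by
  obtain ⟨p₀, hp₀, hmem₀⟩ := exists_ne_zero_mul_mem hx.inv (Defs.isSeparable_inv hsep) f
  suffices H : ∀ n : ℕ, ∀ p : K[X], p.natDegree ≤ n → p ≠ 0 →
      aeval x⁻¹ p * f ∈ intRing K x⁻¹ →
      ∃ q : K[X], q.coeff 0 ≠ 0 ∧ aeval x⁻¹ q * f ∈ intRing K x⁻¹ from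
    H p₀.natDegree p₀ le_rfl hp₀ hmem₀
  intro n
  induction n with
  | zero =>
    intro p hdeg hp hmem
    refine ⟨p, ?_, hmem⟩
    rw [Polynomial.eq_C_of_natDegree_le_zero hdeg] at hp ⊢
    simpa using hp
  | succ n ih =>
    intro p hdeg hp hmem
    by_cases h0 : p.coeff 0 = 0
    · have hpX : p = p.divX * X := by
        conv_lhs => rw [← Polynomial.divX_mul_X_add p, h0, map_zero, add_zero]
      have hdiv0 : p.divX ≠ 0 := by
        intro h
        rw [h, zero_mul] at hpX
        exact hp hpX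
      have hdeg' : p.divX.natDegree ≤ n := by
        rw [Polynomial.natDegree_divX_eq_natDegree_tsub_one]
        omega
      rw [hpX] at hmem
      exact ih p.divX hdeg' hdiv0 (mul_mem_of_mul_X_mem hx hsep hf _ hmem)
    · exact ⟨p, h0, hmem⟩

end MulMem

end Fermat.Agent.S18.A.Infinity
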