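import Mathlib
import Fermat.Agent.S18.A.Infinity
import Fermat.Agent.S18.A.DualVal

/-!
# PROJECT H (S18), block A, slice H-A8a (part 2): the trace dual at infinity

`y := x⁻¹`.  The trace dual of `Ooo K x` (functions regular at the poles of `x`) over
`Roo K x` (elements of `K(x)` regular at infinity) is cut out by the different exponents at
the poles of `x`.
-/

set_option autoImplicit false

namespace Fermat.Agent.S18.A.InfinityDual

open AlgebraicCurve IsDedekindDomain WithZero IntermediateField Polynomial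
  Fermat.Agent.S24.PlacePrime Fermat.Agent.S24.FF Fermat.Agent.S24.Ord Fermat.Agent.S24.Fibre
  Fermat.Agent.S18.A.Infinity
open scoped IntermediateField.algebraAdjoinAdjoin

universe u w

variable {K : Type w} {F : Type u} [Field K] [Field F] [Algebra K F]

/-! ### the `F`-valued trace over an intermediate field -/

/-- the trace of `F` over the intermediate field `E`, as an element of `F` -/
noncomputable def trF (E : IntermediateField K F) (z : F) : F := ((Algebra.trace E F z : E) : F)

theorem trF_mem (E : IntermediateField K F) (z : F) : trF E z ∈ E := (Algebra.trace E F z).2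

theorem trF_congr {E₁ E₂ : IntermediateField K F} (h : E₁ = E₂) (z : F) :
    trF E₁ z = trF E₂ z := by
  subst h
  rfl

theorem trF_add (E : IntermediateField K F) (z w : F) : trF E (z + w) = trF E z + trF E w := by
  simp [trF, map_add]

theorem trF_mul_of_mem (E : IntermediateField K F) {e : F} (he : e ∈ E) (z : F) :
    trF E (e * z) = e * trF E z := by
  have h : e * z = (⟨e, he⟩ : E) • z := rfl
  rw [trF, h, map_smul]
  rfl

/-! ### valuation form of the pole-order conditions -/

theorem neg_le_ord_iff (Q : Place K F) (z : F) (d : ℕ) :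
    -(d : ℤ) ≤ Q.ord z ↔ Q.adicValuation z ≤ exp (d : ℤ) := by
  rcases eq_or_ne z 0 with rfl | hz
  · simp
  · rw [Fermat.Agent.S24.Ord.adicValuation_eq Q hz, exp_le_exp]
    omega

/-! ### the different exponent of a place, computed at a prime of the chart -/

section DiffExp

variable {t : F}

/-- `Defs.diffExp` at the place of a prime `P` of the chart `K[t]` is the multiplicity of `P`
in the different of the chart. -/
theorem diffExp_placeOfPrime (ht : IsFF K t) (hsep : Algebra.IsSeparable K⟮t⟯ F) :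
    haveI := Defs.isDedekind ht hsep
    haveI := Defs.isFractionRing ht
    haveI := isPID ht.transcendental
    ∀ P : HeightOneSpectrum (intRing K t),
      Defs.diffExp ht hsep (placeOfPrime (K := K) P) = Defs.diffExpAt (polyRing K t) P := by
  have := Defs.isDedekind ht hsep
  have := Defs.isFractionRing ht
  have := isPID ht.transcendental
  intro P
  have hreg : (placeOfPrime (K := K) P).adicValuation t ≤ 1 := by
    rw [FibreSep.adicValuation_placeOfPrime (K := K) P t]
    have htmem : t ∈ intRing K t :=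
      (intRing K t).algebraMap_mem ⟨t, Algebra.self_mem_adjoin_singleton K t⟩
    exact P.valuation_le_one ⟨t, htmem⟩
  rw [Defs.diffExp, dif_pos hreg, Defs.diffExpFin]
  have hch := (Defs.exists_prime ht hsep (placeOfPrime (K := K) P) hreg).choose_spec
  rw [placeOfPrime_injective hch]

/-- at a pole of `x` the different exponent is computed in the chart `x⁻¹` -/
theorem diffExp_of_pole {x : F} (hx : IsFF K x) (hsep : Algebra.IsSeparable K⟮x⟯ F)
    {Q : Place K F} (hQ : 1 < Q.adicValuation x) :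
    Defs.diffExp hx hsep Q = Defs.diffExp hx.inv (Defs.isSeparable_inv hsep) Q := by
  have h1 : ¬ Q.adicValuation x ≤ 1 := not_le.mpr hQ
  have h2 : Q.adicValuation x⁻¹ ≤ 1 := Defs.adicValuation_inv_le_one h1
  rw [Defs.diffExp, dif_neg h1, Defs.diffExp, dif_pos h2]

end DiffExp

/-! ### the trace dual of a chart, in place language -/

section ChartDual

variable {t : F}

theorem coe_algebraMap_polyRing (s : polyRing K t) :
    ((algebraMap (polyRing K t) K⟮t⟯ s : K⟮t⟯) : F) = (s : F) := rfl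

/-- **The trace dual of the chart `K[t]` in place language**: `Tr(z · O) ⊆ K[t]` iff
`ord_Q z ≥ -d_Q` at every place `Q` where `t` is regular. -/
theorem chart_dual_iff (ht : IsFF K t) (hsep : Algebra.IsSeparable K⟮t⟯ F) (z : F) :
    (∀ a ∈ intRing K t, trF K⟮t⟯ (z * a) ∈ polyRing K t) ↔
      ∀ Q : Place K F, Q.adicValuation t ≤ 1 →
        Q.adicValuation z ≤ exp (Defs.diffExp ht hsep Q : ℤ) := by
  have := Defs.isDedekind ht hsep
  have := Defs.isFractionRing ht
  have := isPID ht.transcendental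
  have := ht.finite
  have : IsScalarTower (polyRing K t) (intRing K t) F := IsScalarTower.subalgebra' _ F F _
  have hdual := DualVal.mem_traceDual_one_iff (polyRing K t) K⟮t⟯ (B := intRing K t) z
  have hunfold : z ∈ Submodule.traceDual (polyRing K t) K⟮t⟯ (1 : Submodule (intRing K t) F) ↔
      ∀ a ∈ intRing K t, trF K⟮t⟯ (z * a) ∈ polyRing K t := by
    rw [Submodule.mem_traceDual]
    constructor
    · intro h a ha
      obtain ⟨s, hs⟩ := h a (Submodule.mem_one.mpr ⟨⟨a, ha⟩, rfl⟩)
      rw [Algebra.traceForm_apply] at hs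
      rw [trF, ← hs, coe_algebraMap_polyRing]
      exact s.2
    · intro h a ha
      obtain ⟨b, rfl⟩ := Submodule.mem_one.mp ha
      have h1 := h (b : F) b.2
      rw [Algebra.traceForm_apply]
      exact ⟨⟨_, h1⟩, Subtype.ext rfl⟩
  rw [← hunfold, hdual]
  constructor
  · intro h Q hQ
    obtain ⟨P, rfl⟩ := Defs.exists_prime ht hsep Q hQ
    rw [FibreSep.adicValuation_placeOfPrime (K := K) P z, diffExp_placeOfPrime ht hsep P]
    exact h P
  · intro h P
    have hreg : (placeOfPrime (K := K) P).adicValuation t ≤ 1 := by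
      rw [FibreSep.adicValuation_placeOfPrime (K := K) P t]
      have htmem : t ∈ intRing K t :=
        (intRing K t).algebraMap_mem ⟨t, Algebra.self_mem_adjoin_singleton K t⟩
      exact P.valuation_le_one ⟨t, htmem⟩
    have h1 := h _ hreg
    rwa [FibreSep.adicValuation_placeOfPrime (K := K) P z, diffExp_placeOfPrime ht hsep P] at h1

end ChartDual

/-! ### a descent on the degree of the multiplier -/

/-- If a property of polynomials descends from `p * X` to `p` and holds for some nonzero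
polynomial, it holds for a polynomial with nonzero constant term. -/
theorem exists_coeff_zero_ne_zero (Pr : K[X] → Prop) (hstep : ∀ p : K[X], Pr (p * X) → Pr p)
    {p₀ : K[X]} (hp₀ : p₀ ≠ 0) (h₀ : Pr p₀) : ∃ q : K[X], q.coeff 0 ≠ 0 ∧ Pr q := by
  suffices H : ∀ n : ℕ, ∀ p : K[X], p.natDegree ≤ n → p ≠ 0 → Pr p →
      ∃ q : K[X], q.coeff 0 ≠ 0 ∧ Pr q from H p₀.natDegree p₀ le_rfl hp₀ h₀
  intro n
  induction n with
  | zero =>
    intro p hdeg hp hmem
    refine ⟨p, ?_, hmem⟩
    rw [Polynomial.eq_C_of_natDegree_le_zero hdeg] at hp ⊢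
    simpa using hp
  | succ n ih =>
    intro p hdeg hp hmem
    by_cases h0 : p.coeff 0 = 0
    · have hpX : p = p.divX * X := by
        conv_lhs => rw [← Polynomial.divX_mul_X_add p, h0, map_zero, add_zero]
      have hdiv0 : p.divX ≠ 0 := by
        intro h
        rw [h, zero_mul] at hpX
        exact hp hpX
      have hdeg' : p.divX.natDegree ≤ n := by
        rw [Polynomial.natDegree_divX_eq_natDegree_tsub_one]
        omega
      rw [hpX] at hmem
      exact ih p.divX hdeg' hdiv0 (hstep _ hmem)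
    · exact ⟨p, h0, hmem⟩

/-! ### the chart at infinity -/

section AtInfinity

variable {x : F}

theorem aeval_mem_polyRing (t : F) (p : K[X]) : aeval t p ∈ polyRing K t := by
  show aeval t p ∈ Algebra.adjoin K {t}
  rw [Algebra.adjoin_singleton_eq_range_aeval]
  exact ⟨p, rfl⟩

theorem polyRing_le_adjoin (t : F) {s : F} (hs : s ∈ polyRing K t) : s ∈ K⟮t⟯ :=
  IntermediateField.algebra_adjoin_le_adjoin K _ hs

/-- elements integral over `K[x⁻¹]` are regular at the poles of `x` -/
theorem mem_Ooo_of_mem_intRing (hx : IsFF K x) (hsep : Algebra.IsSeparable K⟮x⟯ F) {a : F}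
    (ha : a ∈ intRing K x⁻¹) : a ∈ Ooo K x := fun Q hQ =>
  (mem_intRing_iff hx.inv (Defs.isSeparable_inv hsep) a).mp ha Q (adicValuation_inv_lt_one hQ).le

/-- an element of `K(x)` regular at infinity becomes a polynomial in `x⁻¹` after multiplication
by a polynomial in `x⁻¹` with nonzero constant term -/
theorem exists_mul_mem_polyRing (hx : IsFF K x) (hsep : Algebra.IsSeparable K⟮x⟯ F) {u : F}
    (hu : u ∈ K⟮x⁻¹⟯) (hu' : u ∈ Ooo K x) :
    ∃ p : K[X], p.coeff 0 ≠ 0 ∧ aeval x⁻¹ p * u ∈ polyRing K x⁻¹ := by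
  obtain ⟨p, hp, hmem⟩ := exists_mul_mem hx hsep hu'
  refine ⟨p, hp, ?_⟩
  have := isPID hx.inv.transcendental
  have hmemE : aeval x⁻¹ p * u ∈ K⟮x⁻¹⟯ :=
    mul_mem (polyRing_le_adjoin _ (aeval_mem_polyRing _ p)) hu
  have hint : IsIntegral (polyRing K x⁻¹) (⟨aeval x⁻¹ p * u, hmemE⟩ : K⟮x⁻¹⟯) := by
    rw [← isIntegral_algebraMap_iff (B := F) (algebraMap K⟮x⁻¹⟯ F).injective]
    exact hmem
  obtain ⟨s, hs⟩ := IsIntegrallyClosed.isIntegral_iff.mp hint
  have hs' := congrArg (fun e : K⟮x⁻¹⟯ => (e : F)) hs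
  simp only [coe_algebraMap_polyRing] at hs'
  rw [← hs']
  exact s.2

end AtInfinity

section Main

variable {x : F}

/-- the dual condition in the chart `y = x⁻¹` -/
def ChartDual (x : F) (g : F) : Prop :=
  ∀ a ∈ intRing K x⁻¹, trF K⟮x⁻¹⟯ (g * a) ∈ polyRing K x⁻¹

/-- the dual condition for `Ooo` over `Roo` (values of the trace regular at the poles) -/
def OooDual (x : F) (z : F) : Prop :=
  ∀ a ∈ Ooo K x, trF K⟮x⟯ (z * a) ∈ Ooo K x

/-- `(a) ⟹ (b)`: an element of the dual of `Ooo` lands in the dual of the chart `K[x⁻¹]` after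
multiplication by a polynomial in `x⁻¹` with nonzero constant term. -/
theorem exists_chartDual_of_oooDual (hx : IsFF K x) (hsep : Algebra.IsSeparable K⟮x⟯ F) {z : F}
    (hz : OooDual (K := K) x z) :
    ∃ p : K[X], p.coeff 0 ≠ 0 ∧ ChartDual (K := K) x (aeval x⁻¹ p * z) := by
  classical
  have hfin := Defs.moduleFinite hx.inv (Defs.isSeparable_inv hsep)
  obtain ⟨S, hS⟩ := (Module.Finite.fg_top : (⊤ : Submodule (polyRing K x⁻¹) (intRing K x⁻¹)).FG)
  -- clear the denominators of the traces against the generators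
  have hclear : ∀ c : intRing K x⁻¹, ∃ p : K[X], p.coeff 0 ≠ 0 ∧
      aeval x⁻¹ p * trF K⟮x⁻¹⟯ (z * (c : F)) ∈ polyRing K x⁻¹ := by
    intro c
    refine exists_mul_mem_polyRing hx hsep (trF_mem _ _) ?_
    rw [trF_congr (adjoin_inv x)]
    exact hz _ (mem_Ooo_of_mem_intRing hx hsep c.2)
  choose P hP0 hPmem using hclear
  refine ⟨∏ c ∈ S, P c, ?_, ?_⟩
  · rw [Polynomial.coeff_zero_eq_eval_zero, Polynomial.eval_prod, Finset.prod_ne_zero_iff]
    intro c _
    rw [← Polynomial.coeff_zero_eq_eval_zero]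
    exact hP0 c
  · intro a ha
    have hmem : (⟨a, ha⟩ : intRing K x⁻¹) ∈ Submodule.span (polyRing K x⁻¹) (S : Set _) := by
      rw [hS]; exact Submodule.mem_top
    have key : ∀ b : intRing K x⁻¹, b ∈ Submodule.span (polyRing K x⁻¹) (S : Set _) →
        trF K⟮x⁻¹⟯ (aeval x⁻¹ (∏ c ∈ S, P c) * z * (b : F)) ∈ polyRing K x⁻¹ := by
      intro b hb
      induction hb using Submodule.span_induction with
      | mem c hc =>
        have hc' : c ∈ S := hc
        rw [mul_assoc, trF_mul_of_mem _ (polyRing_le_adjoin _ (aeval_mem_polyRing _ _)),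
          ← Finset.mul_prod_erase S P hc', map_mul, mul_right_comm]
        exact mul_mem (hPmem c) (aeval_mem_polyRing _ _)
      | zero =>
        have : ((0 : intRing K x⁻¹) : F) = 0 := rfl
        rw [this, mul_zero]
        simp [trF]
      | add b₁ b₂ _ _ h₁ h₂ =>
        have : ((b₁ + b₂ : intRing K x⁻¹) : F) = (b₁ : F) + (b₂ : F) := rfl
        rw [this, mul_add, trF_add]
        exact add_mem h₁ h₂
      | smul s b _ h =>
        have : ((s • b : intRing K x⁻¹) : F) = (s : F) * (b : F) := rfl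
        rw [this, mul_left_comm, trF_mul_of_mem _ (polyRing_le_adjoin _ s.2)]
        exact mul_mem s.2 h
    exact key ⟨a, ha⟩ hmem

/-- `(b) ⟹ (a)` -/
theorem oooDual_of_chartDual (hx : IsFF K x) (hsep : Algebra.IsSeparable K⟮x⟯ F) {z : F}
    {p : K[X]} (hp : p.coeff 0 ≠ 0) (h : ChartDual (K := K) x (aeval x⁻¹ p * z)) :
    OooDual (K := K) x z := by
  intro a ha
  obtain ⟨q, hq, hqmem⟩ := exists_mul_mem hx hsep ha
  have h1 := h _ hqmem
  have e : aeval x⁻¹ p * z * (aeval x⁻¹ q * a) = aeval x⁻¹ p * (aeval x⁻¹ q * (z * a)) := by ring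
  rw [e, trF_mul_of_mem _ (polyRing_le_adjoin _ (aeval_mem_polyRing _ _)),
    trF_mul_of_mem _ (polyRing_le_adjoin _ (aeval_mem_polyRing _ _))] at h1
  rw [trF_congr (adjoin_inv x).symm]
  intro Q hQ
  have h2 : Q.adicValuation (aeval x⁻¹ p * (aeval x⁻¹ q * trF K⟮x⁻¹⟯ (z * a))) ≤ 1 :=
    adicValuation_adjoin_le_one Q (adicValuation_inv_lt_one hQ).le ⟨_, h1⟩
  rwa [map_mul, map_mul, adicValuation_aeval_inv_eq_one hQ hp,
    adicValuation_aeval_inv_eq_one hQ hq, one_mul, one_mul] at h2

end Main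

section Final

variable {x : F}

/-- the pole-order condition at the poles of `x` -/
def PoleCond (hx : IsFF K x) (hsep : Algebra.IsSeparable K⟮x⟯ F) (z : F) : Prop :=
  ∀ Q : Place K F, 1 < Q.adicValuation x →
    Q.adicValuation z ≤ exp (Defs.diffExp hx hsep Q : ℤ)

theorem poleCond_iff_ord (hx : IsFF K x) (hsep : Algebra.IsSeparable K⟮x⟯ F) (z : F) :
    PoleCond hx hsep z ↔
      ∀ Q : Place K F, 1 < Q.adicValuation x → -(Defs.diffExp hx hsep Q : ℤ) ≤ Q.ord z :=
  forall₂_congr fun Q _ => (neg_le_ord_iff Q z _).symm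

/-- `(b) ⟹ (c)` -/
theorem poleCond_of_chartDual (hx : IsFF K x) (hsep : Algebra.IsSeparable K⟮x⟯ F) {z : F}
    {p : K[X]} (hp : p.coeff 0 ≠ 0) (h : ChartDual (K := K) x (aeval x⁻¹ p * z)) :
    PoleCond hx hsep z := by
  intro Q hQ
  have h1 := (chart_dual_iff hx.inv (Defs.isSeparable_inv hsep) _).mp h Q
    (adicValuation_inv_lt_one hQ).le
  rwa [map_mul, adicValuation_aeval_inv_eq_one hQ hp, one_mul, ← diffExp_of_pole hx hsep hQ] at h1

/-- `(c) ⟹ (b)` -/
theorem exists_chartDual_of_poleCond (hx : IsFF K x) (hsep : Algebra.IsSeparable K⟮x⟯ F) {z : F}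
    (hz : PoleCond hx hsep z) :
    ∃ p : K[X], p.coeff 0 ≠ 0 ∧ ChartDual (K := K) x (aeval x⁻¹ p * z) := by
  have hsy := Defs.isSeparable_inv hsep
  obtain ⟨p₀, hp₀, hmem₀⟩ := exists_ne_zero_mul_mem hx.inv hsy z
  refine exists_coeff_zero_ne_zero (fun p => ChartDual (K := K) x (aeval x⁻¹ p * z)) ?_ hp₀ ?_
  · intro p hp
    rw [ChartDual, chart_dual_iff hx.inv hsy] at hp ⊢
    intro Q hQ
    rcases pole_or_unit hx.ne_zero hQ with hpole | hunit
    · rw [map_mul]
      calc Q.adicValuation (aeval x⁻¹ p) * Q.adicValuation z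
          ≤ 1 * exp (Defs.diffExp hx.inv hsy Q : ℤ) := by
            refine mul_le_mul' (adicValuation_aeval_inv_le_one hpole p) ?_
            rw [← diffExp_of_pole hx hsep hpole]
            exact hz Q hpole
        _ = exp (Defs.diffExp hx.inv hsy Q : ℤ) := one_mul _
    · have h1 := hp Q hQ
      have e : aeval x⁻¹ (p * X) = aeval x⁻¹ p * x⁻¹ := by rw [map_mul, aeval_X]
      rw [e, map_mul, map_mul, hunit, mul_one] at h1
      rwa [map_mul]
  · show ChartDual (K := K) x (aeval x⁻¹ p₀ * z)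
    rw [ChartDual, chart_dual_iff hx.inv hsy]
    intro Q hQ
    have h1 := (mem_intRing_iff hx.inv hsy _).mp hmem₀ Q hQ
    refine h1.trans ?_
    rw [← exp_zero, exp_le_exp]
    exact Int.natCast_nonneg _

/-- **(I3), valuation form**: the trace dual of `Ooo` over `Roo` is cut out by the different
exponents at the poles of `x`. -/
theorem oooDual_iff_poleCond (hx : IsFF K x) (hsep : Algebra.IsSeparable K⟮x⟯ F) (z : F) :
    OooDual (K := K) x z ↔ PoleCond hx hsep z := by
  constructor
  · intro h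
    obtain ⟨p, hp, hpd⟩ := exists_chartDual_of_oooDual hx hsep h
    exact poleCond_of_chartDual hx hsep hp hpd
  · intro h
    obtain ⟨p, hp, hpd⟩ := exists_chartDual_of_poleCond hx hsep h
    exact oooDual_of_chartDual hx hsep hp hpd

/-- **(I3)**: `{z | ∀ a ∈ Ooo, Tr_{F/K(x)}(z a) ∈ Roo} = {z | ∀ Q pole of x, -d_Q ≤ ord_Q z}`. -/
theorem dual_Ooo (hx : IsFF K x) (hsep : Algebra.IsSeparable K⟮x⟯ F) :
    {z : F | ∀ a ∈ Ooo K x, Algebra.trace K⟮x⟯ F (z * a) ∈ Roo K x} =
      {z : F | ∀ Q : Place K F, 1 < Q.adicValuation x →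
        -(Defs.diffExp hx hsep Q : ℤ) ≤ Q.ord z} := by
  ext z
  rw [Set.mem_ofPred_eq, Set.mem_ofPred_eq, ← poleCond_iff_ord, ← oooDual_iff_poleCond]
  rfl

/-- the finite chart in the same language (for the consumer of `dual_Ooo`):
`Tr(z · O) ⊆ K[x]` iff `-d_Q ≤ ord_Q z` wherever `x` is regular. -/
theorem dual_intRing (hx : IsFF K x) (hsep : Algebra.IsSeparable K⟮x⟯ F) (z : F) :
    (∀ a ∈ intRing K x, ((Algebra.trace K⟮x⟯ F (z * a) : K⟮x⟯) : F) ∈ polyRing K x) ↔
      ∀ Q : Place K F, Q.adicValuation x ≤ 1 → -(Defs.diffExp hx hsep Q : ℤ) ≤ Q.ord z := by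
  rw [show (∀ a ∈ intRing K x, ((Algebra.trace K⟮x⟯ F (z * a) : K⟮x⟯) : F) ∈ polyRing K x) ↔
    (∀ a ∈ intRing K x, trF K⟮x⟯ (z * a) ∈ polyRing K x) from Iff.rfl, chart_dual_iff hx hsep]
  exact forall₂_congr fun Q _ => (neg_le_ord_iff Q z _).symm

end Final

end Fermat.Agent.S18.A.InfinityDual
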