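import Mathlib
import Fermat.Agent.S18.A.PoleLattice

/-!
# PROJECT H (S18), block A: bridge from the `RatFunc K`-chart to `K⟮x⟯`-bases

`PoleLattice.exists_reduced_chart` produces the reduced basis `w` and its invariants `d` over
`RatFunc K` (with `X ↦ x`).  The dual count (slice H-A8, `DualPole`) is written for a basis of `F`
over the intermediate field `K⟮x⟯`.  This file transports `(w, d)` along
`RatFunc K ≃ K⟮x⟯` and restates the two lattice properties in that language:

* `hwO`   : `f ∈ intRing K x ↔ ∀ i, (w.repr f i : F) ∈ polyRing K x`;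
* `hwInf` : `f` regular at the poles of `x` `↔ ∀ i, x ^ d i * (w.repr f i : F)` regular at the
            poles of `x`;

together with the count `l(r (x)_∞) = ∑ max 0 (r - d i + 1)` for the same `d`.
-/

set_option autoImplicit false

namespace Fermat.Agent.S18.A.PoleBridge

open AlgebraicCurve IntermediateField Polynomial
  Fermat.Agent.S24.FF Fermat.Agent.S24.Fibre Fermat.Agent.S24.Ord Fermat.Agent.S18.A.Chart
  Fermat.Agent.S18.A.ReducedBasis

universe u w

variable {K : Type w} {F : Type u} [Field K] [Field F] [Algebra K F] {x : F}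

/-- `FibreSep.poleDiv` is the pole divisor of `x` in the sense of `Defs.IsPoleDivisor`. -/
theorem isPoleDivisor_poleDiv [IsAlgClosed K] (hx : IsFF K x)
    (hsep : Algebra.IsSeparable K⟮x⟯ F) :
    Defs.IsPoleDivisor x (FibreSep.poleDiv hx hsep) := by
  intro v
  rw [FibreSep.poleDiv_apply, max_comm]

/-- a separating element has a pole -/
theorem exists_pole [IsAlgClosed K] (hx : IsFF K x) (hsep : Algebra.IsSeparable K⟮x⟯ F) :
    ∃ Q : Place K F, Q.ord x < 0 := by
  have hfin := hx.finite
  have hpos : 0 < Module.finrank K⟮x⟯ F := Module.finrank_pos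
  have hsum := FibreSep.sum_poles hx hsep
  have hne : (FibreSep.poles hx hsep).Nonempty := by
    by_contra h
    rw [Finset.not_nonempty_iff_eq_empty] at h
    rw [h, Finset.sum_empty] at hsum
    have : (0 : ℤ) < (Module.finrank K⟮x⟯ F : ℤ) := by exact_mod_cast hpos
    omega
  obtain ⟨Q, hQ⟩ := hne
  exact ⟨Q, (FibreSep.mem_poles_iff_ord_neg hx hsep Q).mp hQ⟩

/-- an element of `K(x)` is regular at the poles of `x` iff its degree at infinity is `≤ 0` -/
theorem regInf_evalRat_iff [IsAlgClosed K] (hx : IsFF K x) (hsep : Algebra.IsSeparable K⟮x⟯ F)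
    (a : RatFunc K) :
    (∀ Q : Place K F, Q.ord x < 0 → Q.adicValuation (evalRat hx.transcendental a) ≤ 1) ↔
      degInf a ≤ 0 := by
  constructor
  · intro h
    rcases eq_or_ne a 0 with rfl | ha
    · simp
    obtain ⟨Q, hQ⟩ := exists_pole hx hsep
    have h1 := h Q hQ
    have hne : evalRat hx.transcendental a ≠ 0 := fun h0 =>
      ha (evalRat_injective hx.transcendental (by rw [h0, map_zero]))
    rw [← ord_nonneg_iff Q hne, ord_evalRat_of_pole hx.transcendental Q hQ ha] at h1
    rw [degInf_of_ne_zero ha, ← WithBot.coe_zero, WithBot.coe_le_coe]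
    by_contra hpos
    push Not at hpos
    have : a.intDegree * Q.ord x < 0 := mul_neg_of_pos_of_neg hpos hQ
    omega
  · intro h Q hQ
    letI := ratAlgebra hx.transcendental
    exact adicValuation_evalRat_le_one_of_pole hx.transcendental hQ h

section Transport

variable {ι : Type*} [Fintype ι]

/-- membership in the `K[X]`-span of a `RatFunc K`-basis in terms of coordinates -/
theorem mem_span_poly_iff {V : Type*} [AddCommGroup V] [Module (RatFunc K) V] [Module K[X] V]
    [IsScalarTower K[X] (RatFunc K) V] (w : Module.Basis ι (RatFunc K) V) (v : V) :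
    v ∈ Submodule.span K[X] (Set.range w) ↔
      ∀ i, ∃ p : K[X], w.repr v i = algebraMap K[X] (RatFunc K) p := by
  constructor
  · intro hv
    obtain ⟨p, rfl⟩ := (Submodule.mem_span_range_iff_exists_fun K[X]).mp hv
    intro i
    refine ⟨p i, ?_⟩
    rw [sum_smul_eq_sum_algebraMap_smul, w.repr_sum_self]
  · intro h
    choose p hp using h
    rw [← w.sum_repr v]
    refine Submodule.sum_mem _ fun i _ => ?_
    rw [hp i, algebraMap_smul]
    exact Submodule.smul_mem _ _ (Submodule.subset_span ⟨i, rfl⟩)

end Transport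

/-- **The reduced chart in `K⟮x⟯`-language** (input shapes of the dual count H-A8). -/
theorem exists_reduced_adjoin [IsAlgClosed K] (hx : IsFF K x)
    (hsep : Algebra.IsSeparable K⟮x⟯ F) :
    ∃ (w : Module.Basis (Fin (Module.finrank K⟮x⟯ F)) K⟮x⟯ F)
      (d : Fin (Module.finrank K⟮x⟯ F) → ℤ),
      (∀ f : F, f ∈ intRing K x ↔ ∀ i, ((w.repr f i : K⟮x⟯) : F) ∈ polyRing K x) ∧
      (∀ f : F, (∀ Q : Place K F, 1 < Q.adicValuation x → Q.adicValuation f ≤ 1) ↔
        ∀ i, ∀ Q : Place K F, 1 < Q.adicValuation x →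
          Q.adicValuation (x ^ (d i) * ((w.repr f i : K⟮x⟯) : F)) ≤ 1) ∧
      (∀ r : ℤ, Module.Finite K (riemannRochSpace (r • FibreSep.poleDiv hx hsep))) ∧
      (∀ r : ℤ, Module.finrank K (riemannRochSpace (r • FibreSep.poleDiv hx hsep)) =
        ∑ i, (r - d i + 1).toNat) ∧
      (∀ r : ℤ, (Defs.ell (r • FibreSep.poleDiv hx hsep) : ℤ) = ∑ i, max 0 (r - d i + 1)) := by
  letI := ratAlgebra hx.transcendental
  letI := polyModule K F
  haveI : IsScalarTower K[X] (RatFunc K) F := isScalarTower_polyModule
  haveI : IsScalarTower K (RatFunc K) F := isScalarTower_ratAlgebra hx.transcendental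
  have halg : ∀ a : RatFunc K, algebraMap (RatFunc K) F a = evalRat hx.transcendental a :=
    fun _ => rfl
  obtain ⟨b, c, w₀, d, hb1, hb2, hc1, hc2, hw, hred, hd, -, hfin, hcount⟩ :=
    PoleLattice.exists_reduced_chart hx hsep
  have hxy : x ∈ K⟮x⟯ := IntermediateField.mem_adjoin_simple_self K x
  have hY : evalRat hx.transcendental RatFunc.X = x := evalRat_X _
  set e := ratEquivAdjoin hx.transcendental hxy hY with he
  have hcompat : ∀ (a : RatFunc K) (v : F), e a • v = a • v := by
    intro a v
    rw [ratAlgebra_smul_def]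
    rfl
  set w : Module.Basis (Fin (Module.finrank K⟮x⟯ F)) K⟮x⟯ F := w₀.mapCoeffs e hcompat with hwdef
  -- coordinates
  have hrepr : ∀ (f : F) i, ((w.repr f i : K⟮x⟯) : F) =
      evalRat hx.transcendental (w₀.repr f i) := by
    intro f i
    have h1 : f = ∑ j, e (w₀.repr f j) • w j := by
      conv_lhs => rw [← w₀.sum_repr f]
      refine Finset.sum_congr rfl fun j _ => ?_
      rw [hcompat, hwdef, Module.Basis.mapCoeffs_apply]
    have h2 : w.repr f i = e (w₀.repr f i) := by
      conv_lhs => rw [h1]
      rw [w.repr_sum_self]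
    rw [h2, he, coe_ratEquivAdjoin]
  refine ⟨w, d, fun f => ?_, fun f => ?_, hfin, hcount, fun r => ?_⟩
  · -- the finite chart
    rw [← mem_span_iff_mem_intRing hx.transcendental halg b hb1 hb2, ← hw, mem_span_poly_iff]
    refine forall_congr' fun i => ?_
    rw [hrepr, mem_polyRing_iff]
    constructor
    · rintro ⟨p, hp⟩
      exact ⟨p, by rw [hp, evalRat_algebraMap]⟩
    · rintro ⟨p, hp⟩
      refine ⟨p, evalRat_injective hx.transcendental ?_⟩
      rw [evalRat_algebraMap, hp]
  · -- the chart at infinity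
    have hpole : ∀ {P : Place K F → Prop},
        (∀ Q : Place K F, 1 < Q.adicValuation x → P Q) ↔ (∀ Q : Place K F, Q.ord x < 0 → P Q) :=
      fun {P} => forall_congr' fun Q => by rw [ord_neg_iff Q hx.ne_zero]
    rw [hpole, ← nrm_le_zero_iff hx hsep halg c hc1 hc2]
    have hf : f = ∑ i, w₀.repr f i • w₀ i := (w₀.sum_repr f).symm
    conv_lhs => rw [hf, hred, Finset.sup_le_iff]
    refine forall_congr' fun i => ?_
    simp only [Finset.mem_univ, true_imp_iff]
    rw [hpole, hrepr, ← evalRat_X_zpow hx.transcendental, ← map_mul,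
      regInf_evalRat_iff hx hsep, degInf_mul, degInf_X_zpow, hd i, add_comm]
  · unfold Defs.ell
    rw [hcount r, Nat.cast_sum]
    refine Finset.sum_congr rfl fun i _ => ?_
    rw [Int.toNat_eq_max, max_comm]

end Fermat.Agent.S18.A.PoleBridge
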