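import Mathlib

/-!
# PROJECT H (S18), block A, slice H-A8 (part 1): the abstract dual count

Pure linear algebra (Mathlib only).  `K ⊆ E ⊆ F` fields, `F/E` finite separable, `x : E`
transcendental over `K`, `w` an `E`-basis of `F`.  If a `K`-subspace `V ⊆ F` is cut out by the
conditions "the `i`-th trace coordinate `Tr_{F/E}(z * w i)` is a polynomial in `x` of degree
`≤ m i`", then `dim_K V = ∑ i, max 0 (m i + 1)` (`finrank_eq_sum`).  Also the trace dual of a lattice
given by a scaled basis (`dual_lattice_iff`).
-/

set_option autoImplicit false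

namespace Fermat.Agent.S18.A.DualCount

open Polynomial Module

section PolyLE

variable {K E : Type*} [Field K] [Field E] [Algebra K E]

/-- the `K`-space of polynomials in `x` of degree `≤ m` (zero if `m < 0`) -/
noncomputable def polyLE (K : Type*) {E : Type*} [Field K] [Field E] [Algebra K E] (x : E)
    (m : ℤ) : Submodule K E :=
  (degreeLT K (m + 1).toNat).map (aeval x).toLinearMap

theorem mem_polyLE_iff {x : E} {m : ℤ} {c : E} :
    c ∈ polyLE K x m ↔ ∃ p : K[X], (p = 0 ∨ (p.natDegree : ℤ) ≤ m) ∧ aeval x p = c := by
  unfold polyLE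
  rw [Submodule.mem_map]
  constructor
  · rintro ⟨p, hp, rfl⟩
    refine ⟨p, ?_, rfl⟩
    by_cases h0 : p = 0
    · exact Or.inl h0
    · right
      rw [mem_degreeLT, degree_eq_natDegree h0] at hp
      have h1 : p.natDegree < (m + 1).toNat := by exact_mod_cast hp
      omega
  · rintro ⟨p, hp, rfl⟩
    refine ⟨p, ?_, rfl⟩
    rw [mem_degreeLT]
    rcases hp with rfl | hp
    · rw [degree_zero]; exact WithBot.bot_lt_coe _
    · by_cases h0 : p = 0
      · rw [h0, degree_zero]; exact WithBot.bot_lt_coe _
      · rw [degree_eq_natDegree h0]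
        have h1 : p.natDegree < (m + 1).toNat := by omega
        exact_mod_cast h1

theorem finrank_degreeLT (n : ℕ) : finrank K (degreeLT K n) = n := by
  rw [LinearEquiv.finrank_eq (degreeLTEquiv K n), Module.finrank_fin_fun]

instance finite_degreeLT (n : ℕ) : Module.Finite K (degreeLT K n) :=
  Module.Finite.equiv (degreeLTEquiv K n).symm

theorem finrank_polyLE {x : E} (hx : Transcendental K x) (m : ℤ) :
    (finrank K (polyLE K x m) : ℤ) = max 0 (m + 1) := by
  have hinj : Function.Injective (aeval (R := K) x).toLinearMap :=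
    transcendental_iff_injective.mp hx
  unfold polyLE
  rw [← LinearEquiv.finrank_eq (Submodule.equivMapOfInjective _ hinj _), finrank_degreeLT]
  omega

instance finite_polyLE (x : E) (m : ℤ) : Module.Finite K (polyLE K x m) := by
  unfold polyLE
  infer_instance

end PolyLE

section Count

variable {K E F : Type*} [Field K] [Field E] [Field F] [Algebra K E] [Algebra E F] [Algebra K F]
  [IsScalarTower K E F] [FiniteDimensional E F] [Algebra.IsSeparable E F]
variable {ι : Type*} [Fintype ι] [DecidableEq ι]

/-- the trace coordinates `z ↦ (i ↦ Tr_{F/E} (z * w i))` as a `K`-linear equivalence -/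
noncomputable def traceCoord (K : Type*) {E F : Type*} [Field K] [Field E] [Field F]
    [Algebra K E] [Algebra E F] [Algebra K F] [IsScalarTower K E F] [FiniteDimensional E F]
    [Algebra.IsSeparable E F] {ι : Type*} [Fintype ι] [DecidableEq ι] (w : Basis ι E F) :
    F ≃ₗ[K] (ι → E) :=
  (((Algebra.traceForm E F).dualBasis (traceForm_nondegenerate E F) w).equivFun).restrictScalars K

theorem traceCoord_apply (w : Basis ι E F) (z : F) (i : ι) :
    traceCoord K w z i = Algebra.trace E F (z * w i) := by
  unfold traceCoord
  simp [LinearMap.BilinForm.dualBasis_repr_apply, Algebra.traceForm_apply]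

/-- **The abstract dual count.** -/
theorem finrank_eq_sum (w : Basis ι E F) {x : E} (hx : Transcendental K x) (m : ι → ℤ)
    (V : Submodule K F)
    (hV : ∀ z : F, z ∈ V ↔ ∀ i, Algebra.trace E F (z * w i) ∈ polyLE K x (m i)) :
    (finrank K V : ℤ) = ∑ i, max 0 (m i + 1) := by
  classical
  -- the product of the coordinate spaces, mapped into `F`
  let L : (∀ i, polyLE K x (m i)) →ₗ[K] F :=
    (traceCoord K w).symm.toLinearMap ∘ₗ LinearMap.pi fun i =>
      (polyLE K x (m i)).subtype ∘ₗ LinearMap.proj i
  have hLinj : Function.Injective L := by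
    refine (traceCoord K w).symm.injective.comp ?_
    intro g g' h
    funext i
    have := congrFun h i
    exact Subtype.ext this
  have hrange : LinearMap.range L = V := by
    ext z
    rw [hV, LinearMap.mem_range]
    constructor
    · rintro ⟨g, rfl⟩ i
      rw [← traceCoord_apply (K := K)]
      simp only [L, LinearMap.coe_comp, LinearEquiv.coe_coe, Function.comp_apply,
        LinearEquiv.apply_symm_apply, LinearMap.pi_apply, Submodule.coe_subtype,
        LinearMap.proj_apply]
      exact (g i).2
    · intro h
      refine ⟨fun i => ⟨Algebra.trace E F (z * w i), h i⟩, ?_⟩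
      apply (traceCoord K w).injective
      have h1 : traceCoord K w (L fun i => ⟨Algebra.trace E F (z * w i), h i⟩) =
          fun i => Algebra.trace E F (z * w i) := by
        simp only [L, LinearMap.coe_comp, LinearEquiv.coe_coe, Function.comp_apply,
          LinearEquiv.apply_symm_apply]
        rfl
      rw [h1]
      funext i
      rw [traceCoord_apply]
  rw [← hrange, LinearMap.finrank_range_of_inj hLinj, Module.finrank_pi_fintype]
  push_cast
  exact Finset.sum_congr rfl fun i _ => finrank_polyLE hx (m i)

end Count

section Lattice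

variable {E F : Type*} [Field E] [Field F] [Algebra E F]
variable {ι : Type*} [Fintype ι] [DecidableEq ι]

/-- **Dual of a lattice given by a scaled basis.**  `R ⊆ E` a subring, `w` an `E`-basis of `F`,
`u i ≠ 0`, `M := {a | ∀ i, u i * (a)_i ∈ R}` (the `R`-span of the `(u i)⁻¹ • w i`).  Then
`Tr (z * M) ⊆ R` iff `(u i)⁻¹ * Tr (z * w i) ∈ R` for all `i`. -/
theorem dual_lattice_iff (R : Subring E) (w : Basis ι E F) (u : ι → E) (hu : ∀ i, u i ≠ 0)
    (z : F) :
    (∀ a : F, (∀ i, u i * w.repr a i ∈ R) → Algebra.trace E F (z * a) ∈ R) ↔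
      ∀ i, (u i)⁻¹ * Algebra.trace E F (z * w i) ∈ R := by
  constructor
  · intro h i
    have h1 := h ((u i)⁻¹ • w i) (fun j => by
      rw [map_smul, Finsupp.smul_apply, Basis.repr_self, smul_eq_mul, Finsupp.single_apply]
      split_ifs with hij
      · subst hij
        rw [mul_one, mul_inv_cancel₀ (hu i)]
        exact R.one_mem
      · rw [mul_zero, mul_zero]
        exact R.zero_mem)
    rwa [mul_smul_comm, map_smul, smul_eq_mul] at h1
  · intro h a ha
    have ha' : a = ∑ i, (u i * w.repr a i) • ((u i)⁻¹ • w i) := by
      conv_lhs => rw [← w.sum_repr a]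
      refine Finset.sum_congr rfl fun i _ => ?_
      rw [smul_smul, mul_comm (u i), mul_assoc, mul_inv_cancel₀ (hu i), mul_one]
    rw [ha', Finset.mul_sum, map_sum]
    refine R.sum_mem fun i _ => ?_
    rw [mul_smul_comm, map_smul, mul_smul_comm, map_smul, smul_eq_mul, smul_eq_mul]
    exact R.mul_mem (ha i) (h i)

end Lattice

end Fermat.Agent.S18.A.DualCount
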