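import Mathlib

/-!
# Project H (S18), block A1a (alternative form): the Dedekind-Weber reduced basis theorem for a degree filtration

`K` a field, `M` a free `K[X]`-module of finite rank with a *degree filtration*
`B : ℤ → Submodule K M` (`B r = O ∩ x^r O_∞ = L(r (x)_∞)` in the application): monotone,
`m ∈ B r ↔ X • m ∈ B (r + 1)`, exhaustive, separated, with finite-dimensional pieces.

* `exists_reduced_basis` : there are a `K[X]`-basis `w` of `M` and integers `d i` such that
  `∑ a i • w i ∈ B r ↔ ∀ i, a i ≠ 0 → natDegree (a i) + d i ≤ r`.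
* `finrank_ball` : `dim_K (B r) = ∑ i, (r + 1 - d i).toNat`.
-/

set_option autoImplicit false
set_option linter.unusedSectionVars false

namespace Fermat.Agent.S18.A.ReducedFiltration

open Polynomial Module

variable {K : Type*} [Field K] {M : Type*} [AddCommGroup M] [Module K[X] M] [Module K M]
  [IsScalarTower K K[X] M]

/-- A degree filtration on a `K[X]`-module. -/
structure IsDegFiltration (B : ℤ → Submodule K M) : Prop where
  mono : Monotone B
  shift : ∀ (r : ℤ) (m : M), m ∈ B r ↔ (X : K[X]) • m ∈ B (r + 1)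
  exh : ∀ m : M, ∃ r, m ∈ B r
  sep : ∀ m : M, m ≠ 0 → ∃ r, m ∉ B r
  fin : ∀ r, Module.Finite K (B r)

/-- the norm attached to a filtration: the least `r` with `m ∈ B r` (junk value at `m = 0`) -/
noncomputable def nu (B : ℤ → Submodule K M) (m : M) : ℤ := sInf {r : ℤ | m ∈ B r}

namespace IsDegFiltration

variable {B : ℤ → Submodule K M} (hB : IsDegFiltration B)
include hB

theorem shift_pow (r : ℤ) (j : ℕ) (m : M) : m ∈ B r ↔ (X ^ j : K[X]) • m ∈ B (r + j) := by
  induction j generalizing r m with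
  | zero => simp
  | succ j ih =>
    rw [pow_succ, mul_smul, hB.shift r m, ih (r + 1) (X • m)]
    have : r + 1 + (j : ℤ) = r + ((j + 1 : ℕ) : ℤ) := by push_cast; ring
    rw [this]

theorem C_smul_mem {r : ℤ} {m : M} (c : K) (hm : m ∈ B r) : (C c : K[X]) • m ∈ B r := by
  have : (C c : K[X]) • m = c • m := by
    rw [← Polynomial.algebraMap_eq, algebraMap_smul]
  rw [this]
  exact (B r).smul_mem c hm

theorem monomial_smul_mem {r : ℤ} {m : M} (j : ℕ) (c : K) (hm : m ∈ B r) :
    (monomial j c : K[X]) • m ∈ B (r + j) := by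
  rw [← C_mul_X_pow_eq_monomial, mul_smul]
  exact hB.C_smul_mem c ((hB.shift_pow r j m).mp hm)

theorem smul_mem {r : ℤ} {m : M} (a : K[X]) {s : ℕ} (ha : a.natDegree ≤ s) (hm : m ∈ B r) :
    a • m ∈ B (r + s) := by
  have h : a • m = ∑ i ∈ Finset.range (a.natDegree + 1), (monomial i (a.coeff i) : K[X]) • m := by
    conv_lhs => rw [a.as_sum_range]
    rw [Finset.sum_smul]
  rw [h]
  refine Submodule.sum_mem _ fun i hi => ?_
  have hi' : i ≤ s := by
    have := Finset.mem_range.mp hi
    omega
  exact hB.mono (by omega : r + (i : ℤ) ≤ r + s) (hB.monomial_smul_mem i _ hm)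

theorem mem_iff_nu_le {m : M} (hm : m ≠ 0) (r : ℤ) : m ∈ B r ↔ nu B m ≤ r := by
  have hne : {r : ℤ | m ∈ B r}.Nonempty := hB.exh m
  obtain ⟨r0, hr0⟩ := hB.sep m hm
  have hbdd : BddBelow {r : ℤ | m ∈ B r} := by
    refine ⟨r0, fun r hr => ?_⟩
    by_contra hlt
    exact hr0 (hB.mono (not_le.mp hlt).le hr)
  have hmem : nu B m ∈ {r : ℤ | m ∈ B r} := Int.csInf_mem hne hbdd
  constructor
  · intro h
    exact csInf_le hbdd h
  · intro h
    exact hB.mono h hmem

theorem mem_nu {m : M} (hm : m ≠ 0) : m ∈ B (nu B m) :=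
  (hB.mem_iff_nu_le hm _).mpr le_rfl

end IsDegFiltration

section Family

variable {ι : Type*}

/-- the monomial family `X ^ j • w i`, `j < n i` -/
noncomputable def fam (w : ι → M) (n : ι → ℕ) : (Σ i : ι, Fin (n i)) → M :=
  fun p => (X ^ (p.2 : ℕ) : K[X]) • w p.1

theorem linearIndependent_fam (w : Basis ι K[X] M) (n : ι → ℕ) :
    LinearIndependent K (fam (K := K) w n) := by
  have h1 : LinearIndependent K (fun j : ℕ => (X ^ j : K[X])) := by
    have := (basisMonomials K).linearIndependent
    rw [coe_basisMonomials] at this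
    simpa [X_pow_eq_monomial] using this
  have h2 := linearIndependent_smul h1 w.linearIndependent
  have hinj : Function.Injective (fun p : (Σ i : ι, Fin (n i)) => ((p.2 : ℕ), p.1)) := by
    rintro ⟨i, j⟩ ⟨i', j'⟩ h
    simp only [Prod.mk.injEq] at h
    obtain ⟨h1, rfl⟩ := h
    congr
    exact Fin.ext h1
  exact h2.comp _ hinj

variable {B : ℤ → Submodule K M}

/-- the sizes of the monomial blocks of `B r` -/
def blockSize (d : ι → ℤ) (r : ℤ) : ι → ℕ := fun i => (r + 1 - d i).toNat

theorem fam_mem (hB : IsDegFiltration B) (w : ι → M) (d : ι → ℤ) (hw : ∀ i, w i ∈ B (d i)) (r : ℤ)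
    (p : Σ i : ι, Fin (blockSize d r i)) : fam (K := K) w (blockSize d r) p ∈ B r := by
  obtain ⟨i, j⟩ := p
  have hj : ((j : ℕ) : ℤ) < r + 1 - d i := by
    have := j.2
    unfold blockSize at this
    omega
  have := (hB.shift_pow (d i) j (w i)).mp (hw i)
  exact hB.mono (by omega) this

theorem span_fam_le (hB : IsDegFiltration B) (w : ι → M) (d : ι → ℤ) (hw : ∀ i, w i ∈ B (d i))
    (r : ℤ) : Submodule.span K (Set.range (fam (K := K) w (blockSize d r))) ≤ B r := by
  rw [Submodule.span_le]
  rintro _ ⟨p, rfl⟩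
  exact fam_mem hB w d hw r p

/-- `a • w i` lies in the span of the monomial block as soon as `natDegree a + d i ≤ r`. -/
theorem smul_mem_span_fam (w : ι → M) (d : ι → ℤ) (r : ℤ) (i : ι) (a : K[X])
    (ha : a ≠ 0 → (a.natDegree : ℤ) + d i ≤ r) :
    a • w i ∈ Submodule.span K (Set.range (fam (K := K) w (blockSize d r))) := by
  rcases eq_or_ne a 0 with rfl | ha0
  · simp
  have hdeg := ha ha0
  have h : a • w i = ∑ j ∈ Finset.range (a.natDegree + 1),
      (monomial j (a.coeff j) : K[X]) • w i := by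
    conv_lhs => rw [a.as_sum_range]
    rw [Finset.sum_smul]
  rw [h]
  refine Submodule.sum_mem _ fun j hj => ?_
  have hj' : j < blockSize d r i := by
    have := Finset.mem_range.mp hj
    unfold blockSize
    omega
  have h2 : (monomial j (a.coeff j) : K[X]) • w i
      = a.coeff j • fam (K := K) w (blockSize d r) ⟨i, ⟨j, hj'⟩⟩ := by
    unfold fam
    rw [← C_mul_X_pow_eq_monomial, mul_smul, ← Polynomial.algebraMap_eq, algebraMap_smul]
  rw [h2]
  exact Submodule.smul_mem _ _ (Submodule.subset_span ⟨_, rfl⟩)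

end Family

section Reduced

variable {ι : Type*} [Fintype ι] {B : ℤ → Submodule K M}

/-- `(w, d)` is a reduced basis for the filtration `B`. -/
def IsReduced (B : ℤ → Submodule K M) (w : Basis ι K[X] M) (d : ι → ℤ) : Prop :=
  ∀ (a : ι → K[X]) (r : ℤ),
    ∑ i, a i • w i ∈ B r ↔ ∀ i, a i ≠ 0 → ((a i).natDegree : ℤ) + d i ≤ r

theorem sum_mem_of_le (hB : IsDegFiltration B) (w : ι → M) (d : ι → ℤ) (hw : ∀ i, w i ∈ B (d i))
    (a : ι → K[X]) (r : ℤ) (h : ∀ i, a i ≠ 0 → ((a i).natDegree : ℤ) + d i ≤ r) :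
    ∑ i, a i • w i ∈ B r := by
  refine Submodule.sum_mem _ fun i _ => ?_
  rcases eq_or_ne (a i) 0 with h0 | h0
  · rw [h0, zero_smul]; exact Submodule.zero_mem _
  · have := hB.smul_mem (a i) le_rfl (hw i)
    exact hB.mono (by have := h i h0; omega) this

theorem IsReduced.basis_mem {w : Basis ι K[X] M} {d : ι → ℤ}
    (h : IsReduced B w d) (i : ι) : w i ∈ B (d i) := by
  classical
  have := (h (fun k => if k = i then 1 else 0) (d i)).mpr (by
    intro k hk
    by_cases hki : k = i
    · subst hki; simp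
    · simp [hki] at hk)
  simpa using this

theorem IsReduced.basis_not_mem {w : Basis ι K[X] M} {d : ι → ℤ}
    (h : IsReduced B w d) (i : ι) : w i ∉ B (d i - 1) := by
  classical
  intro hmem
  have h1 : ∑ k, (if k = i then (1 : K[X]) else 0) • w k ∈ B (d i - 1) := by simpa using hmem
  have := (h (fun k => if k = i then 1 else 0) (d i - 1)).mp h1 i (by simp)
  simp at this

theorem IsReduced.nu_eq (hB : IsDegFiltration B) {w : Basis ι K[X] M} {d : ι → ℤ}
    (h : IsReduced B w d) (i : ι) : nu B (w i) = d i := by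
  have h0 : w i ≠ 0 := w.ne_zero i
  have h1 := (hB.mem_iff_nu_le h0 _).mp (h.basis_mem i)
  have h2 : ¬ nu B (w i) ≤ d i - 1 := fun hle =>
    h.basis_not_mem i ((hB.mem_iff_nu_le h0 _).mpr hle)
  omega

/-- For a reduced basis, `B r` is spanned by the monomial block. -/
theorem IsReduced.ball_eq_span (hB : IsDegFiltration B) {w : Basis ι K[X] M} {d : ι → ℤ}
    (h : IsReduced B w d) (r : ℤ) :
    B r = Submodule.span K (Set.range (fam (K := K) w (blockSize d r))) := by
  apply le_antisymm
  · intro m hm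
    have hsum : ∑ i, w.repr m i • w i = m := w.sum_repr m
    have hdeg := (h (fun i => w.repr m i) r).mp (by rw [hsum]; exact hm)
    rw [← hsum]
    exact Submodule.sum_mem _ fun i _ => smul_mem_span_fam w d r i _ (hdeg i)
  · exact span_fam_le hB w d h.basis_mem r

/-- **Dimension of the pieces** in terms of a reduced basis. -/
theorem IsReduced.finrank_ball (hB : IsDegFiltration B) {w : Basis ι K[X] M} {d : ι → ℤ}
    (h : IsReduced B w d) (r : ℤ) :
    Module.finrank K (B r) = ∑ i, (r + 1 - d i).toNat := by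
  rw [h.ball_eq_span hB r, finrank_span_eq_card (linearIndependent_fam w _), Fintype.card_sigma]
  exact Finset.sum_congr rfl fun i _ => Fintype.card_fin _

/-- Lower bound for the dimension of `B r` from any basis. -/
theorem sum_le_finrank (hB : IsDegFiltration B) (w : Basis ι K[X] M) (d : ι → ℤ)
    (hw : ∀ i, w i ∈ B (d i)) (r : ℤ) :
    ∑ i, (r + 1 - d i) ≤ (Module.finrank K (B r) : ℤ) := by
  have := hB.fin r
  have h1 := Submodule.finrank_mono (span_fam_le hB w d hw r)
  rw [finrank_span_eq_card (linearIndependent_fam w _), Fintype.card_sigma] at h1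
  have h2 : ∑ i, (r + 1 - d i) ≤ ∑ i, ((blockSize d r i : ℕ) : ℤ) :=
    Finset.sum_le_sum fun i _ => by unfold blockSize; exact Int.self_le_toNat _
  refine h2.trans ?_
  have : ∑ i, ((blockSize d r i : ℕ) : ℤ) = ((∑ i, Fintype.card (Fin (blockSize d r i)) : ℕ) : ℤ) := by
    push_cast
    simp
  rw [this]
  exact_mod_cast h1

end Reduced

section Update

variable {R : Type*} [CommRing R] {V : Type*} [AddCommGroup V] [Module R V]
variable {ι : Type*} [Fintype ι] [DecidableEq ι]

/-- Replacing `w i0` by `∑ p i • w i` with `p i0` a unit gives a basis again. -/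
theorem exists_basis_update (w : Basis ι R V) (i0 : ι) (p : ι → R) (hp : IsUnit (p i0)) :
    ∃ w' : Basis ι R V, ∀ i, w' i = if i = i0 then ∑ k, p k • w k else w i := by
  set m'' : V := ∑ k, p k • w k with hm''
  set f : V →ₗ[R] V := w.constr ℕ (fun i => if i = i0 then m'' else w i) with hf
  have hfi : ∀ i, f (w i) = if i = i0 then m'' else w i := fun i => by
    rw [hf, Basis.constr_basis]
  have hsurj : Function.Surjective f := by
    rw [← LinearMap.range_eq_top, eq_top_iff, ← w.span_eq, Submodule.span_le]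
    have hne : ∀ i, i ≠ i0 → w i ∈ LinearMap.range f := fun i hi =>
      ⟨w i, by rw [hfi, if_neg hi]⟩
    have hm : m'' ∈ LinearMap.range f := ⟨w i0, by rw [hfi, if_pos rfl]⟩
    rintro _ ⟨i, rfl⟩
    by_cases hi : i = i0
    · subst hi
      obtain ⟨u, hu⟩ := hp
      have hsplit : m'' = p i • w i + ∑ k ∈ Finset.univ.erase i, p k • w k := by
        rw [hm'', ← Finset.add_sum_erase _ _ (Finset.mem_univ i)]
      have hw : w i = (↑u⁻¹ : R) • (m'' - ∑ k ∈ Finset.univ.erase i, p k • w k) := by
        rw [hsplit, add_sub_cancel_right, ← hu, smul_smul, Units.inv_mul, one_smul]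
      rw [SetLike.mem_coe, hw]
      refine Submodule.smul_mem _ _ (Submodule.sub_mem _ hm (Submodule.sum_mem _ fun k hk => ?_))
      exact Submodule.smul_mem _ _ (hne k (Finset.ne_of_mem_erase hk))
    · exact hne i hi
  have hmodfin : Module.Finite R V := Module.Finite.of_basis w
  have hbij : Function.Bijective f :=
    ⟨OrzechProperty.injective_of_surjective_endomorphism f hsurj, hsurj⟩
  refine ⟨w.map (LinearEquiv.ofBijective f hbij), fun i => ?_⟩
  rw [Basis.map_apply, LinearEquiv.ofBijective_apply, hfi]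

end Update

section Main

variable {ι : Type*} [Fintype ι] {B : ℤ → Submodule K M}

/-- **Improvement step**: a `K`-linear relation among the leading forms of a basis allows one to
lower the sum of the norms. -/
theorem exists_better_basis (hB : IsDegFiltration B) (w : Basis ι K[X] M) (c : ι → K) (s : ℤ)
    (hc : ∃ i, c i ≠ 0) (hs : ∀ i, c i ≠ 0 → nu B (w i) ≤ s)
    (hmem : ∑ i, (monomial (s - nu B (w i)).toNat (c i) : K[X]) • w i ∈ B (s - 1)) :
    ∃ w' : Basis ι K[X] M, ∑ i, nu B (w' i) < ∑ i, nu B (w i) := by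
  classical
  set d : ι → ℤ := fun i => nu B (w i) with hd
  replace hs : ∀ i, c i ≠ 0 → d i ≤ s := hs
  replace hmem : ∑ i, (monomial (s - d i).toNat (c i) : K[X]) • w i ∈ B (s - 1) := hmem
  change ∃ w' : Basis ι K[X] M, ∑ i, nu B (w' i) < ∑ i, d i
  -- the index with the largest `d` in the support of `c`
  obtain ⟨i0, hi0mem, hi0max⟩ := Finset.exists_max_image (Finset.univ.filter fun i => c i ≠ 0) d
    (by obtain ⟨i, hi⟩ := hc; exact ⟨i, by simp [hi]⟩)
  have hci0 : c i0 ≠ 0 := by simpa using hi0mem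
  have hmax : ∀ i, c i ≠ 0 → d i ≤ d i0 := fun i hi => hi0max i (by simp [hi])
  set δ : ℕ := (s - d i0).toNat with hδ
  have hδ' : (δ : ℤ) = s - d i0 := by
    rw [hδ]; exact Int.toNat_of_nonneg (by have := hs i0 hci0; omega)
  set p : ι → K[X] := fun i => monomial (d i0 - d i).toNat (c i) with hp
  set m'' : M := ∑ i, p i • w i with hm''
  -- `X ^ δ • m''` is the given relation
  have hX : (X ^ δ : K[X]) • m'' = ∑ i, (monomial (s - d i).toNat (c i) : K[X]) • w i := by
    rw [hm'', Finset.smul_sum]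
    refine Finset.sum_congr rfl fun i _ => ?_
    rw [smul_smul]
    congr 1
    rcases eq_or_ne (c i) 0 with h0 | h0
    · simp [hp, h0]
    · have h1 := hmax i h0
      have h2 := hs i h0
      have h3 : (s - d i).toNat = δ + (d i0 - d i).toNat := by
        have e1 : ((s - d i).toNat : ℤ) = s - d i := Int.toNat_of_nonneg (by omega)
        have e2 : ((d i0 - d i).toNat : ℤ) = d i0 - d i := Int.toNat_of_nonneg (by omega)
        omega
      rw [hp, h3, X_pow_mul_monomial, add_comm]
  have hm''mem : m'' ∈ B (d i0 - 1) := by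
    rw [hB.shift_pow (d i0 - 1) δ m'', hX]
    have : d i0 - 1 + (δ : ℤ) = s - 1 := by omega
    rw [this]
    exact hmem
  have hunit : IsUnit (p i0) := by
    have : p i0 = C (c i0) := by simp [hp]
    rw [this]
    exact (isUnit_iff_ne_zero.mpr hci0).map C
  obtain ⟨w', hw'⟩ := exists_basis_update w i0 p hunit
  refine ⟨w', ?_⟩
  have hw'0 : w' i0 = m'' := by rw [hw', if_pos rfl]
  have hlt : nu B (w' i0) < d i0 := by
    have hne : w' i0 ≠ 0 := w'.ne_zero i0
    have := (hB.mem_iff_nu_le hne _).mp (hw'0 ▸ hm''mem)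
    omega
  refine Finset.sum_lt_sum (fun i _ => ?_) ⟨i0, Finset.mem_univ _, hlt⟩
  by_cases hi : i = i0
  · subst hi; exact hlt.le
  · rw [hw', if_neg hi]

/-- a basis minimising the sum of the norms -/
def IsMinimal (B : ℤ → Submodule K M) (w : Basis ι K[X] M) : Prop :=
  ∀ w' : Basis ι K[X] M, ∑ i, nu B (w i) ≤ ∑ i, nu B (w' i)

theorem exists_minimal (hB : IsDegFiltration B) (b₀ : Basis ι K[X] M) :
    ∃ w : Basis ι K[X] M, IsMinimal B w := by
  have hbdd : ∃ b : ℤ, ∀ z : ℤ, (∃ w : Basis ι K[X] M, ∑ i, nu B (w i) = z) → b ≤ z := by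
    refine ⟨(Fintype.card ι : ℤ) - Module.finrank K (B 0), ?_⟩
    rintro z ⟨w, rfl⟩
    have h := sum_le_finrank hB w (fun i => nu B (w i)) (fun i => hB.mem_nu (w.ne_zero i)) 0
    rw [Finset.sum_sub_distrib] at h
    simp only [zero_add, Finset.sum_const, Finset.card_univ, nsmul_eq_mul, mul_one] at h
    omega
  obtain ⟨lb, ⟨w, hw⟩, hlb⟩ := Int.exists_least_of_bdd hbdd ⟨_, b₀, rfl⟩
  exact ⟨w, fun w' => hw ▸ hlb _ ⟨w', rfl⟩⟩

theorem core (hB : IsDegFiltration B) {w : Basis ι K[X] M} (hmin : IsMinimal B w) (s : ℤ)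
    (a : ι → K[X]) (ha : ∀ i, a i ≠ 0 → ((a i).natDegree : ℤ) + nu B (w i) ≤ s)
    (hmem : ∑ i, a i • w i ∈ B (s - 1)) :
    ∀ i, a i ≠ 0 → ((a i).natDegree : ℤ) + nu B (w i) ≤ s - 1 := by
  classical
  by_contra hcon
  push Not at hcon
  obtain ⟨i1, hi1, hi1'⟩ := hcon
  set d : ι → ℤ := fun i => nu B (w i) with hd
  replace ha : ∀ i, a i ≠ 0 → ((a i).natDegree : ℤ) + d i ≤ s := ha
  replace hi1' : s - 1 < ((a i1).natDegree : ℤ) + d i1 := hi1'
  have hw : ∀ i, w i ∈ B (d i) := fun i => hB.mem_nu (w.ne_zero i)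
  set c : ι → K := fun i =>
    if a i ≠ 0 ∧ ((a i).natDegree : ℤ) + d i = s then (a i).leadingCoeff else 0 with hc
  have hrest : ∀ i, (a i - monomial (s - d i).toNat (c i)) • w i ∈ B (s - 1) := by
    intro i
    by_cases hI : a i ≠ 0 ∧ ((a i).natDegree : ℤ) + d i = s
    · have hci : c i = (a i).leadingCoeff := by simp only [hc]; rw [if_pos hI]
      have hnat : (s - d i).toNat = (a i).natDegree := by
        have := hI.2
        omega
      rw [hci, hnat, self_sub_monomial_natDegree_leadingCoeff]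
      rcases eraseLead_natDegree_lt_or_eraseLead_eq_zero (a i) with hlt | h0
      · have h1 := hB.smul_mem (a i).eraseLead (s := (a i).natDegree - 1) (by omega) (hw i)
        refine hB.mono ?_ h1
        have := hI.2
        omega
      · rw [h0, zero_smul]; exact Submodule.zero_mem _
    · have hci : c i = 0 := by simp only [hc]; rw [if_neg hI]
      rw [hci, map_zero, sub_zero]
      rcases eq_or_ne (a i) 0 with h0 | h0
      · rw [h0, zero_smul]; exact Submodule.zero_mem _
      · have h1 := hB.smul_mem (a i) le_rfl (hw i)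
        refine hB.mono ?_ h1
        have h2 := ha i h0
        have h3 : ((a i).natDegree : ℤ) + d i ≠ s := fun h => hI ⟨h0, h⟩
        omega
  have htop : ∑ i, (monomial (s - d i).toNat (c i) : K[X]) • w i ∈ B (s - 1) := by
    have : ∑ i, (monomial (s - d i).toNat (c i) : K[X]) • w i
        = ∑ i, a i • w i - ∑ i, (a i - monomial (s - d i).toNat (c i)) • w i := by
      rw [← Finset.sum_sub_distrib]
      refine Finset.sum_congr rfl fun i _ => ?_
      rw [sub_smul, sub_sub_cancel]
    rw [this]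
    exact Submodule.sub_mem _ hmem (Submodule.sum_mem _ fun i _ => hrest i)
  have hI1 : a i1 ≠ 0 ∧ ((a i1).natDegree : ℤ) + d i1 = s := ⟨hi1, by have := ha i1 hi1; omega⟩
  have hc1 : c i1 ≠ 0 := by
    simp only [hc]; rw [if_pos hI1]
    exact leadingCoeff_ne_zero.mpr hi1
  have hcs : ∀ i, c i ≠ 0 → d i ≤ s := by
    intro i hi
    by_cases hI : a i ≠ 0 ∧ ((a i).natDegree : ℤ) + d i = s
    · have := hI.2
      omega
    · exact absurd (by simp only [hc]; rw [if_neg hI]) hi
  obtain ⟨w', hw'⟩ := exists_better_basis hB w c s ⟨i1, hc1⟩ hcs htop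
  exact absurd (hmin w') (not_le.mpr hw')

/-- **Dedekind-Weber reduced basis theorem**, filtration form. -/
theorem exists_reduced_basis (hB : IsDegFiltration B) (b₀ : Basis ι K[X] M) :
    ∃ (w : Basis ι K[X] M) (d : ι → ℤ), IsReduced B w d := by
  classical
  obtain ⟨w, hmin⟩ := exists_minimal hB b₀
  refine ⟨w, fun i => nu B (w i), fun a r => ⟨fun hmem => ?_, fun h => ?_⟩⟩
  · have key : ∀ k : ℕ, (∀ i, a i ≠ 0 → ((a i).natDegree : ℤ) + nu B (w i) ≤ r + k) →
        ∀ i, a i ≠ 0 → ((a i).natDegree : ℤ) + nu B (w i) ≤ r := by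
      intro k
      induction k with
      | zero => intro h; simpa using h
      | succ k ih =>
        intro hk
        apply ih
        have h1 := core hB hmin (r + ((k + 1 : ℕ) : ℤ)) a hk
          (hB.mono (by push_cast; omega) hmem)
        intro i hi
        have := h1 i hi
        push_cast at this
        omega
    obtain ⟨Mx, hM⟩ := (Finset.univ.image fun i => ((a i).natDegree : ℤ) + nu B (w i) - r).exists_le
    refine key Mx.toNat fun i _ => ?_
    have h1 := hM _ (Finset.mem_image_of_mem _ (Finset.mem_univ i))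
    have h2 := Int.self_le_toNat Mx
    omega
  · exact sum_mem_of_le hB w _ (fun i => hB.mem_nu (w.ne_zero i)) a r h

/-- membership in `B r` read off from the coordinates in a reduced basis -/
theorem IsReduced.mem_iff_repr {w : Basis ι K[X] M} {d : ι → ℤ} (h : IsReduced B w d) (m : M)
    (r : ℤ) : m ∈ B r ↔ ∀ i, w.repr m i ≠ 0 → ((w.repr m i).natDegree : ℤ) + d i ≤ r := by
  rw [← h (fun i => w.repr m i) r, w.sum_repr m]

/-- For `r ≥ max d - 1` the dimension of `B r` is `n (r + 1) - ∑ d i`. -/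
theorem IsReduced.finrank_ball_of_le (hB : IsDegFiltration B) {w : Basis ι K[X] M} {d : ι → ℤ}
    (h : IsReduced B w d) (r : ℤ) (hr : ∀ i, d i ≤ r + 1) :
    (Module.finrank K (B r) : ℤ) = (Fintype.card ι : ℤ) * (r + 1) - ∑ i, d i := by
  rw [h.finrank_ball hB r]
  push_cast
  have : ∀ i, (((r + 1 - d i).toNat : ℕ) : ℤ) = r + 1 - d i := fun i =>
    Int.toNat_of_nonneg (by have := hr i; omega)
  rw [Finset.sum_congr rfl fun i _ => this i, Finset.sum_sub_distrib]
  simp

/-- **Reduced basis theorem with the dimension formula.** -/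
theorem exists_reduced_basis_finrank (hB : IsDegFiltration B) (b₀ : Basis ι K[X] M) :
    ∃ (w : Basis ι K[X] M) (d : ι → ℤ), IsReduced B w d ∧
      ∀ r, Module.finrank K (B r) = ∑ i, (r + 1 - d i).toNat := by
  obtain ⟨w, d, h⟩ := exists_reduced_basis hB b₀
  exact ⟨w, d, h, fun r => h.finrank_ball hB r⟩

end Main

end Fermat.Agent.S18.A.ReducedFiltration

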