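import Mathlib
import Fermat.Prelude.Def_AlgebraicCurve_DivisorClassGroup
import Fermat.Prelude.Def_AlgebraicCurve_Repartitions
import Fermat.Agent.S24.Ord
import Fermat.Agent.S18.CoreDefs

/-!
# PROJECT H (S18), block A2-core: Riemann's theorem in abstract form

Prelude language (`AlgebraicCurve.Place`, `Divisor`, `riemannRochSpace`).  Standing hypotheses:
principal divisors exist and have degree zero, all places have degree one.

* `ell D` is the dimension of the Riemann-Roch space of `D`.
* `mulEquiv` : multiplication by a function identifies the Riemann-Roch spaces of linearly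
  equivalent divisors.
* `ell_add_single_le` : adding a point raises the dimension by at most one.
* `eq_bot_of_degree_neg`, `finite`, `ell_le` : finiteness.
* `IsRiemannGenus`, `riemann` : from a count `ell (r • B) = r * deg B + 1 - γ` for all large `r`
  (block A1 supplies it for the pole divisor of a separating variable) we get Riemann's inequality
  `deg D + 1 - γ ≤ ell D` for every divisor and equality for every divisor of large degree.
-/

set_option autoImplicit false

namespace Fermat.Agent.S18.A.Riemann

open AlgebraicCurve Fermat.Agent.S24.Ord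

variable {K F : Type*} [Field K] [Field F] [Algebra K F]

/-- The dimension of the Riemann-Roch space. -/
noncomputable def ell (D : Divisor K F) : ℕ := Module.finrank K (riemannRochSpace D)

theorem mem_L_iff {D : Divisor K F} {f : F} :
    f ∈ riemannRochSpace D ↔ ∀ v : Place K F, f = 0 ∨ -D v ≤ v.ord f :=
  mem_riemannRochSpace_iff

theorem mem_L_of_ne_zero {D : Divisor K F} {f : F} (hf : f ≠ 0) :
    f ∈ riemannRochSpace D ↔ ∀ v : Place K F, -D v ≤ v.ord f := by
  rw [mem_L_iff]
  exact forall_congr' fun v => or_iff_right hf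

theorem L_mono {D D' : Divisor K F} (h : D ≤ D') :
    riemannRochSpace D ≤ riemannRochSpace D' := by
  intro f hf
  rw [mem_L_iff] at hf ⊢
  intro v
  rcases hf v with h0 | h1
  · exact Or.inl h0
  · exact Or.inr (le_trans (neg_le_neg (Finsupp.le_def.mp h v)) h1)

theorem mul_mem_L {D E : Divisor K F} {f g : F} (hf : f ≠ 0)
    (h : ∀ v : Place K F, E v = D v + v.ord f) (hg : g ∈ riemannRochSpace E) :
    f * g ∈ riemannRochSpace D := by
  rw [mem_L_iff] at hg ⊢
  intro v
  rcases hg v with h0 | h1
  · left; rw [h0, mul_zero]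
  · rcases eq_or_ne g 0 with h0 | hg0
    · left; rw [h0, mul_zero]
    · right
      rw [v.ord_mul hf hg0]
      have := h v
      omega

/-- Multiplication by `f` identifies `L(E)` with `L(D)` when `E = D + div f`. -/
noncomputable def mulEquiv {D E : Divisor K F} {f : F} (hf : f ≠ 0)
    (h : ∀ v : Place K F, E v = D v + v.ord f) :
    riemannRochSpace E ≃ₗ[K] riemannRochSpace D where
  toFun g := ⟨f * g.1, mul_mem_L hf h g.2⟩
  invFun g := ⟨f⁻¹ * g.1, mul_mem_L (inv_ne_zero hf)
    (fun v => by rw [h v, v.ord_inv]; ring) g.2⟩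
  map_add' a b := by
    apply Subtype.ext
    simp [mul_add]
  map_smul' c a := by
    apply Subtype.ext
    simp
  left_inv g := by
    apply Subtype.ext
    simp [inv_mul_cancel_left₀ hf]
  right_inv g := by
    apply Subtype.ext
    simp [mul_inv_cancel_left₀ hf]

theorem ell_eq_of_shift {D E : Divisor K F} {f : F} (hf : f ≠ 0)
    (h : ∀ v : Place K F, E v = D v + v.ord f) : ell E = ell D :=
  (mulEquiv hf h).finrank_eq

theorem finite_of_shift {D E : Divisor K F} {f : F} (hf : f ≠ 0)
    (h : ∀ v : Place K F, E v = D v + v.ord f)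
    (hD : Module.Finite K (riemannRochSpace D)) : Module.Finite K (riemannRochSpace E) :=
  Module.Finite.equiv (mulEquiv hf h).symm

theorem mem_valuationSubring_iff_ord (v : Place K F) {f : F} (hf : f ≠ 0) :
    f ∈ v.toValuationSubring ↔ 0 ≤ v.ord f := by
  rw [mem_iff, ord_nonneg_iff v hf]

/-- the twisting map `f ↦ π ^ n * f` into the valuation ring -/
theorem twist_mem (v : Place K F) (D : Divisor K F) (π : v.toValuationSubring)
    (hπ : Irreducible π) {f : F} (hf : f ∈ riemannRochSpace (D + Finsupp.single v 1)) :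
    (π : F) ^ (D v + 1) * f ∈ v.toValuationSubring := by
  rcases eq_or_ne f 0 with rfl | hf0
  · rw [mul_zero]; exact zero_mem _
  have hπ0 : (π : F) ≠ 0 := by
    simpa [ne_eq, ZeroMemClass.coe_eq_zero] using hπ.ne_zero
  have hne : (π : F) ^ (D v + 1) * f ≠ 0 := mul_ne_zero (zpow_ne_zero _ hπ0) hf0
  rw [mem_valuationSubring_iff_ord v hne, v.ord_mul (zpow_ne_zero _ hπ0) hf0, v.ord_zpow,
    v.ord_coe_irreducible hπ]
  have := (mem_L_of_ne_zero hf0).mp hf v
  simp only [Finsupp.add_apply, Finsupp.single_eq_same] at this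
  omega

/-- the twisting map as a linear map into the residue field -/
noncomputable def twist (v : Place K F) (D : Divisor K F) (π : v.toValuationSubring)
    (hπ : Irreducible π) :
    riemannRochSpace (D + Finsupp.single v 1) →ₗ[K] v.ResidueField where
  toFun f := IsLocalRing.residue v.toValuationSubring
    ⟨(π : F) ^ (D v + 1) * f.1, twist_mem v D π hπ f.2⟩
  map_add' a b := by
    rw [← map_add]
    congr 1
    apply Subtype.ext
    simp [mul_add]
  map_smul' c a := by
    rw [RingHom.id_apply, Algebra.smul_def, ← IsLocalRing.ResidueField.algebraMap_eq,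
      IsScalarTower.algebraMap_apply K v.toValuationSubring v.ResidueField,
      IsLocalRing.ResidueField.algebraMap_eq, ← map_mul]
    congr 1
    apply Subtype.ext
    simp [Algebra.smul_def]
    ring

theorem twist_eq_zero_iff (v : Place K F) (D : Divisor K F) (π : v.toValuationSubring)
    (hπ : Irreducible π) (f : riemannRochSpace (D + Finsupp.single v 1)) :
    twist v D π hπ f = 0 ↔ (f : F) ∈ riemannRochSpace D := by
  obtain ⟨f, hf⟩ := f
  show IsLocalRing.residue v.toValuationSubring
    ⟨(π : F) ^ (D v + 1) * f, twist_mem v D π hπ hf⟩ = 0 ↔ f ∈ riemannRochSpace D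
  rw [IsLocalRing.residue_eq_zero_iff, mem_maximalIdeal_iff]
  rcases eq_or_ne f 0 with rfl | hf0
  · simp
  have hπ0 : (π : F) ≠ 0 := by
    simpa [ne_eq, ZeroMemClass.coe_eq_zero] using hπ.ne_zero
  have hne : (π : F) ^ (D v + 1) * f ≠ 0 := mul_ne_zero (zpow_ne_zero _ hπ0) hf0
  show v.adicValuation ((π : F) ^ (D v + 1) * f) < 1 ↔ _
  rw [← ord_pos_iff v hne, v.ord_mul (zpow_ne_zero _ hπ0) hf0, v.ord_zpow,
    v.ord_coe_irreducible hπ, mem_L_of_ne_zero hf0]
  have hf' := (mem_L_of_ne_zero hf0).mp hf
  constructor
  · intro h w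
    by_cases hw : w = v
    · subst hw; omega
    · have := hf' w
      classical
      simp only [Finsupp.add_apply, Finsupp.single_apply, if_neg (Ne.symm hw), add_zero] at this
      exact this
  · intro h
    have := h v
    omega

theorem ker_twist (v : Place K F) (D : Divisor K F) (π : v.toValuationSubring)
    (hπ : Irreducible π) :
    LinearMap.ker (twist v D π hπ) =
      Submodule.comap (riemannRochSpace (D + Finsupp.single v 1)).subtype (riemannRochSpace D) := by
  ext f
  rw [LinearMap.mem_ker, twist_eq_zero_iff]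
  rfl

theorem le_add_single (v : Place K F) (D : Divisor K F) : D ≤ D + Finsupp.single v 1 := by
  intro w
  classical
  simp only [Finsupp.add_apply, Finsupp.single_apply]
  split_ifs <;> omega

/-- the kernel of the twisting map is `L(D)` -/
noncomputable def kerTwistEquiv (v : Place K F) (D : Divisor K F) (π : v.toValuationSubring)
    (hπ : Irreducible π) :
    LinearMap.ker (twist v D π hπ) ≃ₗ[K] riemannRochSpace D :=
  (LinearEquiv.ofEq _ _ (ker_twist v D π hπ)).trans
    (Submodule.comapSubtypeEquivOfLe (L_mono (le_add_single v D)))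

theorem finite_add_single (v : Place K F) (hv : v.deg = 1) (D : Divisor K F)
    (hD : Module.Finite K (riemannRochSpace D)) :
    Module.Finite K (riemannRochSpace (D + Finsupp.single v 1)) := by
  obtain ⟨π, hπ⟩ := IsDiscreteValuationRing.exists_irreducible v.toValuationSubring
  have hres : Module.Finite K v.ResidueField :=
    Module.finite_of_finrank_pos (by rw [show Module.finrank K v.ResidueField = v.deg from rfl, hv]; exact one_pos)
  have hker : Module.Finite K (LinearMap.ker (twist v D π hπ)) :=
    Module.Finite.equiv (kerTwistEquiv v D π hπ).symm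
  rw [Module.finite_def]
  apply Submodule.fg_of_fg_map_of_fg_inf_ker (twist v D π hπ)
  · rw [Submodule.map_top]
    exact (Module.Finite.iff_fg).mp inferInstance
  · rw [top_inf_eq]
    exact (Module.Finite.iff_fg).mp hker

theorem ell_add_single_le (v : Place K F) (hv : v.deg = 1) (D : Divisor K F)
    (hD : Module.Finite K (riemannRochSpace D)) :
    ell (D + Finsupp.single v 1) ≤ ell D + 1 := by
  obtain ⟨π, hπ⟩ := IsDiscreteValuationRing.exists_irreducible v.toValuationSubring
  have hfin := finite_add_single v hv D hD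
  have hres : Module.Finite K v.ResidueField :=
    Module.finite_of_finrank_pos (by rw [show Module.finrank K v.ResidueField = v.deg from rfl, hv]; exact one_pos)
  have h1 := LinearMap.finrank_range_add_finrank_ker (twist v D π hπ)
  have h2 : Module.finrank K (LinearMap.range (twist v D π hπ)) ≤ 1 := by
    have := Submodule.finrank_le (LinearMap.range (twist v D π hπ))
    rwa [show Module.finrank K v.ResidueField = v.deg from rfl, hv] at this
  have h3 : Module.finrank K (LinearMap.ker (twist v D π hπ)) = ell D :=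
    (kerTwistEquiv v D π hπ).finrank_eq
  unfold ell at *
  omega

theorem degree_eq_sum (D : Divisor K F) :
    Divisor.degree D = D.sum fun v n => n * (v.deg : ℤ) := by
  simp [Divisor.degree, Finsupp.liftAddHom_apply]

theorem degree_nonneg {D : Divisor K F} (hD : 0 ≤ D) : 0 ≤ Divisor.degree D := by
  rw [degree_eq_sum]
  apply Finsupp.sum_nonneg
  intro v _
  exact mul_nonneg (hD v) (Int.natCast_nonneg _)

theorem degree_mono {D D' : Divisor K F} (h : D ≤ D') :
    Divisor.degree D ≤ Divisor.degree D' := by
  have h0 : 0 ≤ D' - D := sub_nonneg.mpr h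
  have := degree_nonneg h0
  rw [map_sub] at this
  linarith

theorem eq_zero_of_degree_eq_zero (hdeg : ∀ v : Place K F, v.deg = 1) {D : Divisor K F}
    (hD : 0 ≤ D) (h0 : Divisor.degree D = 0) : D = 0 := by
  rw [degree_eq_sum, Finsupp.sum] at h0
  have h1 := (Finset.sum_eq_zero_iff_of_nonneg (fun v _ =>
    mul_nonneg (hD v) (Int.natCast_nonneg _))).mp h0
  ext v
  by_cases hv : v ∈ D.support
  · have := h1 v hv
    rw [hdeg v] at this
    simpa using this
  · simpa using hv

theorem eq_bot_of_degree_neg [HasPrincipalDivisors K F] {D : Divisor K F}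
    (hD : Divisor.degree D < 0) : riemannRochSpace D = ⊥ := by
  rw [eq_bot_iff]
  intro f hf
  rw [Submodule.mem_bot]
  by_contra hf0
  obtain ⟨E, hE, hE0⟩ := HasPrincipalDivisors.exists_divisor (K := K) f hf0
  have h1 : 0 ≤ D + E := by
    intro v
    have := (mem_L_of_ne_zero hf0).mp hf v
    simp only [Finsupp.add_apply, hE v, Finsupp.zero_apply]
    omega
  have := degree_nonneg h1
  rw [map_add, hE0] at this
  omega

theorem finite_and_ell_le_aux [HasPrincipalDivisors K F] (hdeg : ∀ v : Place K F, v.deg = 1)
    (v0 : Place K F) (j : ℕ) : ∀ D : Divisor K F, Divisor.degree D + 1 ≤ j →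
      Module.Finite K (riemannRochSpace D) ∧ ell D ≤ j := by
  induction j with
  | zero =>
    intro D hD
    have hbot := eq_bot_of_degree_neg (D := D) (by push_cast at hD; omega)
    refine ⟨by rw [hbot]; infer_instance, ?_⟩
    unfold ell
    rw [hbot, finrank_bot]
  | succ j ih =>
    intro D hD
    have hdegD' : Divisor.degree (D - Finsupp.single v0 1) + 1 ≤ j := by
      rw [map_sub, Divisor.degree_single, hdeg v0]
      push_cast at hD ⊢
      omega
    obtain ⟨hfin, hle⟩ := ih (D - Finsupp.single v0 1) hdegD'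
    have hD' : D = (D - Finsupp.single v0 1) + Finsupp.single v0 1 := by abel
    rw [hD']
    refine ⟨finite_add_single v0 (hdeg v0) _ hfin, ?_⟩
    have := ell_add_single_le v0 (hdeg v0) _ hfin
    omega

theorem finite_L [HasPrincipalDivisors K F] (hdeg : ∀ v : Place K F, v.deg = 1)
    (v0 : Place K F) (D : Divisor K F) : Module.Finite K (riemannRochSpace D) :=
  (finite_and_ell_le_aux hdeg v0 (Divisor.degree D + 1).toNat D (Int.self_le_toNat _)).1

theorem ell_le [HasPrincipalDivisors K F] (hdeg : ∀ v : Place K F, v.deg = 1)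
    (v0 : Place K F) (D : Divisor K F) : (ell D : ℤ) ≤ max 0 (Divisor.degree D + 1) := by
  have := (finite_and_ell_le_aux hdeg v0 (Divisor.degree D + 1).toNat D (Int.self_le_toNat _)).2
  have h2 : ((Divisor.degree D + 1).toNat : ℤ) = max (Divisor.degree D + 1) 0 := Int.toNat_eq_max _
  rw [max_comm] at h2
  rw [← h2]
  exact_mod_cast this

theorem one_mem_L_zero : (1 : F) ∈ riemannRochSpace (0 : Divisor K F) := by
  rw [mem_L_of_ne_zero one_ne_zero]
  intro v
  simp

theorem algebraMap_mem_L_zero (c : K) : algebraMap K F c ∈ riemannRochSpace (0 : Divisor K F) := by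
  rw [Algebra.algebraMap_eq_smul_one]
  exact Submodule.smul_mem _ _ one_mem_L_zero

theorem ell_zero [HasPrincipalDivisors K F] (hdeg : ∀ v : Place K F, v.deg = 1)
    (v0 : Place K F) : ell (0 : Divisor K F) = 1 := by
  have hfin := finite_L hdeg v0 (0 : Divisor K F)
  have h1 := (finite_and_ell_le_aux hdeg v0 1 (0 : Divisor K F) (by simp)).2
  have h2 : 0 < ell (0 : Divisor K F) := by
    unfold ell
    rw [Module.finrank_pos_iff_exists_ne_zero]
    exact ⟨⟨1, one_mem_L_zero⟩, fun h => one_ne_zero (congrArg Subtype.val h)⟩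
  omega

theorem mem_L_zero_iff [HasPrincipalDivisors K F] (hdeg : ∀ v : Place K F, v.deg = 1)
    (v0 : Place K F) {f : F} :
    f ∈ riemannRochSpace (0 : Divisor K F) ↔ ∃ c : K, f = algebraMap K F c := by
  constructor
  · intro hf
    have h1 := ell_zero (K := K) (F := F) hdeg v0
    unfold ell at h1
    have hne : (⟨1, one_mem_L_zero⟩ : riemannRochSpace (0 : Divisor K F)) ≠ 0 :=
      fun h => one_ne_zero (congrArg Subtype.val h)
    rw [finrank_eq_one_iff_of_nonzero' _ hne] at h1
    obtain ⟨c, hc⟩ := h1 ⟨f, hf⟩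
    refine ⟨c, ?_⟩
    have := congrArg Subtype.val hc
    simp only [Submodule.coe_smul] at this
    rw [← this, Algebra.algebraMap_eq_smul_one]
  · rintro ⟨c, rfl⟩
    exact algebraMap_mem_L_zero c

theorem deg_sub_ell_mono_aux (hdeg : ∀ v : Place K F, v.deg = 1)
    (hfin : ∀ D : Divisor K F, Module.Finite K (riemannRochSpace D)) (n : ℕ) :
    ∀ D D' : Divisor K F, D ≤ D' → Divisor.degree D' - Divisor.degree D = n →
      Divisor.degree D - ell D ≤ Divisor.degree D' - ell D' := by
  induction n with
  | zero =>
    intro D D' h hn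
    have h0 : D' - D = 0 := eq_zero_of_degree_eq_zero hdeg (sub_nonneg.mpr h)
      (by rw [map_sub]; simpa using hn)
    rw [sub_eq_zero.mp h0]
  | succ n ih =>
    intro D D' h hn
    have hne : D' - D ≠ 0 := by
      intro h0
      rw [sub_eq_zero.mp h0] at hn
      push_cast at hn
      omega
    obtain ⟨v, hv⟩ : ∃ v, (D' - D) v ≠ 0 := by
      by_contra hall
      push Not at hall
      exact hne (Finsupp.ext hall)
    have hvpos : D v + 1 ≤ D' v := by
      have h1 := h v
      rw [Finsupp.sub_apply] at hv
      omega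
    have hle : D + Finsupp.single v 1 ≤ D' := by
      intro w
      classical
      simp only [Finsupp.add_apply, Finsupp.single_apply]
      split_ifs with hw
      · subst hw; exact hvpos
      · simpa using h w
    have hdeg1 : Divisor.degree (D + Finsupp.single v 1) = Divisor.degree D + 1 := by
      rw [map_add, Divisor.degree_single, hdeg v]; simp
    have h2 := ih (D + Finsupp.single v 1) D' hle (by rw [hdeg1]; push_cast at hn; omega)
    have h3 := ell_add_single_le v (hdeg v) D (hfin D)
    rw [hdeg1] at h2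
    omega

/-- `deg D - ell D` is monotone. -/
theorem deg_sub_ell_mono (hdeg : ∀ v : Place K F, v.deg = 1)
    (hfin : ∀ D : Divisor K F, Module.Finite K (riemannRochSpace D))
    {D D' : Divisor K F} (h : D ≤ D') :
    Divisor.degree D - ell D ≤ Divisor.degree D' - ell D' := by
  have h0 := degree_mono h
  exact deg_sub_ell_mono_aux hdeg hfin (Divisor.degree D' - Divisor.degree D).toNat D D' h
    (by rw [Int.toNat_of_nonneg (by omega)])

theorem exists_ne_zero_mem_of_ell_pos {D : Divisor K F} (h : 0 < ell D) :
    ∃ f : F, f ≠ 0 ∧ f ∈ riemannRochSpace D := by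
  unfold ell at h
  have := Module.finite_of_finrank_pos h
  rw [Module.finrank_pos_iff_exists_ne_zero] at h
  obtain ⟨⟨f, hf⟩, hne⟩ := h
  exact ⟨f, fun h0 => hne (Subtype.ext h0), hf⟩

/-- `γ` is a Riemann genus of `F / K`. -/
structure IsRiemannGenus (K F : Type*) [Field K] [Field F] [Algebra K F] (γ : ℤ) : Prop where
  finite : ∀ D : Divisor K F, Module.Finite K (riemannRochSpace D)
  ineq : ∀ D : Divisor K F, Divisor.degree D + 1 - γ ≤ ell D
  sharp : ∃ c : ℤ, ∀ D : Divisor K F, c ≤ Divisor.degree D →
    (ell D : ℤ) = Divisor.degree D + 1 - γ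

/-- **Riemann's theorem**, from a count for the multiples of one effective divisor. -/
theorem riemann [HasPrincipalDivisors K F] (hdeg : ∀ v : Place K F, v.deg = 1)
    (B : Divisor K F) (hBpos : 0 < Divisor.degree B) (γ r0 : ℤ)
    (hcount : ∀ r : ℤ, r0 ≤ r → (ell (r • B) : ℤ) = r * Divisor.degree B + 1 - γ) :
    IsRiemannGenus K F γ := by
  set n := Divisor.degree B with hn
  -- a place exists
  obtain ⟨v0⟩ : Nonempty (Place K F) := by
    by_contra hemp
    rw [not_nonempty_iff] at hemp
    have : B = 0 := Finsupp.ext fun v => (hemp.false v).elim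
    rw [hn, this, map_zero] at hBpos
    exact lt_irrefl _ hBpos
  have hfin : ∀ D : Divisor K F, Module.Finite K (riemannRochSpace D) := finite_L hdeg v0
  have hdegr : ∀ r : ℤ, Divisor.degree (r • B) = r * n := fun r => by
    rw [map_zsmul, smul_eq_mul]
  -- the inequality
  have hineq : ∀ D : Divisor K F, Divisor.degree D + 1 - γ ≤ ell D := by
    intro D
    -- positive part bound: a divisor `P ≥ 0, P ≥ D`
    obtain ⟨P, hP0, hPD⟩ : ∃ P : Divisor K F, 0 ≤ P ∧ D ≤ P := ⟨D ⊔ 0, le_sup_right, le_sup_left⟩
    -- choose r large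
    obtain ⟨r, hr0, hr⟩ : ∃ r : ℤ, r0 ≤ r ∧ γ + Divisor.degree P ≤ r * n := by
      refine ⟨max r0 (max 0 (γ + Divisor.degree P)), le_max_left _ _, ?_⟩
      have h1 : max 0 (γ + Divisor.degree P) ≤ max r0 (max 0 (γ + Divisor.degree P)) :=
        le_max_right _ _
      have h2 : 0 ≤ max 0 (γ + Divisor.degree P) := le_max_left _ _
      have h3 : γ + Divisor.degree P ≤ max 0 (γ + Divisor.degree P) := le_max_right _ _
      nlinarith
    have hm := deg_sub_ell_mono hdeg hfin (D := r • B - P) (D' := r • B)
      (sub_le_self _ hP0)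
    rw [map_sub, hdegr, hcount r hr0] at hm
    have hpos : 0 < ell (r • B - P) := by
      have : (0 : ℤ) < ell (r • B - P) := by omega
      exact_mod_cast this
    obtain ⟨f, hf0, hf⟩ := exists_ne_zero_mem_of_ell_pos hpos
    have hf' : f ∈ riemannRochSpace (r • B - D) :=
      L_mono (sub_le_sub_left hPD _) hf
    obtain ⟨E, hE, hE0⟩ := HasPrincipalDivisors.exists_divisor (K := K) f hf0
    -- `D' = D - E ≤ r B`
    have hD' : D - E ≤ r • B := by
      intro v
      have := (mem_L_of_ne_zero hf0).mp hf' v
      simp only [Finsupp.sub_apply, hE v] at this ⊢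
      omega
    have hell : ell D = ell (D - E) :=
      ell_eq_of_shift hf0 (fun v => by simp only [Finsupp.sub_apply, hE v]; ring)
    have hm2 := deg_sub_ell_mono hdeg hfin hD'
    rw [map_sub, hE0, hdegr, hcount r hr0, ← hell] at hm2
    omega
  refine ⟨hfin, hineq, ?_⟩
  -- sharpness
  refine ⟨r0 * n + γ, fun D hD => ?_⟩
  refine le_antisymm ?_ (hineq D)
  have h1 := hineq (D - r0 • B)
  rw [map_sub, hdegr] at h1
  have hpos : 0 < ell (D - r0 • B) := by
    have : (0 : ℤ) < ell (D - r0 • B) := by omega
    exact_mod_cast this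
  obtain ⟨z, hz0, hz⟩ := exists_ne_zero_mem_of_ell_pos hpos
  obtain ⟨E, hE, hE0⟩ := HasPrincipalDivisors.exists_divisor (K := K) z hz0
  have hD' : r0 • B ≤ D + E := by
    intro v
    have := (mem_L_of_ne_zero hz0).mp hz v
    simp only [Finsupp.sub_apply, Finsupp.add_apply, hE v] at this ⊢
    omega
  have hell : ell (D + E) = ell D :=
    ell_eq_of_shift hz0 (fun v => by simp only [Finsupp.add_apply, hE v])
  have hm := deg_sub_ell_mono hdeg hfin hD'
  rw [map_add, hE0, hdegr, hcount r0 le_rfl, hell] at hm
  omega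

namespace IsRiemannGenus

variable {γ : ℤ}

theorem nonneg [HasPrincipalDivisors K F] (hdeg : ∀ v : Place K F, v.deg = 1)
    (v0 : Place K F) (h : IsRiemannGenus K F γ) : 0 ≤ γ := by
  have h1 := h.ineq 0
  rw [map_zero, ell_zero hdeg v0] at h1
  push_cast at h1
  omega

/-- every divisor of degree `≥ γ` has a nonzero section -/
theorem exists_ne_zero_mem (h : IsRiemannGenus K F γ) {D : Divisor K F}
    (hD : γ ≤ Divisor.degree D) : ∃ f : F, f ≠ 0 ∧ f ∈ riemannRochSpace D := by
  apply exists_ne_zero_mem_of_ell_pos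
  have h1 := h.ineq D
  have : (0 : ℤ) < ell D := by omega
  exact_mod_cast this

/-- block D's form of Riemann's inequality -/
theorem riemannGe (h : IsRiemannGenus K F γ) (g : ℕ) (hg : γ ≤ g) :
    Fermat.Agent.S18.CoreDefs.RiemannGe K F g :=
  fun _ hD => h.exists_ne_zero_mem (hg.trans hD)

/-- the Riemann genus is unique -/
theorem unique (hdeg : ∀ v : Place K F, v.deg = 1) (v0 : Place K F) {γ' : ℤ}
    (h : IsRiemannGenus K F γ) (h' : IsRiemannGenus K F γ') : γ = γ' := by
  obtain ⟨c, hc⟩ := h.sharp
  obtain ⟨c', hc'⟩ := h'.sharp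
  have hd : Divisor.degree (Finsupp.single v0 (max c c')) = max c c' := by
    rw [Divisor.degree_single, hdeg v0]; simp
  have h1 := hc (Finsupp.single v0 (max c c')) (by rw [hd]; exact le_max_left _ _)
  have h2 := hc' (Finsupp.single v0 (max c c')) (by rw [hd]; exact le_max_right _ _)
  omega

/-- comparison: a smaller Riemann defect bound gives a smaller genus -/
theorem le_of_forall_le (hdeg : ∀ v : Place K F, v.deg = 1) (v0 : Place K F) {g : ℤ}
    (h : IsRiemannGenus K F γ) (hg : ∀ D : Divisor K F, Divisor.degree D + 1 - g ≤ ell D) :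
    γ ≤ g := by
  obtain ⟨c, hc⟩ := h.sharp
  have hd : Divisor.degree (Finsupp.single v0 c) = c := by
    rw [Divisor.degree_single, hdeg v0]; simp
  have h1 := hc (Finsupp.single v0 c) (by rw [hd])
  have h2 := hg (Finsupp.single v0 c)
  omega

end IsRiemannGenus

/-- Riemann's theorem from the Dedekind-Weber count
`ell (r • B) = ∑ i, max 0 (r - d i + 1)`. -/
theorem riemann_of_sum_count [HasPrincipalDivisors K F] (hdeg : ∀ v : Place K F, v.deg = 1)
    {ι : Type*} [Fintype ι] (B : Divisor K F) (hB : Divisor.degree B = Fintype.card ι)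
    (hι : Nonempty ι) (d : ι → ℤ) (r0 : ℤ)
    (hcount : ∀ r : ℤ, r0 ≤ r → (ell (r • B) : ℤ) = ∑ i, max 0 (r - d i + 1)) :
    IsRiemannGenus K F (1 - Fintype.card ι + ∑ i, d i) := by
  have hpos : 0 < Divisor.degree B := by
    rw [hB]
    exact_mod_cast Fintype.card_pos
  refine riemann hdeg B hpos _ (max r0 (∑ i, |d i|)) fun r hr => ?_
  rw [hcount r ((le_max_left _ _).trans hr)]
  have hr2 : ∀ i, d i ≤ r := fun i => by
    have h1 : |d i| ≤ ∑ j, |d j| :=
      Finset.single_le_sum (f := fun j => |d j|) (fun j _ => abs_nonneg _) (Finset.mem_univ i)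
    have h2 := le_abs_self (d i)
    have h3 := (le_max_right r0 (∑ i, |d i|)).trans hr
    omega
  have : ∀ i, max 0 (r - d i + 1) = r - d i + 1 := fun i => max_eq_right (by have := hr2 i; omega)
  simp only [this]
  rw [Finset.sum_add_distrib, Finset.sum_sub_distrib, hB]
  simp only [Finset.sum_const, Finset.card_univ, nsmul_eq_mul, mul_one]
  ring

end Fermat.Agent.S18.A.Riemann
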