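import Fermat.Agent.S18.A.Riemann
import Fermat.Agent.S18.A.Defs
import Fermat.Agent.S18.NonSpecial

/-!
# PROJECT H (S18), block A: Riemann's theorem in the two interface shapes

`Riemann.IsRiemannGenus K F γ` (output of `Riemann.riemann` / `Riemann.riemann_of_sum_count`)
gives `NonSpecial.RiemannHyp K F γ.toNat` and `Defs.RiemannHyp K F γ.toNat`.
-/

set_option autoImplicit false

namespace Fermat.Agent.S18.A.RiemannAdapter

open AlgebraicCurve Fermat.Agent.S18.A.Riemann

universe u w

variable {K : Type w} {F : Type u} [Field K] [Field F] [Algebra K F]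

theorem ell_eq_nonSpecial (D : Divisor K F) :
    Fermat.Agent.S18.NonSpecial.ell D = Riemann.ell D := rfl

theorem ell_eq_defs (D : Divisor K F) :
    Fermat.Agent.S18.A.Defs.ell D = Riemann.ell D := rfl

/-- helper3's interface -/
theorem riemannHyp_nonSpecial [HasPrincipalDivisors K F] (hdeg : ∀ v : Place K F, v.deg = 1)
    (hinf : Infinite (Place K F)) {γ : ℤ} (h : IsRiemannGenus K F γ) :
    Fermat.Agent.S18.NonSpecial.RiemannHyp K F γ.toNat := by
  obtain ⟨v0⟩ : Nonempty (Place K F) := inferInstance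
  have hγ : ((γ.toNat : ℕ) : ℤ) = γ := Int.toNat_of_nonneg (h.nonneg hdeg v0)
  refine ⟨h.finite, ?_, ?_, hdeg, hinf⟩
  · rw [ell_eq_nonSpecial]
    exact ell_zero hdeg v0
  · obtain ⟨c, hc⟩ := h.sharp
    refine ⟨c, fun D hD => ?_⟩
    rw [ell_eq_nonSpecial, hγ]
    exact hc D hD

/-- the block A interface -/
theorem riemannHyp_defs [HasPrincipalDivisors K F] (hdeg : ∀ v : Place K F, v.deg = 1)
    (hinf : Infinite (Place K F)) {γ : ℤ} (h : IsRiemannGenus K F γ) :
    Fermat.Agent.S18.A.Defs.RiemannHyp K F γ.toNat := by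
  obtain ⟨v0⟩ : Nonempty (Place K F) := inferInstance
  have hγ : ((γ.toNat : ℕ) : ℤ) = γ := Int.toNat_of_nonneg (h.nonneg hdeg v0)
  refine ⟨h.finite, ?_, ?_, ?_, hdeg, hinf⟩
  · rw [ell_eq_defs]
    exact ell_zero hdeg v0
  · intro D
    rw [ell_eq_defs, hγ]
    exact h.ineq D
  · obtain ⟨c, hc⟩ := h.sharp
    refine ⟨c, fun D hD => ?_⟩
    rw [ell_eq_defs, hγ]
    exact hc D hD

/-- conversely, the interface shape gives `IsRiemannGenus` -/
theorem isRiemannGenus_of_defs {g : ℕ} (h : Fermat.Agent.S18.A.Defs.RiemannHyp K F g) :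
    IsRiemannGenus K F g :=
  ⟨h.finite, h.riemann_ineq, h.riemann_eq⟩

/-- the Riemann genus is unique (interface form) -/
theorem genus_unique {g g' : ℕ} (h : Fermat.Agent.S18.A.Defs.RiemannHyp K F g)
    (h' : Fermat.Agent.S18.A.Defs.RiemannHyp K F g') : g = g' := by
  obtain ⟨v0⟩ : Nonempty (Place K F) := by
    have := h.infinite
    infer_instance
  have := (isRiemannGenus_of_defs h).unique h.deg_one v0 (isRiemannGenus_of_defs h')
  exact_mod_cast this

end Fermat.Agent.S18.A.RiemannAdapter
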