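import Fermat.Agent.S18.A.Riemann
import Fermat.Agent.S18.A.RiemannAdapter

/-!
# PROJECT H (S18), block A, slice H-A3: existence of the Riemann genus from a lower bound

`exists_riemannHyp` : if `deg (r • B) + 1 - c ≤ ell (r • B)` for all `r : ℕ` (one divisor `B` of
positive degree, one constant `c`), then the Riemann defect `deg D + 1 - ell D` is bounded by `c`
for every divisor, its maximum `g` is a Riemann genus (`NonSpecial.RiemannHyp K F g`), and
`ell (r • B) = deg (r • B) + 1 - g` for all large `r`.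
-/

set_option autoImplicit false

namespace Fermat.Agent.S18.A.RiemannExists

open AlgebraicCurve Fermat.Agent.S18.A.Riemann

universe u w

variable {K : Type w} {F : Type u} [Field K] [Field F] [Algebra K F]

/-- If the Riemann inequality with constant `γ` holds for all divisors and is an equality for one
divisor, then it is an equality for all divisors of large degree. -/
theorem isRiemannGenus_of_attained [HasPrincipalDivisors K F]
    (hdeg : ∀ v : Place K F, v.deg = 1)
    (hfin : ∀ D : Divisor K F, Module.Finite K (riemannRochSpace D)) (γ : ℤ)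
    (hineq : ∀ D : Divisor K F, Divisor.degree D + 1 - γ ≤ ell D) (D₀ : Divisor K F)
    (h₀ : (ell D₀ : ℤ) = Divisor.degree D₀ + 1 - γ) : IsRiemannGenus K F γ := by
  refine ⟨hfin, hineq, Divisor.degree D₀ + γ, fun D hD => ?_⟩
  refine le_antisymm ?_ (hineq D)
  have h1 := hineq (D - D₀)
  rw [map_sub] at h1
  have hpos : 0 < ell (D - D₀) := by
    have : (0 : ℤ) < ell (D - D₀) := by omega
    exact_mod_cast this
  obtain ⟨z, hz0, hz⟩ := exists_ne_zero_mem_of_ell_pos hpos
  obtain ⟨E, hE, hE0⟩ := HasPrincipalDivisors.exists_divisor (K := K) z hz0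
  have hD' : D₀ ≤ D + E := by
    intro v
    have := (mem_L_of_ne_zero hz0).mp hz v
    simp only [Finsupp.sub_apply, Finsupp.add_apply, hE v] at this ⊢
    omega
  have hell : ell (D + E) = ell D :=
    ell_eq_of_shift hz0 (fun v => by simp only [Finsupp.add_apply, hE v])
  have hm := deg_sub_ell_mono hdeg hfin hD'
  rw [map_add, hE0, hell] at hm
  omega

/-- From a lower bound for the multiples of one divisor of positive degree to the Riemann
inequality (with the same constant) for all divisors. -/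
theorem defect_le_of_lower [HasPrincipalDivisors K F] (hdeg : ∀ v : Place K F, v.deg = 1)
    (hfin : ∀ D : Divisor K F, Module.Finite K (riemannRochSpace D))
    (B : Divisor K F) (hBpos : 0 < Divisor.degree B) (c : ℤ)
    (hlow : ∀ r : ℕ, Divisor.degree (r • B) + 1 - c ≤ (ell (r • B) : ℤ)) (D : Divisor K F) :
    Divisor.degree D + 1 - c ≤ ell D := by
  set n := Divisor.degree B with hn
  have hdegr : ∀ r : ℕ, Divisor.degree (r • B) = r * n := fun r => by
    rw [map_nsmul, nsmul_eq_mul]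
  obtain ⟨P, hP0, hPD⟩ : ∃ P : Divisor K F, 0 ≤ P ∧ D ≤ P := ⟨D ⊔ 0, le_sup_right, le_sup_left⟩
  obtain ⟨r, hr⟩ : ∃ r : ℕ, c + Divisor.degree P ≤ r * n := by
    refine ⟨(c + Divisor.degree P).toNat, ?_⟩
    have h1 : c + Divisor.degree P ≤ ((c + Divisor.degree P).toNat : ℤ) := Int.self_le_toNat _
    have h2 : (0 : ℤ) ≤ ((c + Divisor.degree P).toNat : ℤ) := Int.natCast_nonneg _
    nlinarith
  have hm := deg_sub_ell_mono hdeg hfin (D := r • B - P) (D' := r • B) (sub_le_self _ hP0)
  have hl := hlow r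
  rw [map_sub, hdegr] at hm
  rw [hdegr] at hl
  have hpos : 0 < ell (r • B - P) := by
    have : (0 : ℤ) < ell (r • B - P) := by omega
    exact_mod_cast this
  obtain ⟨f, hf0, hf⟩ := exists_ne_zero_mem_of_ell_pos hpos
  have hf' : f ∈ riemannRochSpace (r • B - D) := L_mono (sub_le_sub_left hPD _) hf
  obtain ⟨E, hE, hE0⟩ := HasPrincipalDivisors.exists_divisor (K := K) f hf0
  have hD' : D - E ≤ r • B := by
    intro v
    have := (mem_L_of_ne_zero hf0).mp hf' v
    simp only [Finsupp.sub_apply, hE v] at this ⊢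
    omega
  have hell : ell D = ell (D - E) :=
    ell_eq_of_shift hf0 (fun v => by simp only [Finsupp.sub_apply, hE v]; ring)
  have hm2 := deg_sub_ell_mono hdeg hfin hD'
  rw [map_sub, hE0, hdegr, ← hell] at hm2
  omega

/-- **Existence of the Riemann genus** from a lower bound for the multiples of one divisor. -/
theorem exists_isRiemannGenus [HasPrincipalDivisors K F] (hdeg : ∀ v : Place K F, v.deg = 1)
    (B : Divisor K F) (hBpos : 0 < Divisor.degree B)
    (hlow : ∃ c : ℤ, ∀ r : ℕ, Divisor.degree (r • B) + 1 - c ≤ (ell (r • B) : ℤ)) :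
    ∃ γ : ℤ, 0 ≤ γ ∧ IsRiemannGenus K F γ := by
  obtain ⟨v0⟩ : Nonempty (Place K F) := by
    by_contra hemp
    rw [not_nonempty_iff] at hemp
    have : B = 0 := Finsupp.ext fun v => (hemp.false v).elim
    rw [this, map_zero] at hBpos
    exact lt_irrefl _ hBpos
  have hfin : ∀ D : Divisor K F, Module.Finite K (riemannRochSpace D) := finite_L hdeg v0
  obtain ⟨c, hc⟩ := hlow
  have hbd := defect_le_of_lower hdeg hfin B hBpos c hc
  obtain ⟨γ, ⟨D₀, hD₀⟩, hmax⟩ := Int.exists_greatest_of_bdd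
    (P := fun m : ℤ => ∃ D : Divisor K F, m = Divisor.degree D + 1 - ell D)
    ⟨c, by rintro z ⟨D, rfl⟩; have := hbd D; omega⟩ ⟨_, 0, rfl⟩
  have hineq : ∀ D : Divisor K F, Divisor.degree D + 1 - γ ≤ ell D := fun D => by
    have := hmax _ ⟨D, rfl⟩
    omega
  have h := isRiemannGenus_of_attained hdeg hfin γ hineq D₀ (by omega)
  exact ⟨γ, h.nonneg hdeg v0, h⟩

/-- Slice H-A3 in the shape of the block A DAG. -/
theorem exists_riemannHyp [HasPrincipalDivisors K F] (hdeg : ∀ v : Place K F, v.deg = 1)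
    (hinf : Infinite (Place K F)) (Dinf : Divisor K F) (hpos : 0 < Divisor.degree Dinf)
    (hlow : ∃ c : ℤ, ∀ r : ℕ, Divisor.degree (r • Dinf) + 1 - c ≤ (ell (r • Dinf) : ℤ)) :
    ∃ g : ℕ, Fermat.Agent.S18.NonSpecial.RiemannHyp K F g ∧
      ∃ r0 : ℕ, ∀ r : ℕ, r0 ≤ r →
        (ell (r • Dinf) : ℤ) = Divisor.degree (r • Dinf) + 1 - g := by
  obtain ⟨γ, hγ, h⟩ := exists_isRiemannGenus hdeg Dinf hpos hlow
  have hγ' : ((γ.toNat : ℕ) : ℤ) = γ := Int.toNat_of_nonneg hγ
  refine ⟨γ.toNat, RiemannAdapter.riemannHyp_nonSpecial hdeg hinf h, ?_⟩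
  obtain ⟨c, hc⟩ := h.sharp
  refine ⟨c.toNat, fun r hr => ?_⟩
  rw [hγ']
  apply hc
  rw [map_nsmul, nsmul_eq_mul]
  have h1 : c ≤ (c.toNat : ℤ) := Int.self_le_toNat _
  have h2 : ((c.toNat : ℕ) : ℤ) ≤ r := by exact_mod_cast hr
  have h3 : (0 : ℤ) ≤ r := Int.natCast_nonneg _
  nlinarith

end Fermat.Agent.S18.A.RiemannExists
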