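import Mathlib
import Fermat.Agent.S18.A.RiemannExists
import Fermat.Agent.S18.A.FibreSep
import Fermat.Agent.S18.A.Instances

/-!
# PROJECT H (S18), block A: the lower bound `ℓ(rB) ≥ n (r - c + 1)` and the eventual count

For `x : F` transcendental with `F/K(x)` finite of degree `n` and an effective divisor `B` with
`x ∈ L(B)` (e.g. the pole divisor of `x`):

* `exists_bound_of_isIntegral` : elements integral over `K[x]` have poles bounded by a multiple of
  the poles of `x`, uniformly in the place;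
* `exists_le_ell_smul` : `∃ c, ∀ r ≥ c, n (r - c + 1) ≤ ℓ(rB)`;
* `exists_lower` : if moreover `deg B ≤ n`, then `∃ c, ∀ r, deg (rB) + 1 - c ≤ ℓ(rB)`
  (the hypothesis `hlow` of `RiemannExists.exists_riemannHyp`, without Dedekind–Weber);
* `exists_riemannHyp_of_isFF`, `exists_riemannHyp_of_sep` : **Riemann's theorem** for a function
  field with a separating element: `∃ g, NonSpecial.RiemannHyp K F g` (contract X1 of block A),
  together with `ℓ(r (x)_∞) = r n + 1 - g` for all large `r`.

NOTE: this file is built on `A/Riemann.lean` (namespace `Fermat.Agent.S18.A.Riemann`); it must not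
be imported together with `A/RiemannBasic.lean`, which declares some of the same names.
-/

set_option autoImplicit false

namespace Fermat.Agent.S18.A.RiemannLower

open AlgebraicCurve WithZero IntermediateField Polynomial
  Fermat.Agent.S24.Ord Fermat.Agent.S24.FF Fermat.Agent.S18.A.Riemann
open scoped IntermediateField.algebraAdjoinAdjoin

universe u w

variable {K : Type w} {F : Type u} [Field K] [Field F] [Algebra K F]

/-- `max 1 |x|_v` -/
noncomputable def pm (x : F) (v : Place K F) : ℤᵐ⁰ := max 1 (v.adicValuation x)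

theorem one_le_pm (x : F) (v : Place K F) : 1 ≤ pm x v := le_max_left _ _

theorem pm_pow_mono (x : F) (v : Place K F) {a b : ℕ} (h : a ≤ b) : pm x v ^ a ≤ pm x v ^ b :=
  pow_le_pow_right₀ (one_le_pm x v) h

theorem exists_bound_of_mem_adjoin {x a : F} (ha : a ∈ Algebra.adjoin K {x}) :
    ∃ d : ℕ, ∀ v : Place K F, v.adicValuation a ≤ pm x v ^ d := by
  induction ha using Algebra.adjoin_induction with
  | mem y hy =>
    rw [Set.mem_singleton_iff] at hy
    subst hy
    exact ⟨1, fun v => by rw [pow_one]; exact le_max_right _ _⟩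
  | algebraMap c =>
    exact ⟨0, fun v => by rw [pow_zero]; exact v.adicValuation_algebraMap_le_one c⟩
  | add y z _ _ hy hz =>
    obtain ⟨d1, h1⟩ := hy
    obtain ⟨d2, h2⟩ := hz
    refine ⟨max d1 d2, fun v => ?_⟩
    exact (Valuation.map_add _ _ _).trans (max_le
      ((h1 v).trans (pm_pow_mono x v (le_max_left _ _)))
      ((h2 v).trans (pm_pow_mono x v (le_max_right _ _))))
  | mul y z _ _ hy hz =>
    obtain ⟨d1, h1⟩ := hy
    obtain ⟨d2, h2⟩ := hz
    refine ⟨d1 + d2, fun v => ?_⟩
    rw [map_mul, pow_add]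
    exact mul_le_mul' (h1 v) (h2 v)

/-- **Uniform pole bound** for elements integral over `K[x]`. -/
theorem exists_bound_of_isIntegral {x u : F} (hu : IsIntegral (Algebra.adjoin K {x}) u) :
    ∃ d : ℕ, ∀ v : Place K F, v.adicValuation u ≤ pm x v ^ d := by
  classical
  obtain ⟨p, hmonic, h0⟩ := hu
  set n := p.natDegree with hn
  have hcoef : ∀ i, ∃ d : ℕ, ∀ v : Place K F,
      v.adicValuation ((p.coeff i : Algebra.adjoin K {x}) : F) ≤ pm x v ^ d :=
    fun i => exists_bound_of_mem_adjoin (p.coeff i).2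
  choose dc hdc using hcoef
  refine ⟨(Finset.range n).sup dc, fun v => ?_⟩
  set d := (Finset.range n).sup dc with hd
  by_contra hlt
  rw [not_le] at hlt
  have hM : 1 ≤ pm x v ^ d := one_le_pow₀ (one_le_pm x v)
  have hu1 : 1 < v.adicValuation u := lt_of_le_of_lt hM hlt
  rw [← aeval_def, hmonic.as_sum, map_add, map_pow, aeval_X, map_sum] at h0
  have h1 : u ^ n = -∑ i ∈ Finset.range n, aeval u (C (p.coeff i) * X ^ i) :=
    eq_neg_of_add_eq_zero_left h0
  have hun : v.adicValuation (u ^ n) ≠ 0 := by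
    rw [map_pow]
    exact pow_ne_zero _ (ne_of_gt (lt_trans zero_lt_one hu1))
  have h2 : v.adicValuation (∑ i ∈ Finset.range n, aeval u (C (p.coeff i) * X ^ i)) <
      v.adicValuation (u ^ n) := by
    refine Valuation.map_sum_lt _ hun fun i hi => ?_
    rw [Finset.mem_range] at hi
    rw [map_mul, aeval_C, map_pow, aeval_X, map_mul, map_pow, map_pow]
    have hpos : 0 < v.adicValuation u ^ i := pow_pos (lt_trans zero_lt_one hu1) i
    calc v.adicValuation (algebraMap (Algebra.adjoin K {x}) F (p.coeff i)) * v.adicValuation u ^ i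
        ≤ pm x v ^ d * v.adicValuation u ^ i := by
          gcongr
          exact (hdc i v).trans (pm_pow_mono x v (Finset.le_sup (Finset.mem_range.mpr hi)))
      _ < v.adicValuation u * v.adicValuation u ^ i := mul_lt_mul_of_pos_right hlt hpos
      _ = v.adicValuation u ^ (i + 1) := (pow_succ' _ _).symm
      _ ≤ v.adicValuation u ^ n := pow_le_pow_right₀ hu1.le hi
  rw [h1, Valuation.map_neg] at h2
  exact lt_irrefl _ h2

/-- the valuation of a polynomial in `x` -/
theorem adicValuation_aeval_le (x : F) (q : K[X]) (v : Place K F) :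
    v.adicValuation (aeval x q) ≤ pm x v ^ q.natDegree := by
  rw [aeval_eq_sum_range]
  refine Valuation.map_sum_le _ fun i hi => ?_
  rw [Finset.mem_range] at hi
  rw [Algebra.smul_def, map_mul, map_pow]
  calc v.adicValuation (algebraMap K F (q.coeff i)) * v.adicValuation x ^ i
      ≤ 1 * pm x v ^ i := by
        gcongr
        · exact v.adicValuation_algebraMap_le_one _
        · exact le_max_right _ _
    _ = pm x v ^ i := one_mul _
    _ ≤ pm x v ^ q.natDegree := pm_pow_mono x v (by omega)

/-! ### the lower bound -/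

section Lower

variable {x : F} {B : Divisor K F}

theorem pm_le_exp (hB0 : 0 ≤ B) (hxB : x ∈ riemannRochSpace B) (v : Place K F) :
    pm x v ≤ exp (B v) := by
  unfold pm
  refine max_le ?_ (hxB v)
  rw [← exp_zero]
  exact exp_le_exp.mpr (Finsupp.le_def.mp hB0 v)

theorem pm_pow_le_exp (hB0 : 0 ≤ B) (hxB : x ∈ riemannRochSpace B) (d : ℕ) (v : Place K F) :
    pm x v ^ d ≤ exp ((d • B) v) := by
  rw [Finsupp.smul_apply, exp_nsmul]
  exact pow_le_pow_left₀ zero_le' (pm_le_exp hB0 hxB v) d

theorem natDegree_le_of_mem_degreeLT {m : ℕ} {q : K[X]} (hq : q ∈ degreeLT K (m + 1)) :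
    q.natDegree ≤ m := by
  rw [mem_degreeLT] at hq
  rcases eq_or_ne q 0 with rfl | hq0
  · simp
  · have := (natDegree_lt_iff_degree_lt hq0).mpr hq
    omega

/-- **The lower bound** `n (r - c + 1) ≤ ℓ(rB)`. -/
theorem exists_le_ell_smul (hdeg : ∀ v : Place K F, v.deg = 1) [HasPrincipalDivisors K F]
    (v0 : Place K F) (hx : IsFF K x) (hB0 : 0 ≤ B) (hxB : x ∈ riemannRochSpace B) :
    ∃ c : ℕ, ∀ r : ℕ, c ≤ r → Module.finrank K⟮x⟯ F * (r - c + 1) ≤ ell (r • B) := by
  classical
  haveI := hx.finite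
  obtain ⟨s, b, hb⟩ := FiniteDimensional.exists_is_basis_integral (Algebra.adjoin K {x}) K⟮x⟯ F
  choose d hd using fun i => exists_bound_of_isIntegral (hb i)
  refine ⟨Finset.univ.sup d, fun r hr => ?_⟩
  set c := Finset.univ.sup d with hc
  set m := r - c with hm
  -- the evaluation map
  let Φ : (s → degreeLT K (m + 1)) →ₗ[K] F :=
    ∑ i : s, (LinearMap.mulRight K (b i)) ∘ₗ (aeval x).toLinearMap ∘ₗ
      (degreeLT K (m + 1)).subtype ∘ₗ LinearMap.proj i
  have hΦ : ∀ p, Φ p = ∑ i : s, aeval x ((p i : K[X])) * b i := by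
    intro p
    simp [Φ, LinearMap.sum_apply]
  have hmem : ∀ p, Φ p ∈ riemannRochSpace (r • B) := by
    intro p
    rw [hΦ]
    refine Submodule.sum_mem _ fun i _ => ?_
    intro v
    rw [map_mul]
    calc v.adicValuation (aeval x ((p i : K[X]))) * v.adicValuation (b i)
        ≤ pm x v ^ m * pm x v ^ c := by
          refine mul_le_mul' ?_ ?_
          · exact (adicValuation_aeval_le x _ v).trans
              (pm_pow_mono x v (natDegree_le_of_mem_degreeLT (p i).2))
          · exact (hd i v).trans (pm_pow_mono x v (Finset.le_sup (Finset.mem_univ i)))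
      _ = pm x v ^ r := by rw [← pow_add]; congr 1; omega
      _ ≤ exp ((r • B) v) := pm_pow_le_exp hB0 hxB r v
  have hinj : Function.Injective (Φ.codRestrict (riemannRochSpace (r • B)) hmem) := by
    rw [← LinearMap.ker_eq_bot, LinearMap.ker_codRestrict, LinearMap.ker_eq_bot,
      injective_iff_map_eq_zero]
    intro p hp
    rw [hΦ] at hp
    have hmemx : ∀ q : K[X], aeval x q ∈ K⟮x⟯ := fun q =>
      IntermediateField.algebra_adjoin_le_adjoin K _ (aeval_mem_adjoin_singleton K x)
    have hsum : ∑ i : s, (⟨aeval x ((p i : K[X])), hmemx _⟩ : K⟮x⟯) • b i = 0 := by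
      rw [← hp]
      refine Finset.sum_congr rfl fun i _ => ?_
      rw [Algebra.smul_def]
      rfl
    have hzero := Fintype.linearIndependent_iff.mp b.linearIndependent _ hsum
    funext i
    have h1 : aeval x ((p i : K[X])) = 0 := congrArg Subtype.val (hzero i)
    have h2 : ((p i : K[X])) = 0 :=
      (transcendental_iff_injective.mp hx.transcendental) (by rw [h1, map_zero])
    exact Subtype.ext h2
  haveI := finite_L hdeg v0 (r • B)
  have h1 := LinearMap.finrank_le_finrank_of_injective hinj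
  have h2 : Module.finrank K (s → degreeLT K (m + 1)) = Fintype.card s * (m + 1) := by
    rw [Module.finrank_pi_fintype]
    simp [(degreeLTEquiv K (m + 1)).finrank_eq]
  rw [h2, ← Module.finrank_eq_card_basis b] at h1
  exact h1


/-- **The lower bound in the shape of `RiemannExists.exists_riemannHyp`.** -/
theorem exists_lower (hdeg : ∀ v : Place K F, v.deg = 1) [HasPrincipalDivisors K F]
    (v0 : Place K F) (hx : IsFF K x) (hB0 : 0 ≤ B) (hxB : x ∈ riemannRochSpace B)
    (hBn : Divisor.degree B ≤ (Module.finrank K⟮x⟯ F : ℤ)) :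
    ∃ c : ℤ, ∀ r : ℕ, Divisor.degree (r • B) + 1 - c ≤ (ell (r • B) : ℤ) := by
  set n : ℤ := (Module.finrank K⟮x⟯ F : ℤ) with hn
  have hn0 : 0 ≤ n := Int.natCast_nonneg _
  have hdB : 0 ≤ Divisor.degree B := degree_nonneg hB0
  obtain ⟨c, hc⟩ := exists_le_ell_smul hdeg v0 hx hB0 hxB
  refine ⟨n * c + 1, fun r => ?_⟩
  rw [map_nsmul, nsmul_eq_mul]
  have h3 : (r : ℤ) * Divisor.degree B ≤ (r : ℤ) * n :=
    mul_le_mul_of_nonneg_left hBn (Int.natCast_nonneg _)
  have h0 : (0 : ℤ) ≤ (ell (r • B) : ℤ) := Int.natCast_nonneg _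
  rcases le_total c r with hr | hr
  · have h1 := hc r hr
    have h2 : n * ((r : ℤ) - c + 1) ≤ (ell (r • B) : ℤ) := by
      have : ((Module.finrank K⟮x⟯ F * (r - c + 1) : ℕ) : ℤ) ≤ (ell (r • B) : ℤ) := by
        exact_mod_cast h1
      rw [hn]
      push_cast [Nat.cast_sub hr] at this ⊢
      linarith
    nlinarith
  · have h4 : (r : ℤ) ≤ c := by exact_mod_cast hr
    nlinarith

end Lower

/-! ### Riemann's theorem for a function field with a distinguished function -/

section Main

variable {x : F}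

/-- **Riemann's theorem** (existence of the genus) from a function `x` with `F/K(x)` finite and an
effective divisor `B` dominating the poles of `x`, of degree `0 < deg B ≤ [F : K(x)]`. -/
theorem exists_riemannHyp_of_isFF (hdeg : ∀ v : Place K F, v.deg = 1) [HasPrincipalDivisors K F]
    (hinf : Infinite (Place K F)) (hx : IsFF K x) {B : Divisor K F} (hB0 : 0 ≤ B)
    (hxB : x ∈ riemannRochSpace B) (hBpos : 0 < Divisor.degree B)
    (hBn : Divisor.degree B ≤ (Module.finrank K⟮x⟯ F : ℤ)) :
    ∃ g : ℕ, Fermat.Agent.S18.NonSpecial.RiemannHyp K F g ∧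
      ∃ r0 : ℕ, ∀ r : ℕ, r0 ≤ r →
        (ell (r • B) : ℤ) = Divisor.degree (r • B) + 1 - g := by
  obtain ⟨v0⟩ : Nonempty (Place K F) := inferInstance
  exact Fermat.Agent.S18.A.RiemannExists.exists_riemannHyp hdeg hinf B hBpos
    (exists_lower hdeg v0 hx hB0 hxB hBn)

open Fermat.Agent.S18.A.FibreSep in
theorem poleDiv_nonneg [IsAlgClosed K] (hx : IsFF K x) (hsep : Algebra.IsSeparable K⟮x⟯ F) :
    0 ≤ poleDiv hx hsep := by
  rw [Finsupp.le_def]
  intro v
  rw [poleDiv_apply]
  exact le_max_right _ _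

open Fermat.Agent.S18.A.FibreSep in
theorem mem_rr_poleDiv [IsAlgClosed K] (hx : IsFF K x) (hsep : Algebra.IsSeparable K⟮x⟯ F) :
    x ∈ riemannRochSpace (poleDiv hx hsep) := by
  rw [mem_L_of_ne_zero hx.ne_zero]
  intro v
  rw [poleDiv_apply]
  have := le_max_left (-v.ord x) 0
  omega

open Fermat.Agent.S18.A.FibreSep in
/-- **Riemann's theorem for a function field with a separating element** over an algebraically
closed field (contract X1 of block A), with the count for the multiples of `(x)_∞`. -/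
theorem exists_riemannHyp_of_sep [IsAlgClosed K] [HasPrincipalDivisors K F] (hx : IsFF K x)
    (hsep : Algebra.IsSeparable K⟮x⟯ F) :
    ∃ g : ℕ, Fermat.Agent.S18.NonSpecial.RiemannHyp K F g ∧
      ∃ r0 : ℕ, ∀ r : ℕ, r0 ≤ r →
        (ell (r • poleDiv hx hsep) : ℤ) =
          (r : ℤ) * (Module.finrank K⟮x⟯ F : ℤ) + 1 - g := by
  haveI := hx.finite
  have hpos : 0 < Divisor.degree (poleDiv hx hsep) := by
    rw [degree_poleDiv]
    exact_mod_cast Module.finrank_pos
  obtain ⟨g, hg, r0, hr0⟩ := exists_riemannHyp_of_isFF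
    (fun v => Fermat.Agent.S18.A.Instances.deg_one hx v)
    (Fermat.Agent.S18.A.Instances.infinite_place hx hsep) hx (poleDiv_nonneg hx hsep)
    (mem_rr_poleDiv hx hsep) hpos (degree_poleDiv hx hsep).le
  refine ⟨g, hg, r0, fun r hr => ?_⟩
  rw [hr0 r hr, map_nsmul, nsmul_eq_mul, degree_poleDiv]

end Main

/-! ### the function field of `X₀(N)` over `ℚ̄` -/

section X0

open ModularCurve Fermat.Agent.S18.A.Instances Fermat.Agent.S18.A.FibreSep

variable (N : ℕ) [NeZero N]

/-- **Riemann's theorem for `ℚ̄(X₀(N))`** (contract X1 for `F_L`). -/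
theorem exists_riemannHyp_bar :
    ∃ g : ℕ, Fermat.Agent.S18.NonSpecial.RiemannHyp (AlgebraicClosure ℚ)
        (modularFunctionFieldBar N) g ∧
      ∃ r0 : ℕ, ∀ r : ℕ, r0 ≤ r →
        (ell (r • poleDiv (isFF_jgen N) (isSeparable_jgen N)) : ℤ) =
          (r : ℤ) * (Module.finrank (AlgebraicClosure ℚ)⟮Fermat.Agent.S24.DegreeAlg.jgen N⟯
            (modularFunctionFieldBar N) : ℤ) + 1 - g := by
  haveI := hasPrincipalDivisors_bar N
  exact exists_riemannHyp_of_sep (isFF_jgen N) (isSeparable_jgen N)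

end X0

end Fermat.Agent.S18.A.RiemannLower
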