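import Mathlib
import Fermat.Prelude.Def_AlgebraicCurve_DivisorClassGroup
import Fermat.Agent.S24.Ord

/-!
# PROJECT H (S18), block A, slice H-A1b: separating elements and `HasPrincipalDivisors` in
characteristic `p`

Let `K` be an algebraically closed field of characteristic `p`, `F/K` a field and `x : F`
transcendental with `F/K(x)` finite and separable.  Put `Φ := F^p` (the range of Frobenius).

* `isSeparable_of_adjoin_range_pow_eq_top` : the converse of Mathlib's
  `adjoin_eq_adjoin_pow_expChar_of_isSeparable'` for finite extensions (`F = E(F^p)` implies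
  `F/E` separable);
* `adjoin_frobField_eq_top` : `F = Φ(x)`; `finrank_frobField_le` : `[F : Φ] ≤ p`;
* `adjoin_frobField_eq_top_of_not_mem` : `g ∉ Φ → F = Φ(g)`;
* `isSeparable_of_not_mem_frobField` : `g ∉ Φ → F/K(g)` is separable (and `g` is transcendental,
  `transcendental_of_not_mem_frobField`);
* `not_mem_adjoin_pow` : a transcendental `h` does not lie in `K(h^p)`;
* `exists_pow_eq` : every nonconstant `f` is `g ^ p ^ m` with `g ∉ Φ`;
* `hasPrincipalDivisors_of_sep` : **END SHAPE**, `HasPrincipalDivisors K F` from the existence of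
  degree zero principal divisors of separating elements.
-/

set_option autoImplicit false
set_option linter.style.haveILetI false

namespace Fermat.Agent.S18.A.SepElement

open AlgebraicCurve IntermediateField Polynomial Fermat.Agent.S24.FF

universe u w

/-! ### `F = E(F^p)` finite implies separable -/

section Converse

variable {E : Type*} {F : Type*} [Field E] [Field F] [Algebra E F] (p : ℕ) [Fact p.Prime]
  [CharP E p]

theorem adjoin_range_pow_pow_eq_top
    (h : IntermediateField.adjoin E (Set.range fun y : F => y ^ p) = ⊤) (n : ℕ) :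
    IntermediateField.adjoin E (Set.range fun y : F => y ^ p ^ n) = ⊤ := by
  haveI : CharP F p := charP_of_injective_algebraMap (algebraMap E F).injective p
  induction n with
  | zero =>
    have : (Set.range fun y : F => y ^ p ^ 0) = Set.univ := by
      ext y
      simp
    rw [this, IntermediateField.adjoin_univ]
  | succ n ih =>
    set T := IntermediateField.adjoin E (Set.range fun y : F => y ^ p ^ (n + 1)) with hT
    -- the subfield of all `y` with `y ^ p ∈ T`
    let C : Subfield F := T.toSubfield.comap (frobenius F p)
    have hC : ∀ y : F, y ∈ C ↔ y ^ p ∈ T := fun y => by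
      show frobenius F p y ∈ T.toSubfield ↔ _
      rw [frobenius_def]
      rfl
    have hCE : ∀ c : E, algebraMap E F c ∈ C := fun c => by
      rw [hC, ← map_pow]
      exact T.algebraMap_mem _
    let C' : IntermediateField E F := C.toIntermediateField hCE
    have hle : IntermediateField.adjoin E (Set.range fun y : F => y ^ p ^ n) ≤ C' := by
      rw [IntermediateField.adjoin_le_iff]
      rintro _ ⟨z, rfl⟩
      show z ^ p ^ n ∈ C
      rw [hC, ← pow_mul, ← pow_succ]
      exact IntermediateField.subset_adjoin E _ ⟨z, rfl⟩
    rw [ih] at hle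
    have hall : ∀ y : F, y ^ p ∈ T := fun y => (hC y).mp (hle (IntermediateField.mem_top))
    rw [eq_top_iff, ← h, IntermediateField.adjoin_le_iff]
    rintro _ ⟨z, rfl⟩
    exact hall z

/-- **Converse separability criterion**: a finite extension `F/E` in characteristic `p` with
`F = E(F^p)` is separable. -/
theorem isSeparable_of_adjoin_range_pow_eq_top [FiniteDimensional E F]
    (h : IntermediateField.adjoin E (Set.range fun y : F => y ^ p) = ⊤) :
    Algebra.IsSeparable E F := by
  haveI : ExpChar E p := ExpChar.prime Fact.out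
  set S := separableClosure E F with hS
  haveI : ExpChar S p := expChar_of_injective_algebraMap (algebraMap E S).injective p
  haveI : FiniteDimensional S F := IntermediateField.finiteDimensional_right S
  haveI : IsPurelyInseparable S F := separableClosure.isPurelyInseparable E F
  have hexp := fun y : F => IsPurelyInseparable.exponent_def' (K := S) (L := F) p y
  rw [← separableClosure.eq_top_iff, eq_top_iff,
    ← adjoin_range_pow_pow_eq_top p h (IsPurelyInseparable.exponent S F),
    IntermediateField.adjoin_le_iff]
  rintro _ ⟨z, rfl⟩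
  obtain ⟨s, hs⟩ := hexp z
  show z ^ p ^ _ ∈ S
  rw [← hs]
  exact s.2

end Converse

/-! ### the subfield of `p`-th powers -/

section Frob

variable (F : Type u) [Field F] (p : ℕ) [Fact p.Prime] [CharP F p]

/-- the subfield `F^p` of `p`-th powers -/
def frobField : Subfield F := (frobenius F p).fieldRange

variable {F p}

theorem mem_frobField {y : F} : y ∈ frobField F p ↔ ∃ z : F, z ^ p = y := by
  rw [frobField, RingHom.mem_fieldRange]
  simp only [frobenius_def]

theorem pow_mem_frobField (y : F) : y ^ p ∈ frobField F p := mem_frobField.mpr ⟨y, rfl⟩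

theorem isIntegral_frobField (g : F) : IsIntegral (frobField F p) g := by
  have hp : p.Prime := Fact.out
  refine ⟨X ^ p - C (⟨g ^ p, pow_mem_frobField g⟩ : frobField F p),
    monic_X_pow_sub_C _ hp.ne_zero, ?_⟩
  simp only [eval₂_sub, eval₂_pow, eval₂_X, eval₂_C]
  rw [sub_eq_zero]
  rfl

/-- the minimal polynomial over `F^p` of an element outside `F^p` -/
theorem minpoly_frobField {g : F} (hg : g ∉ frobField F p) :
    minpoly (frobField F p) g = X ^ p - C (⟨g ^ p, pow_mem_frobField g⟩ : frobField F p) := by
  have hp : p.Prime := Fact.out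
  have hirr : Irreducible (X ^ p - C (⟨g ^ p, pow_mem_frobField g⟩ : frobField F p)) := by
    refine X_pow_sub_C_irreducible_of_prime hp fun b hb => hg ?_
    have h1 : ((b : F)) ^ p = g ^ p := by
      have := congrArg (Subtype.val) hb
      simpa using this
    have h2 : (b : F) = g := frobenius_inj F p (by simpa [frobenius_def] using h1)
    rw [← h2]
    exact b.2
  symm
  refine minpoly.eq_of_irreducible_of_monic hirr ?_ (monic_X_pow_sub_C _ hp.ne_zero)
  simp only [map_sub, map_pow, aeval_X, aeval_C]
  rw [sub_eq_zero]
  rfl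

theorem natDegree_minpoly_frobField_le (g : F) : (minpoly (frobField F p) g).natDegree ≤ p := by
  have hp : p.Prime := Fact.out
  have hdvd : minpoly (frobField F p) g ∣
      X ^ p - C (⟨g ^ p, pow_mem_frobField g⟩ : frobField F p) := by
    refine minpoly.dvd _ _ ?_
    simp only [map_sub, map_pow, aeval_X, aeval_C]
    rw [sub_eq_zero]
    rfl
  have := Polynomial.natDegree_le_of_dvd hdvd (X_pow_sub_C_ne_zero hp.pos _)
  rwa [natDegree_X_pow_sub_C] at this

end Frob

/-! ### separating elements -/

section Main

variable {K : Type w} {F : Type u} [Field K] [Field F] [Algebra K F]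
  {p : ℕ} [Fact p.Prime] [CharP K p] [CharP F p]

theorem algebraMap_mem_frobField [PerfectField K] (c : K) :
    algebraMap K F c ∈ frobField F p := by
  obtain ⟨d, hd⟩ := surjective_frobenius K p c
  rw [mem_frobField]
  exact ⟨algebraMap K F d, by rw [← map_pow, ← frobenius_def, hd]⟩

/-- `F = F^p(x)` for a separating element `x` -/
theorem adjoin_frobField_eq_top [PerfectField K] {x : F} (hsep : Algebra.IsSeparable K⟮x⟯ F) :
    IntermediateField.adjoin (frobField F p) {x} = ⊤ := by
  have hp : p.Prime := Fact.out
  set T : Subfield F := (IntermediateField.adjoin (frobField F p) {x}).toSubfield with hT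
  have hΦ : ∀ y ∈ frobField F p, y ∈ T := fun y hy =>
    (IntermediateField.adjoin (frobField F p) {x}).algebraMap_mem ⟨y, hy⟩
  have hK : ∀ c : K, algebraMap K F c ∈ T := fun c => hΦ _ (algebraMap_mem_frobField c)
  have hx : x ∈ T := IntermediateField.mem_adjoin_simple_self (frobField F p) x
  let TK : IntermediateField K F := T.toIntermediateField hK
  have hKx : K⟮x⟯ ≤ TK := IntermediateField.adjoin_simple_le_iff.mpr hx
  have hKx' : ∀ z : K⟮x⟯, algebraMap K⟮x⟯ F z ∈ T := fun z => hKx z.2
  let TKx : IntermediateField K⟮x⟯ F := T.toIntermediateField hKx'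
  haveI : CharP K⟮x⟯ p := charP_of_injective_algebraMap (algebraMap K K⟮x⟯).injective p
  haveI : ExpChar K⟮x⟯ p := ExpChar.prime hp
  have h1 := IntermediateField.adjoin_eq_adjoin_pow_expChar_of_isSeparable' K⟮x⟯ F Set.univ p
  rw [IntermediateField.adjoin_univ] at h1
  have h2 : IntermediateField.adjoin K⟮x⟯ ((· ^ p) '' (Set.univ : Set F)) ≤ TKx := by
    rw [IntermediateField.adjoin_le_iff]
    rintro _ ⟨z, -, rfl⟩
    exact hΦ _ (pow_mem_frobField z)
  rw [← h1] at h2
  rw [eq_top_iff]
  intro y _
  exact h2 (IntermediateField.mem_top (x := y))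

theorem finiteDimensional_frobField [PerfectField K] {x : F}
    (hsep : Algebra.IsSeparable K⟮x⟯ F) : FiniteDimensional (frobField F p) F := by
  haveI := IntermediateField.adjoin.finiteDimensional (isIntegral_frobField (p := p) x)
  have e := (IntermediateField.topEquiv (F := frobField F p) (E := F))
  rw [← adjoin_frobField_eq_top (K := K) hsep] at e
  exact Module.Finite.equiv e.toLinearEquiv

/-- `[F : F^p] ≤ p` -/
theorem finrank_frobField_le [PerfectField K] {x : F} (hsep : Algebra.IsSeparable K⟮x⟯ F) :
    Module.finrank (frobField F p) F ≤ p := by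
  rw [← IntermediateField.finrank_top', ← adjoin_frobField_eq_top (K := K) hsep,
    IntermediateField.adjoin.finrank (isIntegral_frobField x)]
  exact natDegree_minpoly_frobField_le x

/-- `F = F^p(g)` for every `g` outside `F^p` -/
theorem adjoin_frobField_eq_top_of_not_mem [PerfectField K] {x : F}
    (hsep : Algebra.IsSeparable K⟮x⟯ F) {g : F} (hg : g ∉ frobField F p) :
    IntermediateField.adjoin (frobField F p) {g} = ⊤ := by
  haveI := finiteDimensional_frobField (K := K) (p := p) hsep
  haveI : FiniteDimensional (frobField F p) (⊤ : IntermediateField (frobField F p) F) :=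
    Module.Finite.equiv (IntermediateField.topEquiv (F := frobField F p) (E := F)).symm.toLinearEquiv
  refine IntermediateField.eq_of_le_of_finrank_le le_top ?_
  rw [IntermediateField.finrank_top', IntermediateField.adjoin.finrank (isIntegral_frobField g),
    minpoly_frobField hg, natDegree_X_pow_sub_C]
  exact finrank_frobField_le (K := K) hsep

/-- `F = K(g)(F^p)` for every `g` outside `F^p` -/
theorem adjoin_range_pow_eq_top_of_not_mem [PerfectField K] {x : F}
    (hsep : Algebra.IsSeparable K⟮x⟯ F) {g : F} (hg : g ∉ frobField F p) :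
    IntermediateField.adjoin K⟮g⟯ (Set.range fun y : F => y ^ p) = ⊤ := by
  set T : Subfield F :=
    (IntermediateField.adjoin K⟮g⟯ (Set.range fun y : F => y ^ p)).toSubfield with hT
  have hΦ : ∀ y : frobField F p, algebraMap (frobField F p) F y ∈ T := fun y => by
    obtain ⟨z, hz⟩ := mem_frobField.mp y.2
    exact IntermediateField.subset_adjoin K⟮g⟯ _ ⟨z, hz⟩
  have hgT : g ∈ T :=
    (IntermediateField.adjoin K⟮g⟯ (Set.range fun y : F => y ^ p)).algebraMap_mem
      ⟨g, IntermediateField.mem_adjoin_simple_self K g⟩
  let TΦ : IntermediateField (frobField F p) F := T.toIntermediateField hΦ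
  have hle : IntermediateField.adjoin (frobField F p) {g} ≤ TΦ :=
    IntermediateField.adjoin_simple_le_iff.mpr hgT
  rw [adjoin_frobField_eq_top_of_not_mem (K := K) hsep hg] at hle
  rw [eq_top_iff]
  intro y _
  exact hle (IntermediateField.mem_top (x := y))

variable [IsAlgClosed K]

theorem not_mem_range_of_not_mem_frobField {g : F} (hg : g ∉ frobField F p) (c : K) :
    algebraMap K F c ≠ g := by
  rintro rfl
  exact hg (algebraMap_mem_frobField c)

theorem transcendental_of_not_mem_frobField {g : F} (hg : g ∉ frobField F p) :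
    Transcendental K g :=
  transcendental_of_not_mem_range (not_mem_range_of_not_mem_frobField hg)

/-- **Separating elements**: if `F/K(x)` is finite separable then `F/K(g)` is (finite and)
separable for every `g` that is not a `p`-th power. -/
theorem isSeparable_of_not_mem_frobField {x : F} (hx : IsFF K x)
    (hsep : Algebra.IsSeparable K⟮x⟯ F) {g : F} (hg : g ∉ frobField F p) :
    Algebra.IsSeparable K⟮g⟯ F := by
  haveI := (hx.of_transcendental (transcendental_of_not_mem_frobField hg)).finite
  haveI : CharP K⟮g⟯ p := charP_of_injective_algebraMap (algebraMap K K⟮g⟯).injective p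
  exact isSeparable_of_adjoin_range_pow_eq_top p
    (adjoin_range_pow_eq_top_of_not_mem (K := K) hsep hg)

theorem isFF_of_not_mem_frobField {x : F} (hx : IsFF K x) {g : F} (hg : g ∉ frobField F p) :
    IsFF K g :=
  hx.of_transcendental (transcendental_of_not_mem_frobField hg)

end Main

/-! ### extracting `p`-th roots -/

section Roots

variable {K : Type w} {F : Type u} [Field K] [Field F] [Algebra K F]

/-- a transcendental element `h` does not lie in `K(h^p)` -/
theorem not_mem_adjoin_pow {p : ℕ} (hp : 2 ≤ p) {h : F} (hh : Transcendental K h) :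
    h ∉ K⟮h ^ p⟯ := by
  intro hmem
  obtain ⟨r, s, hrs⟩ := (IntermediateField.mem_adjoin_simple_iff K h).mp hmem
  have hinj : Function.Injective (aeval (R := K) h) := transcendental_iff_injective.mp hh
  rw [← expand_aeval, ← expand_aeval] at hrs
  by_cases hs : aeval h (expand K p s) = 0
  · rw [hs, div_zero] at hrs
    exact hh (hrs ▸ isAlgebraic_zero)
  · rw [eq_div_iff hs] at hrs
    have h1 : aeval h (X * expand K p s) = aeval h (expand K p r) := by
      rw [map_mul, aeval_X, hrs]
    have h2 := hinj h1
    have hs0 : expand K p s ≠ 0 := fun h0 => hs (by rw [h0, map_zero])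
    have h3 := congrArg Polynomial.natDegree h2
    rw [natDegree_X_mul hs0, natDegree_expand, natDegree_expand] at h3
    have h4 : (s.natDegree * p + 1) % p = (r.natDegree * p) % p := by rw [h3]
    rw [Nat.mul_mod_left, Nat.add_mod, Nat.mul_mod_left, zero_add, Nat.mod_mod,
      Nat.one_mod_eq_one.mpr (by omega)] at h4
    omega

/-- taking a `p`-th root strictly lowers the degree of `F` over the generated field -/
theorem finrank_adjoin_lt_of_pow {p : ℕ} (hp : 2 ≤ p) {h : F} (hh : Transcendental K h)
    (hfin : FiniteDimensional K⟮h ^ p⟯ F) :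
    Module.finrank K⟮h⟯ F < Module.finrank K⟮h ^ p⟯ F := by
  have hle : K⟮h ^ p⟯ ≤ K⟮h⟯ := by
    rw [IntermediateField.adjoin_simple_le_iff]
    exact pow_mem (IntermediateField.mem_adjoin_simple_self K h) p
  have hmul := IntermediateField.relfinrank_mul_finrank_top (E := F) hle
  haveI : FiniteDimensional K⟮h⟯ F := by
    haveI : FiniteDimensional K⟮h ^ p⟯ (IntermediateField.extendScalars hle) := inferInstance
    exact IntermediateField.finiteDimensional_right (K := K⟮h ^ p⟯)
      (IntermediateField.extendScalars hle)
  have hpos : 0 < Module.finrank K⟮h⟯ F := Module.finrank_pos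
  have hne1 : IntermediateField.relfinrank K⟮h ^ p⟯ K⟮h⟯ ≠ 1 := by
    rw [Ne, IntermediateField.relfinrank_eq_one_iff, IntermediateField.adjoin_simple_le_iff]
    exact not_mem_adjoin_pow hp hh
  have hne0 : IntermediateField.relfinrank K⟮h ^ p⟯ K⟮h⟯ ≠ 0 := by
    intro h0
    rw [h0, zero_mul] at hmul
    have : 0 < Module.finrank K⟮h ^ p⟯ F := Module.finrank_pos
    omega
  have h2 : 2 ≤ IntermediateField.relfinrank K⟮h ^ p⟯ K⟮h⟯ := by omega
  nlinarith

variable {p : ℕ} [Fact p.Prime] [CharP K p] [CharP F p] [IsAlgClosed K]

omit [CharP K p] in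
/-- every nonconstant element is a `p^m`-th power of an element that is not a `p`-th power -/
theorem exists_pow_eq {x : F} (hx : IsFF K x) {f : F} (hf : ∀ c : K, algebraMap K F c ≠ f) :
    ∃ (m : ℕ) (g : F), g ∉ frobField F p ∧ f = g ^ p ^ m := by
  have hp : p.Prime := Fact.out
  induction hn : Module.finrank K⟮f⟯ F using Nat.strong_induction_on generalizing f with
  | _ n ih =>
    by_cases hmem : f ∈ frobField F p
    · obtain ⟨h, rfl⟩ := mem_frobField.mp hmem
      have hh : ∀ c : K, algebraMap K F c ≠ h := by
        rintro c rfl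
        exact hf (c ^ p) (map_pow _ _ _)
      have hhT : Transcendental K h := transcendental_of_not_mem_range hh
      have hfin : FiniteDimensional K⟮h ^ p⟯ F := (hx.of_not_mem_range hf).finite
      have hlt := finrank_adjoin_lt_of_pow hp.two_le hhT hfin
      obtain ⟨m, g, hg, hgm⟩ := ih _ (hn ▸ hlt) hh rfl
      exact ⟨m + 1, g, hg, by rw [hgm, ← pow_mul, ← pow_succ]⟩
    · exact ⟨0, f, hmem, by simp⟩

end Roots

/-! ### `HasPrincipalDivisors` -/

section Principal

variable {K : Type w} {F : Type u} [Field K] [Field F] [Algebra K F] [IsAlgClosed K]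

/-- **END SHAPE.** If `F/K(x)` is finite separable and every separating element has a principal
divisor of degree zero, then every nonzero element has one. -/
theorem hasPrincipalDivisors_of_sep (p : ℕ) [Fact p.Prime] [CharP K p] [CharP F p]
    {x : F} (hx : IsFF K x)
    (hsep : Algebra.IsSeparable K⟮x⟯ F)
    (hdiv : ∀ g : F, IsFF K g → Algebra.IsSeparable K⟮g⟯ F →
      ∃ D : Divisor K F, (∀ v : Place K F, D v = v.ord g) ∧ Divisor.degree D = 0) :
    HasPrincipalDivisors K F := by
  refine ⟨fun f hf => ?_⟩
  by_cases hconst : ∃ c : K, algebraMap K F c = f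
  · obtain ⟨c, rfl⟩ := hconst
    exact ⟨0, fun v => by rw [Fermat.Agent.S24.Ord.ord_algebraMap]; rfl, map_zero _⟩
  · push Not at hconst
    obtain ⟨m, g, hg, rfl⟩ := exists_pow_eq (p := p) hx hconst
    obtain ⟨D, hD, hD0⟩ := hdiv g (isFF_of_not_mem_frobField hx hg)
      (isSeparable_of_not_mem_frobField hx hsep hg)
    refine ⟨(p ^ m) • D, fun v => ?_, by rw [map_nsmul, hD0, smul_zero]⟩
    rw [Finsupp.smul_apply, hD, ← zpow_natCast, Place.ord_zpow, nsmul_eq_mul]

end Principal

end Fermat.Agent.S18.A.SepElement
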