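import Fermat.Agent.S18.A.Defs
import Fermat.Agent.S18.A.FibreSep

/-!
# PROJECT H (S18), block A, slice H-A14: all but finitely many places are simple zeros

For an algebraically closed field `K` (any characteristic) and a function field `F/K` with a
separating element `x`, all but finitely many places `Q` of `F` are unramified over `K(x)` with
`x` regular at `Q`, i.e. `ord_Q (x - γ) = 1` for some `γ : K`.  This is the hypothesis `hunram` of
`Fermat.Agent.S18.Core.core`.

* `exists_center` : a place at which `x` is regular is a zero of `x - γ` for some `γ`;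
* `ord_eq_one_of_diffExp_eq_zero` : `d_Q = 0` and `x` regular at `Q` imply `ord_Q (x - γ) = 1`;
* `finite_not_simple_of` : the finiteness statement from the two `DiffLower` facts
  (`e_Q - 1 ≤ d_Q` at zeros, finiteness of the support of the different exponents).
-/

set_option autoImplicit false

namespace Fermat.Agent.S18.A.Unram

open AlgebraicCurve IntermediateField Fermat.Agent.S24.FF Fermat.Agent.S24.Ord
  Fermat.Agent.S18.A

universe u w

variable {K : Type w} {F : Type u} [Field K] [Field F] [Algebra K F] [IsAlgClosed K] {x : F}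

/-- a place at which `x` is regular is a zero of `x - γ` for some constant `γ` -/
theorem exists_center (hx : IsFF K x) (Q : Place K F) (hQ : Q.adicValuation x ≤ 1) :
    ∃ γ : K, 0 < Q.ord (x - algebraMap K F γ) := by
  obtain ⟨γ, hγ⟩ := exists_sub_lt_one hx Q hQ
  exact ⟨γ, (ord_pos_iff Q (sub_ne_zero.mpr (hx.ne_algebraMap γ))).mpr hγ⟩

/-- if the different exponent vanishes at a place where `x` is regular, the place is a simple
zero of `x - γ` -/
theorem ord_eq_one_of_diffExp_eq_zero (hx : IsFF K x) (hsep : Algebra.IsSeparable K⟮x⟯ F)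
    (h1 : ∀ (Q : Place K F) (a : K), Q.adicValuation (x - algebraMap K F a) < 1 →
      Q.ord (x - algebraMap K F a) - 1 ≤ (Defs.diffExp hx hsep Q : ℤ))
    (Q : Place K F) (hQ : Q.adicValuation x ≤ 1) (hd : Defs.diffExp hx hsep Q = 0) :
    ∃ γ : K, Q.ord (x - algebraMap K F γ) = 1 := by
  obtain ⟨γ, hγ⟩ := exists_sub_lt_one hx Q hQ
  have hpos := (ord_pos_iff Q (sub_ne_zero.mpr (hx.ne_algebraMap γ))).mpr hγ
  have hle := h1 Q γ hγ
  rw [hd] at hle
  exact ⟨γ, by push_cast at hle; omega⟩

/-- **`hunram`, hypothesis form**: all but finitely many places are simple zeros of some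
`x - γ`. -/
theorem finite_not_simple_of (hx : IsFF K x) (hsep : Algebra.IsSeparable K⟮x⟯ F)
    (h1 : ∀ (Q : Place K F) (a : K), Q.adicValuation (x - algebraMap K F a) < 1 →
      Q.ord (x - algebraMap K F a) - 1 ≤ (Defs.diffExp hx hsep Q : ℤ))
    (h4 : {Q : Place K F | Defs.diffExp hx hsep Q ≠ 0}.Finite) :
    {Q : Place K F | ¬ ∃ γ : K, Q.ord (x - algebraMap K F γ) = 1}.Finite := by
  refine ((FibreSep.poles hx hsep).finite_toSet.union h4).subset fun Q hQ => ?_
  by_contra hcon
  rw [Set.mem_union, not_or, Finset.mem_coe, FibreSep.mem_poles, not_lt, Set.mem_ofPred_eq,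
    not_not] at hcon
  exact hQ (ord_eq_one_of_diffExp_eq_zero hx hsep h1 Q hcon.1 hcon.2)

end Fermat.Agent.S18.A.Unram
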